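import Fermat.Agent.CFT.Top.Defs

/-!
# P3 (class field theory program), layer L10 (Top): the local modules

For a prime `q` (`q : Nat.Primes`), `G_q = primeLocalGaloisGroup q = Gal(ℚ̄_q/ℚ_q)` (Prelude):

* `XQ q : Rep ℤ G_q`            : the module `ℚ̄_qˣ = (PadicAlgCl q)ˣ`;
* `thetaQ q : Tq q →ₐ[ℚ] PadicAlgCl q` : `x ⊗ y ↦ padicEmbedding q x * y`, equivariant along
  `primeLocalToGlobal q` (`thetaQ_smul`);
* `prFull S q : JFull S →+ XQ q`, `prQ S q : JS S →+ XQ q` : the component of an `S`-idele at the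
  distinguished place over `q ∈ S` (`prQ_rho` : equivariance along `primeLocalToGlobal q`);
* `jEQ S q : ES S →+ XQ q` : the embedding of the `S`-units (`= prQ ∘ esIncl`, `jEQ_eq`).
-/

set_option autoImplicit false

open CategoryTheory ExtCitation
open scoped TensorProduct

noncomputable section

namespace Fermat.Agent.CFT.Top

/-- `ℚ̄_qˣ` as a module over the local Galois group `Gal(ℚ̄_q/ℚ_q)`. -/
def XQ (q : Nat.Primes) : Rep ℤ (primeLocalGaloisGroup q) :=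
  (Rep.ofAlgebraAutOnUnits ℚ_[(q : ℕ)] (PadicAlgCl (q : ℕ)) :
    Rep ℤ (PadicAlgCl (q : ℕ) ≃ₐ[ℚ_[(q : ℕ)]] PadicAlgCl (q : ℕ)))

/-- The carrier of `XQ q` is `Additive (PadicAlgCl q)ˣ`. -/
lemma XQ_V (q : Nat.Primes) : (XQ q).V = Additive (PadicAlgCl (q : ℕ))ˣ := rfl

lemma XQ_rho_apply (q : Nat.Primes)
    (τ : PadicAlgCl (q : ℕ) ≃ₐ[ℚ_[(q : ℕ)]] PadicAlgCl (q : ℕ)) (u : (PadicAlgCl (q : ℕ))ˣ) :
    (XQ q).ρ τ (Additive.ofMul u) = Additive.ofMul (Units.map (τ : PadicAlgCl (q : ℕ) →* _) u) :=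
  rfl

/-- `ℚ̄ ⊗ ℚ_q → ℚ̄_q`, `x ⊗ y ↦ padicEmbedding q x * y`. -/
def thetaQ (q : Nat.Primes) : Tq q →ₐ[ℚ] PadicAlgCl (q : ℕ) :=
  Algebra.TensorProduct.productMap (padicEmbedding (q : ℕ))
    ((algebraMap ℚ_[(q : ℕ)] (PadicAlgCl (q : ℕ))).toRatAlgHom)

lemma thetaQ_tmul (q : Nat.Primes) (x : Qb) (y : ℚ_[(q : ℕ)]) :
    thetaQ q (x ⊗ₜ[ℚ] y) = padicEmbedding (q : ℕ) x * algebraMap ℚ_[(q : ℕ)] (PadicAlgCl (q : ℕ)) y :=
  Algebra.TensorProduct.productMap_apply_tmul _ _ _ _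

/-- `thetaQ` is equivariant along `primeLocalToGlobal q`. -/
lemma thetaQ_smul (q : Nat.Primes)
    (τ : PadicAlgCl (q : ℕ) ≃ₐ[ℚ_[(q : ℕ)]] PadicAlgCl (q : ℕ)) (t : Tq q) :
    thetaQ q ((localGaloisToGlobal (q : ℕ) τ) • t) = τ (thetaQ q t) := by
  induction t using TensorProduct.induction_on with
  | zero => rw [smul_zero, map_zero, map_zero]
  | tmul x y =>
    rw [tq_smul_tmul, thetaQ_tmul, thetaQ_tmul, padicEmbedding_localGaloisToGlobal, map_mul,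
      AlgEquiv.commutes]
  | add a b ha hb => simp only [smul_add, map_add, ha, hb]

/-- The component at the distinguished place over `q ∈ S` of an element of
`∏_{q ∈ S} (ℚ̄ ⊗ ℚ_q)ˣ`. -/
def prFull (S : Finset Nat.Primes) (q : ↥S) : (JFull S) →+ (XQ q.1) :=
  show Additive (∀ q : ↥S, (Tq q.1)ˣ) →+ Additive (PadicAlgCl (q.1 : ℕ))ˣ from
    MonoidHom.toAdditive
      ((Units.map ((thetaQ q.1 : Tq q.1 →ₐ[ℚ] PadicAlgCl (q.1 : ℕ)) : Tq q.1 →* _)).comp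
        (Pi.evalMonoidHom (fun q : ↥S => (Tq q.1)ˣ) q))

lemma prFull_ofMul (S : Finset Nat.Primes) (q : ↥S) (u : ∀ q : ↥S, (Tq q.1)ˣ) :
    prFull S q (Additive.ofMul u : Additive (∀ q : ↥S, (Tq q.1)ˣ)) =
      (Additive.ofMul (Units.map ((thetaQ q.1 : Tq q.1 →ₐ[ℚ] PadicAlgCl (q.1 : ℕ)) : Tq q.1 →* _)
        (u q)) : Additive (PadicAlgCl (q.1 : ℕ))ˣ) := rfl

/-- `prFull` is equivariant along `primeLocalToGlobal q`. -/
lemma prFull_rho (S : Finset Nat.Primes) (q : ↥S) (τ : primeLocalGaloisGroup q.1)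
    (j : JFull S) :
    prFull S q ((JFull S).ρ (primeLocalToGlobal q.1 τ) j) = (XQ q.1).ρ τ (prFull S q j) := by
  refine Additive.toMul.injective (Units.ext ?_)
  exact thetaQ_smul q.1 τ _

/-- The component at the distinguished place over `q ∈ S` of an `S`-idele of `ℚ_S`. -/
def prQ (S : Finset Nat.Primes) (q : ↥S) : (JS S) →+ (XQ q.1) :=
  (prFull S q).comp (smoothSub S (JFull S)).subtype.toAddMonoidHom

lemma prQ_apply (S : Finset Nat.Primes) (q : ↥S) (j : JS S) :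
    prQ S q j = prFull S q (j : JFull S) := rfl

/-- `prQ` is equivariant along `primeLocalToGlobal q`. -/
lemma prQ_rho (S : Finset Nat.Primes) (q : ↥S) (τ : primeLocalGaloisGroup q.1) (j : JS S) :
    prQ S q ((JS S).ρ (primeLocalToGlobal q.1 τ) j) = (XQ q.1).ρ τ (prQ S q j) :=
  prFull_rho S q τ (j : JFull S)

/-- The embedding of the `S`-units of `ℚ_S` into `ℚ̄_qˣ`. -/
def jEQ (S : Finset Nat.Primes) (q : ↥S) : (ES S) →+ (XQ q.1) :=
  (prQ S q).comp (esSub S).subtype.toAddMonoidHom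

lemma jEQ_eq (S : Finset Nat.Primes) (q : ↥S) (e : ES S) :
    jEQ S q e = prQ S q ((esIncl S).hom e) := rfl

/-- `jEQ` is equivariant along `primeLocalToGlobal q`. -/
lemma jEQ_rho (S : Finset Nat.Primes) (q : ↥S) (τ : primeLocalGaloisGroup q.1) (e : ES S) :
    jEQ S q ((ES S).ρ (primeLocalToGlobal q.1 τ) e) = (XQ q.1).ρ τ (jEQ S q e) :=
  prQ_rho S q τ ((esIncl S).hom e)

/-- On the diagonal image of `x ∈ ℚ̄ˣ`, `prFull` is `padicEmbedding q x`. -/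
lemma prFull_diag (S : Finset Nat.Primes) (q : ↥S) (x : Qbˣ) :
    prFull S q (Additive.ofMul (diag S x) : Additive (∀ q : ↥S, (Tq q.1)ˣ)) =
      (Additive.ofMul (Units.map ((padicEmbedding (q.1 : ℕ) : Qb →ₐ[ℚ] PadicAlgCl (q.1 : ℕ)) :
        Qb →* PadicAlgCl (q.1 : ℕ)) x) :
        Additive (PadicAlgCl (q.1 : ℕ))ˣ) := by
  have h : Units.map ((thetaQ q.1 : Tq q.1 →ₐ[ℚ] PadicAlgCl (q.1 : ℕ)) : Tq q.1 →* _) (diag S x q) =
      Units.map ((padicEmbedding (q.1 : ℕ) : Qb →ₐ[ℚ] PadicAlgCl (q.1 : ℕ)) :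
        Qb →* PadicAlgCl (q.1 : ℕ)) x := by
    apply Units.ext
    change thetaQ q.1 ((x : Qb) ⊗ₜ[ℚ] (1 : ℚ_[(q.1 : ℕ)])) = padicEmbedding (q.1 : ℕ) (x : Qb)
    rw [thetaQ_tmul, map_one, mul_one]
  exact congrArg Additive.ofMul h

end Fermat.Agent.CFT.Top

end
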