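import Fermat.Prelude.Def_GroupCohomology_ContinuousUnramified

/-!
# P3 (class field theory program) — the top of the tree (layer L11)

`PTMiddle S M` is the TARGET of layer L10: the middle of the Poitou–Tate sequence, i.e. a linear
map `Δ : H¹(G_S, M^∨(1))^∨ → H²(G_S, M)` whose image is `Ш²_S(M)` and whose kernel is the
annihilator of `Ш¹_S(M^∨(1))`.

`result_of_PTMiddle` derives the frozen statement S55 from it by linear algebra
(no finiteness, no canonical cup product).
-/

set_option autoImplicit false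
open CategoryTheory Module groupCohomology ExtCitation

namespace Fermat.Agent.CFT.Top

/-- `sha₁` viewed inside the `S`-level-constant `H¹` (`continuousH1S`). -/
noncomputable def sha₁In {K : Type} [Field K] (S : Finset Nat.Primes)
    (A : Rep K (AlgebraicClosure ℚ ≃ₐ[ℚ] AlgebraicClosure ℚ)) :
    Submodule K (continuousH1S S A) :=
  (sha₁ S A).comap (continuousH1S S A).subtype

/-- `sha₁In ≃ sha₁` (formal). -/
noncomputable def sha₁InEquiv {K : Type} [Field K] (S : Finset Nat.Primes)
    (A : Rep K (AlgebraicClosure ℚ ≃ₐ[ℚ] AlgebraicClosure ℚ)) :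
    sha₁In S A ≃ₗ[K] sha₁ S A :=
  Submodule.comapSubtypeEquivOfLe (p := sha₁ S A) (q := continuousH1S S A) inf_le_left

/-- **Target of layer L10** (middle of the Poitou–Tate sequence):
a map `Δ : H¹(G_S, M^∨(1))^∨ → H²(G_S, M)` with image `Ш²_S(M)` and kernel the annihilator of
`Ш¹_S(M^∨(1))`. -/
def PTMiddle {p : ℕ} [Fact p.Prime] (S : Finset Nat.Primes)
    (M : Rep (ZMod p) (AlgebraicClosure ℚ ≃ₐ[ℚ] AlgebraicClosure ℚ)) : Prop :=
  ∃ Δ : Module.Dual (ZMod p) (continuousH1S S (M.dualTwist (cycloChar p))) →ₗ[ZMod p]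
      continuousH2S S M,
    LinearMap.range Δ = sha₂ S M ∧
    LinearMap.ker Δ = (sha₁In S (M.dualTwist (cycloChar p))).dualAnnihilator

/-- A linear equivalence `W ≃ Dual V` gives a two-sided nondegenerate pairing `V × W → k`
(no finiteness needed). -/
theorem exists_pairing_of_equiv_dual {k V W : Type*} [Field k] [AddCommGroup V] [Module k V]
    [AddCommGroup W] [Module k W] (e : W ≃ₗ[k] Module.Dual k V) :
    ∃ B : V →ₗ[k] W →ₗ[k] k,
      (∀ y, (∀ x, B y x = 0) → y = 0) ∧ (∀ x, (∀ y, B y x = 0) → x = 0) := by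
  refine ⟨e.toLinearMap.flip, ?_, ?_⟩
  · intro y hy
    rw [← Module.forall_dual_apply_eq_zero_iff k]
    intro φ
    obtain ⟨x, rfl⟩ := e.surjective φ
    exact hy x
  · intro x hx
    apply e.injective
    rw [map_zero]
    ext y
    exact hx y

/-- Abstract form: a map `Δ : Dual V → H` with kernel the annihilator of `W ≤ V` identifies
its range with `Dual W`. -/
theorem nonempty_range_equiv_dual {k V H : Type*} [Field k] [AddCommGroup V] [Module k V]
    [AddCommGroup H] [Module k H] (W : Submodule k V) (Δ : Module.Dual k V →ₗ[k] H)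
    (hker : LinearMap.ker Δ = W.dualAnnihilator) :
    Nonempty (LinearMap.range Δ ≃ₗ[k] Module.Dual k W) := by
  have h1 : LinearMap.ker Δ = LinearMap.ker W.dualRestrict := by
    rw [hker, Submodule.dualRestrict_ker_eq_dualAnnihilator]
  exact ⟨(LinearMap.quotKerEquivRange Δ).symm ≪≫ₗ Submodule.quotEquivOfEq _ _ h1 ≪≫ₗ
    LinearMap.quotKerEquivOfSurjective W.dualRestrict (Subspace.dualRestrict_surjective)⟩

/-- **Layer L11**: the frozen statement S55 follows from `PTMiddle`. -/
theorem result_of_PTMiddle {p : ℕ} [Fact p.Prime] (S : Finset Nat.Primes)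
    (M : Rep (ZMod p) (AlgebraicClosure ℚ ≃ₐ[ℚ] AlgebraicClosure ℚ))
    (h : PTMiddle S M) :
    ∃ B : sha₁ S (M.dualTwist (cycloChar p)) →ₗ[ZMod p] sha₂ S M →ₗ[ZMod p] ZMod p,
      (∀ y, (∀ x, B y x = 0) → y = 0) ∧ (∀ x, (∀ y, B y x = 0) → x = 0) := by
  obtain ⟨Δ, hrange, hker⟩ := h
  obtain ⟨e⟩ := nonempty_range_equiv_dual _ Δ hker
  exact exists_pairing_of_equiv_dual
    (LinearEquiv.ofEq _ _ hrange.symm ≪≫ₗ e ≪≫ₗ
      (sha₁InEquiv S (M.dualTwist (cycloChar p))).symm.dualMap)

end Fermat.Agent.CFT.Top
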