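import Fermat.Agent.CFT.Top.Defs
import Fermat.Agent.CFT.Top.Goal

/-!
# P3 (class field theory program), layer L10 (Top): the contracts

Only `def X : Prop` here.  Notation: `M' = M.dualTwist (cycloChar p) = Hom(M, μ_p)`,
`0 → R1 F M' → R0 F M' → M' → 0` the level-`F` permutation resolution, `0 → ES → JS → CS → 0`.

Top-level contracts (consumed by `Top/Assembly.lean`, which proves
`SpineC ∧ SpineDE` for all good levels `+ GoodCover + H1Fin ⇒ PTMiddle`):

* `SpineC S M F`  : SPINE (c) at the good level `F` — a map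
  `Δ0 : Hom_G(R1, CS) → H²(G_S, M)` with image inside `Ш²`, hitting every class of `Ш²`
  inflated from level `F`, and kernel `π Hom_G(R1, JS) + res Hom_G(R0, CS)`.
* `SpineDE S M F` : SPINE (d)+(e) at the good level `F` — a surjection
  `Φ : Hom_G(R1, CS) → H¹(G_S, M')^∨` with kernel `res Hom_G(R0, CS)`, under which
  `π Hom_G(R1, JS)` maps onto the annihilator of `Ш¹(M')`.
* `GoodCover S M` : every class of `H²(G_S, M)` is inflated from a good level.
* `H1Fin S M`     : `Ш¹(M')` (inside `H¹(G_S, M')`) is finite.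
-/

set_option autoImplicit false

open CategoryTheory Module groupCohomology ExtCitation

namespace Fermat.Agent.CFT.Top.Plan

variable {p : ℕ} [Fact p.Prime] (S : Finset Nat.Primes) (M : Rep.{0} (ZMod p) GQ)

/-- **SPINE (c) at level `F`.** -/
def SpineC (F : IntermediateField ℚ Qb) : Prop :=
  ∃ Δ0 : (R1 F (M.dualTwist (cycloChar p)) ⟶ CS S) →+ continuousH2S S M,
    (∀ f, Δ0 f ∈ sha₂ S M) ∧
    (∀ x ∈ sha₂ S M, IsInflFrom S M F x → ∃ f, Δ0 f = x) ∧
    (∀ f, Δ0 f = 0 ↔ ∃ g h, f = piJ F (M.dualTwist (cycloChar p)) S g +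
      resC F (M.dualTwist (cycloChar p)) S h)

/-- **SPINE (d) + (e) at level `F`.** -/
def SpineDE (F : IntermediateField ℚ Qb) : Prop :=
  ∃ Φ : (R1 F (M.dualTwist (cycloChar p)) ⟶ CS S) →+
      Module.Dual (ZMod p) (continuousH1S S (M.dualTwist (cycloChar p))),
    Function.Surjective Φ ∧
    (∀ f, Φ f = 0 ↔ ∃ h, resC F (M.dualTwist (cycloChar p)) S h = f) ∧
    (∀ φ, φ ∈ (sha₁In S (M.dualTwist (cycloChar p))).dualAnnihilator ↔
      ∃ g, Φ (piJ F (M.dualTwist (cycloChar p)) S g) = φ)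

/-- Every class of `H²(G_S, M)` is inflated from a good level. -/
def GoodCover : Prop :=
  ∀ x : continuousH2S S M, ∃ F : IntermediateField ℚ Qb,
    IsGoodLevel S (M.dualTwist (cycloChar p)) p F ∧ IsInflFrom S M F x

/-- `Ш¹(M')` is finite. -/
def H1Fin : Prop :=
  Finite (sha₁In S (M.dualTwist (cycloChar p)))

end Fermat.Agent.CFT.Top.Plan
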