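import Fermat.Agent.CFT.Top.SpineDefs
import Fermat.Agent.CFT.Top.LocalDefs
import Fermat.Agent.CFT.Top.Plan
import Fermat.Agent.CFT.Level.Plan

/-!
# P3 / Top layer, SpineC side: the contracts

Only definitions here (objects of the spine diagram and `def X : Prop` contracts).
`Top/Spine.lean` proves `Inputs S M F → Plan.SpineC S M F` (for `p ≠ 2`, `F` a good level).

Notation: `A` is the coefficient module of the resolution (`A = M' = M.dualTwist (cycloChar p)`
in the application), `R0 = R0 F A = ℤ[GQ/G_F × A]`, `R1 = R1 F A = ker (R0 → A)`,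
`r_q = primeLocalToGlobal q : G_q →* GQ`, `XQ q = ℚ̄_qˣ`.

Objects (all internal Homs of `Top/SpineDefs.lean`):

* `A0 F A X = Hom(R0, X)`, `A1 F A X = Hom(R1, X)` (`X = ES S, JS S, CS S`), modules over `GQ`;
* `A0Q F A q = Hom(R0, XQ q)`, `A1Q F A q = Hom(R1, XQ q)`, modules over `G_q` (through `r_q`);
* `rowG`, `rowQ` : restriction `Hom(R0, ·) → Hom(R1, ·)`;
* `colE i`, `colP i` : the maps induced by `ES → JS → CS`;
* `locJ i q`, `locE i q` : the maps induced by `prQ S q : JS → XQ q`, `jEQ S q : ES → XQ q`.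

Contracts:

* `SmoothG`, `SmoothQ`   : smoothness of the middle terms (level LES needs it);
* `ColSES`               : `0 → Hom(R_i, ES) → Hom(R_i, JS) → Hom(R_i, CS) → 0` (`i = 0, 1`);
* `ESKummer`, `XQKummer` : `ES S` resp. `XQ q` is `p`-divisible with `p`-torsion `μ_p`;
* `RowSES`               : `0 → M → Hom(R0, ES) → Hom(R1, ES) → 0` and its local versions
                           `0 → M → Hom(R0, XQ q) → Hom(R1, XQ q) → 0`, compatibly;
* `H1ZeroLocal` [LIM4]   : `H¹(G_q, Hom(R0, XQ q)) = 0` (Shapiro + Hilbert 90);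
* `JSInj`, `JSSurj` [JSCOIND] : `JS S` is the smooth part of `∏_{q ∈ S} CoInd_{G_q}^{GQ} XQ q`;
* `DetectH1 S R` [LIM3]  : `H¹(G_S, Hom(R, JS)) → ∏_{q ∈ S} H¹(G_q, Hom(R, XQ q))` is injective;
* `Inputs S M F`         : everything `Top/Spine.lean` consumes.
-/

set_option autoImplicit false

open CategoryTheory groupCohomology ExtCitation

noncomputable section

namespace Fermat.Agent.CFT.Top.SpinePlan

open Fermat.Agent.CFT.Level

/-! ## The objects of the spine diagram -/

section Objects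

variable (S : Finset Nat.Primes) (F : IntermediateField ℚ Qb) {k : Type} [CommRing k]
  (A : Rep.{0} k GQ)

/-- `Hom(R0 F A, X)` as a `GQ`-module. -/
abbrev A0 (X : Rep.{0} ℤ GQ) : Rep.{0} ℤ GQ := homR (MonoidHom.id GQ) (R0 F A) X

/-- `Hom(R1 F A, X)` as a `GQ`-module. -/
abbrev A1 (X : Rep.{0} ℤ GQ) : Rep.{0} ℤ GQ := homR (MonoidHom.id GQ) (R1 F A) X

/-- `Hom(R0 F A, ℚ̄_qˣ)` as a module over the local Galois group at `q`. -/
abbrev A0Q (q : Nat.Primes) : Rep.{0} ℤ (primeLocalGaloisGroup q) :=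
  homR (primeLocalToGlobal q) (R0 F A) (XQ q)

/-- `Hom(R1 F A, ℚ̄_qˣ)` as a module over the local Galois group at `q`. -/
abbrev A1Q (q : Nat.Primes) : Rep.{0} ℤ (primeLocalGaloisGroup q) :=
  homR (primeLocalToGlobal q) (R1 F A) (XQ q)

/-- Restriction `Hom(R0, X) → Hom(R1, X)`. -/
abbrev rowG (X : Rep.{0} ℤ GQ) : A0 F A X →+ A1 F A X :=
  preH (MonoidHom.id GQ) X (addOfHom (r1Incl F A))

/-- Restriction `Hom(R0, ℚ̄_qˣ) → Hom(R1, ℚ̄_qˣ)`. -/
abbrev rowQ (q : Nat.Primes) : A0Q F A q →+ A1Q F A q :=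
  preH (primeLocalToGlobal q) (XQ q) (addOfHom (r1Incl F A))

/-- `Hom(R0, ES) → Hom(R0, JS)`. -/
abbrev colE0 : A0 F A (ES S) →+ A0 F A (JS S) :=
  postH (MonoidHom.id GQ) (R0 F A) (addOfHom (esIncl S))

/-- `Hom(R0, JS) → Hom(R0, CS)`. -/
abbrev colP0 : A0 F A (JS S) →+ A0 F A (CS S) :=
  postH (MonoidHom.id GQ) (R0 F A) (addOfHom (jsProj S))

/-- `Hom(R1, ES) → Hom(R1, JS)`. -/
abbrev colE1 : A1 F A (ES S) →+ A1 F A (JS S) :=
  postH (MonoidHom.id GQ) (R1 F A) (addOfHom (esIncl S))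

/-- `Hom(R1, JS) → Hom(R1, CS)`. -/
abbrev colP1 : A1 F A (JS S) →+ A1 F A (CS S) :=
  postH (MonoidHom.id GQ) (R1 F A) (addOfHom (jsProj S))

/-- `Hom(R, JS) → Hom(R, ℚ̄_qˣ)`, induced by the component `prQ S q` (any `R`). -/
abbrev locJ (R : Rep.{0} ℤ GQ) (q : ↥S) :
    homR (MonoidHom.id GQ) R (JS S) →+ homR (primeLocalToGlobal q.1) R (XQ q.1) :=
  postH (primeLocalToGlobal q.1) R (prQ S q)

/-- `Hom(R, ES) → Hom(R, ℚ̄_qˣ)`, induced by the embedding `jEQ S q` (any `R`). -/
abbrev locE (R : Rep.{0} ℤ GQ) (q : ↥S) :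
    homR (MonoidHom.id GQ) R (ES S) →+ homR (primeLocalToGlobal q.1) R (XQ q.1) :=
  postH (primeLocalToGlobal q.1) R (jEQ S q)

/-- `locJ` is equivariant along `r_q`. -/
lemma locJ_equivar (R : Rep.{0} ℤ GQ) (q : ↥S) :
    Equivar (primeLocalToGlobal q.1) (homR (MonoidHom.id GQ) R (JS S))
      (homR (primeLocalToGlobal q.1) R (XQ q.1)) (locJ S R q) :=
  postH_equivar (primeLocalToGlobal q.1) R (prQ S q) (prQ_rho S q)

/-- `locE` is equivariant along `r_q`. -/
lemma locE_equivar (R : Rep.{0} ℤ GQ) (q : ↥S) :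
    Equivar (primeLocalToGlobal q.1) (homR (MonoidHom.id GQ) R (ES S))
      (homR (primeLocalToGlobal q.1) R (XQ q.1)) (locE S R q) :=
  postH_equivar (primeLocalToGlobal q.1) R (jEQ S q) (jEQ_rho S q)

end Objects

/-! ## Formal contracts: smoothness and the columns -/

section Formal

variable (S : Finset Nat.Primes) (F : IntermediateField ℚ Qb) {k : Type} [CommRing k]
  (A : Rep.{0} k GQ)

/-- **[SmoothG]** The global middle terms are `S`-smooth.
(True for `F` a normal `S`-level acting trivially on a finite `A`.) -/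
def SmoothG : Prop :=
  IsSmooth (sLevels S) (A0 F A (ES S)) ∧ IsSmooth (sLevels S) (A0 F A (JS S)) ∧
    IsSmooth (sLevels S) (A1 F A (JS S))

/-- **[SmoothQ]** The local middle terms are smooth for the levels pulled back along `r_q`.
(True for `F` finite over `ℚ` with `G_F` normal acting trivially on a finite `A`;
uses Krasner: every element of `ℚ̄_q` is fixed by the pull-back of a level.) -/
def SmoothQ : Prop :=
  ∀ q : ↥S, IsSmooth (pullLevels (primeLocalToGlobal q.1)) (A0Q F A q.1)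

/-- **[ColSES]** The two columns `0 → Hom(R_i, ES) → Hom(R_i, JS) → Hom(R_i, CS) → 0`
are exact (`R_i` is `ℤ`-free). -/
def ColSES : Prop :=
  IsSES (A0 F A (ES S)) (A0 F A (JS S)) (A0 F A (CS S)) (colE0 S F A) (colP0 S F A) ∧
    IsSES (A1 F A (ES S)) (A1 F A (JS S)) (A1 F A (CS S)) (colE1 S F A) (colP1 S F A)

end Formal

/-! ## Kummer theory of the coefficient modules -/

section Kummer

variable (S : Finset Nat.Primes) (p : ℕ) [Fact p.Prime]

/-- **[ESKummer]** (needs `p ∈ S`) The `S`-units of `ℚ_S` are `p`-divisible, their `p`-torsion is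
cyclic, generated by an element `z` (a primitive `p`-th root of unity) on which `GQ` acts through
the mod `p` cyclotomic character and which is nontrivial at every `q ∈ S`. -/
def ESKummer : Prop :=
  (∀ e : ES S, ∃ e' : ES S, p • e' = e) ∧
    ∃ z : ES S, p • z = 0 ∧ (∀ e : ES S, p • e = 0 → ∃ n : ℕ, e = n • z) ∧
      (∀ g : GQ, (ES S).ρ g z = ((cycloChar p g : (ZMod p)ˣ) : ZMod p).val • z) ∧
      ∀ q : ↥S, jEQ S q z ≠ 0

/-- **[XQKummer]** `ℚ̄_qˣ` is `p`-divisible and its `p`-torsion is cyclic of order `p`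
(every nonzero `p`-torsion element generates the `p`-torsion). -/
def XQKummer (q : Nat.Primes) : Prop :=
  (∀ x : XQ q, ∃ y : XQ q, p • y = x) ∧
    ∀ x y : XQ q, p • x = 0 → p • y = 0 → x ≠ 0 → ∃ n : ℕ, y = n • x

end Kummer

/-! ## The rows -/

section Rows

variable {p : ℕ} [Fact p.Prime] (S : Finset Nat.Primes) (M : Rep.{0} (ZMod p) GQ)
  (F : IntermediateField ℚ Qb)

/-- **[RowSES]** (= [LIM1]) The row `0 → M → Hom(R0, ES) → Hom(R1, ES) → 0` is exact, and so are
its local versions `0 → M → Hom(R0, ℚ̄_qˣ) → Hom(R1, ℚ̄_qˣ) → 0` (`q ∈ S`), whose first map is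
the composite of the global one with `locE`.
(`iM m` is `(c, m') ↦ (m' m) • z`, `z` a generator of `μ_p`; exactness on the right is the
`p`-divisibility of `ES S`, resp. `ℚ̄_qˣ`; `M` finite-dimensional.) -/
def RowSES : Prop :=
  ∃ iM : M →+ A0 F (M.dualTwist (cycloChar p)) (ES S),
    IsSES M (A0 F (M.dualTwist (cycloChar p)) (ES S)) (A1 F (M.dualTwist (cycloChar p)) (ES S))
      iM (rowG F (M.dualTwist (cycloChar p)) (ES S)) ∧
    ∀ q : ↥S, IsSES (Rep.res (primeLocalToGlobal q.1) M)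
      (A0Q F (M.dualTwist (cycloChar p)) q.1) (A1Q F (M.dualTwist (cycloChar p)) q.1)
      ((locE S (R0 F (M.dualTwist (cycloChar p))) q).comp iM)
      (rowQ F (M.dualTwist (cycloChar p)) q.1)

end Rows

/-! ## Vanishing and detection -/

section Limits

variable (S : Finset Nat.Primes) (F : IntermediateField ℚ Qb) {k : Type} [CommRing k]
  (A : Rep.{0} k GQ)

/-- **[LIM4]** `H¹(G_q, Hom(ℤ[GQ/G_F × A], ℚ̄_qˣ)) = 0` for the level cohomology of the local
group (Shapiro + Hilbert 90; true for all `F`, `A`). -/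
def H1ZeroLocal : Prop :=
  ∀ q : ↥S, ∀ x : H1 (pullLevels (primeLocalToGlobal q.1)) (A0Q F A q.1), x = 0

/-- **[JSCOIND] (injectivity)** An `S`-idele of `ℚ_S` all of whose conjugates have trivial
components at the distinguished places over `q ∈ S` is trivial. -/
def JSInj : Prop :=
  ∀ j : JS S, (∀ (q : ↥S) (γ : GQ), prQ S q ((JS S).ρ γ j) = 0) → j = 0

/-- **[JSCOIND] (surjectivity)** Every family `B q : GQ → ℚ̄_qˣ` (`q ∈ S`) which is
`G_q`-equivariant on the left (`B q (r_q h * γ) = h • B q γ`) and right-invariant under the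
group of a normal `S`-level is the family of components of the conjugates of an `S`-idele of
`ℚ_S`.  (`JS S = ∏_{q ∈ S} colim_{F'} CoInd (F' ⊗ ℚ_q)ˣ`.) -/
def JSSurj : Prop :=
  ∀ F' : IntermediateField ℚ Qb, IsNLevel S F' →
  ∀ B : (q : ↥S) → GQ → XQ q.1,
    (∀ (q : ↥S) (h : primeLocalGaloisGroup q.1) (γ : GQ),
      B q (primeLocalToGlobal q.1 h * γ) = (XQ q.1).ρ h (B q γ)) →
    (∀ (q : ↥S) (γ n : GQ), n ∈ F'.fixingSubgroup → B q (γ * n) = B q γ) →
    ∃ j : JS S, ∀ (q : ↥S) (γ : GQ), prQ S q ((JS S).ρ γ j) = B q γ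

/-- **[LIM3]** Detection: a class of `H¹(G_S, Hom(R, JS))` all of whose localisations in
`H¹(G_q, Hom(R, ℚ̄_qˣ))` (`q ∈ S`) vanish is zero.
(Consequence of `JSInj` and `JSSurj` for every `R` fixed pointwise by a normal `S`-level.) -/
def DetectH1 (R : Rep.{0} ℤ GQ) : Prop :=
  ∀ y : H1 (sLevels S) (homR (MonoidHom.id GQ) R (JS S)),
    (∀ q : ↥S, H1add (primeLocalToGlobal q.1) (locJ S R q) (locJ_equivar S R q)
      (compat_sLevels S (primeLocalToGlobal q.1)) y = 0) → y = 0

end Limits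

/-! ## The bundle consumed by `Top/Spine.lean` -/

/-- Everything SPINE (c) at the level `F` needs (besides the Level layer, `p ≠ 2` and
`IsGoodLevel S M' p F`). -/
structure Inputs {p : ℕ} [Fact p.Prime] (S : Finset Nat.Primes) (M : Rep.{0} (ZMod p) GQ)
    (F : IntermediateField ℚ Qb) : Prop where
  smoothG : SmoothG S F (M.dualTwist (cycloChar p))
  smoothQ : SmoothQ S F (M.dualTwist (cycloChar p))
  colSES : ColSES S F (M.dualTwist (cycloChar p))
  rowSES : RowSES S M F
  h1ZeroLocal : H1ZeroLocal S F (M.dualTwist (cycloChar p))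
  detect0 : DetectH1 S (R0 F (M.dualTwist (cycloChar p)))
  detect1 : DetectH1 S (R1 F (M.dualTwist (cycloChar p)))

end Fermat.Agent.CFT.Top.SpinePlan

end
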