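import Fermat.Agent.CFT.Top.DualPlan
import Fermat.Agent.CFT.Top.SpinePlan
import Fermat.Agent.CFT.Level.SLevels

/-!
# P3 / Top layer: the canonical finite-level models and the formal part of [TOPBRIDGE]

No class field theory in this file.  For a finite model `π : GQ →* Q` of `Gal(K/ℚ)` (`π` onto,
`ker π = Gal(ℚ̄/K)`, `K` a normal `S`-level; e.g. `Q = GQ ⧸ G_K`, see `exists_model`):

* `invRep π A hπ : Rep k Q` : the `ker π`-invariants of `A : Rep k GQ` with the induced action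
  (`invRep_ρ_coe`), `invIncl`, and `isFiniteLevel_invRep` (it is a `Level.IsFiniteLevel` model);
* `CK S π hπ = (CS S)^{G_K}`, `JK S π hπ = (JS S)^{G_K}`, `piK : JK →+ CK` (restriction of
  `jsProj S`);
* `GwK S π q` : the image of `G_q` in `Q` (`= Plan.locImage π q.1` by `rfl`);
  `CwK S π q : Rep ℤ (GwK S π q)` : `(ℚ̄_qˣ)^{ker (G_q → Q)}`;  `prKS q : JK →+ CwK q`;
* `jlocK q : CwK q →+ JK` : the idele with component `c` at the identity coset of `q` and trivial
  components elsewhere (`prKS_jlocK_mem`, `prKS_jlocK_off`, uniqueness `eq_jlocK_of_supp`);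
  `jK q = piK ∘ jlocK q : CwK q →+ CK`;
* the six coinduction clauses of `Formation.FinDuality` for these objects, from the semilocal
  interface `SpinePlan.JSInj S`, `SpinePlan.JSSurj S`:
  `prKS_ρ`, `prKS_inj`, `prKS_surj`, `jK_ρ`, `piK_eq_jK_of_supp`;
* `ArithCore S p F π hπ hi hs hK hker` : the four ARITHMETIC clauses ((A1) `p`-class cocycle on
  `CK`, (A2) [EX], (A3) local `p`-class cocycles on `CwK q`, (A4) [LG] for `jK`);
* `finLevelData_of_core : ArithCore … → Plan.FinLevelData S p F K` and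
  `arithDual_of_core` (cofinal form `→ Plan.ArithDual S p F`);
* the same on an ARBITRARY `Level.IsFiniteLevel` model `(J', ιJ)` of `JS S` at `K` (e.g. the
  `S`-ideles of a number field model of `K`): `prMS q : J' →+ CwK q` (`x ↦ prQ S q (ιJ x)`),
  `jlocMS q : CwK q →+ J'`, and `locData_of_model` : the seven local clauses of
  `Formation.FinDuality` for `(C', J', πJ, σ)` from the local `p`-class cocycles on `CwK q` and
  [LG] for `πJ ∘ jlocMS q` (this is `Glob.TopBridge.LocData p C' J' πJ σ (locImage π ·)`).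

The coinduction part is proved abstractly (section `Coind`: a `G`-module `J` with components
`pr i : J → X i` at local groups `r i : H i → G`).
-/

set_option autoImplicit false

open CategoryTheory groupCohomology ExtCitation

noncomputable section

namespace Fermat.Agent.CFT.Top.FinModel

/-! ## Invariants under the kernel of a surjection, as a module over the quotient -/

section InvRep

variable {G Q : Type} [Group G] [Group Q] {k : Type} [CommRing k]
  (π : G →* Q) (A : Rep.{0} k G)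

/-- The vectors fixed by `ker π`. -/
def invSub : Submodule k A where
  carrier := {a | ∀ s ∈ π.ker, A.ρ s a = a}
  add_mem' := by
    intro a b ha hb s hs
    rw [map_add, ha s hs, hb s hs]
  zero_mem' := fun s _ => map_zero _
  smul_mem' := by
    intro c a ha s hs
    rw [map_smul, ha s hs]

lemma mem_invSub_iff (a : A) : a ∈ invSub π A ↔ ∀ s ∈ π.ker, A.ρ s a = a := Iff.rfl

lemma rho_mem_invSub (γ : G) {a : A} (ha : a ∈ invSub π A) : A.ρ γ a ∈ invSub π A := by
  intro s hs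
  have h1 : γ⁻¹ * s * γ ∈ π.ker := by
    rw [MonoidHom.mem_ker] at hs ⊢
    rw [map_mul, map_mul, hs, mul_one, map_inv, inv_mul_cancel]
  have h3 := congrArg (A.ρ γ) (ha _ h1)
  rw [← Module.End.mul_apply, ← map_mul,
    show γ * (γ⁻¹ * s * γ) = s * γ by group, map_mul, Module.End.mul_apply] at h3
  exact h3

lemma rho_eq_of_map_eq {γ γ' : G} (h : π γ = π γ') {a : A} (ha : a ∈ invSub π A) :
    A.ρ γ a = A.ρ γ' a := by
  have h1 : γ'⁻¹ * γ ∈ π.ker := by
    rw [MonoidHom.mem_ker, map_mul, map_inv, h, inv_mul_cancel]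
  have h3 := congrArg (A.ρ γ') (ha _ h1)
  rw [← Module.End.mul_apply, ← map_mul, mul_inv_cancel_left] at h3
  exact h3

variable (hπ : Function.Surjective π)

/-- The action of `Q` on the `ker π`-invariants of `A`. -/
def invRho : Representation k Q (invSub π A) where
  toFun q := (A.ρ (Function.surjInv hπ q)).restrict (fun a ha => rho_mem_invSub π A _ ha)
  map_one' := by
    ext ⟨a, ha⟩
    have h : π (Function.surjInv hπ 1) = π 1 := by rw [Function.surjInv_eq hπ, map_one]
    simp [LinearMap.restrict_apply, rho_eq_of_map_eq π A h ha]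
  map_mul' q q' := by
    ext ⟨a, ha⟩
    have h : π (Function.surjInv hπ (q * q')) =
        π (Function.surjInv hπ q * Function.surjInv hπ q') := by
      rw [map_mul, Function.surjInv_eq hπ, Function.surjInv_eq hπ, Function.surjInv_eq hπ]
    simp [LinearMap.restrict_apply, rho_eq_of_map_eq π A h ha]

/-- `A^{ker π}` as a representation of `Q`. -/
abbrev invRep : Rep.{0} k Q := Rep.of (invRho π A hπ)

lemma invRep_ρ_coe (γ : G) (x : invRep π A hπ) :
    (((invRep π A hπ).ρ (π γ) x : invSub π A) : A) = A.ρ γ ((x : invSub π A) : A) := by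
  change A.ρ (Function.surjInv hπ (π γ)) ((x : invSub π A) : A) = _
  exact rho_eq_of_map_eq π A (Function.surjInv_eq hπ _) x.2

/-- The inclusion `A^{ker π} → A`. -/
def invIncl : invRep π A hπ →+ A := (invSub π A).subtype.toAddMonoidHom

lemma invIncl_apply (x : invRep π A hπ) : invIncl π A hπ x = ((x : invSub π A) : A) := rfl

lemma invIncl_injective : Function.Injective (invIncl π A hπ) :=
  fun _ _ h => Subtype.ext h

lemma invIncl_ρ (γ : G) (x : invRep π A hπ) :
    invIncl π A hπ ((invRep π A hπ).ρ (π γ) x) = A.ρ γ (invIncl π A hπ x) :=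
  invRep_ρ_coe π A hπ γ x

/-- `(Q, π, A^{ker π})` is a finite-level model of `A` at any level whose group is `ker π`. -/
theorem isFiniteLevel_invRep (L : Level.LevelSys G) (i : L.ι) (hi : L.P i)
    (hker : π.ker = L.N i) :
    Level.IsFiniteLevel L A i π (invRep π A hπ) (invIncl π A hπ) where
  isLevel := hi
  surjective := hπ
  ker_eq := hker
  equivar := fun γ x => invIncl_ρ π A hπ γ x
  injective := invIncl_injective π A hπ
  exists_of_fixed := fun a ha => ⟨⟨a, fun s hs => ha s (hker ▸ hs)⟩, rfl⟩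

end InvRep

/-! ## Abstract coinduction at a finite level

`J` is a `G`-module with "components" `pr i : J → X i` at local groups `r i : H i → G`, jointly
injective on conjugates and onto the `ker π`-invariant coinduced families.  Then `J^{ker π}` is the
product of the `Q`-modules coinduced from the `locRange i`-modules `(X i)^{ker (H i → Q)}`. -/

section Coind

variable {G Q : Type} [Group G] [Group Q] (π : G →* Q) (hπ : Function.Surjective π)
  {ι : Type} {H : ι → Type} [∀ i, Group (H i)] (r : ∀ i, H i →* G)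
  (J : Rep.{0} ℤ G) (X : ∀ i, Rep.{0} ℤ (H i)) (pr : ∀ i, J →+ X i)

/-- The image of the `i`-th local group in `Q`. -/
abbrev locRange (i : ι) : Subgroup Q := (π.comp (r i)).range

/-- `H i → locRange i`. -/
abbrev locMap (i : ι) : H i →* ↥(locRange π r i) := (π.comp (r i)).rangeRestrict

lemma locMap_surjective (i : ι) : Function.Surjective (locMap π r i) :=
  MonoidHom.rangeRestrict_surjective _

lemma locMap_coe (i : ι) (h : H i) : ((locMap π r i h : ↥(locRange π r i)) : Q) = π (r i h) := rfl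

/-- The local finite-level module `(X i)^{ker (H i → Q)}`, a module over `locRange i`. -/
abbrev CwG (i : ι) : Rep.{0} ℤ ↥(locRange π r i) :=
  invRep (locMap π r i) (X i) (locMap_surjective π r i)

variable (hpr : ∀ i (h : H i) (x : J), pr i (J.ρ (r i h) x) = (X i).ρ h (pr i x))

/-- The `i`-th component `J^{ker π} → (X i)^{ker (H i → Q)}`. -/
def prK (i : ι) : invRep π J hπ →+ CwG π r X i where
  toFun x := ⟨pr i ((x : invSub π J) : J), by
    intro n hn
    rw [← hpr]
    congr 1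
    apply x.2
    rw [MonoidHom.mem_ker] at hn ⊢
    exact congrArg Subtype.val hn⟩
  map_zero' := Subtype.ext (map_zero (pr i))
  map_add' x y := Subtype.ext (map_add (pr i) _ _)

lemma prK_coe (i : ι) (x : invRep π J hπ) :
    ((prK π hπ r J X pr hpr i x : invSub (locMap π r i) (X i)) : X i) =
      pr i ((x : invSub π J) : J) := rfl

/-- The components are equivariant for the local groups. -/
lemma prK_ρ (i : ι) (g : ↥(locRange π r i)) (x : invRep π J hπ) :
    prK π hπ r J X pr hpr i ((invRep π J hπ).ρ (g : Q) x) =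
      (CwG π r X i).ρ g (prK π hπ r J X pr hpr i x) := by
  obtain ⟨h, rfl⟩ := locMap_surjective π r i g
  apply Subtype.ext
  rw [prK_coe, locMap_coe, invRep_ρ_coe, invRep_ρ_coe, hpr, prK_coe]

lemma prK_ρ_map (i : ι) (γ : G) (x : invRep π J hπ) :
    ((prK π hπ r J X pr hpr i ((invRep π J hπ).ρ (π γ) x) : invSub (locMap π r i) (X i)) : X i) =
      pr i (J.ρ γ ((x : invSub π J) : J)) := by
  rw [prK_coe, invRep_ρ_coe]

variable (hinj : ∀ x : J, (∀ i γ, pr i (J.ρ γ x) = 0) → x = 0)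

include hinj in
/-- Joint injectivity of the components of the conjugates. -/
lemma prK_inj (x : invRep π J hπ)
    (hx : ∀ i (g : Q), prK π hπ r J X pr hpr i ((invRep π J hπ).ρ g x) = 0) : x = 0 := by
  apply Subtype.ext
  apply hinj
  intro i γ
  rw [← prK_ρ_map π hπ r J X pr hpr i γ x, hx i (π γ)]
  rfl

include hinj in
lemma prK_ext (x y : invRep π J hπ)
    (hxy : ∀ i (g : Q), prK π hπ r J X pr hpr i ((invRep π J hπ).ρ g x) =
      prK π hπ r J X pr hpr i ((invRep π J hπ).ρ g y)) : x = y := by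
  rw [← sub_eq_zero]
  apply prK_inj π hπ r J X pr hpr hinj
  intro i g
  rw [map_sub, map_sub, hxy, sub_self]

variable (hsurj : ∀ B : ∀ i, G → X i,
    (∀ i (h : H i) (γ : G), B i (r i h * γ) = (X i).ρ h (B i γ)) →
    (∀ i (γ n : G), n ∈ π.ker → B i (γ * n) = B i γ) →
    ∃ x : J, ∀ i γ, pr i (J.ρ γ x) = B i γ)

include hinj hsurj in
/-- Every coinduced family is the family of components of the conjugates of an element. -/
lemma prK_surj (f : ∀ i, Q → CwG π r X i)
    (hf : ∀ i (h : ↥(locRange π r i)) (g : Q),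
      f i ((h : Q) * g) = (CwG π r X i).ρ h (f i g)) :
    ∃ x : invRep π J hπ, ∀ i g, prK π hπ r J X pr hpr i ((invRep π J hπ).ρ g x) = f i g := by
  have hB1 : ∀ i (h : H i) (γ : G),
      ((f i (π (r i h * γ)) : invSub (locMap π r i) (X i)) : X i) =
        (X i).ρ h ((f i (π γ) : invSub (locMap π r i) (X i)) : X i) := by
    intro i h γ
    have h1 := hf i (locMap π r i h) (π γ)
    rw [locMap_coe, ← map_mul] at h1
    rw [h1, invRep_ρ_coe]
  have hB2 : ∀ i (γ n : G), n ∈ π.ker →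
      ((f i (π (γ * n)) : invSub (locMap π r i) (X i)) : X i) =
        ((f i (π γ) : invSub (locMap π r i) (X i)) : X i) := by
    intro i γ n hn
    rw [map_mul, (MonoidHom.mem_ker).1 hn, mul_one]
  obtain ⟨j, hj⟩ := hsurj (fun i γ => ((f i (π γ) : invSub (locMap π r i) (X i)) : X i)) hB1 hB2
  have hjinv : j ∈ invSub π J := by
    intro n hn
    have h0 : J.ρ n j - j = 0 := by
      apply hinj
      intro i γ
      rw [map_sub, map_sub, ← ρ_mul_apply, hj, hj, map_mul,
        (MonoidHom.mem_ker).1 hn, mul_one, sub_self]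
    exact sub_eq_zero.1 h0
  refine ⟨⟨j, hjinv⟩, fun i g => ?_⟩
  obtain ⟨γ, rfl⟩ := hπ g
  apply Subtype.ext
  rw [prK_ρ_map]
  exact hj i γ

open Classical in
/-- The coinduced family supported at the identity coset of the component `i`, with value `c`. -/
def fam (i : ι) (c : CwG π r X i) (i' : ι) (g : Q) : CwG π r X i' :=
  if h : i' = i then
    (if hg : g ∈ locRange π r i' then (CwG π r X i').ρ ⟨g, hg⟩ (h ▸ c) else 0)
  else 0

lemma fam_mem (i : ι) (c : CwG π r X i) (g : ↥(locRange π r i)) :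
    fam π r X i c i (g : Q) = (CwG π r X i).ρ g c := by
  rw [fam, dif_pos rfl, dif_pos g.2]

lemma fam_not_mem (i : ι) (c : CwG π r X i) (g : Q) (hg : g ∉ locRange π r i) :
    fam π r X i c i g = 0 := by
  rw [fam, dif_pos rfl, dif_neg hg]

lemma fam_ne (i : ι) (c : CwG π r X i) {i' : ι} (h : i' ≠ i) (g : Q) :
    fam π r X i c i' g = 0 := by
  rw [fam, dif_neg h]

lemma fam_equivar (i : ι) (c : CwG π r X i) (i' : ι) (h : ↥(locRange π r i')) (g : Q) :
    fam π r X i c i' ((h : Q) * g) = (CwG π r X i').ρ h (fam π r X i c i' g) := by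
  by_cases hi : i' = i
  · subst hi
    by_cases hg : g ∈ locRange π r i'
    · have e1 := fam_mem π r X i' c (h * ⟨g, hg⟩)
      have e2 := fam_mem π r X i' c ⟨g, hg⟩
      rw [Subgroup.coe_mul] at e1
      rw [e1, e2, ρ_mul_apply]
    · have hg' : (h : Q) * g ∉ locRange π r i' := fun hh =>
        hg (by simpa using (locRange π r i').mul_mem (inv_mem h.2) hh)
      rw [fam_not_mem π r X i' c _ hg', fam_not_mem π r X i' c _ hg, map_zero]
  · rw [fam_ne π r X i c hi, fam_ne π r X i c hi, map_zero]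

lemma fam_add (i : ι) (c c' : CwG π r X i) (i' : ι) (g : Q) :
    fam π r X i (c + c') i' g = fam π r X i c i' g + fam π r X i c' i' g := by
  by_cases hi : i' = i
  · subst hi
    by_cases hg : g ∈ locRange π r i'
    · have e := fun c => fam_mem π r X i' c ⟨g, hg⟩
      simp only [] at e
      rw [e, e, e, map_add]
    · rw [fam_not_mem π r X i' _ _ hg, fam_not_mem π r X i' _ _ hg, fam_not_mem π r X i' _ _ hg,
        add_zero]
  · rw [fam_ne π r X i _ hi, fam_ne π r X i _ hi, fam_ne π r X i _ hi, add_zero]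

/-- The element of `J^{ker π}` with component `c` at the identity coset of `i` and trivial
components elsewhere (as a plain function). -/
def jlocFun (i : ι) (c : CwG π r X i) : invRep π J hπ :=
  Classical.choose (prK_surj π hπ r J X pr hpr hinj hsurj (fam π r X i c) (fam_equivar π r X i c))

lemma prK_jlocFun (i : ι) (c : CwG π r X i) (i' : ι) (g : Q) :
    prK π hπ r J X pr hpr i' ((invRep π J hπ).ρ g (jlocFun π hπ r J X pr hpr hinj hsurj i c)) =
      fam π r X i c i' g :=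
  Classical.choose_spec
    (prK_surj π hπ r J X pr hpr hinj hsurj (fam π r X i c) (fam_equivar π r X i c)) i' g

lemma eq_jlocFun (i : ι) (c : CwG π r X i) (x : invRep π J hπ)
    (hx : ∀ i' g, prK π hπ r J X pr hpr i' ((invRep π J hπ).ρ g x) = fam π r X i c i' g) :
    x = jlocFun π hπ r J X pr hpr hinj hsurj i c := by
  apply prK_ext π hπ r J X pr hpr hinj
  intro i' g
  rw [hx, prK_jlocFun]

/-- The embedding of the local module at the identity coset of the component `i`. -/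
def jloc (i : ι) : CwG π r X i →+ invRep π J hπ :=
  AddMonoidHom.mk' (jlocFun π hπ r J X pr hpr hinj hsurj i) (fun c c' => by
    symm
    apply eq_jlocFun π hπ r J X pr hpr hinj hsurj
    intro i' g
    rw [map_add, map_add, prK_jlocFun, prK_jlocFun, fam_add])

lemma prK_jloc (i : ι) (c : CwG π r X i) (i' : ι) (g : Q) :
    prK π hπ r J X pr hpr i' ((invRep π J hπ).ρ g (jloc π hπ r J X pr hpr hinj hsurj i c)) =
      fam π r X i c i' g :=
  prK_jlocFun π hπ r J X pr hpr hinj hsurj i c i' g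

/-- Components of `jloc i c` on the identity coset of `i`. -/
lemma prK_jloc_mem (i : ι) (c : CwG π r X i) (g : ↥(locRange π r i)) :
    prK π hπ r J X pr hpr i
        ((invRep π J hπ).ρ (g : Q) (jloc π hπ r J X pr hpr hinj hsurj i c)) =
      (CwG π r X i).ρ g c := by
  rw [prK_jloc, fam_mem]

/-- Components of `jloc i c` away from the identity coset of `i`. -/
lemma prK_jloc_off (i : ι) (c : CwG π r X i) (i' : ι) (g : Q)
    (h : i' ≠ i ∨ g ∉ locRange π r i) :
    prK π hπ r J X pr hpr i'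
        ((invRep π J hπ).ρ g (jloc π hπ r J X pr hpr hinj hsurj i c)) = 0 := by
  rw [prK_jloc]
  by_cases hi : i' = i
  · subst hi
    exact fam_not_mem π r X i' c g (h.resolve_left (fun hh => hh rfl))
  · exact fam_ne π r X i c hi g

lemma prK_jloc_self (i : ι) (c : CwG π r X i) :
    prK π hπ r J X pr hpr i (jloc π hπ r J X pr hpr hinj hsurj i c) = c := by
  have h := prK_jloc_mem π hπ r J X pr hpr hinj hsurj i c 1
  rwa [Subgroup.coe_one, ρ_one_apply, ρ_one_apply] at h

/-- `jloc i` is equivariant for the local group. -/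
lemma jloc_ρ (i : ι) (g : ↥(locRange π r i)) (c : CwG π r X i) :
    jloc π hπ r J X pr hpr hinj hsurj i ((CwG π r X i).ρ g c) =
      (invRep π J hπ).ρ (g : Q) (jloc π hπ r J X pr hpr hinj hsurj i c) := by
  symm
  apply eq_jlocFun π hπ r J X pr hpr hinj hsurj
  intro i' g'
  rw [← ρ_mul_apply, prK_jloc]
  by_cases hi : i' = i
  · subst hi
    by_cases hg : g' ∈ locRange π r i'
    · have e1 := fam_mem π r X i' c (⟨g', hg⟩ * g)
      have e2 := fam_mem π r X i' ((CwG π r X i').ρ g c) ⟨g', hg⟩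
      rw [Subgroup.coe_mul] at e1
      rw [e1, e2, ρ_mul_apply]
    · have hg' : g' * (g : Q) ∉ locRange π r i' := fun hh =>
        hg (by simpa using (locRange π r i').mul_mem hh (inv_mem g.2))
      rw [fam_not_mem π r X i' _ _ hg', fam_not_mem π r X i' _ _ hg]
  · rw [fam_ne π r X i _ hi, fam_ne π r X i _ hi]

/-- An element supported at the identity coset of the component `i` is `jloc i` of its
component. -/
lemma eq_jloc_of_supp (i : ι) (x : invRep π J hπ)
    (hx : ∀ i' g, (i' ≠ i ∨ g ∉ locRange π r i) →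
      prK π hπ r J X pr hpr i' ((invRep π J hπ).ρ g x) = 0) :
    x = jloc π hπ r J X pr hpr hinj hsurj i (prK π hπ r J X pr hpr i x) := by
  apply eq_jlocFun π hπ r J X pr hpr hinj hsurj
  intro i' g
  by_cases hi : i' = i
  · subst hi
    by_cases hg : g ∈ locRange π r i'
    · have e := fam_mem π r X i' (prK π hπ r J X pr hpr i' x) ⟨g, hg⟩
      rw [e, ← prK_ρ]
    · rw [fam_not_mem π r X i' _ _ hg, hx i' g (Or.inr hg)]
  · rw [fam_ne π r X i _ hi, hx i' g (Or.inl hi)]

end Coind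

/-! ## Transport of the coinduction structure to an arbitrary model of `J^{ker π}` -/

section Model

variable {G Q : Type} [Group G] [Group Q] (π : G →* Q) (hπ : Function.Surjective π)
  {ι : Type} {H : ι → Type} [∀ i, Group (H i)] (r : ∀ i, H i →* G)
  (J : Rep.{0} ℤ G) (X : ∀ i, Rep.{0} ℤ (H i)) (pr : ∀ i, J →+ X i)
  (hpr : ∀ i (h : H i) (x : J), pr i (J.ρ (r i h) x) = (X i).ρ h (pr i x))
  (hinj : ∀ x : J, (∀ i γ, pr i (J.ρ γ x) = 0) → x = 0)
  (hsurj : ∀ B : ∀ i, G → X i,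
    (∀ i (h : H i) (γ : G), B i (r i h * γ) = (X i).ρ h (B i γ)) →
    (∀ i (γ n : G), n ∈ π.ker → B i (γ * n) = B i γ) →
    ∃ x : J, ∀ i γ, pr i (J.ρ γ x) = B i γ)
  (J' : Rep.{0} ℤ Q) (ιJ : J' →+ J)
  (hιe : ∀ (γ : G) (x : J'), ιJ (J'.ρ (π γ) x) = J.ρ γ (ιJ x))
  (hιi : Function.Injective ιJ)
  (hιf : ∀ a : J, (∀ s ∈ π.ker, J.ρ s a = a) → ∃ b : J', ιJ b = a)

include hιe in
lemma model_mem_invSub (x : J') : ιJ x ∈ invSub π J := by
  intro s hs
  rw [← hιe, (MonoidHom.mem_ker).1 hs, ρ_one_apply]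

/-- The comparison `J' → J^{ker π}` of a model with the canonical model. -/
def toInv : J' →+ invRep π J hπ where
  toFun x := ⟨ιJ x, model_mem_invSub π J J' ιJ hιe x⟩
  map_zero' := Subtype.ext (map_zero ιJ)
  map_add' x y := Subtype.ext (map_add ιJ x y)

lemma toInv_coe (x : J') : ((toInv π hπ J J' ιJ hιe x : invSub π J) : J) = ιJ x := rfl

lemma toInv_ρ (g : Q) (x : J') :
    toInv π hπ J J' ιJ hιe (J'.ρ g x) = (invRep π J hπ).ρ g (toInv π hπ J J' ιJ hιe x) := by
  obtain ⟨γ, rfl⟩ := hπ g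
  apply Subtype.ext
  rw [toInv_coe, hιe, invRep_ρ_coe, toInv_coe]

include hιi in
lemma toInv_injective : Function.Injective (toInv π hπ J J' ιJ hιe) := by
  intro x y h
  exact hιi (congrArg Subtype.val h)

include hιf in
lemma toInv_surjective : Function.Surjective (toInv π hπ J J' ιJ hιe) := by
  intro a
  obtain ⟨b, hb⟩ := hιf a.1 a.2
  exact ⟨b, Subtype.ext hb⟩

/-- The inverse comparison `J^{ker π} → J'`. -/
def ofInv : invRep π J hπ →+ J' :=
  (AddEquiv.ofBijective (toInv π hπ J J' ιJ hιe)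
    ⟨toInv_injective π hπ J J' ιJ hιe hιi, toInv_surjective π hπ J J' ιJ hιe hιf⟩).symm.toAddMonoidHom

lemma toInv_ofInv (a : invRep π J hπ) :
    toInv π hπ J J' ιJ hιe (ofInv π hπ J J' ιJ hιe hιi hιf a) = a :=
  (AddEquiv.ofBijective (toInv π hπ J J' ιJ hιe)
    ⟨toInv_injective π hπ J J' ιJ hιe hιi, toInv_surjective π hπ J J' ιJ hιe hιf⟩).apply_symm_apply a

lemma ofInv_toInv (x : J') :
    ofInv π hπ J J' ιJ hιe hιi hιf (toInv π hπ J J' ιJ hιe x) = x :=
  (AddEquiv.ofBijective (toInv π hπ J J' ιJ hιe)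
    ⟨toInv_injective π hπ J J' ιJ hιe hιi, toInv_surjective π hπ J J' ιJ hιe hιf⟩).symm_apply_apply x

lemma ofInv_ρ (g : Q) (a : invRep π J hπ) :
    ofInv π hπ J J' ιJ hιe hιi hιf ((invRep π J hπ).ρ g a) =
      J'.ρ g (ofInv π hπ J J' ιJ hιe hιi hιf a) := by
  apply toInv_injective π hπ J J' ιJ hιe hιi
  rw [toInv_ofInv, toInv_ρ, toInv_ofInv]

/-- The components on a model. -/
def prM (i : ι) : J' →+ CwG π r X i :=
  (prK π hπ r J X pr hpr i).comp (toInv π hπ J J' ιJ hιe)

lemma prM_coe (i : ι) (x : J') :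
    ((prM π hπ r J X pr hpr J' ιJ hιe i x : invSub (locMap π r i) (X i)) : X i) =
      pr i (ιJ x) := rfl

lemma prM_ρ_apply (i : ι) (g : Q) (x : J') :
    prM π hπ r J X pr hpr J' ιJ hιe i (J'.ρ g x) =
      prK π hπ r J X pr hpr i ((invRep π J hπ).ρ g (toInv π hπ J J' ιJ hιe x)) := by
  change prK π hπ r J X pr hpr i (toInv π hπ J J' ιJ hιe (J'.ρ g x)) = _
  rw [toInv_ρ]

/-- The embedding of the local module at the identity coset of `i`, into a model. -/
def jlocM (i : ι) : CwG π r X i →+ J' :=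
  (ofInv π hπ J J' ιJ hιe hιi hιf).comp (jloc π hπ r J X pr hpr hinj hsurj i)

lemma toInv_jlocM (i : ι) (c : CwG π r X i) :
    toInv π hπ J J' ιJ hιe (jlocM π hπ r J X pr hpr hinj hsurj J' ιJ hιe hιi hιf i c) =
      jloc π hπ r J X pr hpr hinj hsurj i c :=
  toInv_ofInv π hπ J J' ιJ hιe hιi hιf _

lemma prM_ρ (i : ι) (g : ↥(locRange π r i)) (x : J') :
    prM π hπ r J X pr hpr J' ιJ hιe i (J'.ρ (g : Q) x) =
      (CwG π r X i).ρ g (prM π hπ r J X pr hpr J' ιJ hιe i x) := by
  rw [prM_ρ_apply, prK_ρ]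
  rfl

include hinj hιi in
lemma prM_inj (x : J')
    (hx : ∀ i (g : Q), prM π hπ r J X pr hpr J' ιJ hιe i (J'.ρ g x) = 0) : x = 0 := by
  apply toInv_injective π hπ J J' ιJ hιe hιi
  rw [map_zero]
  apply prK_inj π hπ r J X pr hpr hinj
  intro i g
  rw [← prM_ρ_apply, hx]

include hinj hsurj hιf in
lemma prM_surj (f : ∀ i, Q → CwG π r X i)
    (hf : ∀ i (h : ↥(locRange π r i)) (g : Q),
      f i ((h : Q) * g) = (CwG π r X i).ρ h (f i g)) :
    ∃ x : J', ∀ i g, prM π hπ r J X pr hpr J' ιJ hιe i (J'.ρ g x) = f i g := by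
  obtain ⟨a, ha⟩ := prK_surj π hπ r J X pr hpr hinj hsurj f hf
  obtain ⟨x, rfl⟩ := toInv_surjective π hπ J J' ιJ hιe hιf a
  exact ⟨x, fun i g => by rw [prM_ρ_apply, ha]⟩

lemma prM_jlocM_mem (i : ι) (c : CwG π r X i) (g : ↥(locRange π r i)) :
    prM π hπ r J X pr hpr J' ιJ hιe i
        (J'.ρ (g : Q) (jlocM π hπ r J X pr hpr hinj hsurj J' ιJ hιe hιi hιf i c)) =
      (CwG π r X i).ρ g c := by
  rw [prM_ρ_apply, toInv_jlocM, prK_jloc_mem]

lemma prM_jlocM_off (i : ι) (c : CwG π r X i) (i' : ι) (g : Q)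
    (h : i' ≠ i ∨ g ∉ locRange π r i) :
    prM π hπ r J X pr hpr J' ιJ hιe i'
        (J'.ρ g (jlocM π hπ r J X pr hpr hinj hsurj J' ιJ hιe hιi hιf i c)) = 0 := by
  rw [prM_ρ_apply, toInv_jlocM, prK_jloc_off π hπ r J X pr hpr hinj hsurj i c i' g h]

lemma jlocM_ρ (i : ι) (g : ↥(locRange π r i)) (c : CwG π r X i) :
    jlocM π hπ r J X pr hpr hinj hsurj J' ιJ hιe hιi hιf i ((CwG π r X i).ρ g c) =
      J'.ρ (g : Q) (jlocM π hπ r J X pr hpr hinj hsurj J' ιJ hιe hιi hιf i c) := by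
  change ofInv π hπ J J' ιJ hιe hιi hιf (jloc π hπ r J X pr hpr hinj hsurj i _) = _
  rw [jloc_ρ, ofInv_ρ]
  rfl

lemma eq_jlocM_of_supp (i : ι) (x : J')
    (hx : ∀ i' g, (i' ≠ i ∨ g ∉ locRange π r i) →
      prM π hπ r J X pr hpr J' ιJ hιe i' (J'.ρ g x) = 0) :
    x = jlocM π hπ r J X pr hpr hinj hsurj J' ιJ hιe hιi hιf i
      (prM π hπ r J X pr hpr J' ιJ hιe i x) := by
  apply toInv_injective π hπ J J' ιJ hιe hιi
  rw [toInv_jlocM]
  apply eq_jloc_of_supp π hπ r J X pr hpr hinj hsurj i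
  intro i' g h
  rw [← prM_ρ_apply, hx i' g h]

end Model

/-! ## The canonical finite-level models of `CS S`, `JS S` and of the local modules -/

section Top

open Fermat.Agent.CFT.Top.SpinePlan

variable (S : Finset Nat.Primes) {Q : Type} [Group Q] (π : GQ →* Q)
  (hπ : Function.Surjective π)

/-- `(CS S)^{ker π}` as a `Q`-module (`= (CS S)^{G_K}` when `ker π = Gal(ℚ̄/K)`). -/
abbrev CK : Rep.{0} ℤ Q := invRep π (CS S) hπ

/-- `(JS S)^{ker π}` as a `Q`-module. -/
abbrev JK : Rep.{0} ℤ Q := invRep π (JS S) hπ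

/-- `(JS S)^{ker π} → (CS S)^{ker π}`, the restriction of `jsProj S`. -/
def piK : JK S π hπ →+ CK S π hπ where
  toFun x := ⟨(jsProj S).hom ((x : invSub π (JS S)) : JS S), by
    intro s hs
    rw [← Rep.hom_comm_apply, x.2 s hs]⟩
  map_zero' := Subtype.ext (map_zero _)
  map_add' x y := Subtype.ext (map_add _ _ _)

lemma invIncl_piK (x : JK S π hπ) :
    invIncl π (CS S) hπ (piK S π hπ x) = (jsProj S).hom (invIncl π (JS S) hπ x) := rfl

/-- `piK` is `Q`-equivariant. -/
lemma piK_ρ (g : Q) (x : JK S π hπ) :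
    piK S π hπ ((JK S π hπ).ρ g x) = (CK S π hπ).ρ g (piK S π hπ x) := by
  obtain ⟨γ, rfl⟩ := hπ g
  apply invIncl_injective π (CS S) hπ
  rw [invIncl_piK, invIncl_ρ, invIncl_ρ, invIncl_piK, Rep.hom_comm_apply]

/-- The decomposition group of the level at `q ∈ S`: the image of `G_q` in `Q`
(`= Plan.locImage π q.1`, by `rfl`). -/
abbrev GwK (q : ↥S) : Subgroup Q :=
  locRange (H := fun q : ↥S => primeLocalGaloisGroup q.1) π
    (fun q : ↥S => primeLocalToGlobal q.1) q

/-- The local finite-level module `(ℚ̄_qˣ)^{ker (G_q → Q)}` as a module over `GwK q`. -/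
abbrev CwK (q : ↥S) : Rep.{0} ℤ ↥(GwK S π q) :=
  CwG (H := fun q : ↥S => primeLocalGaloisGroup q.1) π
    (fun q : ↥S => primeLocalToGlobal q.1) (fun q : ↥S => XQ q.1) q

/-- The component at `q` of a `ker π`-invariant `S`-idele. -/
def prKS (q : ↥S) : JK S π hπ →+ CwK S π q :=
  prK (H := fun q : ↥S => primeLocalGaloisGroup q.1) π hπ
    (fun q : ↥S => primeLocalToGlobal q.1) (JS S) (fun q : ↥S => XQ q.1) (prQ S) (prQ_rho S) q

lemma prKS_coe (q : ↥S) (x : JK S π hπ) :
    ((prKS S π hπ q x : invSub _ (XQ q.1)) : XQ q.1) = prQ S q ((x : invSub π (JS S)) : JS S) :=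
  rfl

variable {S π}

/-- `JSSurj S` at the level `K`, in the shape of the abstract coinduction section. -/
lemma surj_of_jsSurj (hs : JSSurj S) {K : IntermediateField ℚ Qb} (hK : IsNLevel S K)
    (hker : π.ker = K.fixingSubgroup) :
    ∀ B : ∀ q : ↥S, GQ → XQ q.1,
      (∀ (q : ↥S) (h : primeLocalGaloisGroup q.1) (γ : GQ),
        B q (primeLocalToGlobal q.1 h * γ) = (XQ q.1).ρ h (B q γ)) →
      (∀ (q : ↥S) (γ n : GQ), n ∈ π.ker → B q (γ * n) = B q γ) →
      ∃ x : JS S, ∀ (q : ↥S) (γ : GQ), prQ S q ((JS S).ρ γ x) = B q γ :=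
  fun B h1 h2 => hs K hK B h1 (fun q γ n hn => h2 q γ n (hker ▸ hn))

variable (S π)

/-- The embedding of the local module at the identity coset of `q`: the `S`-idele with component
`c` there and trivial components elsewhere. -/
def jlocK (hi : JSInj S) (hs : JSSurj S) {K : IntermediateField ℚ Qb} (hK : IsNLevel S K)
    (hker : π.ker = K.fixingSubgroup) (q : ↥S) : CwK S π q →+ JK S π hπ :=
  jloc (H := fun q : ↥S => primeLocalGaloisGroup q.1) π hπ
    (fun q : ↥S => primeLocalToGlobal q.1) (JS S) (fun q : ↥S => XQ q.1) (prQ S) (prQ_rho S)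
    hi (surj_of_jsSurj hs hK hker) q

/-- The local-to-global map `(ℚ̄_qˣ)^{ker} → (CS S)^{ker π}`. -/
def jK (hi : JSInj S) (hs : JSSurj S) {K : IntermediateField ℚ Qb} (hK : IsNLevel S K)
    (hker : π.ker = K.fixingSubgroup) (q : ↥S) : CwK S π q →+ CK S π hπ :=
  (piK S π hπ).comp (jlocK S π hπ hi hs hK hker q)

end Top

/-! ## The coinduction clauses of `Formation.FinDuality` for the canonical models -/

section Clauses

open Fermat.Agent.CFT.Top.SpinePlan

variable (S : Finset Nat.Primes) {Q : Type} [Group Q] (π : GQ →* Q)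
  (hπ : Function.Surjective π)

/-- The components are equivariant for the decomposition groups. -/
lemma prKS_ρ (q : ↥S) (g : ↥(GwK S π q)) (x : JK S π hπ) :
    prKS S π hπ q ((JK S π hπ).ρ (g : Q) x) = (CwK S π q).ρ g (prKS S π hπ q x) :=
  prK_ρ (H := fun q : ↥S => primeLocalGaloisGroup q.1) π hπ
    (fun q : ↥S => primeLocalToGlobal q.1) (JS S) (fun q : ↥S => XQ q.1) (prQ S) (prQ_rho S) q g x

/-- Joint injectivity of the components of the conjugates. -/
lemma prKS_inj (hi : JSInj S) (x : JK S π hπ)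
    (hx : ∀ (q : ↥S) (g : Q), prKS S π hπ q ((JK S π hπ).ρ g x) = 0) : x = 0 :=
  prK_inj (H := fun q : ↥S => primeLocalGaloisGroup q.1) π hπ
    (fun q : ↥S => primeLocalToGlobal q.1) (JS S) (fun q : ↥S => XQ q.1) (prQ S) (prQ_rho S)
    hi x hx

variable (hi : JSInj S) (hs : JSSurj S) {K : IntermediateField ℚ Qb} (hK : IsNLevel S K)
  (hker : π.ker = K.fixingSubgroup)

include hi hs hK hker in
/-- Every coinduced family is the family of components of the conjugates of an idele of the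
level. -/
lemma prKS_surj (f : ∀ q : ↥S, Q → CwK S π q)
    (hf : ∀ (q : ↥S) (h : ↥(GwK S π q)) (g : Q), f q ((h : Q) * g) = (CwK S π q).ρ h (f q g)) :
    ∃ x : JK S π hπ, ∀ (q : ↥S) (g : Q), prKS S π hπ q ((JK S π hπ).ρ g x) = f q g :=
  prK_surj (H := fun q : ↥S => primeLocalGaloisGroup q.1) π hπ
    (fun q : ↥S => primeLocalToGlobal q.1) (JS S) (fun q : ↥S => XQ q.1) (prQ S) (prQ_rho S)
    hi (surj_of_jsSurj hs hK hker) f hf

/-- Components of `jlocK q c` on the identity coset of `q`. -/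
lemma prKS_jlocK_mem (q : ↥S) (c : CwK S π q) (g : ↥(GwK S π q)) :
    prKS S π hπ q ((JK S π hπ).ρ (g : Q) (jlocK S π hπ hi hs hK hker q c)) =
      (CwK S π q).ρ g c :=
  prK_jloc_mem (H := fun q : ↥S => primeLocalGaloisGroup q.1) π hπ
    (fun q : ↥S => primeLocalToGlobal q.1) (JS S) (fun q : ↥S => XQ q.1) (prQ S) (prQ_rho S)
    hi (surj_of_jsSurj hs hK hker) q c g

/-- Components of `jlocK q c` away from the identity coset of `q`. -/
lemma prKS_jlocK_off (q : ↥S) (c : CwK S π q) (q' : ↥S) (g : Q)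
    (h : q' ≠ q ∨ g ∉ GwK S π q) :
    prKS S π hπ q' ((JK S π hπ).ρ g (jlocK S π hπ hi hs hK hker q c)) = 0 :=
  prK_jloc_off (H := fun q : ↥S => primeLocalGaloisGroup q.1) π hπ
    (fun q : ↥S => primeLocalToGlobal q.1) (JS S) (fun q : ↥S => XQ q.1) (prQ S) (prQ_rho S)
    hi (surj_of_jsSurj hs hK hker) q c q' g h

lemma prKS_jlocK_self (q : ↥S) (c : CwK S π q) :
    prKS S π hπ q (jlocK S π hπ hi hs hK hker q c) = c :=
  prK_jloc_self (H := fun q : ↥S => primeLocalGaloisGroup q.1) π hπ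
    (fun q : ↥S => primeLocalToGlobal q.1) (JS S) (fun q : ↥S => XQ q.1) (prQ S) (prQ_rho S)
    hi (surj_of_jsSurj hs hK hker) q c

/-- `jlocK q` is equivariant for the decomposition group. -/
lemma jlocK_ρ (q : ↥S) (g : ↥(GwK S π q)) (c : CwK S π q) :
    jlocK S π hπ hi hs hK hker q ((CwK S π q).ρ g c) =
      (JK S π hπ).ρ (g : Q) (jlocK S π hπ hi hs hK hker q c) :=
  jloc_ρ (H := fun q : ↥S => primeLocalGaloisGroup q.1) π hπ
    (fun q : ↥S => primeLocalToGlobal q.1) (JS S) (fun q : ↥S => XQ q.1) (prQ S) (prQ_rho S)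
    hi (surj_of_jsSurj hs hK hker) q g c

/-- An idele of the level supported at the identity coset of `q` is `jlocK q` of its
component. -/
lemma eq_jlocK_of_supp (q : ↥S) (x : JK S π hπ)
    (hx : ∀ (q' : ↥S) (g : Q), (q' ≠ q ∨ g ∉ GwK S π q) →
      prKS S π hπ q' ((JK S π hπ).ρ g x) = 0) :
    x = jlocK S π hπ hi hs hK hker q (prKS S π hπ q x) :=
  eq_jloc_of_supp (H := fun q : ↥S => primeLocalGaloisGroup q.1) π hπ
    (fun q : ↥S => primeLocalToGlobal q.1) (JS S) (fun q : ↥S => XQ q.1) (prQ S) (prQ_rho S)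
    hi (surj_of_jsSurj hs hK hker) q x hx

/-- `jK q` is equivariant for the decomposition group. -/
lemma jK_ρ (q : ↥S) (g : ↥(GwK S π q)) (c : CwK S π q) :
    jK S π hπ hi hs hK hker q ((CwK S π q).ρ g c) =
      (CK S π hπ).ρ (g : Q) (jK S π hπ hi hs hK hker q c) := by
  change piK S π hπ (jlocK S π hπ hi hs hK hker q ((CwK S π q).ρ g c)) =
    (CK S π hπ).ρ (g : Q) (piK S π hπ (jlocK S π hπ hi hs hK hker q c))
  rw [jlocK_ρ, piK_ρ]

/-- Support compatibility: on ideles supported at the identity coset of `q`, the projection to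
the class module is `jK q` of the component. -/
lemma piK_eq_jK_of_supp (q : ↥S) (x : JK S π hπ)
    (hx : ∀ (q' : ↥S) (g : Q), (q' ≠ q ∨ g ∉ GwK S π q) →
      prKS S π hπ q' ((JK S π hπ).ρ g x) = 0) :
    piK S π hπ x = jK S π hπ hi hs hK hker q (prKS S π hπ q x) :=
  congrArg (piK S π hπ) (eq_jlocK_of_supp S π hπ hi hs hK hker q x hx)

end Clauses

/-! ## The same clauses on an ARBITRARY finite-level model of `JS S` -/

section ModelTop

open Fermat.Agent.CFT.Top.SpinePlan

variable (S : Finset Nat.Primes) {Q : Type} [Group Q] (π : GQ →* Q)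
  (hi : JSInj S) (hs : JSSurj S) {K : IntermediateField ℚ Qb}
  (J' : Rep.{0} ℤ Q) (ιJ : J' →+ JS S)
  (hJ' : Level.IsFiniteLevel (nLevels S) (JS S) K π J' ιJ)

include hJ' in
lemma model_fixed (a : JS S) (ha : ∀ s ∈ π.ker, (JS S).ρ s a = a) : ∃ b : J', ιJ b = a :=
  hJ'.exists_of_fixed a (fun s hs => ha s (hJ'.ker_eq ▸ hs))

/-- The component at `q` on an arbitrary model `(J', ιJ)` of `(JS S)^{G_K}`:
`x ↦ prQ S q (ιJ x)`. -/
def prMS (q : ↥S) : J' →+ CwK S π q :=
  prM (H := fun q : ↥S => primeLocalGaloisGroup q.1) π hJ'.surjective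
    (fun q : ↥S => primeLocalToGlobal q.1) (JS S) (fun q : ↥S => XQ q.1) (prQ S) (prQ_rho S)
    J' ιJ hJ'.equivar q

lemma prMS_coe (q : ↥S) (x : J') :
    ((prMS S π J' ιJ hJ' q x : invSub _ (XQ q.1)) : XQ q.1) = prQ S q (ιJ x) := rfl

/-- The embedding of the local module at the identity coset of `q` into an arbitrary model of
`(JS S)^{G_K}`: the idele with component `c` there and trivial components elsewhere. -/
def jlocMS (q : ↥S) : CwK S π q →+ J' :=
  jlocM (H := fun q : ↥S => primeLocalGaloisGroup q.1) π hJ'.surjective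
    (fun q : ↥S => primeLocalToGlobal q.1) (JS S) (fun q : ↥S => XQ q.1) (prQ S) (prQ_rho S)
    hi (surj_of_jsSurj hs hJ'.isLevel hJ'.ker_eq) J' ιJ hJ'.equivar hJ'.injective
    (model_fixed S π J' ιJ hJ') q

lemma prMS_ρ (q : ↥S) (g : ↥(GwK S π q)) (x : J') :
    prMS S π J' ιJ hJ' q (J'.ρ (g : Q) x) = (CwK S π q).ρ g (prMS S π J' ιJ hJ' q x) :=
  prM_ρ (H := fun q : ↥S => primeLocalGaloisGroup q.1) π hJ'.surjective
    (fun q : ↥S => primeLocalToGlobal q.1) (JS S) (fun q : ↥S => XQ q.1) (prQ S) (prQ_rho S)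
    J' ιJ hJ'.equivar q g x

include hi in
lemma prMS_inj (x : J')
    (hx : ∀ (q : ↥S) (g : Q), prMS S π J' ιJ hJ' q (J'.ρ g x) = 0) : x = 0 :=
  prM_inj (H := fun q : ↥S => primeLocalGaloisGroup q.1) π hJ'.surjective
    (fun q : ↥S => primeLocalToGlobal q.1) (JS S) (fun q : ↥S => XQ q.1) (prQ S) (prQ_rho S)
    hi J' ιJ hJ'.equivar hJ'.injective x hx

include hi hs in
lemma prMS_surj (f : ∀ q : ↥S, Q → CwK S π q)
    (hf : ∀ (q : ↥S) (h : ↥(GwK S π q)) (g : Q), f q ((h : Q) * g) = (CwK S π q).ρ h (f q g)) :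
    ∃ x : J', ∀ (q : ↥S) (g : Q), prMS S π J' ιJ hJ' q (J'.ρ g x) = f q g :=
  prM_surj (H := fun q : ↥S => primeLocalGaloisGroup q.1) π hJ'.surjective
    (fun q : ↥S => primeLocalToGlobal q.1) (JS S) (fun q : ↥S => XQ q.1) (prQ S) (prQ_rho S)
    hi (surj_of_jsSurj hs hJ'.isLevel hJ'.ker_eq) J' ιJ hJ'.equivar
    (model_fixed S π J' ιJ hJ') f hf

/-- Components of `jlocMS q c` on the identity coset of `q`. -/
lemma prMS_jlocMS_mem (q : ↥S) (c : CwK S π q) (g : ↥(GwK S π q)) :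
    prMS S π J' ιJ hJ' q (J'.ρ (g : Q) (jlocMS S π hi hs J' ιJ hJ' q c)) =
      (CwK S π q).ρ g c :=
  prM_jlocM_mem (H := fun q : ↥S => primeLocalGaloisGroup q.1) π hJ'.surjective
    (fun q : ↥S => primeLocalToGlobal q.1) (JS S) (fun q : ↥S => XQ q.1) (prQ S) (prQ_rho S)
    hi (surj_of_jsSurj hs hJ'.isLevel hJ'.ker_eq) J' ιJ hJ'.equivar hJ'.injective
    (model_fixed S π J' ιJ hJ') q c g

/-- Components of `jlocMS q c` away from the identity coset of `q`. -/
lemma prMS_jlocMS_off (q : ↥S) (c : CwK S π q) (q' : ↥S) (g : Q)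
    (h : q' ≠ q ∨ g ∉ GwK S π q) :
    prMS S π J' ιJ hJ' q' (J'.ρ g (jlocMS S π hi hs J' ιJ hJ' q c)) = 0 :=
  prM_jlocM_off (H := fun q : ↥S => primeLocalGaloisGroup q.1) π hJ'.surjective
    (fun q : ↥S => primeLocalToGlobal q.1) (JS S) (fun q : ↥S => XQ q.1) (prQ S) (prQ_rho S)
    hi (surj_of_jsSurj hs hJ'.isLevel hJ'.ker_eq) J' ιJ hJ'.equivar hJ'.injective
    (model_fixed S π J' ιJ hJ') q c q' g h

lemma jlocMS_ρ (q : ↥S) (g : ↥(GwK S π q)) (c : CwK S π q) :
    jlocMS S π hi hs J' ιJ hJ' q ((CwK S π q).ρ g c) =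
      J'.ρ (g : Q) (jlocMS S π hi hs J' ιJ hJ' q c) :=
  jlocM_ρ (H := fun q : ↥S => primeLocalGaloisGroup q.1) π hJ'.surjective
    (fun q : ↥S => primeLocalToGlobal q.1) (JS S) (fun q : ↥S => XQ q.1) (prQ S) (prQ_rho S)
    hi (surj_of_jsSurj hs hJ'.isLevel hJ'.ker_eq) J' ιJ hJ'.equivar hJ'.injective
    (model_fixed S π J' ιJ hJ') q g c

/-- An element of the model supported at the identity coset of `q` is `jlocMS q` of its
component. -/
lemma eq_jlocMS_of_supp (q : ↥S) (x : J')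
    (hx : ∀ (q' : ↥S) (g : Q), (q' ≠ q ∨ g ∉ GwK S π q) →
      prMS S π J' ιJ hJ' q' (J'.ρ g x) = 0) :
    x = jlocMS S π hi hs J' ιJ hJ' q (prMS S π J' ιJ hJ' q x) :=
  eq_jlocM_of_supp (H := fun q : ↥S => primeLocalGaloisGroup q.1) π hJ'.surjective
    (fun q : ↥S => primeLocalToGlobal q.1) (JS S) (fun q : ↥S => XQ q.1) (prQ S) (prQ_rho S)
    hi (surj_of_jsSurj hs hJ'.isLevel hJ'.ker_eq) J' ιJ hJ'.equivar hJ'.injective
    (model_fixed S π J' ιJ hJ') q x hx

/-- **The local data of `Formation.FinDuality` on an arbitrary model.**  For ANY finite-level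
model `(J', ιJ)` of `JS S` at `K`, any `Q`-module `C'` with an equivariant `πJ : J' →+ C'` and
any cocycle `σ` of `C'`: the seven local clauses of `Plan.FinLevelData` / `Formation.FinDuality`
(with `Gw q = GwK S π q = Plan.locImage π q.1`, `Cw q = CwK S π q`, `pr q = prMS q`,
`j q = πJ ∘ jlocMS q`) hold as soon as the local modules carry `p`-class cocycles `σw q` and
**[LG]** holds for `πJ ∘ jlocMS q`. -/
theorem locData_of_model {p : ℕ} [Fact p.Prime] (C' : Rep.{0} ℤ Q) (πJ : J' →+ C')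
    (hπJ : ∀ (g : Q) (x : J'), πJ (J'.ρ g x) = C'.ρ g (πJ x)) (σ : cocycles₂ C')
    (σw : ∀ q : ↥S, cocycles₂ (CwK S π q))
    (hσw : ∀ q, Triv.IsPClassModule p (CwK S π q) (σw q))
    (hLG : ∀ (q : ↥S) (H : Subgroup ↥(GwK S π q)), IsPGroup p H → ∃ b : H → C',
      ∀ g h : H,
        πJ (jlocMS S π hi hs J' ιJ hJ' q (σw q ((g : ↥(GwK S π q)), (h : ↥(GwK S π q))))) =
          σ (((g : ↥(GwK S π q)) : Q), ((h : ↥(GwK S π q)) : Q)) +
            (C'.ρ ((g : ↥(GwK S π q)) : Q) (b h) - b (g * h) + b g)) :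
    ∃ (Cw : ∀ q : ↥S, Rep.{0} ℤ ↥(GwK S π q)) (σw : ∀ q, cocycles₂ (Cw q))
      (pr : ∀ q, J' →+ Cw q) (j : ∀ q, Cw q →+ C'),
      (∀ q, Triv.IsPClassModule p (Cw q) (σw q)) ∧
      (∀ q (g : ↥(GwK S π q)) (x : J'), pr q (J'.ρ (g : Q) x) = (Cw q).ρ g (pr q x)) ∧
      (∀ x : J', (∀ q g, pr q (J'.ρ g x) = 0) → x = 0) ∧
      (∀ f : ∀ q : ↥S, Q → Cw q,
        (∀ q (h : ↥(GwK S π q)) (g : Q), f q ((h : Q) * g) = (Cw q).ρ h (f q g)) →
        ∃ x : J', ∀ q g, pr q (J'.ρ g x) = f q g) ∧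
      (∀ q (g : ↥(GwK S π q)) (c : Cw q), j q ((Cw q).ρ g c) = C'.ρ (g : Q) (j q c)) ∧
      (∀ q (x : J'), (∀ q' g, (q' ≠ q ∨ g ∉ GwK S π q) → pr q' (J'.ρ g x) = 0) →
        πJ x = j q (pr q x)) ∧
      (∀ q (H : Subgroup ↥(GwK S π q)), IsPGroup p H → ∃ b : H → C', ∀ g h : H,
        j q (σw q ((g : ↥(GwK S π q)), (h : ↥(GwK S π q)))) =
          σ (((g : ↥(GwK S π q)) : Q), ((h : ↥(GwK S π q)) : Q)) +
            (C'.ρ ((g : ↥(GwK S π q)) : Q) (b h) - b (g * h) + b g)) := by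
  refine ⟨CwK S π, σw, prMS S π J' ιJ hJ',
    fun q => πJ.comp (jlocMS S π hi hs J' ιJ hJ' q), hσw, prMS_ρ S π J' ιJ hJ',
    prMS_inj S π hi J' ιJ hJ', prMS_surj S π hi hs J' ιJ hJ', ?_, ?_, hLG⟩
  · intro q g c
    change πJ (jlocMS S π hi hs J' ιJ hJ' q ((CwK S π q).ρ g c)) =
      C'.ρ (g : Q) (πJ (jlocMS S π hi hs J' ιJ hJ' q c))
    rw [jlocMS_ρ, hπJ]
  · intro q x hx
    exact congrArg πJ (eq_jlocMS_of_supp S π hi hs J' ιJ hJ' q x hx)

end ModelTop

/-! ## The arithmetic core and the reduction of `Plan.FinLevelData` to it -/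

section Core

open Fermat.Agent.CFT.Top.SpinePlan

/-- **The arithmetic core of [TOPBRIDGE] at the level `K`** (everything in `Plan.FinLevelData`
that is class field theory), on the canonical models `CK = (CS S)^{G_K}`, `CwK q`:
* (A1) a `p`-class cocycle `σ` on `CK`;
* (A2) [EX] for `U = π(G_F)`;
* (A3) `p`-class cocycles `σw q` on the local modules `CwK q`;
* (A4) [LG]: on every `p`-subgroup of the decomposition group, `jK q ∘ σw q` and `σ` are
  cohomologous. -/
def ArithCore (S : Finset Nat.Primes) (p : ℕ) [Fact p.Prime] (F : IntermediateField ℚ Qb)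
    {Q : Type} [Group Q] (π : GQ →* Q) (hπ : Function.Surjective π) (hi : JSInj S)
    (hs : JSSurj S) {K : IntermediateField ℚ Qb} (hK : IsNLevel S K)
    (hker : π.ker = K.fixingSubgroup) : Prop :=
  ∃ σ : cocycles₂ (CK S π hπ),
    Triv.IsPClassModule p (CK S π hπ) σ ∧
    (∀ c : CK S π hπ, ∃ c' : CK S π hπ,
      (∀ u ∈ F.fixingSubgroup.map π, (CK S π hπ).ρ u c' = c') ∧
      ∑ᶠ u : ↥(F.fixingSubgroup.map π), (CK S π hπ).ρ (u : Q) c = p • c') ∧
    ∃ σw : ∀ q : ↥S, cocycles₂ (CwK S π q),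
      (∀ q, Triv.IsPClassModule p (CwK S π q) (σw q)) ∧
      (∀ (q : ↥S) (H : Subgroup ↥(GwK S π q)), IsPGroup p H → ∃ b : H → CK S π hπ,
        ∀ g h : H,
          jK S π hπ hi hs hK hker q (σw q ((g : ↥(GwK S π q)), (h : ↥(GwK S π q)))) =
            σ (((g : ↥(GwK S π q)) : Q), ((h : ↥(GwK S π q)) : Q)) +
              ((CK S π hπ).ρ ((g : ↥(GwK S π q)) : Q) (b h) - b (g * h) + b g))

/-- **The formal part of [TOPBRIDGE].**  For any finite model `π : GQ →* Q` of `Gal(K/ℚ)`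
(`π` onto, `ker π = Gal(ℚ̄/K)`, `K` a normal `S`-level) the arithmetic core on the canonical
models gives `Plan.FinLevelData S p F K`. -/
theorem finLevelData_of_core {S : Finset Nat.Primes} {p : ℕ} [Fact p.Prime]
    {F K : IntermediateField ℚ Qb} {Q : Type} [Group Q] [Finite Q] (π : GQ →* Q)
    (hπ : Function.Surjective π) (hi : JSInj S) (hs : JSSurj S) (hK : IsNLevel S K)
    (hker : π.ker = K.fixingSubgroup) (core : ArithCore S p F π hπ hi hs hK hker) :
    Plan.FinLevelData S p F K := by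
  obtain ⟨σ, hσ, hEX, σw, hσw, hLG⟩ := core
  exact ⟨Q, ‹Group Q›, ‹Finite Q›, π, CK S π hπ, JK S π hπ, invIncl π (CS S) hπ,
    invIncl π (JS S) hπ, piK S π hπ, σ,
    isFiniteLevel_invRep π (CS S) hπ (nLevels S) K hK hker,
    isFiniteLevel_invRep π (JS S) hπ (nLevels S) K hK hker,
    invIncl_piK S π hπ, hσ, hEX,
    GwK S π, CwK S π, σw, prKS S π hπ, jK S π hπ hi hs hK hker,
    fun _ => rfl, hσw,
    prKS_ρ S π hπ, prKS_inj S π hπ hi, prKS_surj S π hπ hi hs hK hker,
    jK_ρ S π hπ hi hs hK hker, piK_eq_jK_of_supp S π hπ hi hs hK hker, hLG⟩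

/-- [TOPBRIDGE] from the arithmetic cores at cofinally many levels. -/
theorem arithDual_of_core {S : Finset Nat.Primes} {p : ℕ} [Fact p.Prime]
    {F : IntermediateField ℚ Qb} (hi : JSInj S) (hs : JSSurj S)
    (h : ∀ K₁ : IntermediateField ℚ Qb, IsNLevel S K₁ → F ≤ K₁ →
      ∃ (K : IntermediateField ℚ Qb) (hK : IsNLevel S K), K₁ ≤ K ∧
        ∃ (Q : Type) (_ : Group Q) (_ : Finite Q) (π : GQ →* Q) (hπ : Function.Surjective π)
          (hker : π.ker = K.fixingSubgroup), ArithCore S p F π hπ hi hs hK hker) :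
    Plan.ArithDual S p F := by
  intro K₁ hK₁ hF
  obtain ⟨K, hK, hle, Q, _, _, π, hπ, hker, core⟩ := h K₁ hK₁ hF
  exact ⟨K, hK, hle, finLevelData_of_core π hπ hi hs hK hker core⟩

/-- A finite model of `Gal(K/ℚ)` exists for every normal `S`-level `K` (the quotient group). -/
theorem exists_model {S : Finset Nat.Primes} {K : IntermediateField ℚ Qb} (hK : IsNLevel S K) :
    ∃ (Q : Type) (_ : Group Q) (_ : Finite Q) (π : GQ →* Q),
      Function.Surjective π ∧ π.ker = K.fixingSubgroup := by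
  have hfd : FiniteDimensional ℚ K := hK.1.1
  have hnorm : K.fixingSubgroup.Normal := hK.2
  have hgal : IsGalois ℚ K := (InfiniteGalois.normal_iff_isGalois K).1 hnorm
  have hfi : K.fixingSubgroup.FiniteIndex := (Level.fixingSubgroup_normal_finiteIndex K).2
  exact ⟨GQ ⧸ K.fixingSubgroup, inferInstance, inferInstance, QuotientGroup.mk' K.fixingSubgroup,
    QuotientGroup.mk'_surjective _, QuotientGroup.ker_mk' _⟩

end Core

end Fermat.Agent.CFT.Top.FinModel

end
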