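import Mathlib
import Fermat.Prelude.Def_GroupCohomology_ContinuousUnramified
import Fermat.Agent.CFT.Level.Bridge

/-!
# P3 (class field theory program), layer L10 (Top): definitions

Real definitions (no statements) for the Poitou–Tate top layer.  `Qb = ℚ̄`, `GQ = Gal(ℚ̄/ℚ)`.

* `nLevels S`        : the NORMAL `S`-levels of `GQ` (Galois `S`-unramified number fields);
* `smoothSub S A`, `smoothPart S A` : the vectors of `A : Rep k GQ` fixed by some normal `S`-level;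
* `Tq q = ℚ̄ ⊗[ℚ] ℚ_q` with `GQ` acting on the left factor;
* `JFull S = ∏_{q ∈ S} (Tq q)ˣ` and `JS S = smoothPart S (JFull S)`
  (`= ∏_{q ∈ S} (ℚ_S ⊗ ℚ_q)ˣ = colim_F ∏_{w | S} F_wˣ`, the `S`-ideles of `ℚ_S`);
* `esSub S ≤ JS S`  : the diagonal image of the `S`-units of `ℚ_S`;  `ES S`, `CS S = JS S / ES S`
  with `0 → ES S → JS S → CS S → 0` exact BY CONSTRUCTION (`esIncl`, `jsProj`);
* `R0 F A = ℤ[GQ/G_F × A] → A` (`aug`), `R1 F A = ker` : the level-`F` permutation resolution of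
  a representation `A` (diagonal action; `ℤ[G/G_F]`-free when `G_F` is normal and acts trivially);
* `resC`, `piJ` : the two maps `Hom_G(R0, C) → Hom_G(R1, C) ← Hom_G(R1, J)` of the spine;
* `IsGoodLevel`, `IsInflFrom` : the levels used by the directed-union count.
-/

set_option autoImplicit false

open CategoryTheory
open scoped TensorProduct

noncomputable section

namespace Fermat.Agent.CFT.Top

/-- `ℚ̄`. -/
abbrev Qb : Type := AlgebraicClosure ℚ

/-- `Gal(ℚ̄/ℚ)`. -/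
abbrev GQ : Type := AlgebraicClosure ℚ ≃ₐ[ℚ] AlgebraicClosure ℚ

/-! ## Normal `S`-levels and smooth vectors -/

/-- `F` is a normal `S`-level: finite over `ℚ`, unramified outside `S` (Prelude sense) and
`Gal(ℚ̄/F)` is normal in `GQ`. -/
def IsNLevel (S : Finset Nat.Primes) (F : IntermediateField ℚ Qb) : Prop :=
  F.IsUnramifiedOutside S ∧ F.fixingSubgroup.Normal

lemma isNLevel_bot (S : Finset Nat.Primes) : IsNLevel S ⊥ := by
  refine ⟨IntermediateField.isUnramifiedOutside_bot S, ?_⟩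
  rw [IntermediateField.fixingSubgroup_bot]
  infer_instance

lemma IsNLevel.sup {S : Finset Nat.Primes} {F F' : IntermediateField ℚ Qb}
    (hF : IsNLevel S F) (hF' : IsNLevel S F') : IsNLevel S (F ⊔ F') := by
  refine ⟨hF.1.sup hF'.1, ?_⟩
  rw [IntermediateField.fixingSubgroup_sup]
  have := hF.2
  have := hF'.2
  infer_instance

/-- The level system of normal `S`-levels. -/
def nLevels (S : Finset Nat.Primes) : Level.LevelSys GQ where
  ι := IntermediateField ℚ Qb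
  P := IsNLevel S
  N := fun F => F.fixingSubgroup
  nonempty := ⟨⊥, isNLevel_bot S⟩
  directed := fun F F' hF hF' => ⟨F ⊔ F', hF.sup hF', by
    rw [IntermediateField.fixingSubgroup_sup]⟩

section Smooth

variable (S : Finset Nat.Primes) {k : Type} [CommRing k] (A : Rep k GQ)

/-- The `S`-smooth vectors: those fixed by `Gal(ℚ̄/F)` for some normal `S`-level `F`. -/
def smoothSub : Submodule k A where
  carrier := {a | ∃ F : IntermediateField ℚ Qb, IsNLevel S F ∧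
    ∀ s ∈ F.fixingSubgroup, A.ρ s a = a}
  add_mem' := by
    rintro a b ⟨F, hF, ha⟩ ⟨F', hF', hb⟩
    refine ⟨F ⊔ F', hF.sup hF', fun s hs => ?_⟩
    rw [IntermediateField.fixingSubgroup_sup] at hs
    rw [map_add, ha s hs.1, hb s hs.2]
  zero_mem' := ⟨⊥, isNLevel_bot S, fun s _ => map_zero _⟩
  smul_mem' := by
    rintro c a ⟨F, hF, ha⟩
    exact ⟨F, hF, fun s hs => by rw [map_smul, ha s hs]⟩

lemma mem_smoothSub_iff (a : A) : a ∈ smoothSub S A ↔
    ∃ F : IntermediateField ℚ Qb, IsNLevel S F ∧ ∀ s ∈ F.fixingSubgroup, A.ρ s a = a :=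
  Iff.rfl

lemma smoothSub_le_comap (g : GQ) : smoothSub S A ≤ (smoothSub S A).comap (A.ρ g) := by
  rintro a ⟨F, hF, ha⟩
  refine ⟨F, hF, fun s hs => ?_⟩
  have h1 : g⁻¹ * s * g ∈ F.fixingSubgroup := by
    have := hF.2.conj_mem s hs g⁻¹
    simpa using this
  have h2 := ha _ h1
  rw [map_mul, map_mul, Module.End.mul_apply, Module.End.mul_apply] at h2
  have h3 := congrArg (A.ρ g) h2
  rw [← Module.End.mul_apply, ← map_mul, mul_inv_cancel, map_one, Module.End.one_apply] at h3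
  exact h3

/-- The smooth part of a representation of `GQ`, as a representation. -/
abbrev smoothPart : Rep k GQ :=
  Rep.of (A.ρ.subrepresentation (smoothSub S A) (smoothSub_le_comap S A))

/-- The inclusion of the smooth part. -/
def smoothIncl : smoothPart S A ⟶ A :=
  Rep.ofHom ((smoothSub S A).subtype.intertwiningMap_of_isIntertwiningMap _ _ (fun _ _ => rfl))

end Smooth

/-! ## The semilocal algebras and the `S`-ideles of `ℚ_S` -/

/-- A prime `q : Nat.Primes` is prime (instance, so that `ℚ_[q]` makes sense). -/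
instance primesFact (q : Nat.Primes) : Fact (q : ℕ).Prime := ⟨q.2⟩

/-- `ℚ̄ ⊗[ℚ] ℚ_q`. -/
abbrev Tq (q : Nat.Primes) : Type := Qb ⊗[ℚ] ℚ_[(q : ℕ)]

/-- `GQ` acts on `ℚ̄ ⊗ ℚ_q` through the left factor. -/
def tqHom (q : Nat.Primes) : GQ →* (Tq q →ₐ[ℚ] Tq q) where
  toFun σ := Algebra.TensorProduct.map (σ : Qb →ₐ[ℚ] Qb) (AlgHom.id ℚ ℚ_[(q : ℕ)])
  map_one' := by
    ext <;> simp
  map_mul' σ τ := by
    ext <;> simp

instance tqAction (q : Nat.Primes) : MulSemiringAction GQ (Tq q) where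
  smul σ t := tqHom q σ t
  one_smul t := by
    change tqHom q 1 t = t
    rw [map_one]; rfl
  mul_smul σ τ t := by
    change tqHom q (σ * τ) t = tqHom q σ (tqHom q τ t)
    rw [map_mul]; rfl
  smul_zero σ := map_zero (tqHom q σ)
  smul_add σ := map_add (tqHom q σ)
  smul_one σ := map_one (tqHom q σ)
  smul_mul σ := map_mul (tqHom q σ)

lemma tq_smul_tmul (q : Nat.Primes) (σ : GQ) (x : Qb) (y : ℚ_[(q : ℕ)]) :
    σ • (x ⊗ₜ[ℚ] y : Tq q) = (σ x) ⊗ₜ[ℚ] y := rfl

instance tqUnitsAction (q : Nat.Primes) : MulDistribMulAction GQ (Tq q)ˣ :=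
  Units.mulDistribMulActionRight

lemma tq_units_smul_val (q : Nat.Primes) (σ : GQ) (u : (Tq q)ˣ) :
    ((σ • u : (Tq q)ˣ) : Tq q) = σ • (u : Tq q) := rfl

instance jFullAction (S : Finset Nat.Primes) : MulDistribMulAction GQ (∀ q : ↥S, (Tq q.1)ˣ) :=
  Pi.mulDistribMulAction GQ

instance jFullSMul (S : Finset Nat.Primes) : SMul GQ (∀ q : ↥S, (Tq q.1)ˣ) :=
  (jFullAction S).toSMul

lemma jFull_smul_apply (S : Finset Nat.Primes) (σ : GQ) (u : ∀ q : ↥S, (Tq q.1)ˣ) (q : ↥S) :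
    (σ • u) q = σ • u q := rfl

/-- `∏_{q ∈ S} (ℚ̄ ⊗ ℚ_q)ˣ` as a `ℤ[GQ]`-module. -/
abbrev JFull (S : Finset Nat.Primes) : Rep ℤ GQ :=
  Rep.ofMulDistribMulAction GQ (∀ q : ↥S, (Tq q.1)ˣ)

/-- The `S`-ideles of `ℚ_S`: `∏_{q ∈ S} (ℚ_S ⊗ ℚ_q)ˣ`. -/
abbrev JS (S : Finset Nat.Primes) : Rep ℤ GQ := smoothPart S (JFull S)

/-! ## `S`-units and the class module -/

/-- `x ∈ ℚ̄` is `S`-integral: `N ^ k * x` is an algebraic integer for some `k`,
`N = ∏_{q ∈ S} q`. -/
def IsSInt (S : Finset Nat.Primes) (x : Qb) : Prop :=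
  ∃ k : ℕ, IsIntegral ℤ ((((∏ q ∈ S, (q : ℕ) : ℕ) : Qb)) ^ k * x)

/-- The diagonal map `ℚ̄ˣ → ∏_{q ∈ S} (ℚ̄ ⊗ ℚ_q)ˣ`, `x ↦ (x ⊗ 1)_q`. -/
def diag (S : Finset Nat.Primes) : Qbˣ →* (∀ q : ↥S, (Tq q.1)ˣ) :=
  MonoidHom.pi fun q =>
    Units.map ((Algebra.TensorProduct.includeLeft : Qb →ₐ[ℚ] Tq q.1) : Qb →* Tq q.1)

lemma diag_apply_val (S : Finset Nat.Primes) (x : Qbˣ) (q : ↥S) :
    ((diag S x q : (Tq q.1)ˣ) : Tq q.1) = (x : Qb) ⊗ₜ[ℚ] (1 : ℚ_[(q.1 : ℕ)]) := rfl

/-- The diagonal map is `GQ`-equivariant. -/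
lemma diag_map (S : Finset Nat.Primes) (g : GQ) (x : Qbˣ) :
    diag S (Units.map ((g : Qb →ₐ[ℚ] Qb) : Qb →* Qb) x) = g • diag S x := by
  funext q
  apply Units.ext
  rfl

lemma IsSInt.mul {S : Finset Nat.Primes} {x y : Qb} (hx : IsSInt S x) (hy : IsSInt S y) :
    IsSInt S (x * y) := by
  obtain ⟨k, hk⟩ := hx
  obtain ⟨l, hl⟩ := hy
  refine ⟨k + l, ?_⟩
  have h := hk.mul hl
  have e : (((∏ q ∈ S, (q : ℕ) : ℕ) : Qb)) ^ (k + l) * (x * y) =
      (((∏ q ∈ S, (q : ℕ) : ℕ) : Qb)) ^ k * x * ((((∏ q ∈ S, (q : ℕ) : ℕ) : Qb)) ^ l * y) := by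
    ring
  rw [e]
  exact h

lemma isSInt_one (S : Finset Nat.Primes) : IsSInt S (1 : Qb) :=
  ⟨0, by simpa using isIntegral_one⟩

lemma IsSInt.map {S : Finset Nat.Primes} {x : Qb} (hx : IsSInt S x) (g : GQ) :
    IsSInt S (g x) := by
  obtain ⟨k, hk⟩ := hx
  refine ⟨k, ?_⟩
  have h := map_isIntegral_int g hk
  rwa [map_mul, map_pow, map_natCast] at h

/-- The `S`-units of `ℚ̄`: `x` and `x⁻¹` are `S`-integral. -/
def sUnits (S : Finset Nat.Primes) : Subgroup Qbˣ where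
  carrier := {x | IsSInt S (x : Qb) ∧ IsSInt S ((x⁻¹ : Qbˣ) : Qb)}
  mul_mem' := by
    rintro x y ⟨hx, hx'⟩ ⟨hy, hy'⟩
    refine ⟨by simpa using hx.mul hy, ?_⟩
    have := hx'.mul hy'
    rw [mul_inv]
    simpa using this
  one_mem' := ⟨by simpa using isSInt_one S, by simpa using isSInt_one S⟩
  inv_mem' := by
    rintro x ⟨hx, hx'⟩
    exact ⟨hx', by simpa using hx⟩

lemma mem_sUnits_iff (S : Finset Nat.Primes) (x : Qbˣ) :
    x ∈ sUnits S ↔ IsSInt S (x : Qb) ∧ IsSInt S ((x⁻¹ : Qbˣ) : Qb) := Iff.rfl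

lemma map_mem_sUnits {S : Finset Nat.Primes} {x : Qbˣ} (hx : x ∈ sUnits S) (g : GQ) :
    Units.map ((g : Qb →ₐ[ℚ] Qb) : Qb →* Qb) x ∈ sUnits S := by
  refine ⟨hx.1.map g, ?_⟩
  have := hx.2.map g
  rw [← map_inv]
  exact this

/-- The diagonal image of the `S`-units inside the `S`-ideles of `ℚ_S` (those `S`-units of `ℚ̄`
whose diagonal image is smooth, i.e. the `S`-units of `ℚ_S` when `S ≠ ∅`). -/
def esSub (S : Finset Nat.Primes) : Submodule ℤ (JS S) :=
  AddSubgroup.toIntSubmodule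
    { carrier := {j | ∃ x ∈ sUnits S, Additive.ofMul (diag S x) = (j : JFull S)}
      add_mem' := by
        rintro a b ⟨x, hx, hxa⟩ ⟨y, hy, hyb⟩
        refine ⟨x * y, mul_mem hx hy, ?_⟩
        rw [map_mul, ofMul_mul, hxa, hyb]
        rfl
      zero_mem' := ⟨1, one_mem _, by rw [map_one]; rfl⟩
      neg_mem' := by
        rintro a ⟨x, hx, hxa⟩
        refine ⟨x⁻¹, inv_mem hx, ?_⟩
        rw [map_inv, ofMul_inv, hxa]
        rfl }

lemma mem_esSub_iff (S : Finset Nat.Primes) (j : JS S) :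
    j ∈ esSub S ↔ ∃ x ∈ sUnits S, Additive.ofMul (diag S x) = (j : JFull S) := Iff.rfl

lemma esSub_le_comap (S : Finset Nat.Primes) (g : GQ) :
    esSub S ≤ (esSub S).comap ((JS S).ρ g) := by
  rintro j ⟨x, hx, hxj⟩
  refine ⟨Units.map ((g : Qb →ₐ[ℚ] Qb) : Qb →* Qb) x, map_mem_sUnits hx g, ?_⟩
  rw [diag_map]
  change Additive.ofMul (g • diag S x) = (JFull S).ρ g (j : JFull S)
  rw [← hxj]
  rfl

/-- The `S`-units of `ℚ_S`, as a `ℤ[GQ]`-module (a submodule of `JS S`). -/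
abbrev ES (S : Finset Nat.Primes) : Rep ℤ GQ :=
  Rep.of ((JS S).ρ.subrepresentation (esSub S) (esSub_le_comap S))

/-- The class module `C_S = J_S / E_S`. -/
abbrev CS (S : Finset Nat.Primes) : Rep ℤ GQ :=
  Rep.of (X := (JS S) ⧸ esSub S) ((JS S).ρ.quotient (esSub S) (esSub_le_comap S))

/-- `E_S → J_S`. -/
def esIncl (S : Finset Nat.Primes) : ES S ⟶ JS S :=
  Rep.ofHom ((esSub S).subtype.intertwiningMap_of_isIntertwiningMap _ _ (fun _ _ => rfl))

/-- `J_S → C_S`. -/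
def jsProj (S : Finset Nat.Primes) : JS S ⟶ CS S :=
  Rep.ofHom ((esSub S).mkQ.intertwiningMap_of_isIntertwiningMap _ _ (fun _ _ => rfl))

/-! ## The level-`F` permutation resolution of a representation -/

section Resolution

variable {k : Type} [CommRing k] (F : IntermediateField ℚ Qb) (A : Rep.{0} k GQ)

/-- The basis of `R0 F A`: pairs (coset of `Gal(ℚ̄/F)`, element of `A`). -/
abbrev R0Basis : Type := (GQ ⧸ F.fixingSubgroup) × A.V

/-- `GQ` permutes the basis diagonally. -/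
def r0Rho : Representation ℤ GQ (R0Basis F A →₀ ℤ) where
  toFun g := Finsupp.lmapDomain ℤ ℤ (fun x : R0Basis F A => (g • x.1, A.ρ g x.2))
  map_one' := by
    ext x
    simp
  map_mul' g h := by
    ext x
    simp [mul_smul]

lemma r0Rho_single (g : GQ) (x : R0Basis F A) (n : ℤ) :
    r0Rho F A g (Finsupp.single x n) = Finsupp.single (g • x.1, A.ρ g x.2) n := by
  simp [r0Rho]

/-- `R0 F A = ℤ[GQ/G_F × A]`, the level-`F` permutation lattice over `A`. -/
abbrev R0 : Rep ℤ GQ := Rep.of (r0Rho F A)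

/-- The augmentation `R0 F A → A`, `(x, a) ↦ a`. -/
def aug : (R0Basis F A →₀ ℤ) →ₗ[ℤ] A.V :=
  Finsupp.linearCombination ℤ (fun x : R0Basis F A => x.2)

lemma aug_single (x : R0Basis F A) (n : ℤ) : aug F A (Finsupp.single x n) = n • x.2 := by
  simp [aug]

lemma aug_r0Rho (g : GQ) (r : R0Basis F A →₀ ℤ) :
    aug F A (r0Rho F A g r) = A.ρ g (aug F A r) := by
  induction r using Finsupp.induction_linear with
  | zero => simp
  | add x y hx hy => simp only [map_add, hx, hy]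
  | single x n => rw [r0Rho_single, aug_single, aug_single, map_zsmul]

/-- `R1 F A = ker (R0 F A → A)` as a submodule. -/
def r1Sub : Submodule ℤ (R0Basis F A →₀ ℤ) := LinearMap.ker (aug F A)

lemma r1Sub_le_comap (g : GQ) : r1Sub F A ≤ (r1Sub F A).comap (r0Rho F A g) := by
  intro r hr
  change aug F A (r0Rho F A g r) = 0
  rw [aug_r0Rho, show aug F A r = 0 from hr, map_zero]

/-- `R1 F A = ker (R0 F A → A)`. -/
abbrev R1 : Rep ℤ GQ := Rep.of ((r0Rho F A).subrepresentation (r1Sub F A) (r1Sub_le_comap F A))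

/-- The inclusion `R1 F A → R0 F A`. -/
def r1Incl : R1 F A ⟶ R0 F A :=
  Rep.ofHom ((r1Sub F A).subtype.intertwiningMap_of_isIntertwiningMap _ _ (fun _ _ => rfl))

variable (S : Finset Nat.Primes)

/-- Restriction `Hom_G(R0, C_S) → Hom_G(R1, C_S)`. -/
def resC : (R0 F A ⟶ CS S) →+ (R1 F A ⟶ CS S) :=
  Preadditive.leftComp (CS S) (r1Incl F A)

/-- Projection `Hom_G(R1, J_S) → Hom_G(R1, C_S)`. -/
def piJ : (R1 F A ⟶ JS S) →+ (R1 F A ⟶ CS S) :=
  Preadditive.rightComp (R1 F A) (jsProj S)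

lemma resC_apply (h : R0 F A ⟶ CS S) : resC F A S h = r1Incl F A ≫ h := rfl

lemma piJ_apply (g : R1 F A ⟶ JS S) : piJ F A S g = g ≫ jsProj S := rfl

end Resolution

/-! ## Good levels and classes inflated from a level -/

/-- `F` is a good level for `(S, A, p)`: a normal `S`-level whose Galois group acts trivially
on `A` and on `μ_p`. -/
def IsGoodLevel (S : Finset Nat.Primes) {k : Type} [CommRing k] (A : Rep.{0} k GQ) (p : ℕ)
    [Fact p.Prime] (F : IntermediateField ℚ Qb) : Prop :=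
  IsNLevel S F ∧ (∀ s ∈ F.fixingSubgroup, A.ρ s = 1) ∧
    F.fixingSubgroup ≤ (ExtCitation.cycloChar p).ker

/-- The class `x ∈ H²(G_S, M)` is inflated from level `F`: it has a 2-cocycle representative
that is constant on the cosets of `Gal(ℚ̄/F)` in both variables. -/
def IsInflFrom (S : Finset Nat.Primes) {k : Type} [CommRing k] (M : Rep.{0} k GQ)
    (F : IntermediateField ℚ Qb) (x : groupCohomology.continuousH2S S M) : Prop :=
  ∃ c : groupCohomology.levelCocyclesS₂ S M,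
    (∀ g g' s s', s ∈ F.fixingSubgroup → s' ∈ F.fixingSubgroup →
      (c : GQ × GQ → M) (g * s, g' * s') = (c : GQ × GQ → M) (g, g')) ∧
    groupCohomology.continuousH2Sπ S M c = x

end Fermat.Agent.CFT.Top

end
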