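import Fermat.Agent.CFT.Level.QuotModel
import Fermat.Agent.CFT.Top.Defs
import Fermat.Agent.Lib.InertiaGlue
import Fermat.Agent.CFT.Bridge.PlaceDict

/-!
# P3 / Top layer: finite-level models of `G_ℚ`-modules at a normal `S`-level

For a normal `S`-level `K` (`IsNLevel S K`) and any `A : Rep k GQ`:

* `IsNLevel.isGalois`, `IsNLevel.finiteDimensional` : `K/ℚ` is finite Galois;
* `isFiniteLevel_gal` : `(Gal(K/ℚ), A^{G_K})` with `π = AlgEquiv.restrictNormalHom K` is a model
  of the level `K` of `nLevels S` (`Level.IsFiniteLevel`);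
* `isFiniteLevel_quot` : the same with `Q = GQ ⧸ G_K`;
* `galModelMap` : the map induced on the models by an equivariant additive map.
-/

set_option autoImplicit false

open CategoryTheory

noncomputable section

namespace Fermat.Agent.CFT.Top

attribute [local instance] Fermat.Agent.Lib.InertiaGlue.isGalois_rat_Qb

/-- `ℚ̄/ℚ` is normal. -/
theorem normal_rat_Qb : Normal ℚ Qb := inferInstance

attribute [local instance] normal_rat_Qb

variable {S : Finset Nat.Primes} {K : IntermediateField ℚ Qb}

lemma IsNLevel.finiteDimensional (hK : IsNLevel S K) : FiniteDimensional ℚ K := hK.1.1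

lemma IsNLevel.isGalois (hK : IsNLevel S K) : IsGalois ℚ K :=
  (InfiniteGalois.normal_iff_isGalois K).1 hK.2

lemma IsNLevel.normal (hK : IsNLevel S K) : Normal ℚ K :=
  have := hK.isGalois
  IsGalois.to_normal

/-- The kernel of `G_ℚ → Gal(K/ℚ)` is `G_K`. -/
lemma ker_restrictNormalHom (K : IntermediateField ℚ Qb) [Normal ℚ K] :
    (AlgEquiv.restrictNormalHom K : GQ →* (K ≃ₐ[ℚ] K)).ker = K.fixingSubgroup := by
  ext σ
  rw [MonoidHom.mem_ker]
  exact PlaceDict.res_eq_one_iff K σ

variable {k : Type} [CommRing k] (A : Rep.{0} k GQ)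

/-- `A^{G_K}` as a `Gal(K/ℚ)`-module. -/
abbrev galModel (K : IntermediateField ℚ Qb) [Normal ℚ K] : Rep.{0} k (K ≃ₐ[ℚ] K) :=
  Level.kerModel A (AlgEquiv.restrictNormalHom K) (AlgEquiv.restrictNormalHom_surjective Qb)

/-- The inclusion `A^{G_K} → A`. -/
abbrev galModelIncl (K : IntermediateField ℚ Qb) [Normal ℚ K] : (galModel A K) →+ A :=
  Level.kerModelIncl A (AlgEquiv.restrictNormalHom K) (AlgEquiv.restrictNormalHom_surjective Qb)

/-- The map of Galois models induced by an equivariant additive map (mixed rings). -/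
abbrev galModelMap {k' : Type} [CommRing k'] {A' : Rep.{0} k' GQ} (K : IntermediateField ℚ Qb)
    [Normal ℚ K] (f : A →+ A') (hf : Level.Equivar (MonoidHom.id GQ) A A' f) :
    (galModel A K) →+ (galModel A' K) :=
  Level.kerModelMap A (AlgEquiv.restrictNormalHom K) (AlgEquiv.restrictNormalHom_surjective Qb)
    f hf

lemma galModelIncl_galModelMap {k' : Type} [CommRing k'] {A' : Rep.{0} k' GQ}
    (K : IntermediateField ℚ Qb) [Normal ℚ K] (f : A →+ A')
    (hf : Level.Equivar (MonoidHom.id GQ) A A' f) (b : galModel A K) :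
    galModelIncl A' K (galModelMap A K f hf b) = f (galModelIncl A K b) := rfl

/-- **The Galois model**: `(Gal(K/ℚ), A^{G_K})` is a finite-level model of `A` at the normal
`S`-level `K`. -/
theorem isFiniteLevel_gal (hK : IsNLevel S K) [Normal ℚ K] :
    Level.IsFiniteLevel (nLevels S) A K (AlgEquiv.restrictNormalHom K) (galModel A K)
      (galModelIncl A K) :=
  Level.isFiniteLevel_kerModel A _ _ (nLevels S) K hK (ker_restrictNormalHom K)

/-- **The quotient model**: `(GQ ⧸ G_K, A^{G_K})`. -/
theorem isFiniteLevel_quot (hK : IsNLevel S K) :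
    haveI : K.fixingSubgroup.Normal := hK.2
    Level.IsFiniteLevel (nLevels S) A K (QuotientGroup.mk' K.fixingSubgroup)
      (A.quotientToInvariants K.fixingSubgroup) (Level.quotInvIncl A K.fixingSubgroup) :=
  haveI : ((nLevels S).N K).Normal := hK.2
  Level.isFiniteLevel_quotient (nLevels S) A K hK

/-- `Gal(K/ℚ)` is finite for a normal `S`-level. -/
lemma IsNLevel.finite_gal (hK : IsNLevel S K) : Finite (K ≃ₐ[ℚ] K) :=
  have := hK.finiteDimensional
  inferInstance

end Fermat.Agent.CFT.Top

end
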