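import Fermat.Agent.CFT.Top.Semilocal
import Fermat.Agent.CFT.Top.SpinePlan

/-!
# P3 / Top layer: the [JSCOIND] contracts of `Top/SpinePlan.lean`, proved

`jsInj S : SpinePlan.JSInj S` and `jsSurj S : SpinePlan.JSSurj S`, from `Top/Semilocal.lean`
(`jFull_ext`, `exists_jS`).
-/

set_option autoImplicit false

namespace Fermat.Agent.CFT.Top.Semilocal

open ExtCitation

/-- **[JSCOIND] (injectivity)**, in the shape of `Top/SpinePlan.lean`. -/
theorem jsInj (S : Finset Nat.Primes) : SpinePlan.JSInj S := by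
  intro j hj
  refine Subtype.ext (jFull_ext S (j : JFull S) (0 : JFull S) fun q g => ?_)
  have h1 := hj q g
  have h2 : prFull S q ((JFull S).ρ g (j : JFull S)) = 0 := h1
  rw [h2, map_zero, map_zero]

/-- **[JSCOIND] (surjectivity)**, in the shape of `Top/SpinePlan.lean`. -/
theorem jsSurj (S : Finset Nat.Primes) : SpinePlan.JSSurj S := by
  intro F' hF' B hb ha
  obtain ⟨j, hj, -⟩ := exists_jS S F' hF' B (fun q g n hn => ha q g n hn) hb
  exact ⟨j, hj⟩

end Fermat.Agent.CFT.Top.Semilocal
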