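import Fermat.Agent.CFT.Top.LocDict
import Fermat.Agent.CFT.Top.FinModel
import Fermat.Agent.CFT.Top.SemilocalProvide
import Fermat.Agent.CFT.Top.GQModel
import Fermat.Agent.CFT.Global.OrbitProjBij

/-!
# P3 / [TOPBRIDGE]: [LOCDICT] (iii) — the block of the distinguished place is `CwK q`

Setting: a field model `(Q, L, π, e)` of a normal `S`-level `K` (`e : L →+* ℚ̄` with image `K`,
`π : GQ →* Q` onto with kernel `Gal(ℚ̄/K)`, compatible actions), `m_q = ker (thetaL q e)` the
maximal ideal of `L ⊗ ℚ_q` at the place fixed by the Prelude, and the field model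
`J' = Global.sIdeleRep Q L S`, `ιJ = Semilocal.jsModel S e Q K hK he` of `JS S` at the level `K`.

* `atUnits e q` : the units of `L ⊗ ℚ_q` which are `≡ 1` modulo every maximal ideal `≠ m_q`;
  `orbitUnits_eq` : for ANY group `G` acting on `L` and stabilising `m_q`,
  `Global.orbitUnits G L q m_q = atUnits e q` (the block does not depend on `G`);
* `locVal q : Additive (L ⊗ ℚ_q)ˣ →+ CwK S π q` : the local value `u ↦ thetaL q e u`
  (`locVal_smul` : equivariant for `GwK q`; `prMS_eq_locVal` : the components of the field model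
  are the local values);
* `blockMap G q : (Global.orbitRep G L q m_q).V →+ CwK S π q` (restriction of `locVal`), with
  `blockMap_ρ` (equivariance along `φ : G →* Q`, `φ(G) ⊆ GwK q`), `blockMap_injective`,
  `blockMap_surjective` (when `G` stabilises `m_q`);
* `jlocMS_locVal`, `jlocMS_blockMap` : `FinModel.jlocMS q` (the embedding of the local module at
  the identity coset of `q`) is the inclusion of the block: `jlocMS q (thetaL u) = single q u`;
* `sIdeleToClassS_jlocMS_blockMap` : hence `cl ∘ jlocMS q ∘ blockMap = Global.orbitToClassS`;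
* section `SubgroupForm` : the same for `G = ↥H`, `H` a subgroup of the decomposition group
  `GwK S π q` (the inputs `φ`, `hφ`, `hφρ`, `hcomp` of `H2Dict.cobound_transport` for [LGI-Top]).
-/

set_option autoImplicit false

open CategoryTheory groupCohomology ExtCitation

noncomputable section

namespace Fermat.Agent.CFT.Top.LocBlock

open scoped TensorProduct
open scoped Fermat.Agent.CFT.Global
open Fermat.Agent.CFT.Top.Semilocal Fermat.Agent.CFT.Top.FinModel

/-! ## The block of the distinguished place -/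

section Block

variable {L : Type} [Field L] [NumberField L] (e : L →+* Qb) (q : Nat.Primes)

/-- units `≡ 1` modulo every maximal ideal other than `m_q = ker (thetaL q e)` -/
def atUnits : Subgroup (Global.SemiLocal L (q : ℕ))ˣ where
  carrier := {x | ∀ m' : Ideal (Global.SemiLocal L (q : ℕ)), m'.IsMaximal →
    m' ≠ RingHom.ker (thetaL q e) → (x : Global.SemiLocal L (q : ℕ)) - 1 ∈ m'}
  one_mem' := fun m' _ _ => by simp
  mul_mem' := by
    intro x y hx hy m' hm' h
    have h1 := hx m' hm' h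
    have h2 := hy m' hm' h
    have : ((x * y : (Global.SemiLocal L (q : ℕ))ˣ) : Global.SemiLocal L (q : ℕ)) - 1
        = ((x : Global.SemiLocal L (q : ℕ)) - 1) * (y : Global.SemiLocal L (q : ℕ)) +
          ((y : Global.SemiLocal L (q : ℕ)) - 1) := by
      push_cast; ring
    rw [this]
    exact m'.add_mem (m'.mul_mem_right _ h1) h2
  inv_mem' := by
    intro x hx m' hm' h
    have h1 := hx m' hm' h
    have : ((x⁻¹ : (Global.SemiLocal L (q : ℕ))ˣ) : Global.SemiLocal L (q : ℕ)) - 1
        = -(((x⁻¹ : (Global.SemiLocal L (q : ℕ))ˣ) : Global.SemiLocal L (q : ℕ)) *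
          ((x : Global.SemiLocal L (q : ℕ)) - 1)) := by
      rw [mul_sub, Units.inv_mul, mul_one]; ring
    rw [this]
    exact m'.neg_mem (m'.mul_mem_left _ h1)

theorem mem_atUnits_iff (x : (Global.SemiLocal L (q : ℕ))ˣ) :
    x ∈ atUnits e q ↔ ∀ m' : Ideal (Global.SemiLocal L (q : ℕ)), m'.IsMaximal →
      m' ≠ RingHom.ker (thetaL q e) → (x : Global.SemiLocal L (q : ℕ)) - 1 ∈ m' := Iff.rfl

/-- **(B0)** For any group acting on `L` and stabilising `m_q`, the block of `m_q`
(`Global.orbitUnits`) is `atUnits`. -/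
theorem orbitUnits_eq (G : Type) [Group G] [MulSemiringAction G L]
    (hG : ∀ (g : G) (x : Global.SemiLocal L (q : ℕ)),
      g • x ∈ RingHom.ker (thetaL q e) ↔ x ∈ RingHom.ker (thetaL q e)) :
    Global.orbitUnits G L (q : ℕ) (RingHom.ker (thetaL q e)) = atUnits e q := by
  ext x
  constructor
  · intro hx m' hm' hne
    refine hx m' hm' (fun g => ?_)
    by_contra hcon
    have hcon' : ∀ a, a ∈ m' ↔ g • a ∈ RingHom.ker (thetaL q e) :=
      fun a => not_not.mp (not_exists.mp hcon a)
    apply hne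
    ext a
    rw [hcon' a, hG]
  · intro hx m' hm' h
    refine hx m' hm' (fun heq => ?_)
    obtain ⟨a, ha⟩ := h 1
    apply ha
    rw [one_smul, heq]

end Block

/-! ## The local value map `(L ⊗ ℚ_q)ˣ → CwK q` -/

section Val

variable (S : Finset Nat.Primes) {L : Type} [Field L] [NumberField L] (e : L →+* Qb)
  {Q : Type} [Group Q] [MulSemiringAction Q L] (π : GQ →* Q)
  (hequiv : ∀ (g : GQ) (x : L), e (π g • x) = g (e x))

/-- The local value at the distinguished place: `(L ⊗ ℚ_q)ˣ → CwK q`, `u ↦ thetaL q e u`. -/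
def locVal (q : ↥S) : Additive (Global.SemiLocal L (q.1 : ℕ))ˣ →+ CwK S π q where
  toFun u := ⟨Additive.ofMul (Units.map (thetaL q.1 e : Global.SemiLocal L (q.1 : ℕ) →* PadicAlgCl (q.1 : ℕ))
      (Additive.toMul u)), by
    intro s hs
    have hs1 : π (localGaloisToGlobal (q.1 : ℕ) s) = 1 := congrArg Subtype.val hs
    refine Additive.toMul.injective (Units.ext ?_)
    have h1 := thetaL_smul q.1 e π hequiv s
      (((Additive.toMul u : (Global.SemiLocal L (q.1 : ℕ))ˣ)) : Global.SemiLocal L (q.1 : ℕ))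
    rw [hs1, one_smul] at h1
    exact h1.symm⟩
  map_zero' := by
    apply Subtype.ext
    change (Additive.ofMul (Units.map (thetaL q.1 e : Global.SemiLocal L (q.1 : ℕ) →* PadicAlgCl (q.1 : ℕ)) 1) :
      Additive (PadicAlgCl (q.1 : ℕ))ˣ) = Additive.ofMul 1
    rw [map_one]
  map_add' u v := by
    apply Subtype.ext
    change (Additive.ofMul (Units.map (thetaL q.1 e : Global.SemiLocal L (q.1 : ℕ) →* PadicAlgCl (q.1 : ℕ))
        (Additive.toMul u * Additive.toMul v)) : Additive (PadicAlgCl (q.1 : ℕ))ˣ) =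
      Additive.ofMul (Units.map (thetaL q.1 e : Global.SemiLocal L (q.1 : ℕ) →* PadicAlgCl (q.1 : ℕ)) (Additive.toMul u) *
        Units.map (thetaL q.1 e : Global.SemiLocal L (q.1 : ℕ) →* PadicAlgCl (q.1 : ℕ)) (Additive.toMul v))
    rw [map_mul]

lemma locVal_coe (q : ↥S) (u : (Global.SemiLocal L (q.1 : ℕ))ˣ) :
    (((locVal S e π hequiv q (Additive.ofMul u) : invSub _ (XQ q.1)) : XQ q.1) :
      Additive (PadicAlgCl (q.1 : ℕ))ˣ) =
      Additive.ofMul (Units.map (thetaL q.1 e : Global.SemiLocal L (q.1 : ℕ) →* PadicAlgCl (q.1 : ℕ)) u) := rfl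

lemma locVal_eq_zero_iff (q : ↥S) (u : (Global.SemiLocal L (q.1 : ℕ))ˣ) :
    locVal S e π hequiv q (Additive.ofMul u) = 0 ↔
      (u : Global.SemiLocal L (q.1 : ℕ)) - 1 ∈ RingHom.ker (thetaL q.1 e) := by
  rw [RingHom.mem_ker, map_sub, map_one, sub_eq_zero]
  constructor
  · intro h
    have h1 := congrArg (fun c : CwK S π q => ((Additive.toMul
      (((c : invSub _ (XQ q.1)) : XQ q.1) : Additive (PadicAlgCl (q.1 : ℕ))ˣ) :
        (PadicAlgCl (q.1 : ℕ))ˣ) : PadicAlgCl (q.1 : ℕ))) h
    exact h1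
  · intro h
    apply Subtype.ext
    refine Additive.toMul.injective (Units.ext ?_)
    exact h

/-- `locVal` is equivariant for the decomposition group `GwK q`. -/
lemma locVal_smul (q : ↥S) (g : ↥(GwK S π q)) (u : (Global.SemiLocal L (q.1 : ℕ))ˣ) :
    locVal S e π hequiv q (Additive.ofMul ((g : Q) • u)) =
      (CwK S π q).ρ g (locVal S e π hequiv q (Additive.ofMul u)) := by
  obtain ⟨h, rfl⟩ := locMap_surjective (H := fun q : ↥S => primeLocalGaloisGroup q.1) π
    (fun q : ↥S => primeLocalToGlobal q.1) q g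
  apply Subtype.ext
  rw [invRep_ρ_coe]
  refine Additive.toMul.injective (Units.ext ?_)
  exact thetaL_smul q.1 e π hequiv h (u : Global.SemiLocal L (q.1 : ℕ))

end Val

/-! ## The block map `Global.orbitRep G L q m_q → CwK q` -/

section BlockMap

variable (S : Finset Nat.Primes) {L : Type} [Field L] [NumberField L] (e : L →+* Qb)
  {Q : Type} [Group Q] [MulSemiringAction Q L] (π : GQ →* Q)
  (hequiv : ∀ (g : GQ) (x : L), e (π g • x) = g (e x))
  (G : Type) [Group G] [MulSemiringAction G L]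

/-- **(B1)** The block of the distinguished place (for any group `G` acting on `L`) → `CwK q`:
the local value `u ↦ thetaL q e u`. -/
def blockMap (q : ↥S) :
    (Global.orbitRep G L (q.1 : ℕ) (RingHom.ker (thetaL q.1 e))).V →+ CwK S π q where
  toFun b := locVal S e π hequiv q
    ((show ↥(Global.addSub (Global.orbitUnits G L (q.1 : ℕ) (RingHom.ker (thetaL q.1 e)))) from b) :
      Additive (Global.SemiLocal L (q.1 : ℕ))ˣ)
  map_zero' := map_zero (locVal S e π hequiv q)
  map_add' b b' := map_add (locVal S e π hequiv q) _ _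

/-- the underlying unit of an element of the block -/
def blockVal (q : ↥S)
    (b : (Global.orbitRep G L (q.1 : ℕ) (RingHom.ker (thetaL q.1 e))).V) :
    (Global.SemiLocal L (q.1 : ℕ))ˣ :=
  Additive.toMul ((show ↥(Global.addSub (Global.orbitUnits G L (q.1 : ℕ)
    (RingHom.ker (thetaL q.1 e)))) from b) : Additive (Global.SemiLocal L (q.1 : ℕ))ˣ)

lemma blockVal_mem (q : ↥S)
    (b : (Global.orbitRep G L (q.1 : ℕ) (RingHom.ker (thetaL q.1 e))).V) :
    blockVal S e G q b ∈ Global.orbitUnits G L (q.1 : ℕ) (RingHom.ker (thetaL q.1 e)) :=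
  (show ↥(Global.addSub (Global.orbitUnits G L (q.1 : ℕ) (RingHom.ker (thetaL q.1 e)))) from b).2

lemma blockMap_apply (q : ↥S)
    (b : (Global.orbitRep G L (q.1 : ℕ) (RingHom.ker (thetaL q.1 e))).V) :
    blockMap S e π hequiv G q b =
      locVal S e π hequiv q (Additive.ofMul (blockVal S e G q b)) := rfl

/-- value formula for `blockMap` -/
lemma blockMap_coe (q : ↥S)
    (b : (Global.orbitRep G L (q.1 : ℕ) (RingHom.ker (thetaL q.1 e))).V) :
    (((blockMap S e π hequiv G q b : invSub _ (XQ q.1)) : XQ q.1) :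
      Additive (PadicAlgCl (q.1 : ℕ))ˣ) =
      Additive.ofMul (Units.map (thetaL q.1 e : Global.SemiLocal L (q.1 : ℕ) →* PadicAlgCl (q.1 : ℕ))
        (blockVal S e G q b)) := rfl

/-- **Equivariance of `blockMap`** along any `φ : G →* Q` compatible with the actions on `L`
and landing in the decomposition group `GwK q`. -/
lemma blockMap_ρ (φ : G →* Q) (hφ : ∀ (g : G) (x : L), g • x = φ g • x) (q : ↥S)
    (hφD : ∀ g : G, φ g ∈ GwK S π q) (g : G)
    (b : (Global.orbitRep G L (q.1 : ℕ) (RingHom.ker (thetaL q.1 e))).V) :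
    blockMap S e π hequiv G q
        ((Global.orbitRep G L (q.1 : ℕ) (RingHom.ker (thetaL q.1 e))).ρ g b) =
      (CwK S π q).ρ ⟨φ g, hφD g⟩ (blockMap S e π hequiv G q b) := by
  rw [blockMap_apply, blockMap_apply, ← locVal_smul]
  congr 2
  apply Units.ext
  change g • ((blockVal S e G q b : (Global.SemiLocal L (q.1 : ℕ))ˣ) :
    Global.SemiLocal L (q.1 : ℕ)) = φ g • ((blockVal S e G q b : (Global.SemiLocal L (q.1 : ℕ))ˣ) :
    Global.SemiLocal L (q.1 : ℕ))
  generalize ((blockVal S e G q b : (Global.SemiLocal L (q.1 : ℕ))ˣ) :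
    Global.SemiLocal L (q.1 : ℕ)) = t
  induction t using TensorProduct.induction_on with
  | zero => rw [smul_zero, smul_zero]
  | tmul x y => rw [Global.smul_tmul_eq, Global.smul_tmul_eq, hφ]
  | add a b ha hb => rw [smul_add, smul_add, ha, hb]

/-- a group stabilising `m_q` has full decomposition group at `m_q` -/
lemma decompGroup_eq_top (q : Nat.Primes)
    (hG : ∀ (g : G) (x : Global.SemiLocal L (q : ℕ)),
      g • x ∈ RingHom.ker (thetaL q e) ↔ x ∈ RingHom.ker (thetaL q e)) :
    Global.decompGroup G L (q : ℕ) (RingHom.ker (thetaL q e)) = ⊤ := by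
  ext g
  simp only [Subgroup.mem_top, iff_true]
  exact fun x => hG g x

include hequiv in
/-- **`blockMap` is injective** when `G` stabilises `m_q`. -/
theorem blockMap_injective (q : ↥S)
    (hG : ∀ (g : G) (x : Global.SemiLocal L (q.1 : ℕ)),
      g • x ∈ RingHom.ker (thetaL q.1 e) ↔ x ∈ RingHom.ker (thetaL q.1 e)) :
    Function.Injective (blockMap S e π hequiv G q) := by
  rw [injective_iff_map_eq_zero]
  intro b hb
  rw [blockMap_apply, locVal_eq_zero_iff] at hb
  have hinj := Global.OrbitProjBij.orbitProj_injective G L (q.1 : ℕ)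
    (RingHom.ker (thetaL q.1 e)) (decompGroup_eq_top e G q.1 hG)
  apply hinj
  rw [map_zero]
  refine Additive.toMul.injective (Units.ext ?_)
  change Ideal.Quotient.mk (RingHom.ker (thetaL q.1 e))
    ((blockVal S e G q b : (Global.SemiLocal L (q.1 : ℕ))ˣ) : Global.SemiLocal L (q.1 : ℕ)) = 1
  rw [← map_one (Ideal.Quotient.mk (RingHom.ker (thetaL q.1 e))), Ideal.Quotient.eq]
  exact hb

/-- **`blockMap` is surjective** when `G` stabilises `m_q` (the local field `(L ⊗ ℚ_q)/m_q` is the
fixed field of the kernel of `G_q → Q`). -/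
theorem blockMap_surjective (K : IntermediateField ℚ Qb) [FiniteDimensional ℚ K] [Normal ℚ K]
    (hker : π.ker = K.fixingSubgroup) (hsurj : ∀ y ∈ K, ∃ x : L, e x = y) (q : ↥S)
    (hG : ∀ (g : G) (x : Global.SemiLocal L (q.1 : ℕ)),
      g • x ∈ RingHom.ker (thetaL q.1 e) ↔ x ∈ RingHom.ker (thetaL q.1 e)) :
    Function.Surjective (blockMap S e π hequiv G q) := by
  intro c
  -- the value of `c`
  set y : (PadicAlgCl (q.1 : ℕ))ˣ := Additive.toMul
    (((c : invSub _ (XQ q.1)) : XQ q.1) : Additive (PadicAlgCl (q.1 : ℕ))ˣ) with hy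
  have hfix : ∀ τ : PadicAlgCl (q.1 : ℕ) ≃ₐ[ℚ_[(q.1 : ℕ)]] PadicAlgCl (q.1 : ℕ),
      π (localGaloisToGlobal (q.1 : ℕ) τ) = 1 → τ (y : PadicAlgCl (q.1 : ℕ)) = y := by
    intro τ hτ
    have h1 := c.2 τ (Subtype.ext hτ)
    exact congrArg (fun z : Additive (PadicAlgCl (q.1 : ℕ))ˣ =>
      ((Additive.toMul z : (PadicAlgCl (q.1 : ℕ))ˣ) : PadicAlgCl (q.1 : ℕ))) h1
  have hfix' : ∀ τ : PadicAlgCl (q.1 : ℕ) ≃ₐ[ℚ_[(q.1 : ℕ)]] PadicAlgCl (q.1 : ℕ),
      π (localGaloisToGlobal (q.1 : ℕ) τ) = 1 →
        τ ((y⁻¹ : (PadicAlgCl (q.1 : ℕ))ˣ) : PadicAlgCl (q.1 : ℕ)) = (y⁻¹ : (PadicAlgCl (q.1 : ℕ))ˣ) := by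
    intro τ hτ
    rw [Units.val_inv_eq_inv_val, map_inv₀, hfix τ hτ]
  obtain ⟨s, hs⟩ := (exists_thetaL_eq_iff q.1 e π K hker hsurj hequiv _).mpr hfix
  obtain ⟨s', hs'⟩ := (exists_thetaL_eq_iff q.1 e π K hker hsurj hequiv _).mpr hfix'
  have hss' : s * s' - 1 ∈ RingHom.ker (thetaL q.1 e) := by
    rw [RingHom.mem_ker, map_sub, map_mul, map_one, hs, hs', Units.mul_inv, sub_self]
  have hs's : s' * s - 1 ∈ RingHom.ker (thetaL q.1 e) := by
    rw [mul_comm]; exact hss'
  -- the unit of the local component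
  let z : (Global.SemiLocal L (q.1 : ℕ) ⧸ RingHom.ker (thetaL q.1 e))ˣ :=
    ⟨Ideal.Quotient.mk _ s, Ideal.Quotient.mk _ s', by
      rw [← map_mul, ← map_one (Ideal.Quotient.mk (RingHom.ker (thetaL q.1 e))), Ideal.Quotient.eq]
      exact hss', by
      rw [← map_mul, ← map_one (Ideal.Quotient.mk (RingHom.ker (thetaL q.1 e))), Ideal.Quotient.eq]
      exact hs's⟩
  obtain ⟨b, hb⟩ := Global.OrbitProjBij.orbitProj_surjective G L (q.1 : ℕ)
    (RingHom.ker (thetaL q.1 e)) (isMaximal_ker_thetaL q.1 e) (decompGroup_eq_top e G q.1 hG)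
    (Additive.ofMul z)
  refine ⟨b, ?_⟩
  have hb1 : Ideal.Quotient.mk (RingHom.ker (thetaL q.1 e))
      ((blockVal S e G q b : (Global.SemiLocal L (q.1 : ℕ))ˣ) : Global.SemiLocal L (q.1 : ℕ)) =
      Ideal.Quotient.mk _ s :=
    congrArg (fun w : Additive (Global.SemiLocal L (q.1 : ℕ) ⧸ RingHom.ker (thetaL q.1 e))ˣ =>
      ((Additive.toMul w : (Global.SemiLocal L (q.1 : ℕ) ⧸ RingHom.ker (thetaL q.1 e))ˣ) :
        Global.SemiLocal L (q.1 : ℕ) ⧸ RingHom.ker (thetaL q.1 e))) hb
  rw [Ideal.Quotient.eq, RingHom.mem_ker, map_sub, sub_eq_zero, hs] at hb1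
  apply Subtype.ext
  refine Additive.toMul.injective (Units.ext ?_)
  exact hb1

end BlockMap

/-! ## `jlocMS q` on the field model is the inclusion of the block -/

section JLevel

variable (S : Finset Nat.Primes) {L : Type} [Field L] [NumberField L] (e : L →+* Qb)
  {Q : Type} [Group Q] [MulSemiringAction Q L] (π : GQ →* Q)
  {K : IntermediateField ℚ Qb} (hK : IsNLevel S K) (he : ∀ x : L, e x ∈ K)
  (hsurj : ∀ y ∈ K, ∃ x : L, e x = y) (hequiv : ∀ (g : GQ) (x : L), e (π g • x) = g (e x))
  (hJ' : Level.IsFiniteLevel (nLevels S) (JS S) K π (Global.sIdeleRep Q L S)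
    (jsModel S e Q K hK he))

/-- The `S`-idele of `L` with component `u` at `q ∈ S` and trivial components elsewhere. -/
def single (q : ↥S) (u : (Global.SemiLocal L (q.1 : ℕ))ˣ) : (Global.sIdeleRep Q L S).V :=
  (show ↥(Global.addSub (Global.supportedOn L S)) from
    ⟨Additive.ofMul
      (Pi.mulSingle (M := fun q : Nat.Primes => (Global.SemiLocal L (q : ℕ))ˣ) q.1 u), by
      intro q' hq'
      have hne : q' ≠ q.1 := fun h => hq' (h ▸ q.2)
      show (Pi.mulSingle (M := fun q : Nat.Primes => (Global.SemiLocal L (q : ℕ))ˣ) q.1 u :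
        Global.IdeleProd L) q' = 1
      exact Pi.mulSingle_eq_of_ne (M := fun q : Nat.Primes => (Global.SemiLocal L (q : ℕ))ˣ) hne u⟩)

lemma sIdeleVal_single (q : ↥S) (u : (Global.SemiLocal L (q.1 : ℕ))ˣ) :
    sIdeleVal S Q (single (Q := Q) S q u) =
      Pi.mulSingle (M := fun q : Nat.Primes => (Global.SemiLocal L (q : ℕ))ˣ) q.1 u := rfl

/-- the components of the field model of `JS S` are the local values -/
lemma prMS_eq_locVal (q : ↥S) (x : (Global.sIdeleRep Q L S).V) :
    prMS S π (Global.sIdeleRep Q L S) (jsModel S e Q K hK he)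
        hJ' q x =
      locVal S e π hequiv q (Additive.ofMul (sIdeleVal S Q x q.1)) := by
  apply Subtype.ext
  rfl

lemma sIdeleVal_ρ (g : Q) (x : (Global.sIdeleRep Q L S).V) (q : Nat.Primes) :
    sIdeleVal S Q ((Global.sIdeleRep Q L S).ρ g x) q = g • sIdeleVal S Q x q := rfl

variable (hi : SpinePlan.JSInj S) (hs : SpinePlan.JSSurj S)

include hsurj in
/-- **(B2)** On the field model `J' = Global.sIdeleRep Q L S` of `JS S`, the embedding
`jlocMS q` of the local module at the identity coset of `q` is the inclusion of the block of the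
distinguished place: `jlocMS q (thetaL u) = (u at q, 1 elsewhere)` for `u ∈ atUnits e q`. -/
theorem jlocMS_locVal (q : ↥S) (u : (Global.SemiLocal L (q.1 : ℕ))ˣ) (hu : u ∈ atUnits e q.1) :
    jlocMS S π hi hs (Global.sIdeleRep Q L S) (jsModel S e Q K hK he)
        hJ' q
        (locVal S e π hequiv q (Additive.ofMul u)) = single S q u := by
  have : FiniteDimensional ℚ K := hK.1.1
  have : Normal ℚ K := hK.normal
  have hDG : Global.decompGroup Q L (q.1 : ℕ) (RingHom.ker (thetaL q.1 e)) = GwK S π q :=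
    decompGroup_ker_thetaL q.1 e π K hJ'.surjective hJ'.ker_eq hsurj hequiv
  have hx : ∀ (q' : ↥S) (g : Q), (q' ≠ q ∨ g ∉ GwK S π q) →
      prMS S π (Global.sIdeleRep Q L S) (jsModel S e Q K hK he)
        hJ' q'
        ((Global.sIdeleRep Q L S).ρ g (single S q u)) = 0 := by
    intro q' g h
    rw [prMS_eq_locVal S e π hK he hequiv hJ', sIdeleVal_ρ, sIdeleVal_single]
    by_cases hq : q' = q
    · subst hq
      have hg : g ∉ GwK S π q' := h.resolve_left (fun h' => h' rfl)
      rw [Pi.mulSingle_eq_same, locVal_eq_zero_iff]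
      -- the translate of `m_q` by `g⁻¹`
      have hmax : (Ideal.comap (MulSemiringAction.toRingEquiv Q (Global.SemiLocal L (q'.1 : ℕ)) g)
          (RingHom.ker (thetaL q'.1 e))).IsMaximal :=
        haveI := isMaximal_ker_thetaL q'.1 e
        Ideal.comap_isMaximal_of_equiv _
      have hne : Ideal.comap (MulSemiringAction.toRingEquiv Q (Global.SemiLocal L (q'.1 : ℕ)) g)
          (RingHom.ker (thetaL q'.1 e)) ≠ RingHom.ker (thetaL q'.1 e) := by
        intro heq
        apply hg
        rw [← hDG]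
        intro x
        have h3 : x ∈ Ideal.comap (MulSemiringAction.toRingEquiv Q
            (Global.SemiLocal L (q'.1 : ℕ)) g) (RingHom.ker (thetaL q'.1 e)) ↔
            x ∈ RingHom.ker (thetaL q'.1 e) := by rw [heq]
        rw [Ideal.mem_comap] at h3
        exact h3
      have h1 := hu _ hmax hne
      rw [Ideal.mem_comap] at h1
      have h2 : ((g • u : (Global.SemiLocal L (q'.1 : ℕ))ˣ) : Global.SemiLocal L (q'.1 : ℕ)) - 1 =
          g • ((u : Global.SemiLocal L (q'.1 : ℕ)) - 1) := by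
        rw [smul_sub, smul_one]; rfl
      rw [h2]
      exact h1
    · have hne : q'.1 ≠ q.1 := fun h' => hq (Subtype.ext h')
      rw [Pi.mulSingle_eq_of_ne hne, smul_one]
      exact map_zero _
  have h1 := eq_jlocMS_of_supp S π hi hs (Global.sIdeleRep Q L S) (jsModel S e Q K hK he)
    hJ' q (single S q u) hx
  rw [h1, prMS_eq_locVal S e π hK he hequiv hJ', sIdeleVal_single,
    Pi.mulSingle_eq_same]

include hsurj in
/-- **(B2), block form**: for any group `G` acting on `L` and stabilising `m_q`,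
`jlocMS q ∘ blockMap` is the inclusion of the block `Global.orbitRep G L q m_q` into the
`S`-ideles of `L`. -/
theorem jlocMS_blockMap (G : Type) [Group G] [MulSemiringAction G L] (q : ↥S)
    (hG : ∀ (g : G) (x : Global.SemiLocal L (q.1 : ℕ)),
      g • x ∈ RingHom.ker (thetaL q.1 e) ↔ x ∈ RingHom.ker (thetaL q.1 e))
    (b : (Global.orbitRep G L (q.1 : ℕ) (RingHom.ker (thetaL q.1 e))).V) :
    jlocMS S π hi hs (Global.sIdeleRep Q L S) (jsModel S e Q K hK he)
        hJ' q
        (blockMap S e π hequiv G q b) = single S q (blockVal S e G q b) := by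
  rw [blockMap_apply]
  exact jlocMS_locVal S e π hK he hsurj hequiv hJ' hi hs q _
    (by rw [← orbitUnits_eq e q.1 G hG]; exact blockVal_mem S e G q b)

/-- the class in `C_S(L)` of the idele `(u at q, 1 elsewhere)`, `u` in the block, is the image of
`u` under `Global.orbitToClassS` -/
theorem sIdeleToClassS_single (G : Type) [Group G] [MulSemiringAction G L] (q : ↥S)
    (b : (Global.orbitRep G L (q.1 : ℕ) (RingHom.ker (thetaL q.1 e))).V) :
    ((Global.sIdeleToClassS Q L S).hom (single S q (blockVal S e G q b)) :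
        Global.ClassGroupSOf L S) =
      (Global.orbitToClassS G L q.1 (RingHom.ker (thetaL q.1 e)) S).hom b := rfl

include hsurj in
/-- **[LOCDICT] (iii), class form**: for any group `G` acting on `L` and stabilising `m_q`, the
class in `C_S(L)` of `jlocMS q (blockMap b)` is `Global.orbitToClassS G L q m_q S b`. -/
theorem sIdeleToClassS_jlocMS_blockMap (G : Type) [Group G] [MulSemiringAction G L] (q : ↥S)
    (hG : ∀ (g : G) (x : Global.SemiLocal L (q.1 : ℕ)),
      g • x ∈ RingHom.ker (thetaL q.1 e) ↔ x ∈ RingHom.ker (thetaL q.1 e))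
    (b : (Global.orbitRep G L (q.1 : ℕ) (RingHom.ker (thetaL q.1 e))).V) :
    ((Global.sIdeleToClassS Q L S).hom
        (jlocMS S π hi hs (Global.sIdeleRep Q L S) (jsModel S e Q K hK he)
          hJ' q
          (blockMap S e π hequiv G q b)) : Global.ClassGroupSOf L S) =
      (Global.orbitToClassS G L q.1 (RingHom.ker (thetaL q.1 e)) S).hom b := by
  rw [jlocMS_blockMap S e π hK he hsurj hequiv hJ' hi hs G q hG b]
  exact sIdeleToClassS_single S e G q b

include hsurj hequiv hJ' in
/-- a group acting on `L` through `φ : G →* Q` with `φ(G) ⊆ GwK q` stabilises `m_q` -/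
theorem stabilises_of_le (G : Type) [Group G] [MulSemiringAction G L] (φ : G →* Q)
    (hφ : ∀ (g : G) (x : L), g • x = φ g • x) (q : ↥S) (hφD : ∀ g : G, φ g ∈ GwK S π q)
    (g : G) (x : Global.SemiLocal L (q.1 : ℕ)) :
    g • x ∈ RingHom.ker (thetaL q.1 e) ↔ x ∈ RingHom.ker (thetaL q.1 e) := by
  have : FiniteDimensional ℚ K := hK.1.1
  have : Normal ℚ K := hK.normal
  have hDG : Global.decompGroup Q L (q.1 : ℕ) (RingHom.ker (thetaL q.1 e)) = GwK S π q :=
    decompGroup_ker_thetaL q.1 e π K hJ'.surjective hJ'.ker_eq hsurj hequiv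
  have h1 : φ g ∈ Global.decompGroup Q L (q.1 : ℕ) (RingHom.ker (thetaL q.1 e)) := by
    rw [hDG]; exact hφD g
  have h2 : g • x = φ g • x := by
    induction x using TensorProduct.induction_on with
    | zero => rw [smul_zero, smul_zero]
    | tmul x y => rw [Global.smul_tmul_eq, Global.smul_tmul_eq, hφ]
    | add a b ha hb => rw [smul_add, smul_add, ha, hb]
  rw [h2]
  exact h1 x

end JLevel

/-! ## The form used by [LGI-Top]: `G = ↥H` for a subgroup `H` of the decomposition group -/

section SubgroupForm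

variable (S : Finset Nat.Primes) {L : Type} [Field L] [NumberField L] (e : L →+* Qb)
  {Q : Type} [Group Q] [MulSemiringAction Q L] (π : GQ →* Q)
  {K : IntermediateField ℚ Qb} (hK : IsNLevel S K) (he : ∀ x : L, e x ∈ K)
  (hsurj : ∀ y ∈ K, ∃ x : L, e x = y) (hequiv : ∀ (g : GQ) (x : L), e (π g • x) = g (e x))
  (hJ' : Level.IsFiniteLevel (nLevels S) (JS S) K π (Global.sIdeleRep Q L S)
    (jsModel S e Q K hK he))
  (hi : SpinePlan.JSInj S) (hs : SpinePlan.JSSurj S)
  (q : ↥S) (H : Subgroup ↥(GwK S π q))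

include hsurj hequiv hJ' in
/-- a subgroup of the decomposition group stabilises `m_q` -/
theorem stabilises_subgroup (g : ↥H) (x : Global.SemiLocal L (q.1 : ℕ)) :
    g • x ∈ RingHom.ker (thetaL q.1 e) ↔ x ∈ RingHom.ker (thetaL q.1 e) :=
  stabilises_of_le S e π hK he hsurj hequiv hJ' ↥H ((GwK S π q).subtype.comp H.subtype)
    (fun _ _ => rfl) q (fun g => (g : ↥(GwK S π q)).2) g x

include hsurj hJ' in
/-- **(B1)** `blockMap : Global.orbitRep ↥H L q m_q → CwK q` is bijective. -/
theorem blockMap_bijective_subgroup : Function.Bijective (blockMap S e π hequiv ↥H q) := by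
  have : FiniteDimensional ℚ K := hK.1.1
  have : Normal ℚ K := hK.normal
  exact ⟨blockMap_injective S e π hequiv ↥H q
      (stabilises_subgroup S e π hK he hsurj hequiv hJ' q H),
    blockMap_surjective S e π hequiv ↥H K hJ'.ker_eq hsurj q
      (stabilises_subgroup S e π hK he hsurj hequiv hJ' q H)⟩

/-- **(B1)** `blockMap` is `H`-equivariant. -/
theorem blockMap_ρ_subgroup (g : ↥H)
    (b : (Global.orbitRep ↥H L (q.1 : ℕ) (RingHom.ker (thetaL q.1 e))).V) :
    blockMap S e π hequiv ↥H q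
        ((Global.orbitRep ↥H L (q.1 : ℕ) (RingHom.ker (thetaL q.1 e))).ρ g b) =
      (CwK S π q).ρ (g : ↥(GwK S π q)) (blockMap S e π hequiv ↥H q b) :=
  blockMap_ρ S e π hequiv ↥H ((GwK S π q).subtype.comp H.subtype) (fun _ _ => rfl) q
    (fun g => (g : ↥(GwK S π q)).2) g b

include hsurj in
/-- **(B2)** class form for `G = ↥H`. -/
theorem sIdeleToClassS_jlocMS_blockMap_subgroup
    (b : (Global.orbitRep ↥H L (q.1 : ℕ) (RingHom.ker (thetaL q.1 e))).V) :
    ((Global.sIdeleToClassS Q L S).hom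
        (jlocMS S π hi hs (Global.sIdeleRep Q L S) (jsModel S e Q K hK he) hJ' q
          (blockMap S e π hequiv ↥H q b)) : Global.ClassGroupSOf L S) =
      (Global.orbitToClassS ↥H L q.1 (RingHom.ker (thetaL q.1 e)) S).hom b :=
  sIdeleToClassS_jlocMS_blockMap S e π hK he hsurj hequiv hJ' hi hs ↥H q
    (stabilises_subgroup S e π hK he hsurj hequiv hJ' q H) b

end SubgroupForm

end Fermat.Agent.CFT.Top.LocBlock
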