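import Fermat.Agent.CFT.Glob.TopBridge.Setup
import Fermat.Agent.CFT.Top.LocBlock
import Fermat.Agent.CFT.Coh.H2Dict
import Fermat.Agent.CFT.Glob.ClassExport

/-!
# P3 / [TOPBRIDGE]: the leaf [LGI-Top] (`Glob.TopBridge.LGInjTop`) from the Global Plan

For a normal `S`-level `K`, a prime `q ∈ S` and a `p`-subgroup `H` of the decomposition group
`GwK S (resK S hK) q ≤ Gal(K/ℚ)`, the map `clM ∘ jlocA q : K_wˣ → C_S(K)` is injective on
`H²(H, -)` (cocycle form).  Proof: the block dictionary of `Top/LocBlock.lean`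
(`blockMap : Global.orbitRep ↥H ↥K q m_q ≃ CwK q`, equivariant, with
`clM ∘ jlocA q ∘ blockMap = Global.orbitToClassS`) transports the statement
(`H2Dict.cobound_transport`) to the `H²`-injectivity of `Global.orbitToClassS ↥H ↥K q m_q S`,
which is `Plan.LocalGlobalInj` composed with `Plan.SClassCompare` (`ClassExport.localGlobalInjS`).

* `lgInjTop_of_inj` : from the `H²`-injectivity of `Global.orbitToClassS` for the subgroups;
* `lgInjTop_of_plan` : from `Global.Plan.LocalGlobalInj` and `Global.Plan.SClassCompare`.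
-/

set_option autoImplicit false

open CategoryTheory groupCohomology

noncomputable section

namespace Fermat.Agent.CFT.Top.LocBlock

open Fermat.Agent.CFT Fermat.Agent.CFT.Top Fermat.Agent.CFT.Top.FinModel
  Fermat.Agent.CFT.Top.SpinePlan Fermat.Agent.CFT.Glob.TopBridge
open scoped Fermat.Agent.CFT.Global

variable {p : ℕ}

set_option synthInstance.maxHeartbeats 400000 in
set_option maxHeartbeats 1000000 in
/-- **[LGI-Top]** from the `H²`-injectivity of the Global block maps
`Global.orbitToClassS ↥H ↥K q m_q S` for the `p`-subgroups `H` of the decomposition groups. -/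
theorem lgInjTop_of_inj (S : Finset Nat.Primes) {K : IntermediateField ℚ Qb}
    (hK : IsNLevel S K) (hi : JSInj S) (hs : JSSurj S)
    (hinj : ∀ (q : ↥S) (H : Subgroup ↥(GwK S (resK S hK) q)), IsPGroup p H →
      Function.Injective ((groupCohomology.functor ℤ ↥H 2).map
        (Global.orbitToClassS ↥H ↥K q.1
          (RingHom.ker (Top.Semilocal.thetaL q.1 (Model.emb K))) S)).hom) :
    LGInjTop S p hK hi hs := by
  intro q H hH t ht hb
  obtain ⟨b, hb⟩ := hb
  haveI : NumberField K := Model.numberField hK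
  have hbij := blockMap_bijective_subgroup S (Model.emb K) (resK S hK) hK
    (Model.emb_mem K) (Model.exists_emb_eq K) (emb_resK_smul hK) (isFiniteLevel_iotaJ S hK) q H
  exact H2Dict.cobound_transport (P := ↥H)
    (A := (Global.orbitRep ↥H ↥K (q.1 : ℕ)
      (RingHom.ker (Top.Semilocal.thetaL q.1 (Model.emb K)))).V)
    (B' := CwK S (resK S hK) q) (C := CM S K) (C' := CM S K)
    (fun g => ((Global.orbitRep ↥H ↥K (q.1 : ℕ)
      (RingHom.ker (Top.Semilocal.thetaL q.1 (Model.emb K)))).ρ g).toAddMonoidHom)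
    (fun g => ((CwK S (resK S hK) q).ρ (g : ↥(GwK S (resK S hK) q))).toAddMonoidHom)
    (fun g => ((CM S K).ρ ((g : ↥(GwK S (resK S hK) q)) : Model.Gal K)).toAddMonoidHom)
    (fun g => ((CM S K).ρ ((g : ↥(GwK S (resK S hK) q)) : Model.Gal K)).toAddMonoidHom)
    ((Global.orbitToClassS ↥H ↥K q.1
      (RingHom.ker (Top.Semilocal.thetaL q.1 (Model.emb K))) S).hom.toAddMonoidHom)
    (blockMap S (Model.emb K) (resK S hK) (emb_resK_smul hK) ↥H q)
    ((clM S K).comp (jlocA S hK hi hs q))
    (AddMonoidHom.id _)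
    hbij
    (fun g a => blockMap_ρ_subgroup S (Model.emb K) (resK S hK) (emb_resK_smul hK) q H g a)
    (fun _ _ => rfl)
    (fun a => sIdeleToClassS_jlocMS_blockMap_subgroup S (Model.emb K) (resK S hK) hK
      (Model.emb_mem K) (Model.exists_emb_eq K) (emb_resK_smul hK) (isFiniteLevel_iotaJ S hK)
      hi hs q H a)
    (fun u hu hb' => by
      obtain ⟨b', hb'⟩ := hb'
      exact H2Dict.exists_cobound_of_map_injective (Global.orbitToClassS ↥H ↥K q.1
        (RingHom.ker (Top.Semilocal.thetaL q.1 (Model.emb K))) S) (hinj q H hH) u hu b' hb')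
    t ht b hb

set_option synthInstance.maxHeartbeats 400000 in
set_option maxHeartbeats 1000000 in
/-- **[LGI-Top]** (`Glob.TopBridge.LGInjTop`, verbatim) from the Global Plan:
`Plan.LocalGlobalInj` ([F2]) and `Plan.SClassCompare` ([G3]). -/
theorem lgInjTop_of_plan [Fact p.Prime] (hLGI : Global.Plan.LocalGlobalInj)
    (hSC : Global.Plan.SClassCompare) (hp2 : p ≠ 2) (S : Finset Nat.Primes) (hS : S.Nonempty)
    (K : IntermediateField ℚ Qb) (hK : IsNLevel S K) (hi : JSInj S) (hs : JSSurj S) :
    LGInjTop S p hK hi hs := by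
  refine lgInjTop_of_inj S hK hi hs (fun q H hH => ?_)
  haveI : NumberField K := Model.numberField hK
  haveI : Finite (Model.Gal K) := Model.finite_gal hK
  haveI : Fintype ↥H := Fintype.ofFinite _
  haveI : FaithfulSMul ↥H ↥K := ⟨fun h => Subtype.ext (Subtype.ext (eq_of_smul_eq_smul
    (M := Model.Gal K) (α := ↥K) h))⟩
  exact Glob.ClassExport.localGlobalInjS hLGI hSC p hp2 ↥H ↥K hH S hS
    (Model.unramOutside hK) q.1 (RingHom.ker (Top.Semilocal.thetaL q.1 (Model.emb K)))
    (Top.Semilocal.isMaximal_ker_thetaL q.1 (Model.emb K))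

end Fermat.Agent.CFT.Top.LocBlock
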