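import Fermat.Agent.CFT.Top.Semilocal
import Fermat.Agent.CFT.Global.Defs
import Fermat.Agent.CFT.Level.Defs

/-!
# P3 / [TOPBRIDGE]: `J_S(K) = (JS)^{G_K}` ([JM], the `J`-model)

`Tq q = ℚ̄ ⊗ ℚ_q` (`Top/Defs.lean`) is `Global.SemiLocal Qb q` (`Global/Defs.lean`).  For a field
`L` with an embedding `e : L →+* ℚ̄` and an intermediate field `K` of `ℚ̄/ℚ`:

* `semiLocalMap_injective`     : `L ⊗ ℚ_q → ℚ̄ ⊗ ℚ_q` is injective;
* `exists_semiLocalMap_eq`     : if `K ⊆ e(L)`, every element of `ℚ̄ ⊗ ℚ_q` fixed by `Gal(ℚ̄/K)`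
  comes from `L ⊗ ℚ_q` (`(ℚ̄ ⊗ ℚ_q)^{G_K} = K ⊗ ℚ_q`; any `K`, no finiteness);
* `exists_units_semiLocalMap_eq` : the same for units;
* `semiLocalMap_smul`          : equivariance for a group `Q` acting on `L` compatibly with `GQ`;
* `jsModel`, `isFiniteLevel_jsModel` : for a field model `(Q, L, π, e)` of a normal `S`-level `K`,
  `Global.sIdeleRep Q L S` (`= ∏_{q ∈ S} (L ⊗ ℚ_q)ˣ`) is a finite-level model of `JS S` at `K`.
-/

set_option autoImplicit false

namespace Fermat.Agent.CFT.Top.Semilocal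

open scoped TensorProduct

noncomputable section

section Field

variable (q : Nat.Primes) {L : Type} [Field L] [CharZero L] (e : L →+* Qb)

theorem semiLocalMap_tmul' (x : L) (c : ℚ_[(q : ℕ)]) :
    (Global.semiLocalMap (q : ℕ) e (x ⊗ₜ[ℚ] c) : Tq q) = (e x ⊗ₜ[ℚ] c : Tq q) := rfl

/-- `L ⊗ ℚ_q → ℚ̄ ⊗ ℚ_q` is injective. -/
theorem semiLocalMap_injective :
    Function.Injective (Global.semiLocalMap (q : ℕ) e : Global.SemiLocal L (q : ℕ) →+* Tq q) := by
  have h := Module.Flat.rTensor_preserves_injective_linearMap (M := ℚ_[(q : ℕ)])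
    (e.toRatAlgHom).toLinearMap e.injective
  intro a b hab
  exact h hab

/-- the image of `L ⊗ ℚ_q` is fixed by every `g` fixing `e(L)` pointwise -/
theorem smul_semiLocalMap (g : GQ) (hg : ∀ x : L, g (e x) = e x) (s : Global.SemiLocal L (q : ℕ)) :
    g • (Global.semiLocalMap (q : ℕ) e s : Tq q) = Global.semiLocalMap (q : ℕ) e s := by
  induction s using TensorProduct.induction_on with
  | zero => rw [map_zero, smul_zero]
  | tmul x c => rw [semiLocalMap_tmul', tq_smul_tmul, hg]
  | add a b ha hb => rw [map_add, smul_add, ha, hb]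

/-- **`(ℚ̄ ⊗ ℚ_q)^{Gal(ℚ̄/K)} = K ⊗ ℚ_q`**: an element fixed by `Gal(ℚ̄/K)` comes from `L ⊗ ℚ_q`
as soon as `K ⊆ e(L)`. -/
theorem exists_semiLocalMap_eq (K : IntermediateField ℚ Qb) (hK : ∀ y ∈ K, ∃ x : L, e x = y)
    (t : Tq q) (h : ∀ g ∈ K.fixingSubgroup, g • t = t) :
    ∃ s : Global.SemiLocal L (q : ℕ), (Global.semiLocalMap (q : ℕ) e s : Tq q) = t := by
  classical
  let B := Module.Free.chooseBasis ℚ ℚ_[(q : ℕ)]
  let ε := TensorProduct.equivFinsuppOfBasisRight (M := Qb) B
  -- the coordinates of `g • t` are the conjugates of the coordinates of `t`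
  have hcoord : ∀ (g : GQ) (t : Tq q) (i : Module.Free.ChooseBasisIndex ℚ ℚ_[(q : ℕ)]),
      ε (g • t) i = g (ε t i) := by
    intro g t i
    induction t using TensorProduct.induction_on with
    | zero => simp
    | tmul x c =>
      rw [tq_smul_tmul]
      show TensorProduct.equivFinsuppOfBasisRight B (g x ⊗ₜ[ℚ] c) i =
        g (TensorProduct.equivFinsuppOfBasisRight B (x ⊗ₜ[ℚ] c) i)
      rw [TensorProduct.equivFinsuppOfBasisRight_apply_tmul_apply,
        TensorProduct.equivFinsuppOfBasisRight_apply_tmul_apply, Algebra.smul_def,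
        Algebra.smul_def, map_mul, AlgEquiv.commutes]
    | add a b ha hb =>
      rw [smul_add, map_add, map_add, Finsupp.add_apply, Finsupp.add_apply, ha, hb, map_add]
  -- hence the coordinates of `t` lie in `K`
  have hmem : ∀ i, ε t i ∈ K := by
    intro i
    have h1 : ε t i ∈ IntermediateField.fixedField K.fixingSubgroup := by
      rw [IntermediateField.mem_fixedField_iff]
      intro g hg
      rw [← hcoord, h g hg]
    rwa [InfiniteGalois.fixedField_fixingSubgroup] at h1
  choose x hx using fun i => hK (ε t i) (hmem i)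
  refine ⟨(ε t).sum fun i _ => x i ⊗ₜ[ℚ] B i, ?_⟩
  refine Eq.trans ?_ (ε.symm_apply_apply t)
  show _ = (TensorProduct.equivFinsuppOfBasisRight B).symm (ε t)
  rw [TensorProduct.equivFinsuppOfBasisRight_symm_apply]
  unfold Finsupp.sum
  rw [map_sum]
  refine Finset.sum_congr rfl fun i _ => ?_
  beta_reduce
  rw [semiLocalMap_tmul', hx]

/-- a unit of `ℚ̄ ⊗ ℚ_q` fixed by `Gal(ℚ̄/K)` is the image of a unit of `L ⊗ ℚ_q`
(`K ⊆ e(L)`). -/
theorem exists_units_semiLocalMap_eq (K : IntermediateField ℚ Qb)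
    (hK : ∀ y ∈ K, ∃ x : L, e x = y) (u : (Tq q)ˣ) (h : ∀ g ∈ K.fixingSubgroup, g • u = u) :
    ∃ v : (Global.SemiLocal L (q : ℕ))ˣ,
      Units.map (Global.semiLocalMap (q : ℕ) e : Global.SemiLocal L (q : ℕ) →* Tq q) v = u := by
  obtain ⟨a, ha⟩ := exists_semiLocalMap_eq q e K hK (u : Tq q) (fun g hg => by
    rw [← tq_units_smul_val, h g hg])
  obtain ⟨b, hb⟩ := exists_semiLocalMap_eq q e K hK ((u⁻¹ : (Tq q)ˣ) : Tq q) (fun g hg => by
    rw [← tq_units_smul_val, smul_inv', h g hg])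
  have hab : a * b = 1 := by
    apply semiLocalMap_injective q e
    rw [map_mul, ha, hb, map_one, Units.mul_inv]
  exact ⟨Units.mkOfMulEqOne a b hab, Units.ext ha⟩

/-- the image of a unit of `L ⊗ ℚ_q` is fixed by every `g` fixing `e(L)` pointwise -/
theorem smul_units_semiLocalMap (g : GQ) (hg : ∀ x : L, g (e x) = e x)
    (v : (Global.SemiLocal L (q : ℕ))ˣ) :
    g • Units.map (Global.semiLocalMap (q : ℕ) e : Global.SemiLocal L (q : ℕ) →* Tq q) v =
      Units.map (Global.semiLocalMap (q : ℕ) e : Global.SemiLocal L (q : ℕ) →* Tq q) v :=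
  Units.ext (smul_semiLocalMap q e g hg (v : Global.SemiLocal L (q : ℕ)))

theorem units_semiLocalMap_injective : Function.Injective
    (Units.map (Global.semiLocalMap (q : ℕ) e : Global.SemiLocal L (q : ℕ) →* Tq q)) :=
  Units.map_injective (semiLocalMap_injective q e)

/-- transitivity along a tower `f : L →+* L'`, `e' ∘ f = e` -/
theorem semiLocalMap_semiLocalMap {L' : Type} [Field L'] [CharZero L'] (e' : L' →+* Qb)
    (f : L →+* L') (hf : ∀ x, e' (f x) = e x) (s : Global.SemiLocal L (q : ℕ)) :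
    (Global.semiLocalMap (q : ℕ) e' (Global.semiLocalMap (q : ℕ) f s) : Tq q) =
      Global.semiLocalMap (q : ℕ) e s := by
  induction s using TensorProduct.induction_on with
  | zero => rw [map_zero, map_zero, map_zero]
  | tmul x c =>
    rw [Global.semiLocalMap_tmul, semiLocalMap_tmul', semiLocalMap_tmul', hf]
  | add a b ha hb => rw [map_add, map_add, map_add, ha, hb]

/-- **Equivariance**: if a group `Q` acts on `L` and `π : GQ →* Q` is compatible with `e`, then
`L ⊗ ℚ_q → ℚ̄ ⊗ ℚ_q` is equivariant along `π`. -/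
theorem semiLocalMap_smul {Q : Type} [Group Q] [MulSemiringAction Q L] (π : GQ →* Q)
    (hequiv : ∀ (g : GQ) (x : L), e (π g • x) = g (e x)) (g : GQ)
    (s : Global.SemiLocal L (q : ℕ)) :
    (Global.semiLocalMap (q : ℕ) e (π g • s) : Tq q) = g • Global.semiLocalMap (q : ℕ) e s := by
  induction s using TensorProduct.induction_on with
  | zero => rw [smul_zero, map_zero, smul_zero]
  | tmul x c =>
    rw [Global.smul_tmul_eq, semiLocalMap_tmul', semiLocalMap_tmul', tq_smul_tmul, hequiv]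
  | add a b ha hb => rw [smul_add, map_add, map_add, smul_add, ha, hb]

end Field

/-! ## The `J`-model -/

section JModel

variable (S : Finset Nat.Primes) {L : Type} [Field L] [CharZero L] (e : L →+* Qb)

/-- `∏_q (L ⊗ ℚ_q)ˣ → ∏_{q ∈ S} (ℚ̄ ⊗ ℚ_q)ˣ` (forget the components outside `S`). -/
def jsFun : Global.IdeleProd L →* (∀ q : ↥S, (Tq q.1)ˣ) :=
  MonoidHom.pi fun q : ↥S =>
    (Units.map (Global.semiLocalMap (q.1 : ℕ) e : Global.SemiLocal L (q.1 : ℕ) →* Tq q.1)).comp
      (Pi.evalMonoidHom (fun q : Nat.Primes => (Global.SemiLocal L (q : ℕ))ˣ) q.1)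

theorem jsFun_apply (x : Global.IdeleProd L) (q : ↥S) :
    jsFun S e x q =
      Units.map (Global.semiLocalMap (q.1 : ℕ) e : Global.SemiLocal L (q.1 : ℕ) →* Tq q.1) (x q.1) :=
  rfl

/-- the image of `jsFun` is fixed by every `n` fixing `e(L)` pointwise -/
theorem smul_jsFun (n : GQ) (hn : ∀ x : L, n (e x) = e x) (x : Global.IdeleProd L) :
    n • jsFun S e x = jsFun S e x :=
  funext fun q => smul_units_semiLocalMap q.1 e n hn (x q.1)

/-- if `e(L)` lies in a normal `S`-level, the image of `jsFun` is smooth -/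
theorem jsFun_mem_smoothSub (K : IntermediateField ℚ Qb) (hK : IsNLevel S K)
    (he : ∀ x : L, e x ∈ K) (x : Global.IdeleProd L) :
    (Additive.ofMul (jsFun S e x) : Additive (∀ q : ↥S, (Tq q.1)ˣ)) ∈ smoothSub S (JFull S) :=
  ⟨K, hK, fun s hs => congrArg Additive.ofMul (smul_jsFun S e s
    (fun x => (IntermediateField.mem_fixingSubgroup_iff K s).mp hs (e x) (he x)) x)⟩

/-- `jsFun` is injective on the ideles supported on `S` -/
theorem jsFun_injOn {x y : Global.IdeleProd L} (hx : x ∈ Global.supportedOn L S)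
    (hy : y ∈ Global.supportedOn L S) (h : jsFun S e x = jsFun S e y) : x = y := by
  funext q
  by_cases hq : q ∈ S
  · exact units_semiLocalMap_injective q e (congrFun h ⟨q, hq⟩)
  · rw [hx q hq, hy q hq]

/-- **`J_S(K) = (JS)^{G_K}`, surjectivity** (group level). -/
theorem exists_jsFun_eq (K : IntermediateField ℚ Qb) (hsurj : ∀ y ∈ K, ∃ x : L, e x = y)
    (u : ∀ q : ↥S, (Tq q.1)ˣ) (h : ∀ n ∈ K.fixingSubgroup, n • u = u) :
    ∃ x ∈ Global.supportedOn L S, jsFun S e x = u := by
  classical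
  have key : ∀ q : ↥S, ∃ v : (Global.SemiLocal L (q.1 : ℕ))ˣ,
      Units.map (Global.semiLocalMap (q.1 : ℕ) e : Global.SemiLocal L (q.1 : ℕ) →* Tq q.1) v = u q :=
    fun q => exists_units_semiLocalMap_eq q.1 e K hsurj (u q) (fun g hg => congrFun (h g hg) q)
  choose v hv using key
  refine ⟨fun q => if hq : q ∈ S then v ⟨q, hq⟩ else 1, fun q hq => dif_neg hq, ?_⟩
  funext q
  rw [jsFun_apply, dif_pos q.2]
  exact hv q

variable (Q : Type) [Group Q] [MulSemiringAction Q L]

/-- the underlying idele of an element of `Global.sIdeleRep Q L S` -/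
def sIdeleVal (x : (Global.sIdeleRep Q L S).V) : Global.IdeleProd L :=
  Additive.toMul ((show ↥(Global.addSub (Global.supportedOn L S)) from x) :
    Additive (Global.IdeleProd L))

theorem sIdeleVal_mem (x : (Global.sIdeleRep Q L S).V) :
    sIdeleVal S Q x ∈ Global.supportedOn L S :=
  (show ↥(Global.addSub (Global.supportedOn L S)) from x).2

theorem sIdeleVal_injective : Function.Injective (sIdeleVal (L := L) S Q) := by
  intro x y h
  exact Subtype.ext (congrArg Additive.ofMul h)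

theorem sIdeleVal_zero : sIdeleVal (L := L) S Q 0 = 1 := rfl

theorem sIdeleVal_add (x y : (Global.sIdeleRep Q L S).V) :
    sIdeleVal S Q (x + y) = sIdeleVal S Q x * sIdeleVal S Q y := rfl

/-- every idele supported on `S` is the underlying idele of an element of `Global.sIdeleRep` -/
theorem exists_sIdeleVal_eq (x : Global.IdeleProd L) (hx : x ∈ Global.supportedOn L S) :
    ∃ y : (Global.sIdeleRep Q L S).V, sIdeleVal S Q y = x :=
  ⟨(show ↥(Global.addSub (Global.supportedOn L S)) from ⟨Additive.ofMul x, hx⟩), rfl⟩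

/-- **[JM] `J_S(L) → JS`**: for a field `L` embedded by `e` into a normal `S`-level `K`, the map
`∏_{q ∈ S} (L ⊗ ℚ_q)ˣ → JS S`, `x ↦ (semiLocalMap q e x_q)_{q ∈ S}`. -/
def jsModel (K : IntermediateField ℚ Qb) (hK : IsNLevel S K) (he : ∀ x : L, e x ∈ K) :
    (Global.sIdeleRep Q L S).V →+ (JS S).V where
  toFun x := ⟨(Additive.ofMul (jsFun S e (sIdeleVal S Q x)) :
    Additive (∀ q : ↥S, (Tq q.1)ˣ)), jsFun_mem_smoothSub S e K hK he _⟩
  map_zero' := by
    apply Subtype.ext
    show (Additive.ofMul (jsFun S e 1) : Additive (∀ q : ↥S, (Tq q.1)ˣ)) = 0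
    rw [map_one]
    rfl
  map_add' x y := by
    apply Subtype.ext
    show (Additive.ofMul (jsFun S e (sIdeleVal S Q x * sIdeleVal S Q y)) :
        Additive (∀ q : ↥S, (Tq q.1)ˣ)) = _
    rw [map_mul]
    rfl

variable (K : IntermediateField ℚ Qb) (hK : IsNLevel S K) (he : ∀ x : L, e x ∈ K)

theorem jsModel_coe (x : (Global.sIdeleRep Q L S).V) :
    ((jsModel S e Q K hK he x : (JS S).V) : JFull S) =
      (Additive.ofMul (jsFun S e (sIdeleVal S Q x)) : Additive (∀ q : ↥S, (Tq q.1)ˣ)) := rfl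

theorem jsModel_injective : Function.Injective (jsModel S e Q K hK he) := by
  intro x y h
  have h1 : jsFun S e (sIdeleVal S Q x) = jsFun S e (sIdeleVal S Q y) :=
    congrArg (fun j : (JS S).V => Additive.toMul ((j : JFull S) : Additive (∀ q : ↥S, (Tq q.1)ˣ))) h
  exact sIdeleVal_injective S Q
    (jsFun_injOn S e (sIdeleVal_mem S Q x) (sIdeleVal_mem S Q y) h1)

/-- the image of `J_S(L)` is fixed by `Gal(ℚ̄/K)` -/
theorem jsModel_fixed (n : GQ) (hn : n ∈ K.fixingSubgroup) (x : (Global.sIdeleRep Q L S).V) :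
    (JS S).ρ n (jsModel S e Q K hK he x) = jsModel S e Q K hK he x :=
  Subtype.ext (congrArg Additive.ofMul (smul_jsFun S e n
    (fun x => (IntermediateField.mem_fixingSubgroup_iff K n).mp hn (e x) (he x)) _))

/-- **`J_S(K) = (JS)^{G_K}`**: every element of `JS S` fixed by `Gal(ℚ̄/K)` comes from `J_S(L)`
(`e(L) = K`). -/
theorem exists_jsModel_eq (hsurj : ∀ y ∈ K, ∃ x : L, e x = y) (j : JS S)
    (hj : ∀ n ∈ K.fixingSubgroup, (JS S).ρ n j = j) :
    ∃ x : (Global.sIdeleRep Q L S).V, jsModel S e Q K hK he x = j := by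
  obtain ⟨x, hx, hxu⟩ := exists_jsFun_eq S e K hsurj (Additive.toMul ((j : JFull S) :
    Additive (∀ q : ↥S, (Tq q.1)ˣ))) (fun n hn => by
      have h1 := congrArg (fun j : (JS S).V =>
        Additive.toMul ((j : JFull S) : Additive (∀ q : ↥S, (Tq q.1)ˣ))) (hj n hn)
      exact h1)
  obtain ⟨y, rfl⟩ := exists_sIdeleVal_eq S Q x hx
  exact ⟨y, Subtype.ext (congrArg Additive.ofMul hxu)⟩

/-- **Equivariance of `J_S(L) → JS`** along `π : GQ →* Q`. -/
theorem jsModel_rho (π : GQ →* Q) (hequiv : ∀ (g : GQ) (x : L), e (π g • x) = g (e x)) (g : GQ)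
    (x : (Global.sIdeleRep Q L S).V) :
    jsModel S e Q K hK he ((Global.sIdeleRep Q L S).ρ (π g) x) =
      (JS S).ρ g (jsModel S e Q K hK he x) := by
  apply Subtype.ext
  show (Additive.ofMul (jsFun S e _) : Additive (∀ q : ↥S, (Tq q.1)ˣ)) =
    Additive.ofMul (g • jsFun S e (sIdeleVal S Q x))
  congr 1
  funext q
  apply Units.ext
  exact semiLocalMap_smul q.1 e π hequiv g _

/-- **[JM]** For a field model `(Q, L, π, e)` of a normal `S`-level `K` (`π : GQ →* Q` onto with
kernel `Gal(ℚ̄/K)`, `e : L →+* ℚ̄` with image `K`, compatible actions), `Global.sIdeleRep Q L S`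
is a finite-level model of `JS S` at the level `K`. -/
theorem isFiniteLevel_jsModel (π : GQ →* Q) (hπ : Function.Surjective π)
    (hker : π.ker = K.fixingSubgroup) (hsurj : ∀ y ∈ K, ∃ x : L, e x = y)
    (hequiv : ∀ (g : GQ) (x : L), e (π g • x) = g (e x)) :
    Level.IsFiniteLevel (nLevels S) (JS S) K π (Global.sIdeleRep Q L S)
      (jsModel S e Q K hK he) where
  isLevel := hK
  surjective := hπ
  ker_eq := hker
  equivar := fun g x => jsModel_rho S e Q K hK he π hequiv g x
  injective := jsModel_injective S e Q K hK he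
  exists_of_fixed := fun a ha => exists_jsModel_eq S e Q K hK he hsurj a ha

end JModel

/-! ## The canonical field model `(Gal(K/ℚ), ↥K, restriction, inclusion)` -/

section Canonical

open Fermat.Agent.CFT.PlaceDict

set_option synthInstance.maxHeartbeats 400000 in
/-- [JM] for the canonical field model of a normal `S`-level `K`: `Q = Gal(K/ℚ)`, `L = ↥K`,
`π` the restriction map, `e` the inclusion. -/
theorem isFiniteLevel_jsModel_res (S : Finset Nat.Primes) (K : IntermediateField ℚ Qb)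
    (hK : IsNLevel S K) [Normal ℚ K] :
    Level.IsFiniteLevel (nLevels S) (JS S) K (res K) (Global.sIdeleRep (K ≃ₐ[ℚ] K) ↥K S)
      (jsModel S K.val.toRingHom (K ≃ₐ[ℚ] K) K hK (fun x => x.2)) :=
  isFiniteLevel_jsModel S K.val.toRingHom (K ≃ₐ[ℚ] K) K hK (fun x => x.2) (res K)
    (res_surjective K) (by ext g; exact res_eq_one_iff K g) (fun y hy => ⟨⟨y, hy⟩, rfl⟩)
    (fun g x => coe_res K g x)

end Canonical

end

end Fermat.Agent.CFT.Top.Semilocal
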