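import Fermat.Agent.CFT.Top.Defs
import Fermat.Agent.CFT.Level.Defs

/-!
# P3 / Top layer, SpineC side: definitions

* `homR f R X` : the internal Hom `Hom_ℤ(R, X)` (carrier: additive maps `R →+ X`) as a
  representation of `H`, for `f : H →* G`, `R : Rep ℤ G`, `X : Rep ℤ H`; action
  `h • φ = X.ρ h ∘ φ ∘ R.ρ (f h)⁻¹`.  (`f = id` is the usual internal Hom;
  `f = primeLocalToGlobal q` gives the local modules `Hom(R, ℚ̄_qˣ)`.)
* `postH`, `preH` : post- and pre-composition, with their equivariance.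
* `homInv` : `Hom_G(R, X)` (morphisms of `Rep ℤ G`) `≃+` the invariants of `homR (id) R X`.
* `evR0` : `homR f (R0 F A) X ≃+ ((GQ ⧸ G_F) × A → X)`, with the equivariance law `evR0_ρ`
  required by `SpineAlg.coind_homotopy`.
* `permOf A` : the permutation action of `G` on the underlying set of `A`.
-/

set_option autoImplicit false

open CategoryTheory

noncomputable section

namespace Fermat.Agent.CFT.Top

/-! ## Internal Hom -/

section HomR

variable {G H : Type} [Group G] [Group H] (f : H →* G) (R R' : Rep.{0} ℤ G) (X Y : Rep.{0} ℤ H)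

/-- The action of `H` on `Hom_ℤ(R, X)`: `h • φ = X.ρ h ∘ φ ∘ R.ρ (f h)⁻¹`. -/
def homRho : Representation ℤ H (R →+ X) where
  toFun h := AddMonoidHom.toIntLinearMap
    { toFun := fun φ => ((X.ρ h).toAddMonoidHom.comp φ).comp (R.ρ (f h⁻¹)).toAddMonoidHom
      map_zero' := by
        ext r
        simp
      map_add' := by
        intro φ ψ
        ext r
        simp }
  map_one' := by
    ext φ r
    simp
  map_mul' h h' := by
    ext φ r
    simp [mul_inv_rev, map_mul]

/-- `Hom_ℤ(R, X)` as a representation of `H` (`H` acts on `R` through `f : H →* G`). -/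
abbrev homR : Rep.{0} ℤ H := Rep.of (homRho f R X)

lemma homR_ρ_apply (h : H) (φ : R →+ X) (r : R) :
    ((homR f R X).ρ h φ : R →+ X) r = X.ρ h (φ (R.ρ (f h⁻¹) r)) := rfl

/-- Post-composition with an additive map `u : X → Y` (`X` a `G`-module, `Y` an `H`-module):
`Hom(R, X) → Hom(R, Y)`. -/
def postH {X : Rep.{0} ℤ G} {Y : Rep.{0} ℤ H} (u : X →+ Y) :
    homR (MonoidHom.id G) R X →+ homR f R Y where
  toFun φ := u.comp (φ : R →+ X)
  map_zero' := by
    ext r
    exact map_zero u
  map_add' φ ψ := by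
    ext r
    exact map_add u _ _

lemma postH_apply {X : Rep.{0} ℤ G} {Y : Rep.{0} ℤ H} (u : X →+ Y)
    (φ : homR (MonoidHom.id G) R X) (r : R) :
    (postH f R u φ : R →+ Y) r = u ((φ : R →+ X) r) := rfl

/-- Post-composition is equivariant along `f` when `u` is. -/
lemma postH_equivar {X : Rep.{0} ℤ G} {Y : Rep.{0} ℤ H} (u : X →+ Y)
    (hu : Level.Equivar f X Y u) :
    Level.Equivar f (homR (MonoidHom.id G) R X) (homR f R Y) (postH f R u) := by
  intro h φ
  ext r
  change u (X.ρ (f h) ((φ : R →+ X) (R.ρ ((f h)⁻¹) r))) =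
    Y.ρ h (u ((φ : R →+ X) (R.ρ (f h⁻¹) r)))
  rw [hu, map_inv f h]

lemma postH_injective {X : Rep.{0} ℤ G} {Y : Rep.{0} ℤ H} (u : X →+ Y)
    (hu : Function.Injective u) : Function.Injective (postH f R u) := by
  intro φ ψ h
  ext r
  apply hu
  exact congrArg (fun χ : R →+ Y => χ r) h

variable {R R'} in
/-- Pre-composition with an additive map `i : R' → R`: `Hom(R, X) → Hom(R', X)`. -/
def preH (i : R' →+ R) : homR f R X →+ homR f R' X where
  toFun φ := (φ : R →+ X).comp i
  map_zero' := rfl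
  map_add' _ _ := rfl

variable {R R'} in
lemma preH_apply (i : R' →+ R) (φ : homR f R X) (r : R') :
    (preH f X i φ : R' →+ X) r = (φ : R →+ X) (i r) := rfl

variable {R R'} in
/-- Pre-composition with a `G`-equivariant map is `H`-equivariant. -/
lemma preH_equivar (i : R' →+ R) (hi : ∀ g r, i (R'.ρ g r) = R.ρ g (i r)) :
    Level.Equivar (MonoidHom.id H) (homR f R X) (homR f R' X) (preH f X i) := by
  intro h φ
  ext r
  change X.ρ h ((φ : R →+ X) (R.ρ (f h⁻¹) (i r))) =
    X.ρ h ((φ : R →+ X) (i (R'.ρ (f h⁻¹) r)))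
  rw [hi]

/-- Post- and pre-composition commute. -/
lemma postH_preH {X : Rep.{0} ℤ G} {Y : Rep.{0} ℤ H} (u : X →+ Y) (i : R' →+ R)
    (φ : homR (MonoidHom.id G) R X) :
    postH f R' u (preH (MonoidHom.id G) X i φ) = preH f Y i (postH f R u φ) := rfl

end HomR

/-! ## Generic helpers (stated for an arbitrary coefficient ring `k`, so that at `k = ℤ` all
module structures are the ones carried by the representations) -/

section Generic

variable {G k : Type} [Group G] [CommRing k]

/-- The invariants of a representation. -/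
abbrev invs (A : Rep.{0} k G) : Submodule k A := A.ρ.invariants

lemma ρ_inv_ρ (A : Rep.{0} k G) (g : G) (a : A) : A.ρ g⁻¹ (A.ρ g a) = a := by
  rw [← Module.End.mul_apply, ← map_mul, inv_mul_cancel, map_one, Module.End.one_apply]

lemma ρ_ρ_inv (A : Rep.{0} k G) (g : G) (a : A) : A.ρ g (A.ρ g⁻¹ a) = a := by
  rw [← Module.End.mul_apply, ← map_mul, mul_inv_cancel, map_one, Module.End.one_apply]

lemma ρ_mul_apply (A : Rep.{0} k G) (g h : G) (a : A) : A.ρ (g * h) a = A.ρ g (A.ρ h a) := by
  rw [map_mul, Module.End.mul_apply]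

lemma ρ_one_apply (A : Rep.{0} k G) (a : A) : A.ρ 1 a = a := by
  rw [map_one, Module.End.one_apply]

/-- A morphism of representations from an additive, `k`-homogeneous, equivariant map. -/
def homOfAdd (R X : Rep.{0} k G) (ψ : R →+ X) (hs : ∀ (c : k) (r : R), ψ (c • r) = c • ψ r)
    (he : ∀ (g : G) (r : R), ψ (R.ρ g r) = X.ρ g (ψ r)) : R ⟶ X :=
  Rep.ofHom (LinearMap.intertwiningMap_of_isIntertwiningMap R.ρ X.ρ
    { toFun := ψ
      map_add' := ψ.map_add
      map_smul' := hs } he)

lemma homOfAdd_apply (R X : Rep.{0} k G) (ψ : R →+ X) (hs : ∀ (c : k) (r : R), ψ (c • r) = c • ψ r)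
    (he : ∀ (g : G) (r : R), ψ (R.ρ g r) = X.ρ g (ψ r)) (r : R) :
    (homOfAdd R X ψ hs he).hom r = ψ r := rfl

/-- The underlying additive map of a morphism of representations. -/
def addOfHom {R X : Rep.{0} k G} (φ : R ⟶ X) : R →+ X := φ.hom.toLinearMap.toAddMonoidHom

lemma addOfHom_apply {R X : Rep.{0} k G} (φ : R ⟶ X) (r : R) : addOfHom φ r = φ.hom r := rfl

lemma addOfHom_equivar {R X : Rep.{0} k G} (φ : R ⟶ X) (g : G) (r : R) :
    addOfHom φ (R.ρ g r) = X.ρ g (addOfHom φ r) := Rep.hom_comm_apply φ g r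

end Generic

/-! ## Invariants of the internal Hom are the equivariant maps -/

section HomInv

variable {G : Type} [Group G] (R X : Rep.{0} ℤ G)

lemma mem_invs_homR_iff (φ : R →+ X) :
    φ ∈ invs (homR (MonoidHom.id G) R X) ↔ ∀ (g : G) (r : R), φ (R.ρ g r) = X.ρ g (φ r) := by
  constructor
  · intro h g r
    have h1 := congrArg (fun χ : R →+ X => χ (R.ρ g r)) (h g)
    change X.ρ g (φ (R.ρ g⁻¹ (R.ρ g r))) = φ (R.ρ g r) at h1
    rw [ρ_inv_ρ] at h1
    exact h1.symm
  · intro h g
    ext r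
    change X.ρ g (φ (R.ρ g⁻¹ r)) = φ r
    rw [← h, ρ_ρ_inv]

/-- An additive map between the carriers of two `ℤ`-representations is homogeneous for the
module structures carried by the representations. -/
lemma add_smul_rep (ψ : R →+ X) : ∀ (c : ℤ) (r : R), ψ (R.hV2.smul c r) = X.hV2.smul c (ψ r) := by
  intro c r
  calc ψ (R.hV2.smul c r) = ψ (c • r) := congrArg ψ (int_smul_eq_zsmul R.hV2 c r)
    _ = c • ψ r := map_zsmul ψ c r
    _ = X.hV2.smul c (ψ r) := (int_smul_eq_zsmul X.hV2 c (ψ r)).symm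

/-- `Hom_G(R, X)` (morphisms in `Rep ℤ G`) as the invariants of the internal Hom. -/
def homInv : (R ⟶ X) ≃+ invs (homR (MonoidHom.id G) R X) where
  toFun φ := ⟨addOfHom φ, (mem_invs_homR_iff R X _).2 (addOfHom_equivar φ)⟩
  invFun φ := homOfAdd R X (φ.1 : R →+ X) (add_smul_rep R X _)
    ((mem_invs_homR_iff R X _).1 φ.2)
  left_inv φ := by
    apply Rep.hom_ext
    rfl
  right_inv φ := rfl
  map_add' φ ψ := rfl

lemma homInv_apply (φ : R ⟶ X) (r : R) :
    ((homInv R X φ : homR (MonoidHom.id G) R X) : R →+ X) r = φ.hom r := rfl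

lemma homInv_symm_apply (φ : invs (homR (MonoidHom.id G) R X)) (r : R) :
    ((homInv R X).symm φ).hom r = (φ.1 : R →+ X) r := rfl

end HomInv

/-! ## The evaluation equivalence for `R0 F A` -/

section Ev

variable {G : Type} [Group G] {k : Type} [CommRing k] (A : Rep.{0} k G)

/-- The permutation action of `G` on the underlying set of a representation. -/
def permOf : G →* Equiv.Perm A.V where
  toFun g :=
    { toFun := A.ρ g
      invFun := A.ρ g⁻¹
      left_inv := fun a => ρ_inv_ρ A g a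
      right_inv := fun a => ρ_ρ_inv A g a }
  map_one' := by
    ext a
    simp
  map_mul' g h := by
    ext a
    simp

@[simp] lemma permOf_apply (g : G) (a : A.V) : permOf A g a = A.ρ g a := rfl

end Ev

section EvR0

variable {H : Type} [Group H] (f : H →* GQ) {k : Type} [CommRing k]
  (F : IntermediateField ℚ Qb) (A : Rep.{0} k GQ) (X : Rep.{0} ℤ H)

/-- `Hom_ℤ(ℤ[GQ/G_F × A], X) ≃ ((GQ/G_F × A) → X)`: evaluation on the basis. -/
def evR0 : homR f (R0 F A) X ≃+ (R0Basis F A → X) where
  toFun φ b := (φ : (R0Basis F A →₀ ℤ) →+ X) (Finsupp.single b 1)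
  invFun g := Finsupp.liftAddHom (fun b => zmultiplesHom X (g b))
  left_inv φ := by
    apply Finsupp.addHom_ext
    intro b n
    simp only [Finsupp.liftAddHom_apply_single, zmultiplesHom_apply]
    rw [← map_zsmul, Finsupp.smul_single_one]
  right_inv g := by
    funext b
    simp
  map_add' φ ψ := rfl

lemma evR0_apply (φ : homR f (R0 F A) X) (b : R0Basis F A) :
    evR0 f F A X φ b = (φ : (R0Basis F A →₀ ℤ) →+ X) (Finsupp.single b 1) := rfl

lemma evR0_symm_single (g : R0Basis F A → X) (b : R0Basis F A) :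
    (((evR0 f F A X).symm g : homR f (R0 F A) X) : (R0Basis F A →₀ ℤ) →+ X)
      (Finsupp.single b 1) = g b := by
  have := congrFun ((evR0 f F A X).apply_symm_apply g) b
  exact this

/-- The equivariance law of the evaluation equivalence (the hypothesis `he` of
`SpineAlg.coind_homotopy`, for `f = id`). -/
lemma evR0_ρ (h : H) (φ : homR f (R0 F A) X) (x : GQ) (a : A.V) :
    evR0 f F A X ((homR f (R0 F A) X).ρ h φ)
        (((f h * x : GQ) : GQ ⧸ F.fixingSubgroup), A.ρ (f h) a) =
      X.ρ h (evR0 f F A X φ ((x : GQ ⧸ F.fixingSubgroup), a)) := by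
  rw [evR0_apply, evR0_apply]
  change X.ρ h ((φ : (R0Basis F A →₀ ℤ) →+ X)
    (r0Rho F A (f h⁻¹) (Finsupp.single
      (((f h * x : GQ) : GQ ⧸ F.fixingSubgroup), A.ρ (f h) a) 1))) = _
  rw [r0Rho_single]
  congr 3
  refine Prod.ext ?_ ?_
  · change (f h⁻¹) • ((f h * x : GQ) : GQ ⧸ F.fixingSubgroup) = _
    rw [MulAction.Quotient.smul_mk, map_inv, smul_eq_mul, inv_mul_cancel_left]
  · change A.ρ (f h⁻¹) (A.ρ (f h) a) = a
    rw [map_inv f h, ρ_inv_ρ]

end EvR0

end Fermat.Agent.CFT.Top

end
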