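import Fermat.Agent.CFT.Top.LocalDefs
import Fermat.Agent.CFT.Top.SpineDefs
import Fermat.Agent.CFT.Local.Hilbert90Fun

/-!
# P3 / Top layer: the local inputs `[LIM4]` and (local half of) `[LIM1]` of SPINE (c)

`q` a prime, `G_q = primeLocalGaloisGroup q = Gal(ℚ̄_q/ℚ_q)`, `r = primeLocalToGlobal q`,
`X_q = XQ q = (PadicAlgCl q)ˣ`, `R0 F A = ℤ[GQ/G_F × A]`, `R1 F A = ker (R0 F A → A)`
(`Top/Defs`), `homR r R X = Hom_ℤ(R, X)` with `τ • φ = τ ∘ φ ∘ r(τ)⁻¹` (`Top/SpineDefs`).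

In the vocabulary of `Top/SpineDefs` + `Level`:

* `lim4`, `H1_homR_R0_eq_zero` : **[LIM4]** every level-constant 1-cocycle
  `G_q → Hom_ℤ(R0 F A, X_q)` is a coboundary (Hilbert 90 for all finite extensions of `ℚ_q` +
  Mackey, via `Local/Hilbert90Fun.exists_fun_coboundary_padic`); no hypothesis on `F`, `A`.
* `isSmooth_homR_R0`, `isSmooth_homR_R1` : `Hom_ℤ(R_i F A, X_q)` is smooth for
  `pullLevels r` (`F` finite, `G_F` normal and acting trivially on the finite module `A`).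
* `preH_r1Incl_surjective` : `Hom_ℤ(R0 F A, X_q) → Hom_ℤ(R1 F A, X_q)` is onto (`X_q` divisible).
* `isSES_local` : **[LIM1], local row**
  `0 → M → Hom_ℤ(R0 F M', X_q) → Hom_ℤ(R1 F M', X_q) → 0` is `Level.IsSES`
  (`M' = M.dualTwist (cycloChar p)`), for ANY additive `i` with `i m (c, m') = ζ ^ m'(m)`.

Raw forms (plain additive maps, no `homR`): `lim4_raw`, `exists_extend_r1`,
`exists_eq_pow_of_vanish`, `eq_zero_of_pow_eq_one`, `exists_level_fixing_hom(_r1)`,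
`iMloc`, `iMloc_equivar`, and the dictionary `ofUnit` / `toUnit` between `(XQ q).V` and
`(PadicAlgCl q)ˣ`.
-/

set_option autoImplicit false

open CategoryTheory ExtCitation groupCohomology

noncomputable section

namespace Fermat.Agent.CFT.Top.LocalLim

open Fermat.Agent.CFT.Local

/-! ## Units of `PadicAlgCl q` as elements of `XQ q` -/

section Units

variable (q : Nat.Primes)

/-- A unit of `PadicAlgCl q`, as an element of `XQ q`. -/
def ofUnit (u : (PadicAlgCl (q : ℕ))ˣ) : (XQ q).V := Additive.ofMul u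

/-- An element of `XQ q`, as a unit of `PadicAlgCl q`. -/
def toUnit (x : (XQ q).V) : (PadicAlgCl (q : ℕ))ˣ := Additive.toMul x

@[simp] lemma ofUnit_toUnit (x : (XQ q).V) : ofUnit q (toUnit q x) = x := rfl

@[simp] lemma toUnit_ofUnit (u : (PadicAlgCl (q : ℕ))ˣ) : toUnit q (ofUnit q u) = u := rfl

lemma ofUnit_injective : Function.Injective (ofUnit q) := fun _ _ h => congrArg (toUnit q) h

lemma toUnit_injective : Function.Injective (toUnit q) := fun _ _ h => congrArg (ofUnit q) h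

lemma ofUnit_one : ofUnit q 1 = 0 := rfl

lemma ofUnit_mul (u v : (PadicAlgCl (q : ℕ))ˣ) : ofUnit q (u * v) = ofUnit q u + ofUnit q v := rfl

lemma ofUnit_div (u v : (PadicAlgCl (q : ℕ))ˣ) : ofUnit q (u / v) = ofUnit q u - ofUnit q v := rfl

lemma ofUnit_inv (u : (PadicAlgCl (q : ℕ))ˣ) : ofUnit q u⁻¹ = - ofUnit q u := rfl

lemma ofUnit_zpow (u : (PadicAlgCl (q : ℕ))ˣ) (n : ℤ) : ofUnit q (u ^ n) = n • ofUnit q u := rfl

lemma ofUnit_pow (u : (PadicAlgCl (q : ℕ))ˣ) (n : ℕ) : ofUnit q (u ^ n) = n • ofUnit q u := rfl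

lemma toUnit_zero : toUnit q 0 = 1 := rfl

lemma toUnit_add (x y : (XQ q).V) : toUnit q (x + y) = toUnit q x * toUnit q y := rfl

lemma toUnit_sub (x y : (XQ q).V) : toUnit q (x - y) = toUnit q x / toUnit q y := rfl

lemma toUnit_zsmul (n : ℤ) (x : (XQ q).V) : toUnit q (n • x) = toUnit q x ^ n := rfl

lemma toUnit_nsmul (n : ℕ) (x : (XQ q).V) : toUnit q (n • x) = toUnit q x ^ n := rfl

/-- The action of the local Galois group on `XQ q`, on units. -/
lemma rho_ofUnit (τ : PadicAlgCl (q : ℕ) ≃ₐ[ℚ_[(q : ℕ)]] PadicAlgCl (q : ℕ))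
    (u : (PadicAlgCl (q : ℕ))ˣ) : (XQ q).ρ τ (ofUnit q u) = ofUnit q (τ • u) := rfl

lemma toUnit_rho (τ : PadicAlgCl (q : ℕ) ≃ₐ[ℚ_[(q : ℕ)]] PadicAlgCl (q : ℕ))
    (x : (XQ q).V) : toUnit q ((XQ q).ρ τ x) = τ • toUnit q x := rfl

lemma val_toUnit_rho (τ : PadicAlgCl (q : ℕ) ≃ₐ[ℚ_[(q : ℕ)]] PadicAlgCl (q : ℕ))
    (x : (XQ q).V) : ((toUnit q ((XQ q).ρ τ x) : (PadicAlgCl (q : ℕ))ˣ) : PadicAlgCl (q : ℕ)) =
      τ (toUnit q x : (PadicAlgCl (q : ℕ))ˣ) := rfl

end Units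

variable (q : Nat.Primes) {k : Type} [CommRing k] (F : IntermediateField ℚ Qb)
  (A : Rep.{0} k GQ)

/-- The local Galois group acts on the basis of `R0 F A` through `localGaloisToGlobal q`. -/
@[instance_reducible]
def basisAction :
    MulAction (PadicAlgCl (q : ℕ) ≃ₐ[ℚ_[(q : ℕ)]] PadicAlgCl (q : ℕ)) (R0Basis F A) where
  smul τ x := (localGaloisToGlobal (q : ℕ) τ • x.1, A.ρ (localGaloisToGlobal (q : ℕ) τ) x.2)
  one_smul x := by
    change (localGaloisToGlobal (q : ℕ) 1 • x.1, A.ρ (localGaloisToGlobal (q : ℕ) 1) x.2) = x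
    rw [map_one, map_one, one_smul]
    rfl
  mul_smul τ σ x := by
    change (localGaloisToGlobal (q : ℕ) (τ * σ) • x.1,
      A.ρ (localGaloisToGlobal (q : ℕ) (τ * σ)) x.2) =
      (localGaloisToGlobal (q : ℕ) τ • (localGaloisToGlobal (q : ℕ) σ • x.1),
        A.ρ (localGaloisToGlobal (q : ℕ) τ) (A.ρ (localGaloisToGlobal (q : ℕ) σ) x.2))
    rw [map_mul, map_mul, mul_smul]
    rfl

/-- The additive map `R0 F A → XQ q` with prescribed values on the basis. -/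
def liftBasis (φ : R0Basis F A → (PadicAlgCl (q : ℕ))ˣ) : (R0Basis F A →₀ ℤ) →+ (XQ q).V :=
  Finsupp.liftAddHom (fun t => zmultiplesHom (XQ q).V (ofUnit q (φ t)))

lemma liftBasis_single (φ : R0Basis F A → (PadicAlgCl (q : ℕ))ˣ) (t : R0Basis F A) (n : ℤ) :
    liftBasis q F A φ (Finsupp.single t n) = n • ofUnit q (φ t) := by
  rw [liftBasis, Finsupp.liftAddHom_apply_single, zmultiplesHom_apply]

lemma liftBasis_single_one (φ : R0Basis F A → (PadicAlgCl (q : ℕ))ˣ) (t : R0Basis F A) :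
    liftBasis q F A φ (Finsupp.single t 1) = ofUnit q (φ t) := by
  rw [liftBasis_single, one_smul]

/-- Two additive maps out of `R0 F A` agreeing on the basis are equal. -/
lemma hom_ext_single {X : Type*} [AddCommGroup X] {φ ψ : (R0Basis F A →₀ ℤ) →+ X}
    (h : ∀ t, φ (Finsupp.single t 1) = ψ (Finsupp.single t 1)) : φ = ψ := by
  refine Finsupp.addHom_ext fun t n => ?_
  have h1 : Finsupp.single t n = n • Finsupp.single t (1 : ℤ) := by
    rw [Finsupp.smul_single, smul_eq_mul, mul_one]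
  rw [h1, map_zsmul, map_zsmul, h]

/-- **[LIM4], raw form.**  Every level-constant 1-cocycle of the local Galois group with values
in `Hom_ℤ(R0 F A, (PadicAlgCl q)ˣ)` (action `τ • φ = τ ∘ φ ∘ r(τ)⁻¹`) is a coboundary. -/
theorem lim4_raw
    (c : primeLocalGaloisGroup q → ((R0Basis F A →₀ ℤ) →+ (XQ q).V))
    (hc : ∀ (τ σ : primeLocalGaloisGroup q) (x : R0Basis F A →₀ ℤ), c (τ * σ) x =
      (XQ q).ρ τ (c σ (r0Rho F A (primeLocalToGlobal q τ⁻¹) x)) + c τ x)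
    (hlev : IsLevelConstant₁ (primeLocalToGlobal q) c) :
    ∃ φ : (R0Basis F A →₀ ℤ) →+ (XQ q).V, ∀ (τ : primeLocalGaloisGroup q)
      (x : R0Basis F A →₀ ℤ), c τ x =
        (XQ q).ρ τ (φ (r0Rho F A (primeLocalToGlobal q τ⁻¹) x)) - φ x := by
  classical
  let _ : MulAction (PadicAlgCl (q : ℕ) ≃ₐ[ℚ_[(q : ℕ)]] PadicAlgCl (q : ℕ)) (R0Basis F A) :=
    basisAction q F A
  -- the cocycle in coordinates
  let c' : (PadicAlgCl (q : ℕ) ≃ₐ[ℚ_[(q : ℕ)]] PadicAlgCl (q : ℕ)) → R0Basis F A →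
      (PadicAlgCl (q : ℕ))ˣ := fun τ t => toUnit q (c τ (Finsupp.single t 1))
  have hc' : ∀ g h t, c' (g * h) t = g • c' h (g⁻¹ • t) * c' g t := by
    intro g h t
    have h1 := hc g h (Finsupp.single t 1)
    rw [r0Rho_single] at h1
    exact congrArg (toUnit q) h1
  have hlev' : IsLevelConstant₁ (localGaloisToGlobal (q : ℕ)) c' := by
    obtain ⟨L, hL, h⟩ := hlev
    refine ⟨L, hL, fun g s hs => ?_⟩
    funext t
    exact congrArg (fun f : (R0Basis F A →₀ ℤ) →+ (XQ q).V =>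
      toUnit q (f (Finsupp.single t 1))) (h g s hs)
  obtain ⟨φ', hφ'⟩ := Hilbert90Fun.exists_fun_coboundary_padic (q : ℕ) (R0Basis F A) c' hc' hlev'
  refine ⟨liftBasis q F A φ', ?_⟩
  intro τ₀ x
  obtain ⟨τ, rfl⟩ : ∃ τ : PadicAlgCl (q : ℕ) ≃ₐ[ℚ_[(q : ℕ)]] PadicAlgCl (q : ℕ), τ = τ₀ :=
    ⟨τ₀, rfl⟩
  induction x using Finsupp.induction_linear with
  | zero => simp
  | add x y hx hy =>
    rw [map_add, map_add, map_add, map_add, map_add, hx, hy]
    abel
  | single t n =>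
    have h1 : Finsupp.single t n = n • Finsupp.single t (1 : ℤ) := by
      rw [Finsupp.smul_single, smul_eq_mul, mul_one]
    have h2 : c τ (Finsupp.single t n) = n • ofUnit q (c' τ t) := by
      rw [h1, map_zsmul]
      rfl
    rw [h2, hφ', r0Rho_single, liftBasis_single, liftBasis_single, map_zsmul, ← smul_sub,
      ofUnit_div, rho_ofUnit]
    rfl

/-! ## Local half of `[LIM1]`: the row `0 → M → Hom(R0, X_q) → Hom(R1, X_q) → 0` -/

section Divisible

/-- `XQ q = (PadicAlgCl q)ˣ` is a divisible group. -/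
lemma exists_zsmul_eq (n : ℤ) (hn : n ≠ 0) (x : Additive (PadicAlgCl (q : ℕ))ˣ) :
    ∃ y : Additive (PadicAlgCl (q : ℕ))ˣ, n • y = x := by
  obtain ⟨v, hv⟩ := Hilbert90Fun.exists_pow_eq_unit (q : ℕ) n.natAbs (Int.natAbs_ne_zero.2 hn)
    (Additive.toMul x)
  rcases Int.natAbs_eq n with h | h
  · refine ⟨Additive.ofMul v, ?_⟩
    rw [h, natCast_zsmul]
    exact congrArg Additive.ofMul hv
  · refine ⟨Additive.ofMul v⁻¹, ?_⟩
    rw [h, neg_smul, natCast_zsmul]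
    change Additive.ofMul ((v⁻¹ ^ n.natAbs)⁻¹) = x
    rw [inv_pow, inv_inv]
    exact congrArg Additive.ofMul hv

/-- `(PadicAlgCl q)ˣ` is an injective `ℤ`-module (Baer's criterion). -/
lemma baer_units : Module.Baer ℤ (Additive (PadicAlgCl (q : ℕ))ˣ) := by
  have : DivisibleBy (Additive (PadicAlgCl (q : ℕ))ˣ) ℤ :=
    divisibleByOfSMulRightSurj _ _ (fun {n} hn x => exists_zsmul_eq q n hn x)
  exact Module.Baer.of_divisible _

/-- Additive maps into `XQ q` extend from subgroups. -/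
theorem exists_extend_hom {G : Type*} [AddCommGroup G] (H : AddSubgroup G)
    (ψ : H →+ (XQ q).V) : ∃ φ : G →+ (XQ q).V, ∀ h : H, φ (h : G) = ψ h := by
  obtain ⟨φ, hφ⟩ := Module.Baer.extension_property_addMonoidHom (baer_units q) H.subtype
    Subtype.val_injective (ψ : H →+ Additive (PadicAlgCl (q : ℕ))ˣ)
  exact ⟨φ, fun h => DFunLike.congr_fun hφ h⟩

/-- **[LIM1], local row, surjectivity.** `Hom_ℤ(R0 F A, X_q) → Hom_ℤ(R1 F A, X_q)` is onto. -/
theorem exists_extend_r1 (ψ : ↥(r1Sub F A) →+ (XQ q).V) :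
    ∃ φ : (R0Basis F A →₀ ℤ) →+ (XQ q).V,
      ∀ x : ↥(r1Sub F A), φ (x : R0Basis F A →₀ ℤ) = ψ x :=
  exists_extend_hom q (r1Sub F A).toAddSubgroup ψ

end Divisible

section Kernel

/-- An additive map on `R0 F A` vanishing on `R1 F A` factors through the augmentation. -/
theorem exists_factor_aug {X : Type*} [AddCommGroup X] (φ : (R0Basis F A →₀ ℤ) →+ X)
    (hφ : ∀ x ∈ r1Sub F A, φ x = 0) :
    ∃ ψ : A.V →+ X, ∀ t : R0Basis F A, φ (Finsupp.single t 1) = ψ t.2 := by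
  classical
  have key : ∀ x y : R0Basis F A →₀ ℤ, aug F A x = aug F A y → φ x = φ y := by
    intro x y h
    have h1 : x - y ∈ r1Sub F A := by
      change aug F A (x - y) = 0
      rw [map_sub, h, sub_self]
    have h2 := hφ _ h1
    rw [map_sub, sub_eq_zero] at h2
    exact h2
  let c₀ : GQ ⧸ F.fixingSubgroup := ((1 : GQ) : GQ ⧸ F.fixingSubgroup)
  refine ⟨{ toFun := fun a => φ (Finsupp.single (c₀, a) 1)
            map_zero' := ?_
            map_add' := ?_ }, ?_⟩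
  · have h := key (Finsupp.single (c₀, (0 : A.V)) 1) 0 (by rw [aug_single, map_zero, smul_zero])
    rw [h, map_zero]
  · intro a b
    have h := key (Finsupp.single (c₀, a + b) 1)
      (Finsupp.single (c₀, a) 1 + Finsupp.single (c₀, b) 1)
      (by rw [map_add, aug_single, aug_single, aug_single, one_smul, one_smul, one_smul])
    rw [h, map_add]
  · intro t
    exact key _ _ (by rw [aug_single, aug_single])

variable {p : ℕ} [Fact p.Prime]

/-- For a `p`-th root of unity `ζ`, the additive map `ZMod p → XQ q`, `k ↦ ζ ^ k`. -/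
def zetaPow (ζ : (PadicAlgCl (q : ℕ))ˣ) (hζ : ζ ^ p = 1) : ZMod p →+ (XQ q).V where
  toFun k := ofUnit q (ζ ^ k.val)
  map_zero' := by rw [ZMod.val_zero, pow_zero, ofUnit_one]
  map_add' k l := by
    rw [← ofUnit_mul, ← pow_add, ZMod.val_add, ← pow_eq_pow_mod _ hζ]

lemma zetaPow_apply (ζ : (PadicAlgCl (q : ℕ))ˣ) (hζ : ζ ^ p = 1) (k : ZMod p) :
    zetaPow q ζ hζ k = ofUnit q (ζ ^ k.val) := rfl

lemma zetaPow_injective (ζ : (PadicAlgCl (q : ℕ))ˣ) (hζ : IsPrimitiveRoot ζ p) :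
    Function.Injective (zetaPow q ζ hζ.pow_eq_one) := by
  rw [injective_iff_map_eq_zero]
  intro k hk
  have h1 : ζ ^ k.val = 1 := ofUnit_injective q hk
  have h2 := (hζ.pow_eq_one_iff_dvd _).1 h1
  have h3 : k.val = 0 := Nat.eq_zero_of_dvd_of_lt h2 (ZMod.val_lt k)
  exact (ZMod.val_eq_zero k).1 h3

lemma exists_zetaPow_eq (ζ : (PadicAlgCl (q : ℕ))ˣ) (hζ : IsPrimitiveRoot ζ p) (x : (XQ q).V)
    (hx : p • x = 0) : ∃ k : ZMod p, zetaPow q ζ hζ.pow_eq_one k = x := by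
  have h1 : (toUnit q x : (PadicAlgCl (q : ℕ))ˣ) ^ p = 1 := congrArg (toUnit q) hx
  have hζ' : IsPrimitiveRoot (ζ : PadicAlgCl (q : ℕ)) p := hζ.map_of_injective
    (f := Units.coeHom (PadicAlgCl (q : ℕ))) Units.val_injective
  have h2 : ((toUnit q x : (PadicAlgCl (q : ℕ))ˣ) : PadicAlgCl (q : ℕ)) ^ p = 1 := by
    rw [← Units.val_pow_eq_pow_val, h1, Units.val_one]
  obtain ⟨i, hi, h3⟩ := hζ'.eq_pow_of_pow_eq_one h2
  refine ⟨(i : ZMod p), ?_⟩
  rw [zetaPow_apply, ZMod.val_natCast_of_lt hi]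
  apply toUnit_injective q
  rw [toUnit_ofUnit]
  exact Units.ext (by rw [Units.val_pow_eq_pow_val, h3])

variable (M : Rep.{0} (ZMod p) GQ) (χ : GQ →* (ZMod p)ˣ)

/-- **[LIM1], local row, exactness in the middle.**  An additive map `R0 F M' → X_q`
(`M' = M.dualTwist χ`) vanishing on `R1 F M'` is of the form `(c, m') ↦ ζ ^ m'(m)` for some
`m : M`. -/
theorem exists_eq_pow_of_vanish [FiniteDimensional (ZMod p) M] (ζ : (PadicAlgCl (q : ℕ))ˣ)
    (hζ : IsPrimitiveRoot ζ p) (φ : (R0Basis F (M.dualTwist χ) →₀ ℤ) →+ (XQ q).V)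
    (hφ : ∀ x ∈ r1Sub F (M.dualTwist χ), φ x = 0) :
    ∃ m : M, ∀ t : R0Basis F (M.dualTwist χ),
      φ (Finsupp.single t 1) = ofUnit q (ζ ^ ((t.2 : Module.Dual (ZMod p) M) m).val) := by
  obtain ⟨ψ, hψ⟩ := exists_factor_aug F (M.dualTwist χ) φ hφ
  have hp : ∀ a : Module.Dual (ZMod p) M, p • ψ a = 0 := by
    intro a
    rw [← map_nsmul, ZModModule.char_nsmul_eq_zero p a, map_zero]
  choose lam hlam using fun a => exists_zetaPow_eq q ζ hζ (ψ a) (hp a)
  have hinj := zetaPow_injective q ζ hζ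
  let lamHom : Module.Dual (ZMod p) M →+ ZMod p :=
    { toFun := lam
      map_zero' := by
        apply hinj
        rw [hlam, map_zero, map_zero]
      map_add' := fun a b => by
        apply hinj
        rw [hlam, map_add, map_add, hlam, hlam] }
  refine ⟨(Module.evalEquiv (ZMod p) M).symm (lamHom.toZModLinearMap p), fun t => ?_⟩
  rw [Module.apply_evalEquiv_symm_apply, hψ]
  exact (hlam t.2).symm

/-- **[LIM1], local row, injectivity.** -/
theorem eq_zero_of_pow_eq_one (ζ : (PadicAlgCl (q : ℕ))ˣ) (hζ : IsPrimitiveRoot ζ p) (m : M)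
    (h : ∀ f : Module.Dual (ZMod p) M, ζ ^ (f m).val = 1) : m = 0 := by
  rw [← Module.forall_dual_apply_eq_zero_iff (ZMod p)]
  intro f
  have h2 := (hζ.pow_eq_one_iff_dvd _).1 (h f)
  have h3 : (f m).val = 0 := Nat.eq_zero_of_dvd_of_lt h2 (ZMod.val_lt _)
  exact (ZMod.val_eq_zero _).1 h3

/-- The local map `M → Hom_ℤ(R0 F M', X_q)`, `m ↦ (x ↦ ζ ^ (aug x)(m))`
(`M' = M.dualTwist χ`, `ζ` a `p`-th root of unity). -/
def iMloc (ζ : (PadicAlgCl (q : ℕ))ˣ) (hζ : ζ ^ p = 1) :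
    M →+ ((R0Basis F (M.dualTwist χ) →₀ ℤ) →+ (XQ q).V) where
  toFun m := (zetaPow q ζ hζ).comp
    { toFun := fun x => (aug F (M.dualTwist χ) x : Module.Dual (ZMod p) M) m
      map_zero' := by rw [map_zero]; rfl
      map_add' := fun x y => by rw [map_add]; rfl }
  map_zero' := by
    refine AddMonoidHom.ext fun x => ?_
    change zetaPow q ζ hζ ((aug F (M.dualTwist χ) x : Module.Dual (ZMod p) M) 0) = 0
    rw [map_zero, map_zero]
  map_add' m m' := by
    refine AddMonoidHom.ext fun x => ?_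
    change zetaPow q ζ hζ ((aug F (M.dualTwist χ) x : Module.Dual (ZMod p) M) (m + m')) =
      zetaPow q ζ hζ ((aug F (M.dualTwist χ) x : Module.Dual (ZMod p) M) m) +
        zetaPow q ζ hζ ((aug F (M.dualTwist χ) x : Module.Dual (ZMod p) M) m')
    rw [map_add, map_add]

lemma iMloc_apply (ζ : (PadicAlgCl (q : ℕ))ˣ) (hζ : ζ ^ p = 1) (m : M)
    (x : R0Basis F (M.dualTwist χ) →₀ ℤ) :
    iMloc q F M χ ζ hζ m x =
      zetaPow q ζ hζ ((aug F (M.dualTwist χ) x : Module.Dual (ZMod p) M) m) := rfl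

lemma iMloc_single_one (ζ : (PadicAlgCl (q : ℕ))ˣ) (hζ : ζ ^ p = 1) (m : M)
    (t : R0Basis F (M.dualTwist χ)) :
    iMloc q F M χ ζ hζ m (Finsupp.single t 1) =
      ofUnit q (ζ ^ ((t.2 : Module.Dual (ZMod p) M) m).val) := by
  rw [iMloc_apply, aug_single, one_smul, zetaPow_apply]

/-- `iMloc m` vanishes on `R1`. -/
lemma iMloc_eq_zero_of_mem (ζ : (PadicAlgCl (q : ℕ))ˣ) (hζ : ζ ^ p = 1) (m : M)
    (x : R0Basis F (M.dualTwist χ) →₀ ℤ) (hx : x ∈ r1Sub F (M.dualTwist χ)) :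
    iMloc q F M χ ζ hζ m x = 0 := by
  have h : aug F (M.dualTwist χ) x = 0 := hx
  rw [iMloc_apply, h]
  exact map_zero _

/-- Any family of additive maps with the values of `iMloc` on the basis is `iMloc`. -/
lemma eq_iMloc (ζ : (PadicAlgCl (q : ℕ))ˣ) (hζ : ζ ^ p = 1) (m : M)
    (φ : (R0Basis F (M.dualTwist χ) →₀ ℤ) →+ (XQ q).V)
    (h : ∀ t : R0Basis F (M.dualTwist χ), φ (Finsupp.single t 1) =
      ofUnit q (ζ ^ ((t.2 : Module.Dual (ZMod p) M) m).val)) :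
    φ = iMloc q F M χ ζ hζ m :=
  hom_ext_single F (M.dualTwist χ) fun t => by rw [h, iMloc_single_one]

lemma ofUnit_pow_eq_zetaPow (ζ : (PadicAlgCl (q : ℕ))ˣ) (hζ : ζ ^ p = 1) (n : ℕ) :
    ofUnit q (ζ ^ n) = zetaPow q ζ hζ (n : ZMod p) := by
  rw [zetaPow_apply, ZMod.val_natCast, ← pow_eq_pow_mod _ hζ]

/-- The local Galois group acts on `μ_p ⊆ ℚ̄_qˣ` through the cyclotomic character. -/
lemma rho_zetaPow (ζ : (PadicAlgCl (q : ℕ))ˣ) (hζ : ζ ^ p = 1)
    (τ : PadicAlgCl (q : ℕ) ≃ₐ[ℚ_[(q : ℕ)]] PadicAlgCl (q : ℕ)) (k : ZMod p) :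
    (XQ q).ρ τ (zetaPow q ζ hζ k) =
      zetaPow q ζ hζ (((cycloChar p (localGaloisToGlobal (q : ℕ) τ) : (ZMod p)ˣ) : ZMod p) * k) := by
  have h1 : ((ζ : (PadicAlgCl (q : ℕ))ˣ) : PadicAlgCl (q : ℕ)) ^ p = 1 := by
    rw [← Units.val_pow_eq_pow_val, hζ, Units.val_one]
  have h2 : τ • ζ = ζ ^ cycloExp p (localGaloisToGlobal (q : ℕ) τ) := by
    apply Units.ext
    rw [Units.val_pow_eq_pow_val]
    exact Hilbert90Fun.padic_apply_eq_pow_cycloExp (q : ℕ) p τ _ h1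
  rw [zetaPow_apply, rho_ofUnit, smul_pow', h2, ← pow_mul, ofUnit_pow_eq_zetaPow q ζ hζ,
    Nat.cast_mul, ZMod.natCast_zmod_val, coe_cycloChar]

/-- `iMloc` is equivariant along `primeLocalToGlobal q` (for `χ` the cyclotomic character). -/
theorem iMloc_equivar (ζ : (PadicAlgCl (q : ℕ))ˣ) (hζ : ζ ^ p = 1)
    (τ : primeLocalGaloisGroup q) (m : M)
    (x : R0Basis F (M.dualTwist (cycloChar p)) →₀ ℤ) :
    (XQ q).ρ τ (iMloc q F M (cycloChar p) ζ hζ m
        (r0Rho F (M.dualTwist (cycloChar p)) (primeLocalToGlobal q τ⁻¹) x)) =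
      iMloc q F M (cycloChar p) ζ hζ (M.ρ (primeLocalToGlobal q τ) m) x := by
  obtain ⟨τ, rfl⟩ : ∃ τ' : PadicAlgCl (q : ℕ) ≃ₐ[ℚ_[(q : ℕ)]] PadicAlgCl (q : ℕ), τ' = τ :=
    ⟨τ, rfl⟩
  have e : primeLocalToGlobal q τ⁻¹ = (localGaloisToGlobal (q : ℕ) τ)⁻¹ := map_inv _ _
  have e' : primeLocalToGlobal q τ = localGaloisToGlobal (q : ℕ) τ := rfl
  rw [iMloc_apply, iMloc_apply, aug_r0Rho, rho_zetaPow, e, e']
  congr 1
  rw [Rep.dualTwist_ρ_apply]
  change ((cycloChar p (localGaloisToGlobal (q : ℕ) τ) : (ZMod p)ˣ) : ZMod p) *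
    (((cycloChar p (localGaloisToGlobal (q : ℕ) τ)⁻¹ : (ZMod p)ˣ) : ZMod p) *
      (aug F (M.dualTwist (cycloChar p)) x : Module.Dual (ZMod p) M)
        (M.ρ (localGaloisToGlobal (q : ℕ) τ)⁻¹⁻¹ m)) = _
  rw [← mul_assoc, map_inv, Units.mul_inv, one_mul, inv_inv]

end Kernel

/-! ## Smoothness of `Hom(R_i, X_q)` for the pulled-back levels -/

section Smooth

/-- `ℚ̄/ℚ` is Galois (for the algebra structure found by instance search). -/
lemma isGalois_rat_Qb : IsGalois ℚ Qb := by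
  have h : (DivisionRing.toRatAlgebra : Algebra ℚ (AlgebraicClosure ℚ)) =
      AlgebraicClosure.instAlgebra ℚ := Subsingleton.elim _ _
  rw [h]
  infer_instance

/-- `GQ ⧸ Gal(ℚ̄/F)` is finite for `F/ℚ` finite. -/
lemma finite_quotient_fixingSubgroup [FiniteDimensional ℚ F] :
    Finite (GQ ⧸ F.fixingSubgroup) := by
  have : IsGalois ℚ Qb := isGalois_rat_Qb
  have h := IntermediateField.finrank_eq_fixingSubgroup_index Qb F
  have hpos : 0 < Module.finrank ℚ F := Module.finrank_pos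
  have : F.fixingSubgroup.FiniteIndex := ⟨by rw [← h]; exact hpos.ne'⟩
  exact Subgroup.finite_quotient_of_finiteIndex

/-- Every unit of `PadicAlgCl q` is fixed by the preimage of a level. -/
lemma exists_level_fixing_unit (u : (PadicAlgCl (q : ℕ))ˣ) :
    ∃ L : IntermediateField ℚ Qb, FiniteDimensional ℚ L ∧
      ∀ τ : PadicAlgCl (q : ℕ) ≃ₐ[ℚ_[(q : ℕ)]] PadicAlgCl (q : ℕ),
        localGaloisToGlobal (q : ℕ) τ ∈ L.fixingSubgroup → τ • u = u := by
  have hint : IsIntegral ℚ_[(q : ℕ)] (u : PadicAlgCl (q : ℕ)) :=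
    (Algebra.IsAlgebraic.isAlgebraic (u : PadicAlgCl (q : ℕ))).isIntegral
  have : FiniteDimensional ℚ_[(q : ℕ)] (IntermediateField.adjoin ℚ_[(q : ℕ)]
      {(u : PadicAlgCl (q : ℕ))}) := IntermediateField.adjoin.finiteDimensional hint
  obtain ⟨L, hL, h⟩ := KrasnerBridge.exists_global_level (q : ℕ)
    (IntermediateField.adjoin ℚ_[(q : ℕ)] {(u : PadicAlgCl (q : ℕ))})
  refine ⟨L, hL, fun τ hτ => Units.ext ?_⟩
  have h1 := h τ hτ
  rw [IntermediateField.mem_fixingSubgroup_iff] at h1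
  exact h1 _ (IntermediateField.mem_adjoin_simple_self _ _)

/-- Elements of a normal subgroup fix every coset. -/
lemma smul_coset_eq {G : Type*} [Group G] (N : Subgroup G) [N.Normal] (s : G) (hs : s ∈ N)
    (c : G ⧸ N) : s • c = c := by
  induction c using QuotientGroup.induction_on with
  | H g =>
    change ((s * g : G) : G ⧸ N) = (g : G ⧸ N)
    rw [QuotientGroup.eq]
    have h := ‹N.Normal›.conj_mem s⁻¹ (N.inv_mem hs) g⁻¹
    have e : (s * g)⁻¹ * g = g⁻¹ * s⁻¹ * g⁻¹⁻¹ := by group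
    rw [e]
    exact h

/-- **Smoothness of `Hom_ℤ(R0 F A, X_q)`**: for `F/ℚ` finite with `Gal(ℚ̄/F)` normal and acting
trivially on the finite module `A`, every additive map `R0 F A → X_q` is fixed by the preimage
in the local Galois group of a level of `G_ℚ`. -/
theorem exists_level_fixing_hom [FiniteDimensional ℚ F] (hFn : F.fixingSubgroup.Normal)
    (hFA : ∀ s ∈ F.fixingSubgroup, A.ρ s = 1) [Finite A.V]
    (φ : (R0Basis F A →₀ ℤ) →+ (XQ q).V) :
    ∃ L : IntermediateField ℚ Qb, FiniteDimensional ℚ L ∧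
      ∀ τ : primeLocalGaloisGroup q, primeLocalToGlobal q τ ∈ L.fixingSubgroup →
        ∀ x, (XQ q).ρ τ (φ (r0Rho F A (primeLocalToGlobal q τ⁻¹) x)) = φ x := by
  classical
  have := finite_quotient_fixingSubgroup F
  have : Finite (R0Basis F A) := inferInstance
  choose Lt hLt1 hLt2 using fun t : R0Basis F A =>
    exists_level_fixing_unit q (toUnit q (φ (Finsupp.single t 1)))
  have : ∀ t, FiniteDimensional ℚ (Lt t) := hLt1
  refine ⟨F ⊔ ⨆ t, Lt t, inferInstance, fun τ₀ hτ x => ?_⟩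
  obtain ⟨τ, rfl⟩ : ∃ τ : PadicAlgCl (q : ℕ) ≃ₐ[ℚ_[(q : ℕ)]] PadicAlgCl (q : ℕ), τ = τ₀ :=
    ⟨τ₀, rfl⟩
  have h1 : localGaloisToGlobal (q : ℕ) τ ∈ F.fixingSubgroup :=
    IntermediateField.fixingSubgroup_antitone le_sup_left hτ
  have h2 : ∀ t, localGaloisToGlobal (q : ℕ) τ ∈ (Lt t).fixingSubgroup := fun t =>
    IntermediateField.fixingSubgroup_antitone ((le_iSup Lt t).trans le_sup_right) hτ
  have h3 : localGaloisToGlobal (q : ℕ) τ⁻¹ ∈ F.fixingSubgroup := by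
    rw [map_inv]
    exact F.fixingSubgroup.inv_mem h1
  have h4 : ∀ y, r0Rho F A (localGaloisToGlobal (q : ℕ) τ⁻¹) y = y := by
    intro y
    induction y using Finsupp.induction_linear with
    | zero => rw [map_zero]
    | add y z hy hz => rw [map_add, hy, hz]
    | single t n =>
      rw [r0Rho_single, hFA _ h3, smul_coset_eq F.fixingSubgroup _ h3]
      rfl
  have h5 : primeLocalToGlobal q τ⁻¹ = localGaloisToGlobal (q : ℕ) τ⁻¹ := rfl
  rw [h5, h4]
  induction x using Finsupp.induction_linear with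
  | zero => rw [map_zero, map_zero]
  | add y z hy hz => rw [map_add, map_add, hy, hz]
  | single t n =>
    have e : Finsupp.single t n = n • Finsupp.single t (1 : ℤ) := by
      rw [Finsupp.smul_single, smul_eq_mul, mul_one]
    rw [e, map_zsmul, map_zsmul]
    congr 1
    apply toUnit_injective q
    rw [toUnit_rho]
    exact hLt2 t τ (h2 t)

/-- **Smoothness of `Hom_ℤ(R1 F A, X_q)`.** -/
theorem exists_level_fixing_hom_r1 [FiniteDimensional ℚ F] (hFn : F.fixingSubgroup.Normal)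
    (hFA : ∀ s ∈ F.fixingSubgroup, A.ρ s = 1) [Finite A.V]
    (ψ : ↥(r1Sub F A) →+ (XQ q).V) :
    ∃ L : IntermediateField ℚ Qb, FiniteDimensional ℚ L ∧
      ∀ τ : primeLocalGaloisGroup q, primeLocalToGlobal q τ ∈ L.fixingSubgroup →
        ∀ x : ↥(r1Sub F A), (XQ q).ρ τ (ψ ((R1 F A).ρ (primeLocalToGlobal q τ⁻¹) x)) = ψ x := by
  obtain ⟨φ, hφ⟩ := exists_extend_r1 q F A ψ
  obtain ⟨L, hL, h⟩ := exists_level_fixing_hom q F A hFn hFA φ
  refine ⟨L, hL, fun τ hτ x => ?_⟩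
  rw [← hφ, ← hφ]
  exact h τ hτ x

end Smooth

/-! ## The statements in the vocabulary of `Top/SpineDefs` (`homR`) and `Level` -/

section Vocabulary

open Level

/-- **[LIM4].**  Every level-constant 1-cocycle of the local Galois group with values in
`Hom_ℤ(R0 F A, ℚ̄_qˣ)` is a coboundary. -/
theorem lim4 (c : primeLocalGaloisGroup q → homR (primeLocalToGlobal q) (R0 F A) (XQ q))
    (hc : c ∈ cocycles₁ (homR (primeLocalToGlobal q) (R0 F A) (XQ q)))
    (hlev : IsLC₁ (pullLevels (primeLocalToGlobal q)) c) :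
    c ∈ coboundaries₁ (homR (primeLocalToGlobal q) (R0 F A) (XQ q)) := by
  rw [mem_cocycles₁_iff] at hc
  obtain ⟨φ, hφ⟩ := lim4_raw q F A c
    (fun τ σ x => congrArg (fun χ : (R0Basis F A →₀ ℤ) →+ (XQ q).V => χ x) (hc τ σ)) hlev
  refine ⟨φ, ?_⟩
  funext τ
  apply AddMonoidHom.ext
  intro x
  exact (hφ τ x).symm

/-- **[LIM4]**, `H¹` form: the level `H¹` of the local Galois group with values in
`Hom_ℤ(R0 F A, ℚ̄_qˣ)` vanishes. -/
theorem H1_homR_R0_eq_zero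
    (x : H1 (pullLevels (primeLocalToGlobal q)) (homR (primeLocalToGlobal q) (R0 F A) (XQ q))) :
    x = 0 := by
  obtain ⟨c, hc, hx⟩ := (mem_H1_iff _ _ _).1 x.2
  apply Subtype.ext
  rw [← hx]
  exact (H1π_eq_zero_iff c).2 (lim4 q F A c c.2 hc)

/-- **[LIM1], local smoothness.**  `Hom_ℤ(R0 F A, ℚ̄_qˣ)` is smooth for the pulled-back levels
(`F/ℚ` finite, `Gal(ℚ̄/F)` normal and acting trivially on the finite module `A`). -/
theorem isSmooth_homR_R0 [FiniteDimensional ℚ F] (hFn : F.fixingSubgroup.Normal)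
    (hFA : ∀ s ∈ F.fixingSubgroup, A.ρ s = 1) [Finite A.V] :
    IsSmooth (pullLevels (primeLocalToGlobal q))
      (homR (primeLocalToGlobal q) (R0 F A) (XQ q)) := by
  intro φ
  obtain ⟨L, hL, h⟩ := exists_level_fixing_hom q F A hFn hFA φ
  exact ⟨L, hL, fun s hs => AddMonoidHom.ext (h s hs)⟩

/-- `Hom_ℤ(R1 F A, ℚ̄_qˣ)` is smooth for the pulled-back levels. -/
theorem isSmooth_homR_R1 [FiniteDimensional ℚ F] (hFn : F.fixingSubgroup.Normal)
    (hFA : ∀ s ∈ F.fixingSubgroup, A.ρ s = 1) [Finite A.V] :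
    IsSmooth (pullLevels (primeLocalToGlobal q))
      (homR (primeLocalToGlobal q) (R1 F A) (XQ q)) := by
  intro ψ
  obtain ⟨L, hL, h⟩ := exists_level_fixing_hom_r1 q F A hFn hFA ψ
  exact ⟨L, hL, fun s hs => AddMonoidHom.ext (h s hs)⟩

/-- Restriction `Hom_ℤ(R0 F A, X_q) → Hom_ℤ(R1 F A, X_q)` is onto. -/
theorem preH_r1Incl_surjective :
    Function.Surjective (preH (primeLocalToGlobal q) (XQ q) (addOfHom (r1Incl F A))) := by
  intro ψ
  obtain ⟨φ, hφ⟩ := exists_extend_r1 q F A ψ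
  exact ⟨φ, AddMonoidHom.ext hφ⟩

variable {p : ℕ} [Fact p.Prime] (M : Rep.{0} (ZMod p) GQ)

/-- **[LIM1], local row.**  For a primitive `p`-th root of unity `ζ ∈ ℚ̄_qˣ` and any additive
`i : M → Hom_ℤ(R0 F M', ℚ̄_qˣ)` with `i m (c, m') = ζ ^ m'(m)` (`M' = M.dualTwist (cycloChar p)`),
`0 → M → Hom_ℤ(R0 F M', ℚ̄_qˣ) → Hom_ℤ(R1 F M', ℚ̄_qˣ) → 0` is a short exact sequence of modules
over the local Galois group. -/
theorem isSES_local [FiniteDimensional (ZMod p) M] (ζ : (PadicAlgCl (q : ℕ))ˣ)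
    (hζ : IsPrimitiveRoot ζ p)
    (i : Rep.res (primeLocalToGlobal q) M →+
      homR (primeLocalToGlobal q) (R0 F (M.dualTwist (cycloChar p))) (XQ q))
    (hi : ∀ (m : M) (t : R0Basis F (M.dualTwist (cycloChar p))),
      (i m : (R0Basis F (M.dualTwist (cycloChar p)) →₀ ℤ) →+ (XQ q).V) (Finsupp.single t 1) =
        ofUnit q (ζ ^ ((t.2 : Module.Dual (ZMod p) M) m).val)) :
    IsSES (Rep.res (primeLocalToGlobal q) M)
      (homR (primeLocalToGlobal q) (R0 F (M.dualTwist (cycloChar p))) (XQ q))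
      (homR (primeLocalToGlobal q) (R1 F (M.dualTwist (cycloChar p))) (XQ q)) i
      (preH (primeLocalToGlobal q) (XQ q) (addOfHom (r1Incl F (M.dualTwist (cycloChar p))))) := by
  have hi' : ∀ m : M, (i m : (R0Basis F (M.dualTwist (cycloChar p)) →₀ ℤ) →+ (XQ q).V) =
      iMloc q F M (cycloChar p) ζ hζ.pow_eq_one m := fun m =>
    eq_iMloc q F M (cycloChar p) ζ hζ.pow_eq_one m _ (hi m)
  refine ⟨?_, ?_, ?_, ?_, ?_⟩
  · intro g m
    refine AddMonoidHom.ext fun x => ?_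
    change (i (M.ρ (primeLocalToGlobal q g) m) :
        (R0Basis F (M.dualTwist (cycloChar p)) →₀ ℤ) →+ (XQ q).V) x =
      (XQ q).ρ g ((i m : (R0Basis F (M.dualTwist (cycloChar p)) →₀ ℤ) →+ (XQ q).V)
        (r0Rho F (M.dualTwist (cycloChar p)) (primeLocalToGlobal q g⁻¹) x))
    rw [hi', hi', iMloc_equivar]
  · exact preH_equivar (primeLocalToGlobal q) (XQ q) _ (addOfHom_equivar _)
  · rw [injective_iff_map_eq_zero]
    intro m hm
    apply eq_zero_of_pow_eq_one q M ζ hζ m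
    intro f
    have h1 := hi m (((1 : GQ) : GQ ⧸ F.fixingSubgroup), f)
    rw [hm] at h1
    exact (ofUnit_injective q h1).symm
  · exact preH_r1Incl_surjective q F (M.dualTwist (cycloChar p))
  · intro b
    constructor
    · intro hb
      have hb' : ∀ x ∈ r1Sub F (M.dualTwist (cycloChar p)),
          (b : (R0Basis F (M.dualTwist (cycloChar p)) →₀ ℤ) →+ (XQ q).V) x = 0 := fun x hx =>
        congrArg (fun ψ : ↥(r1Sub F (M.dualTwist (cycloChar p))) →+ (XQ q).V => ψ ⟨x, hx⟩) hb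
      obtain ⟨m, hm⟩ := exists_eq_pow_of_vanish q F M (cycloChar p) ζ hζ _ hb'
      refine ⟨m, ?_⟩
      rw [hi']
      exact (eq_iMloc q F M (cycloChar p) ζ hζ.pow_eq_one m _ hm).symm
    · rintro ⟨m, rfl⟩
      refine AddMonoidHom.ext fun x => ?_
      change (i m : (R0Basis F (M.dualTwist (cycloChar p)) →₀ ℤ) →+ (XQ q).V)
        (x : R0Basis F (M.dualTwist (cycloChar p)) →₀ ℤ) = 0
      rw [hi']
      exact iMloc_eq_zero_of_mem q F M (cycloChar p) ζ hζ.pow_eq_one m _ x.2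

end Vocabulary

end Fermat.Agent.CFT.Top.LocalLim

end
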