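import Fermat.Agent.CFT.Top.Semilocal

/-!
# P3 / Top layer: the degree-1 semilocal chase for `Hom(R, JS S)` (raw form of [LIM3])

`exists_primitive`: let `R` be a `ℤ[GQ]`-module fixed pointwise by `Gal(ℚ̄/F₀)` for a normal
`S`-level `F₀`, and `c : GQ → Hom_ℤ(R, JS S)` a 1-cocycle (for the conjugation action
`(g • f) ρ = g • f (g⁻¹ • ρ)`), right-invariant under `Gal(ℚ̄/F₁)` for a normal `S`-level `F₁`.
If for every `q ∈ S` the localisation `prQ S q ∘ c ∘ primeLocalToGlobal q` is the coboundary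
of some `y q : Hom_ℤ(R, ℚ̄_qˣ)`, then `c` is the coboundary of some `B : Hom_ℤ(R, JS S)`.

(`JS S` is coinduced from the local groups: `jFull_ext`, `exists_jS` of `Top/Semilocal.lean`.)
-/

set_option autoImplicit false

namespace Fermat.Agent.CFT.Top.Semilocal

open ExtCitation

/-- An `S`-idele of `ℚ_S` is determined by the local components of its translates. -/
theorem jS_ext (S : Finset Nat.Primes) (j j' : JS S)
    (h : ∀ (q : ↥S) (g : GQ), prQ S q ((JS S).ρ g j) = prQ S q ((JS S).ρ g j')) : j = j' :=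
  Subtype.ext (jFull_ext S (j : JFull S) (j' : JFull S) fun q g => h q g)

/-- **The degree-1 semilocal chase** (raw form of [LIM3]): a level 1-cocycle of `GQ` in
`Hom_ℤ(R, JS S)` whose localisations at all `q ∈ S` are coboundaries is a coboundary. -/
theorem exists_primitive (S : Finset Nat.Primes) (R : Rep.{0} ℤ GQ)
    (hR : ∃ F₀ : IntermediateField ℚ Qb, IsNLevel S F₀ ∧
      ∀ s ∈ F₀.fixingSubgroup, ∀ ρ : R.V, R.ρ s ρ = ρ)
    (c : GQ → (R.V →+ (JS S).V))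
    (hcoc : ∀ (g h : GQ) (ρ : R.V), c (g * h) ρ = c g ρ + (JS S).ρ g (c h (R.ρ g⁻¹ ρ)))
    (hlev : ∃ F₁ : IntermediateField ℚ Qb, IsNLevel S F₁ ∧
      ∀ g : GQ, ∀ s ∈ F₁.fixingSubgroup, c (g * s) = c g)
    (y : ∀ q : ↥S, R.V →+ (XQ q.1).V)
    (hy : ∀ (q : ↥S) (τ : primeLocalGaloisGroup q.1) (ρ : R.V),
      prQ S q (c (primeLocalToGlobal q.1 τ) ρ) =
        (XQ q.1).ρ τ (y q (R.ρ (primeLocalToGlobal q.1 τ)⁻¹ ρ)) - y q ρ) :
    ∃ B : R.V →+ (JS S).V, ∀ (g : GQ) (ρ : R.V),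
      c g ρ = (JS S).ρ g (B (R.ρ g⁻¹ ρ)) - B ρ := by
  obtain ⟨F₀, hF₀, hfix⟩ := hR
  obtain ⟨F₁, hF₁, hc⟩ := hlev
  have hF : IsNLevel S (F₀ ⊔ F₁) := IsNLevel.sup hF₀ hF₁
  have hmem : ∀ n ∈ (F₀ ⊔ F₁).fixingSubgroup,
      n ∈ F₀.fixingSubgroup ∧ n ∈ F₁.fixingSubgroup := by
    intro n hn
    rw [IntermediateField.fixingSubgroup_sup] at hn
    exact hn
  have hRmul : ∀ (g h : GQ) (ρ : R.V), R.ρ (g * h) ρ = R.ρ g (R.ρ h ρ) := fun g h ρ => by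
    rw [map_mul]; rfl
  have hRinv : ∀ (g : GQ) (ρ : R.V), R.ρ g⁻¹ (R.ρ g ρ) = ρ := fun g ρ => by
    rw [← hRmul, inv_mul_cancel, map_one]; rfl
  have hRinv' : ∀ (g : GQ) (ρ : R.V), R.ρ g (R.ρ g⁻¹ ρ) = ρ := fun g ρ => by
    rw [← hRmul, mul_inv_cancel, map_one]; rfl
  have hJmul : ∀ (g h : GQ) (j : (JS S).V), (JS S).ρ (g * h) j = (JS S).ρ g ((JS S).ρ h j) :=
    fun g h j => by rw [map_mul]; rfl
  let φ : R.V → ∀ q : ↥S, GQ → (XQ q.1).V :=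
    fun ρ q g => prQ S q (c g (R.ρ g ρ)) + y q (R.ρ g ρ)
  have hφ : ∀ (ρ : R.V) (q : ↥S) (g : GQ),
      φ ρ q g = prQ S q (c g (R.ρ g ρ)) + y q (R.ρ g ρ) := fun _ _ _ => rfl
  have ha : ∀ (ρ : R.V) (q : ↥S) (g : GQ), ∀ n ∈ (F₀ ⊔ F₁).fixingSubgroup,
      φ ρ q (g * n) = φ ρ q g := by
    intro ρ q g n hn
    obtain ⟨h0, h1⟩ := hmem n hn
    rw [hφ, hφ, hc g n h1, hRmul, hfix n h0]
  have hb : ∀ (ρ : R.V) (q : ↥S) (τ : primeLocalGaloisGroup q.1) (g : GQ),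
      φ ρ q (primeLocalToGlobal q.1 τ * g) = (XQ q.1).ρ τ (φ ρ q g) := by
    intro ρ q τ g
    rw [hφ, hφ, hcoc, map_add, prQ_rho, hy, hRmul, hRinv, map_add]
    abel
  choose B hB _hBfix using fun ρ => exists_jS S (F₀ ⊔ F₁) hF (φ ρ) (ha ρ) (hb ρ)
  have hBadd : ∀ ρ ρ' : R.V, B (ρ + ρ') = B ρ + B ρ' := by
    intro ρ ρ'
    refine jS_ext S _ _ fun q g => ?_
    rw [map_add ((JS S).ρ g), map_add (prQ S q), hB, hB, hB, hφ, hφ, hφ, map_add (R.ρ g),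
      map_add (c g), map_add (prQ S q), map_add (y q)]
    abel
  refine ⟨AddMonoidHom.mk' B hBadd, fun g ρ => ?_⟩
  show c g ρ = (JS S).ρ g (B (R.ρ g⁻¹ ρ)) - B ρ
  refine jS_ext S _ _ fun q h => ?_
  rw [map_sub ((JS S).ρ h), map_sub (prQ S q), ← hJmul, hB, hB, hφ, hφ, hRmul h g, hRinv',
    hcoc h g, hRinv, map_add (prQ S q)]
  abel

end Fermat.Agent.CFT.Top.Semilocal
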