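import Fermat.Agent.CFT.Top.Lim23
import Fermat.Agent.CFT.Top.SemilocalChase
import Fermat.Agent.CFT.Top.SpinePlan
import Fermat.Agent.CFT.Top.LocalLim

/-!
# P3 / Top layer, SpineC side: the detection contracts `[LIM3]`, `[LIM4]` and `[LIM2]`, proved

* `detectH1 S R hR : SpinePlan.DetectH1 S R` for every `R` fixed pointwise by a normal
  `S`-level (from the raw chase `Semilocal.exists_primitive` through `Lim23.lim3_top`);
* `detect0`, `detect1` : the fields `detect0`, `detect1` of `SpinePlan.Inputs` at a good level;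
* `h1ZeroLocal S F A : SpinePlan.H1ZeroLocal S F A` (`LocalLim.H1_homR_R0_eq_zero`);
* `h1_homR_JS_eq_zero`, `h1_A0_JS_eq_zero` : `[LIM2]`, `H¹(G_S, Hom(R0, JS)) = 0`.
-/

set_option autoImplicit false

open CategoryTheory groupCohomology ExtCitation

noncomputable section

namespace Fermat.Agent.CFT.Top.Detect

open Fermat.Agent.CFT.Level

variable (S : Finset Nat.Primes)

/-- The raw chase of `Top/SemilocalChase.lean` in the shape consumed by `Top/Lim23.lean`. -/
theorem rawChase (R : Rep.{0} ℤ GQ)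
    (hR : ∃ F' : IntermediateField ℚ Qb, IsNLevel S F' ∧
      ∀ s ∈ F'.fixingSubgroup, ∀ ρ : R, R.ρ s ρ = ρ) : Lim23.RawChase S R :=
  fun c y hcoc hlev hy => Semilocal.exists_primitive S R hR c hcoc hlev y hy

/-- **[LIM3]** for every `R` fixed pointwise by a normal `S`-level (pointwise form of `hR`). -/
theorem detectH1_of_fixed (R : Rep.{0} ℤ GQ)
    (hR : ∃ F' : IntermediateField ℚ Qb, IsNLevel S F' ∧
      ∀ s ∈ F'.fixingSubgroup, ∀ ρ : R, R.ρ s ρ = ρ) : SpinePlan.DetectH1 S R :=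
  fun y hy => Lim23.lim3_top (rawChase S R hR) y hy

/-- **[LIM3]** `SpinePlan.DetectH1 S R` for every `R` on which a normal `S`-level acts
trivially. -/
theorem detectH1 (R : Rep.{0} ℤ GQ)
    (hR : ∃ F' : IntermediateField ℚ Qb, IsNLevel S F' ∧ ∀ s ∈ F'.fixingSubgroup, R.ρ s = 1) :
    SpinePlan.DetectH1 S R := by
  obtain ⟨F', hF', h⟩ := hR
  exact detectH1_of_fixed S R ⟨F', hF', fun s hs ρ => by rw [h s hs]; rfl⟩

/-- **[LIM3]** in the contract shape of `Top/SpinePlan.lean` (the hypotheses `JSInj`, `JSSurj`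
are theorems of `Top/SemilocalProvide.lean`; they are not used here). -/
theorem detectH1_of (_hi : SpinePlan.JSInj S) (_hs : SpinePlan.JSSurj S) (R : Rep.{0} ℤ GQ)
    (hR : ∃ F' : IntermediateField ℚ Qb, IsNLevel S F' ∧ ∀ s ∈ F'.fixingSubgroup, R.ρ s = 1) :
    SpinePlan.DetectH1 S R :=
  detectH1 S R hR

section Good

variable {S} {k : Type} [CommRing k] {A : Rep.{0} k GQ} {p : ℕ} [Fact p.Prime]
  {F : IntermediateField ℚ Qb}

/-- The field `detect0` of `SpinePlan.Inputs`. -/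
theorem detect0 (hF : IsGoodLevel S A p F) : SpinePlan.DetectH1 S (R0 F A) :=
  detectH1_of_fixed S (R0 F A) (Lim23.exists_fixing_R0 hF)

/-- The field `detect1` of `SpinePlan.Inputs`. -/
theorem detect1 (hF : IsGoodLevel S A p F) : SpinePlan.DetectH1 S (R1 F A) :=
  detectH1_of_fixed S (R1 F A) (Lim23.exists_fixing_R1 hF)

end Good

/-- **[LIM4]** in the contract shape of `Top/SpinePlan.lean`. -/
theorem h1ZeroLocal (F : IntermediateField ℚ Qb) {k : Type} [CommRing k] (A : Rep.{0} k GQ) :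
    SpinePlan.H1ZeroLocal S F A :=
  fun q x => LocalLim.H1_homR_R0_eq_zero q.1 F A x

/-- **[LIM2]**: `H¹(G_S, Hom(R, JS)) = 0` as soon as `R` is fixed pointwise by a normal `S`-level
and the local groups `H¹(G_q, Hom(R, ℚ̄_qˣ))`, `q ∈ S`, vanish. -/
theorem h1_homR_JS_eq_zero (R : Rep.{0} ℤ GQ)
    (hR : ∃ F' : IntermediateField ℚ Qb, IsNLevel S F' ∧
      ∀ s ∈ F'.fixingSubgroup, ∀ ρ : R, R.ρ s ρ = ρ)
    (h4 : ∀ q : ↥S, ∀ z : H1 (pullLevels (primeLocalToGlobal q.1))
      (homR (primeLocalToGlobal q.1) R (XQ q.1)), z = 0)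
    (y : H1 (sLevels S) (homR (MonoidHom.id GQ) R (JS S))) : y = 0 :=
  Lim23.lim2_top (rawChase S R hR) h4 y

/-- **[LIM2]** at a good level: `H¹(G_S, Hom(R0 F A, JS)) = 0`. -/
theorem h1_A0_JS_eq_zero {k : Type} [CommRing k] {A : Rep.{0} k GQ} {p : ℕ} [Fact p.Prime]
    {F : IntermediateField ℚ Qb} (hF : IsGoodLevel S A p F)
    (y : H1 (sLevels S) (SpinePlan.A0 F A (JS S))) : y = 0 :=
  h1_homR_JS_eq_zero S (R0 F A) (Lim23.exists_fixing_R0 hF)
    (fun q z => LocalLim.H1_homR_R0_eq_zero q.1 F A z) y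

end Fermat.Agent.CFT.Top.Detect

end
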