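import Fermat.Agent.CFT.Top.SpinePlan
import Fermat.Agent.CFT.Fin.KummerS
import Fermat.Agent.CFT.Fin.H1Finite
import Fermat.Agent.CFT.Level.SLevels
import Fermat.Agent.CFT.Local.Hilbert90Fun

/-!
# P3 / Top layer: the `S`-units of `ℚ_S` are divisible by integers supported in `S`

`ES S` (Top/Defs) is the module of `S`-units of `ℚ_S` (diagonally embedded in the `S`-ideles).

* `mem_of_smooth_diag`   : for `S ≠ ∅`, if the diagonal image of `x ∈ ℚ̄ˣ` is fixed by `G_F`
                           then `x ∈ F`;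
* `exists_nLevel_root`   : an `n`-th root of an `S`-unit lying in an `S`-level lies in a normal
                           `S`-level, for `n` with all prime factors in `S` (Kummer);
* `es_divisible`         : `ES S` is `n`-divisible for such `n`;
* `esKummer`             : the contract `SpinePlan.ESKummer S p` (for `p ∈ S`): `ES S` is
                           `p`-divisible, its `p`-torsion is generated by a primitive `p`-th root
                           of unity `z`, on which `GQ` acts by the cyclotomic character, and `z`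
                           is nontrivial at every `q ∈ S`.
-/

set_option autoImplicit false

open CategoryTheory groupCohomology ExtCitation IsDedekindDomain HeightOneSpectrum NumberField
open scoped TensorProduct

noncomputable section

namespace Fermat.Agent.CFT.Top.ESDiv

open Fermat.Agent.CFT.Fin (selmerSubgroup primesAbove)

/-! ## Elements of `ES S` -/

section Elements

variable (S : Finset Nat.Primes)

/-- The element of `ES S` given by an `S`-unit of `ℚ̄` with smooth diagonal image. -/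
def esMk (y : Qbˣ) (hy : y ∈ sUnits S)
    (hsm : (Additive.ofMul (diag S y) : JFull S) ∈ smoothSub S (JFull S)) : ES S :=
  (⟨⟨Additive.ofMul (diag S y), hsm⟩, ⟨y, hy, rfl⟩⟩ : ↥(esSub S))

/-- The underlying element of `∏_{q ∈ S} (ℚ̄ ⊗ ℚ_q)ˣ` of an element of `ES S`. -/
def esVal (e : ES S) : Additive (∀ q : ↥S, (Tq q.1)ˣ) :=
  (((e : ↥(esSub S)) : JS S) : JFull S)

lemma esVal_esMk (y : Qbˣ) (hy : y ∈ sUnits S)
    (hsm : (Additive.ofMul (diag S y) : JFull S) ∈ smoothSub S (JFull S)) :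
    esVal S (esMk S y hy hsm) = Additive.ofMul (diag S y) := rfl

lemma esVal_injective : Function.Injective (esVal S) := by
  intro e e' h
  exact Subtype.ext (Subtype.ext h)

lemma esVal_nsmul (n : ℕ) (e : ES S) : esVal S (n • e) = n • esVal S e := rfl

lemma esVal_zero : esVal S (0 : ES S) = 0 := rfl

lemma esVal_rho (g : GQ) (e : ES S) :
    esVal S ((ES S).ρ g e) = Additive.ofMul (g • Additive.toMul (esVal S e)) := rfl

lemma exists_esVal_eq (e : ES S) : ∃ x ∈ sUnits S, Additive.ofMul (diag S x) = esVal S e :=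
  (e : ↥(esSub S)).2

lemma esVal_mem_smoothSub (e : ES S) : (esVal S e : JFull S) ∈ smoothSub S (JFull S) :=
  ((e : ↥(esSub S)) : JS S).2

end Elements

/-! ## The diagonal map -/

section Diag

variable (S : Finset Nat.Primes)

/-- `x ↦ x ⊗ 1 : ℚ̄ → ℚ̄ ⊗ ℚ_q` is injective. -/
lemma tmul_one_injective (q : Nat.Primes) :
    Function.Injective (fun x : Qb => (x ⊗ₜ[ℚ] (1 : ℚ_[(q : ℕ)]) : Tq q)) :=
  Algebra.TensorProduct.includeLeft_injective (R := ℚ) (S := ℚ) (A := Qb)
    (B := ℚ_[(q : ℕ)]) (algebraMap ℚ ℚ_[(q : ℕ)]).injective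

/-- For `S ≠ ∅` the diagonal map is injective. -/
lemma diag_injective (hS : S.Nonempty) : Function.Injective (diag S) := by
  obtain ⟨q, hq⟩ := hS
  intro x y h
  have h1 := congrArg (fun u : (∀ q : ↥S, (Tq q.1)ˣ) => ((u ⟨q, hq⟩ : (Tq q)ˣ) : Tq q)) h
  simp only [diag_apply_val] at h1
  exact Units.ext (tmul_one_injective q h1)

lemma rho_diag (g : GQ) (x : Qbˣ) :
    (JFull S).ρ g (Additive.ofMul (diag S x)) =
      Additive.ofMul (diag S (Units.map ((g : Qb →ₐ[ℚ] Qb) : Qb →* Qb) x)) := by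
  rw [diag_map]
  rfl

/-- If the diagonal image of `x` is fixed by `G_F` (and `S ≠ ∅`) then `x ∈ F`. -/
lemma mem_of_smooth_diag (hS : S.Nonempty) (x : Qbˣ) (F : IntermediateField ℚ Qb)
    (h : ∀ s ∈ F.fixingSubgroup,
      (JFull S).ρ s (Additive.ofMul (diag S x)) = Additive.ofMul (diag S x)) :
    (x : Qb) ∈ F := by
  apply Fermat.Agent.CFT.Fin.mem_of_fixed
  intro s
  have h1 := h s s.2
  rw [rho_diag] at h1
  have h3 := diag_injective S hS (Additive.ofMul.injective h1)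
  exact congrArg Units.val h3

/-- The diagonal image of an element of `F` is fixed by `G_F`. -/
lemma rho_diag_eq_of_mem (x : Qbˣ) (F : IntermediateField ℚ Qb) (hx : (x : Qb) ∈ F) (s : GQ)
    (hs : s ∈ F.fixingSubgroup) :
    (JFull S).ρ s (Additive.ofMul (diag S x)) = Additive.ofMul (diag S x) := by
  rw [rho_diag]
  congr 2
  apply Units.ext
  exact (IntermediateField.mem_fixingSubgroup_iff F s).mp hs _ hx

/-- The diagonal image of an element of a normal `S`-level is smooth. -/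
lemma diag_mem_smoothSub (x : Qbˣ) (F : IntermediateField ℚ Qb) (hF : IsNLevel S F)
    (hx : (x : Qb) ∈ F) : (Additive.ofMul (diag S x) : JFull S) ∈ smoothSub S (JFull S) :=
  ⟨F, hF, fun s hs => rho_diag_eq_of_mem S x F hx s hs⟩

end Diag

/-! ## `S`-integrality -/

section SInt

variable {S : Finset Nat.Primes}

lemma isSInt_of_pow {x : Qb} {n : ℕ} (hn : 0 < n) (h : IsSInt S (x ^ n)) : IsSInt S x := by
  obtain ⟨k, hk⟩ := h
  refine ⟨k, ?_⟩
  apply IsIntegral.of_pow hn
  obtain ⟨m, rfl⟩ : ∃ m, n = m + 1 := ⟨n - 1, by omega⟩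
  have hN0 : IsIntegral ℤ (((∏ q ∈ S, (q : ℕ) : ℕ) : Qb)) := by
    have h := isIntegral_algebraMap (R := ℤ) (A := Qb) (x := ((∏ q ∈ S, (q : ℕ) : ℕ) : ℤ))
    simpa using h
  have hN : IsIntegral ℤ ((((∏ q ∈ S, (q : ℕ) : ℕ) : Qb)) ^ (k * m)) := hN0.pow _
  have e : ((((∏ q ∈ S, (q : ℕ) : ℕ) : Qb)) ^ k * x) ^ (m + 1) =
      (((∏ q ∈ S, (q : ℕ) : ℕ) : Qb)) ^ (k * m) *
        ((((∏ q ∈ S, (q : ℕ) : ℕ) : Qb)) ^ k * x ^ (m + 1)) := by
    ring
  rw [e]
  exact hN.mul hk

lemma mem_sUnits_of_pow {y : Qbˣ} {n : ℕ} (hn : 0 < n) (h : y ^ n ∈ sUnits S) :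
    y ∈ sUnits S := by
  refine ⟨isSInt_of_pow hn ?_, isSInt_of_pow hn ?_⟩
  · have := h.1
    simpa using this
  · have := h.2
    simpa using this

/-- Roots of unity are `S`-units. -/
lemma mem_sUnits_of_pow_eq_one {y : Qbˣ} {n : ℕ} (hn : 0 < n) (h : y ^ n = 1) :
    y ∈ sUnits S :=
  mem_sUnits_of_pow hn (by rw [h]; exact one_mem _)

variable (S)

/-- An `S`-integral element of a number field is integral at the primes not above `S`. -/
lemma valuation_le_one_of_isSInt (F : IntermediateField ℚ Qb) [NumberField F] (x : F)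
    (hx : IsSInt S (x : Qb)) (v : HeightOneSpectrum (𝓞 F)) (hv : v ∉ primesAbove F S) :
    v.valuation F x ≤ 1 := by
  obtain ⟨k, hk⟩ := hx
  set N : ℕ := ∏ q ∈ S, (q : ℕ) with hN
  -- `N` is a unit at `v`
  have hNv : ((N : ℕ) : 𝓞 F) ∉ v.asIdeal := by
    intro hmem
    rw [hN, Nat.cast_prod] at hmem
    obtain ⟨q, hq, hqv⟩ := (v.isPrime.prod_mem_iff).mp hmem
    exact hv ⟨q, hq, hqv⟩
  have hNval : v.valuation F ((N : ℕ) : F) = 1 := by
    have h1 : ((N : ℕ) : F) = algebraMap (𝓞 F) F ((N : ℕ) : 𝓞 F) := by simp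
    rw [h1, valuation_eq_one_iff_notMem]
    exact hNv
  -- `N ^ k * x` is an algebraic integer of `F`
  have hint : IsIntegral ℤ (((N : ℕ) : F) ^ k * x) := by
    rw [← isIntegral_algebraMap_iff (algebraMap F Qb).injective]
    have e : algebraMap F Qb (((N : ℕ) : F) ^ k * x) = (((N : ℕ) : Qb)) ^ k * (x : Qb) := by
      simp
    rw [e]
    exact hk
  have h2 : v.valuation F (((N : ℕ) : F) ^ k * x) ≤ 1 :=
    v.valuation_le_one (K := F) (⟨((N : ℕ) : F) ^ k * x, hint⟩ : 𝓞 F)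
  rw [map_mul, map_pow, hNval, one_pow, one_mul] at h2
  exact h2

/-- `S`-units of a number field lie in every Selmer group relative to the primes above `S`. -/
lemma mem_selmerSubgroup_of_isSInt (F : IntermediateField ℚ Qb) [NumberField F] (a : Fˣ)
    (h1 : IsSInt S (((a : F)) : Qb)) (h2 : IsSInt S ((((a⁻¹ : Fˣ) : F)) : Qb)) (n : ℕ) :
    a ∈ selmerSubgroup (𝓞 F) F (primesAbove F S) n := by
  intro v hv
  have hle := valuation_le_one_of_isSInt S F (a : F) h1 v hv
  have hle' := valuation_le_one_of_isSInt S F ((a⁻¹ : Fˣ) : F) h2 v hv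
  have hval : v.valuation F (a : F) = 1 := by
    refine le_antisymm hle ?_
    have h3 : v.valuation F (a : F) * v.valuation F ((a⁻¹ : Fˣ) : F) = 1 := by
      rw [← map_mul, ← Units.val_mul, mul_inv_cancel, Units.val_one, map_one]
    calc (1 : WithZero (Multiplicative ℤ)) = v.valuation F (a : F) * v.valuation F ((a⁻¹ : Fˣ) : F) :=
          h3.symm
      _ ≤ v.valuation F (a : F) * 1 := by gcongr
      _ = v.valuation F (a : F) := mul_one _
  have h4 : v.valuation F (a : F) =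
      WithZero.exp (Multiplicative.toAdd (v.valuationOfNeZero a)) := by
    rw [← valuationOfNeZero_eq]
    rfl
  rw [hval] at h4
  have h5 : Multiplicative.toAdd (v.valuationOfNeZero a) = 0 := WithZero.exp_eq_one.mp h4.symm
  rw [h5]
  exact dvd_zero _

end SInt

/-! ## Roots of `S`-units -/

section Roots

variable (S : Finset Nat.Primes)

/-- **Kummer.**  Let `n ≠ 0` have all its prime factors in `S`.  An `n`-th root of an `S`-unit
lying in an `S`-level lies in a normal `S`-level. -/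
theorem exists_nLevel_root (n : ℕ) (hn0 : n ≠ 0) (hnS : ∀ q : Nat.Primes, (q : ℕ) ∣ n → q ∈ S)
    (F : IntermediateField ℚ Qb) (hF : F.IsUnramifiedOutside S) (x : Qbˣ) (hx : x ∈ sUnits S)
    (hxF : (x : Qb) ∈ F) (y : Qb) (hy : y ^ n = (x : Qb)) :
    ∃ F' : IntermediateField ℚ Qb, IsNLevel S F' ∧ F ≤ F' ∧ y ∈ F' := by
  have hFfin : FiniteDimensional ℚ F := hF.1
  have hFnf : NumberField F := ⟨⟩
  have hx0 : (⟨(x : Qb), hxF⟩ : F) ≠ 0 := fun h => x.ne_zero (congrArg Subtype.val h)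
  let a : Fˣ := Units.mk0 ⟨(x : Qb), hxF⟩ hx0
  have hainv : ((((a⁻¹ : Fˣ) : F)) : Qb) = ((x⁻¹ : Qbˣ) : Qb) := by
    have h1 : (((a⁻¹ : Fˣ) : F) : Qb) * (x : Qb) = 1 := by
      have h2 : ((a⁻¹ : Fˣ) : F) * (a : F) = 1 := by
        rw [← Units.val_mul, inv_mul_cancel, Units.val_one]
      have h3 := congrArg (fun z : F => (z : Qb)) h2
      rw [MulMemClass.coe_mul, OneMemClass.coe_one] at h3
      exact h3
    have h4 : ((x⁻¹ : Qbˣ) : Qb) = (x : Qb)⁻¹ := Units.val_inv_eq_inv_val x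
    rw [h4]
    exact eq_inv_of_mul_eq_one_left h1
  have ha : a ∈ selmerSubgroup (𝓞 F) F (primesAbove F S) n :=
    mem_selmerSubgroup_of_isSInt S F a hx.1 (by rw [hainv]; exact hx.2) n
  have hL := Fermat.Agent.CFT.Fin.isUnramifiedOutside_sup_adjoin_root hn0 hnS F hF a ha y hy
  have hLfin : FiniteDimensional ℚ (F ⊔ IntermediateField.adjoin ℚ {y} : IntermediateField ℚ Qb) :=
    hL.1
  obtain ⟨F', -, hle, -, hnormal, -, hur⟩ := Fermat.Agent.CFT.Level.exists_galois_level
    (F ⊔ IntermediateField.adjoin ℚ {y})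
  exact ⟨F', ⟨hur S hL, hnormal⟩, le_sup_left.trans hle,
    hle ((le_sup_right : IntermediateField.adjoin ℚ {y} ≤ _)
      (IntermediateField.mem_adjoin_simple_self ℚ y))⟩

/-- **`ES S` is `n`-divisible** for every `n ≠ 0` all of whose prime factors lie in `S ≠ ∅`. -/
theorem es_divisible (hS : S.Nonempty) (n : ℕ) (hn0 : n ≠ 0)
    (hnS : ∀ q : Nat.Primes, (q : ℕ) ∣ n → q ∈ S) (e : ES S) : ∃ e' : ES S, n • e' = e := by
  obtain ⟨x, hx, hxe⟩ := exists_esVal_eq S e
  obtain ⟨F, hF, hfix⟩ := esVal_mem_smoothSub S e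
  rw [← hxe] at hfix
  have hxF : (x : Qb) ∈ F := mem_of_smooth_diag S hS x F hfix
  obtain ⟨y₀, hy₀⟩ := IsAlgClosed.exists_pow_nat_eq (x : Qb) (Nat.pos_of_ne_zero hn0)
  have hy₀0 : y₀ ≠ 0 := by
    rintro rfl
    rw [zero_pow hn0] at hy₀
    exact x.ne_zero hy₀.symm
  let y : Qbˣ := Units.mk0 y₀ hy₀0
  have hyx : y ^ n = x := Units.ext (by simpa [y] using hy₀)
  have hyS : y ∈ sUnits S := mem_sUnits_of_pow (Nat.pos_of_ne_zero hn0) (by rw [hyx]; exact hx)
  obtain ⟨F', hF', -, hyF'⟩ := exists_nLevel_root S n hn0 hnS F hF.1 x hx hxF y₀ hy₀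
  refine ⟨esMk S y hyS (diag_mem_smoothSub S y F' hF' hyF'), ?_⟩
  apply esVal_injective
  rw [esVal_nsmul, esVal_esMk, ← hxe, ← ofMul_pow, ← map_pow, hyx]

end Roots

/-! ## The contract `ESKummer` -/

section Contract

variable (S : Finset Nat.Primes) (p : ℕ) [hp : Fact p.Prime]

/-- **[ESKummer]** The provider of `SpinePlan.ESKummer S p` for `p ∈ S`. -/
theorem esKummer (hpS : pPrime p ∈ S) : SpinePlan.ESKummer S p := by
  have hS : S.Nonempty := ⟨_, hpS⟩
  have hp0 : p ≠ 0 := hp.out.ne_zero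
  have hppos : 0 < p := hp.out.pos
  have hpfac : ∀ q : Nat.Primes, (q : ℕ) ∣ p → q ∈ S := by
    intro q hq
    have h1 : (q : ℕ) = p := (Nat.prime_dvd_prime_iff_eq q.2 hp.out).mp hq
    have h2 : q = pPrime p := Subtype.ext h1
    rw [h2]
    exact hpS
  refine ⟨fun e => es_divisible S hS p hp0 hpfac e, ?_⟩
  -- a primitive `p`-th root of unity
  have : NeZero ((p : ℕ) : ℚ) := ⟨Nat.cast_ne_zero.mpr hp0⟩
  obtain ⟨ζ₀, hζ₀⟩ := HasEnoughRootsOfUnity.exists_primitiveRoot Qb p
  have hζ₀0 : ζ₀ ≠ 0 := hζ₀.ne_zero hp0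
  let ζ : Qbˣ := Units.mk0 ζ₀ hζ₀0
  have hζp : ζ ^ p = 1 := Units.ext (by simpa [ζ] using hζ₀.pow_eq_one)
  have hζS : ζ ∈ sUnits S := mem_sUnits_of_pow_eq_one hppos hζp
  -- `ℚ(ζ)` lies in a normal `S`-level
  have hur := Fermat.Agent.CFT.Fin.isUnramifiedOutside_adjoin_root p S hpS ζ₀ hζ₀.pow_eq_one
  have hfin : FiniteDimensional ℚ (IntermediateField.adjoin ℚ {ζ₀}) := hur.1
  obtain ⟨F', -, hle, -, hnormal, -, hur'⟩ := Fermat.Agent.CFT.Level.exists_galois_level
    (IntermediateField.adjoin ℚ {ζ₀})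
  have hζF' : (ζ : Qb) ∈ F' := hle (IntermediateField.mem_adjoin_simple_self ℚ ζ₀)
  let z : ES S := esMk S ζ hζS (diag_mem_smoothSub S ζ F' ⟨hur' S hur, hnormal⟩ hζF')
  have hz : esVal S z = Additive.ofMul (diag S ζ) := rfl
  refine ⟨z, ?_, ?_, ?_, ?_⟩
  · -- `p • z = 0`
    apply esVal_injective
    rw [esVal_nsmul, hz, ← ofMul_pow, ← map_pow, hζp, map_one]
    rfl
  · -- the `p`-torsion is generated by `z`
    intro e he
    obtain ⟨x, hx, hxe⟩ := exists_esVal_eq S e
    have h1 : esVal S (p • e) = 0 := by rw [he]; rfl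
    rw [esVal_nsmul, ← hxe, ← ofMul_pow, ← map_pow] at h1
    have h2 : diag S (x ^ p) = diag S 1 := by
      rw [map_one]
      exact Additive.ofMul.injective h1
    have h3 : x ^ p = 1 := diag_injective S hS h2
    have h4 : (x : Qb) ^ p = 1 := by
      have := congrArg Units.val h3
      simpa using this
    have : NeZero p := ⟨hp0⟩
    obtain ⟨k, -, hk⟩ := hζ₀.eq_pow_of_pow_eq_one h4
    refine ⟨k, ?_⟩
    apply esVal_injective
    rw [esVal_nsmul, hz, ← hxe, ← ofMul_pow, ← map_pow]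
    congr 2
    apply Units.ext
    simpa [ζ] using hk.symm
  · -- the Galois action
    intro g
    apply esVal_injective
    rw [esVal_rho, esVal_nsmul, hz, toMul_ofMul, ← diag_map, ← ofMul_pow, ← map_pow]
    congr 2
    apply Units.ext
    have h5 := Fermat.Agent.CFT.Local.Hilbert90Fun.apply_eq_pow_cycloChar p g ζ₀ hζ₀.pow_eq_one
    simpa [ζ] using h5
  · -- `z` is nontrivial at every `q ∈ S`
    intro q hq0
    have h6 : jEQ S q z = (Additive.ofMul (Units.map ((padicEmbedding (q.1 : ℕ) :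
        Qb →ₐ[ℚ] PadicAlgCl (q.1 : ℕ)) : Qb →* PadicAlgCl (q.1 : ℕ)) ζ) :
        Additive (PadicAlgCl (q.1 : ℕ))ˣ) := prFull_diag S q ζ
    have h7 : Units.map ((padicEmbedding (q.1 : ℕ) : Qb →ₐ[ℚ] PadicAlgCl (q.1 : ℕ)) :
        Qb →* PadicAlgCl (q.1 : ℕ)) ζ = 1 := Additive.ofMul.injective (h6.symm.trans hq0)
    have h8 : padicEmbedding (q.1 : ℕ) ζ₀ = 1 := by
      have := congrArg Units.val h7
      simpa [ζ] using this
    have h9 : ζ₀ = 1 := by
      apply (padicEmbedding (q.1 : ℕ)).toRingHom.injective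
      rw [AlgHom.toRingHom_eq_coe, RingHom.coe_coe, h8, map_one]
    exact hζ₀.ne_one hp.out.one_lt h9

end Contract

end Fermat.Agent.CFT.Top.ESDiv

end
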