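import Fermat.Agent.CFT.Top.Plan
import Fermat.Agent.CFT.Level.SLevels
import Fermat.Agent.CFT.Fin.H1Finite

/-!
# P3 / Top layer: `Plan.GoodCover`

Every class of `H²(G_S, M)` is inflated from a good level (a Galois `S`-level trivialising
`M' = M.dualTwist (cycloChar p)` and `μ_p`).

* `exists_level_trivial` : the splitting field of a finite smooth `M` unramified outside `S`
  is an `S`-level (`hsm`, `hMur` of S55);
* `exists_level_cycloChar` : `ℚ(ζ_p)` is an `S`-level when `p ∈ S` (helper96's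
  `Fin.isUnramifiedOutside_adjoin_root`);
* `exists_goodLevel_le` : below every `S`-level there is a good level;
* `goodCover : Plan.GoodCover S M`.
-/

set_option autoImplicit false

open CategoryTheory Module groupCohomology ExtCitation

namespace Fermat.Agent.CFT.Top

variable {p : ℕ} [Fact p.Prime]

/-- The splitting field of a finite smooth representation unramified outside `S` is an
`S`-level: there is `F/ℚ` finite, unramified outside `S`, with `Gal(ℚ̄/F)` acting trivially. -/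
theorem exists_level_trivial {k : Type} [CommRing k] (S : Finset Nat.Primes) (M : Rep.{0} k GQ)
    [Finite M]
    (hsm : ∀ m : M, ∃ F : IntermediateField ℚ Qb, FiniteDimensional ℚ F ∧
      ∀ s ∈ F.fixingSubgroup, M.ρ s m = m)
    (hMur : ∀ q : Nat.Primes, q ∉ S → ∀ A : ValuationSubring Qb,
      A.LiesOverPrime (q : ℕ) → ∀ g ∈ A.inertiaSubgroupIn ℚ, M.ρ g = 1) :
    ∃ F : IntermediateField ℚ Qb, F.IsUnramifiedOutside S ∧
      ∀ s ∈ F.fixingSubgroup, M.ρ s = 1 := by
  classical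
  have : IsGalois ℚ Qb := Fermat.Agent.CFT.Fin.isGalois_Qb
  choose E hEfin hE using hsm
  have : ∀ m, FiniteDimensional ℚ (E m) := hEfin
  set F₁ : IntermediateField ℚ Qb := ⨆ m, E m with hF₁
  have hle : F₁.fixingSubgroup ≤ M.ρ.ker := by
    intro s hs
    rw [MonoidHom.mem_ker]
    ext m
    exact hE m s (IntermediateField.fixingSubgroup_antitone (le_iSup E m) hs)
  have hopen : IsOpen (M.ρ.ker : Set GQ) :=
    Subgroup.isOpen_mono hle (IntermediateField.fixingSubgroup_isOpen F₁)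
  have hclosed : IsClosed (M.ρ.ker : Set GQ) := Subgroup.isClosed_of_isOpen _ hopen
  let H : ClosedSubgroup GQ := ⟨M.ρ.ker, hclosed⟩
  have hfix : (IntermediateField.fixedField (M.ρ.ker)).fixingSubgroup = M.ρ.ker :=
    InfiniteGalois.fixingSubgroup_fixedField H
  have hF₁' : IntermediateField.fixedField (M.ρ.ker) ≤ F₁ := by
    have h1 := IntermediateField.fixedField_antitone hle
    rwa [InfiniteGalois.fixedField_fixingSubgroup] at h1
  refine ⟨IntermediateField.fixedField (M.ρ.ker),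
    ⟨FiniteDimensional.of_injective (IntermediateField.inclusion hF₁').toLinearMap
      (IntermediateField.inclusion_injective hF₁'), fun q hq A hA g hg => ?_⟩, fun s hs => ?_⟩
  · rw [hfix, MonoidHom.mem_ker]
    exact hMur q hq A hA g hg
  · rw [hfix] at hs
    exact MonoidHom.mem_ker.1 hs

/-- `ℚ(ζ_p)` is an `S`-level for `p ∈ S`, and `Gal(ℚ̄/ℚ(ζ_p))` is in the kernel of the mod `p`
cyclotomic character. -/
theorem exists_level_cycloChar (S : Finset Nat.Primes) (hpS : pPrime p ∈ S) :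
    ∃ F : IntermediateField ℚ Qb, F.IsUnramifiedOutside S ∧
      F.fixingSubgroup ≤ (cycloChar p).ker := by
  have hp : p.Prime := Fact.out
  have : NeZero p := ⟨hp.ne_zero⟩
  obtain ⟨ζ₀, hζ₀⟩ := HasEnoughRootsOfUnity.exists_primitiveRoot Qb p
  refine ⟨IntermediateField.adjoin ℚ {ζ₀},
    Fermat.Agent.CFT.Fin.isUnramifiedOutside_adjoin_root p S hpS ζ₀ hζ₀.pow_eq_one,
    fun s hs => ?_⟩
  rw [MonoidHom.mem_ker]
  have hs0 : s ζ₀ = ζ₀ :=
    (IntermediateField.mem_fixingSubgroup_iff _ s).1 hs ζ₀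
      (IntermediateField.mem_adjoin_simple_self ℚ ζ₀)
  refine Fermat.Agent.S14.Bridge.cycloChar_eq_one_of_fixes p s fun ζ hζ => ?_
  obtain ⟨i, -, rfl⟩ := hζ₀.eq_pow_of_pow_eq_one hζ
  rw [map_pow, hs0]

/-- The twisted dual is trivial where `M` and the character are. -/
lemma dualTwist_ρ_eq_one {k : Type} [CommRing k] {G : Type} [Group G] (M : Rep.{0} k G)
    (χ : G →* kˣ) {s : G} (hs : M.ρ s = 1) (hχ : χ s = 1) : (M.dualTwist χ).ρ s = 1 := by
  have hinv : M.ρ s⁻¹ = 1 := by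
    have h := map_mul M.ρ s⁻¹ s
    rw [inv_mul_cancel, map_one, hs, mul_one] at h
    exact h.symm
  ext f
  rw [Rep.dualTwist_ρ_apply, hχ, hinv, Units.val_one, one_smul]
  rfl

/-- Below every `S`-level there is a good level. -/
theorem exists_goodLevel_le (S : Finset Nat.Primes) (hpS : pPrime p ∈ S)
    (M : Rep.{0} (ZMod p) GQ) [FiniteDimensional (ZMod p) M]
    (hsm : ∀ m : M, ∃ F : IntermediateField ℚ Qb, FiniteDimensional ℚ F ∧
      ∀ s ∈ F.fixingSubgroup, M.ρ s m = m)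
    (hMur : ∀ q : Nat.Primes, q ∉ S → ∀ A : ValuationSubring Qb,
      A.LiesOverPrime (q : ℕ) → ∀ g ∈ A.inertiaSubgroupIn ℚ, M.ρ g = 1)
    (F₀ : IntermediateField ℚ Qb) (hF₀ : F₀.IsUnramifiedOutside S) :
    ∃ F : IntermediateField ℚ Qb, IsGoodLevel S (M.dualTwist (cycloChar p)) p F ∧ F₀ ≤ F ∧
      F.fixingSubgroup ≤ F₀.fixingSubgroup ∧ F.fixingSubgroup.FiniteIndex := by
  have : Finite M := Module.finite_of_finite (ZMod p)
  obtain ⟨F₁, hF₁, h1⟩ := exists_level_trivial S M hsm hMur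
  obtain ⟨F₂, hF₂, h2⟩ := exists_level_cycloChar (p := p) S hpS
  have hF₃ : (F₀ ⊔ F₁ ⊔ F₂).IsUnramifiedOutside S := (hF₀.sup hF₁).sup hF₂
  have := hF₃.1
  obtain ⟨F, -, hle, hfix, hnormal, hfi, hur⟩ := Level.exists_galois_level (F₀ ⊔ F₁ ⊔ F₂)
  have hs₁ : F.fixingSubgroup ≤ F₁.fixingSubgroup :=
    hfix.trans (IntermediateField.fixingSubgroup_antitone (le_sup_right.trans le_sup_left))
  have hs₂ : F.fixingSubgroup ≤ F₂.fixingSubgroup :=
    hfix.trans (IntermediateField.fixingSubgroup_antitone le_sup_right)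
  refine ⟨F, ⟨⟨hur S hF₃, hnormal⟩, fun s hs => ?_, fun s hs => h2 (hs₂ hs)⟩,
    (le_sup_left.trans le_sup_left).trans hle,
    hfix.trans (IntermediateField.fixingSubgroup_antitone (le_sup_left.trans le_sup_left)), hfi⟩
  exact dualTwist_ρ_eq_one M (cycloChar p) (h1 s (hs₁ hs)) (MonoidHom.mem_ker.1 (h2 (hs₂ hs)))

/-- **`Plan.GoodCover`**: every class of `H²(G_S, M)` is inflated from a good level. -/
theorem goodCover (S : Finset Nat.Primes) (hpS : pPrime p ∈ S)
    (M : Rep.{0} (ZMod p) GQ) [FiniteDimensional (ZMod p) M]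
    (hsm : ∀ m : M, ∃ F : IntermediateField ℚ Qb, FiniteDimensional ℚ F ∧
      ∀ s ∈ F.fixingSubgroup, M.ρ s m = m)
    (hMur : ∀ q : Nat.Primes, q ∉ S → ∀ A : ValuationSubring Qb,
      A.LiesOverPrime (q : ℕ) → ∀ g ∈ A.inertiaSubgroupIn ℚ, M.ρ g = 1) :
    Plan.GoodCover S M := by
  intro x
  induction x using Submodule.Quotient.induction_on with
  | H c =>
    obtain ⟨F₀, hF₀, h0⟩ := c.2.2
    obtain ⟨F, hF, -, hfix, -⟩ := exists_goodLevel_le S hpS M hsm hMur F₀ hF₀
    exact ⟨F, hF, c, fun g g' s s' hs hs' => h0 g g' s s' (hfix hs) (hfix hs'), rfl⟩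

end Fermat.Agent.CFT.Top
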