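import Mathlib

/-!
# P3 / Top layer: the diagram chases behind SPINE (c) and the assembly (c)+(d)+(e) ⇒ `PTMiddle`

Pure homological algebra on abstract abelian groups; no cohomology theory is fixed.

Dictionary for `chase` (`G = G_S`, `A_i(X) = Hom(R_i, X)`, `0 → R1 → R0 → M' → 0`,
`0 → E → J → C → 0`, `Λ_v = ℚ̄_v^×`):

* `C0 = Hom_G(R0, C)`, `C1 = Hom_G(R1, C)`, `J1 = Hom_G(R1, J)`,
  `res : C0 → C1` (restriction to `R1`), `π : J1 → C1`;
* `XE0 = H¹(G, A_0(E))`, `XE1 = H¹(G, A_1(E))`, `XJ1 = H¹(G, A_1(J))`,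
  `d0`, `δ` the connecting maps of the columns, `ι`, `j` the obvious maps;
* `H = H²(G, M)`, `∂ : XE1 → H` the connecting map of `0 → M → A_0(E) → A_1(E) → 0`;
* `Hv v = H²(G_v, M)`, `loc v` the localisation, `XQ v = H¹(G_v, A_1(Λ_v))`,
  `r v : XJ1 → XQ v` (restriction + projection `J → Λ_v`), `∂v v` the local connecting map
  (injective because `H¹(G_v, A_0(Λ_v)) = 0`).
-/

set_option autoImplicit false

namespace Fermat.Agent.CFT.Top.ChaseC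

/-- **SPINE (c), abstract form.** The composite `∂ ∘ δ` has image exactly the locally trivial
classes and kernel exactly `im π + im res`. -/
theorem chase {C0 C1 J1 XE0 XE1 XJ1 H : Type*} [AddCommGroup C0] [AddCommGroup C1]
    [AddCommGroup J1] [AddCommGroup XE0] [AddCommGroup XE1] [AddCommGroup XJ1] [AddCommGroup H]
    {I : Type*} {Hv XQ : I → Type*} [∀ v, AddCommGroup (Hv v)] [∀ v, AddCommGroup (XQ v)]
    (res : C0 →+ C1) (π : J1 →+ C1) (d0 : C0 →+ XE0) (δ : C1 →+ XE1) (ι : XE0 →+ XE1)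
    (j : XE1 →+ XJ1) (bd : XE1 →+ H) (loc : ∀ v, H →+ Hv v) (r : ∀ v, XJ1 →+ XQ v)
    (bdv : ∀ v, XQ v →+ Hv v)
    (hδπ : ∀ g, δ (π g) = 0) (hδ_ker : ∀ f, δ f = 0 → ∃ g, π g = f)
    (hjδ : ∀ f, j (δ f) = 0) (hj_ker : ∀ y, j y = 0 → ∃ f, δ f = y)
    (hbdι : ∀ z, bd (ι z) = 0) (hbd_ker : ∀ y, bd y = 0 → ∃ z, ι z = y)
    (hd0 : Function.Surjective d0) (hnat : ∀ g, δ (res g) = ι (d0 g))
    (hloc : ∀ v y, loc v (bd y) = bdv v (r v (j y)))
    (hbdv : ∀ v, Function.Injective (bdv v))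
    (hdet : ∀ y, (∀ v, r v y = 0) → y = 0)
    (hsha : ∀ x, (∀ v, loc v x = 0) → ∃ y, bd y = x) :
    (∀ x, (∀ v, loc v x = 0) ↔ ∃ f, bd (δ f) = x) ∧
      (∀ f, bd (δ f) = 0 ↔ ∃ g h, f = π g + res h) := by
  refine ⟨fun x => ⟨fun hx => ?_, ?_⟩, fun f => ⟨fun hf => ?_, ?_⟩⟩
  · obtain ⟨y, rfl⟩ := hsha x hx
    have hy : j y = 0 := by
      apply hdet
      intro v
      apply hbdv v
      rw [← hloc, hx v, map_zero]
    obtain ⟨f, rfl⟩ := hj_ker y hy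
    exact ⟨f, rfl⟩
  · rintro ⟨f, rfl⟩ v
    rw [hloc, hjδ, map_zero, map_zero]
  · obtain ⟨z, hz⟩ := hbd_ker _ hf
    obtain ⟨h, rfl⟩ := hd0 z
    have h0 : δ (f - res h) = 0 := by
      rw [map_sub, hnat, hz, sub_self]
    obtain ⟨g, hg⟩ := hδ_ker _ h0
    exact ⟨g, h, by rw [hg]; abel⟩
  · rintro ⟨g, h, rfl⟩
    rw [map_add, hδπ, zero_add, hnat, hbdι]

/-- **(c) + (d) + (e) ⇒ the shape of `PTMiddle`**, abstract form.
`Φ : C1 → Dual V` is the duality map of (d) (surjective, kernel `im res`), `Δ0 = ∂ ∘ δ` is the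
map of (c), and (e) says that `Φ (im π)` is the annihilator of `W`. -/
theorem exists_middle {p : ℕ} [Fact p.Prime] {V H : Type*} [AddCommGroup V] [Module (ZMod p) V]
    [AddCommGroup H] [Module (ZMod p) H] {C0 C1 J1 : Type*} [AddCommGroup C0] [AddCommGroup C1]
    [AddCommGroup J1] (res : C0 →+ C1) (π : J1 →+ C1)
    (Φ : C1 →+ Module.Dual (ZMod p) V) (Δ0 : C1 →+ H)
    (sha : Submodule (ZMod p) H) (W : Submodule (ZMod p) V)
    (hΦ : Function.Surjective Φ) (hΦ_ker : ∀ f, Φ f = 0 ↔ ∃ h, res h = f)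
    (hrange : ∀ x, x ∈ sha ↔ ∃ f, Δ0 f = x)
    (hker : ∀ f, Δ0 f = 0 ↔ ∃ g h, f = π g + res h)
    (hW : ∀ φ, φ ∈ W.dualAnnihilator ↔ ∃ g, Φ (π g) = φ) :
    ∃ Δ : Module.Dual (ZMod p) V →ₗ[ZMod p] H,
      LinearMap.range Δ = sha ∧ LinearMap.ker Δ = W.dualAnnihilator := by
  classical
  have hres : ∀ h, Δ0 (res h) = 0 := fun h => (hker _).2 ⟨0, h, by rw [map_zero, zero_add]⟩
  have hwd : ∀ f f', Φ f = Φ f' → Δ0 f = Δ0 f' := by
    intro f f' hff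
    have h0 : Φ (f - f') = 0 := by rw [map_sub, hff, sub_self]
    obtain ⟨h, hh⟩ := (hΦ_ker _).1 h0
    have h1 : Δ0 (f - f') = 0 := by rw [← hh]; exact hres h
    rw [map_sub, sub_eq_zero] at h1
    exact h1
  let s : Module.Dual (ZMod p) V → C1 := fun φ => (hΦ φ).choose
  have hs : ∀ φ, Φ (s φ) = φ := fun φ => (hΦ φ).choose_spec
  have hΔs : ∀ f, Δ0 (s (Φ f)) = Δ0 f := fun f => hwd _ _ (hs _)
  let Δa : Module.Dual (ZMod p) V →+ H :=
    { toFun := fun φ => Δ0 (s φ)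
      map_zero' := by
        have : Δ0 (s 0) = Δ0 0 := hwd _ _ (by rw [hs, map_zero])
        rw [this, map_zero]
      map_add' := fun φ ψ => by
        have : Δ0 (s (φ + ψ)) = Δ0 (s φ + s ψ) := hwd _ _ (by rw [hs, map_add, hs, hs])
        rw [this, map_add] }
  have hΔa : ∀ φ, Δa φ = Δ0 (s φ) := fun _ => rfl
  refine ⟨Δa.toZModLinearMap p, ?_, ?_⟩
  · ext x
    rw [LinearMap.mem_range, hrange]
    constructor
    · rintro ⟨φ, rfl⟩
      exact ⟨s φ, rfl⟩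
    · rintro ⟨f, rfl⟩
      exact ⟨Φ f, hΔs f⟩
  · ext φ
    rw [LinearMap.mem_ker, hW]
    change Δa φ = 0 ↔ _
    rw [hΔa, hker]
    constructor
    · rintro ⟨g, h, hgh⟩
      refine ⟨g, ?_⟩
      have h1 : Φ (res h) = 0 := (hΦ_ker _).2 ⟨h, rfl⟩
      have h2 : Φ (s φ) = Φ (π g) := by rw [hgh, map_add, h1, add_zero]
      rw [← h2, hs]
    · rintro ⟨g, rfl⟩
      have h0 : Φ (s (Φ (π g)) - π g) = 0 := by rw [map_sub, hs, sub_self]
      obtain ⟨h, hh⟩ := (hΦ_ker _).1 h0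
      exact ⟨g, h, by rw [hh]; abel⟩

end Fermat.Agent.CFT.Top.ChaseC
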