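import Mathlib
import Fermat.Agent.CFT.Top.ChaseC

/-!
# P3 / Top layer: design-neutral algebra for the level-adapted form of SPINE (c)

Three independent statements, all on abstract objects (no cohomology theory, no arithmetic):

* `chaseLevel` : the diagram chase of SPINE (c) for ONE presentation, *without* the hypothesis
  "every locally trivial class is a boundary".  Conclusion: the image of `∂ ∘ δ` consists exactly
  of the locally trivial classes that lie in the image of `∂`.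
* `coind_homotopy` : (L-a).  For a normal subgroup `N` of `G`, a `G`-set `T` on which `N` acts
  trivially and any model `B` of `Hom(ℤ[G/N × T], X)`, every `N`-level 2-cocycle with values in `B`
  is the coboundary of an explicit `N`-level 1-cochain.
* `exists_middle_of_family` : (L-b), the counting argument.  A directed family of presentations,
  each giving a map `Δ0 i` with image inside `sha`, containing the part `Wl i` of `sha`, and with
  the kernel/duality data of (c), (d), (e), produces the middle map of Poitou–Tate.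
-/

set_option autoImplicit false

open CategoryTheory groupCohomology

namespace Fermat.Agent.CFT.Top.SpineAlg

/-! ### (1) the chase for one presentation -/

/-- **SPINE (c) for one presentation, abstract form.**  Same data and hypotheses as
`ChaseC.chase`, except that nothing is assumed about the image of `bd`.  The composite `bd ∘ δ`
has image exactly the locally trivial classes *that are in the image of `bd`*, and kernel
exactly `im π + im res`. -/
theorem chaseLevel {C0 C1 J1 XE0 XE1 XJ1 H : Type*} [AddCommGroup C0] [AddCommGroup C1]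
    [AddCommGroup J1] [AddCommGroup XE0] [AddCommGroup XE1] [AddCommGroup XJ1] [AddCommGroup H]
    {I : Type*} {Hv XQ : I → Type*} [∀ v, AddCommGroup (Hv v)] [∀ v, AddCommGroup (XQ v)]
    (res : C0 →+ C1) (π : J1 →+ C1) (d0 : C0 →+ XE0) (δ : C1 →+ XE1) (ι : XE0 →+ XE1)
    (j : XE1 →+ XJ1) (bd : XE1 →+ H) (loc : ∀ v, H →+ Hv v) (r : ∀ v, XJ1 →+ XQ v)
    (bdv : ∀ v, XQ v →+ Hv v)
    (hδπ : ∀ g, δ (π g) = 0) (hδ_ker : ∀ f, δ f = 0 → ∃ g, π g = f)
    (hjδ : ∀ f, j (δ f) = 0) (hj_ker : ∀ y, j y = 0 → ∃ f, δ f = y)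
    (hbdι : ∀ z, bd (ι z) = 0) (hbd_ker : ∀ y, bd y = 0 → ∃ z, ι z = y)
    (hd0 : Function.Surjective d0) (hnat : ∀ g, δ (res g) = ι (d0 g))
    (hloc : ∀ v y, loc v (bd y) = bdv v (r v (j y)))
    (hbdv : ∀ v, Function.Injective (bdv v))
    (hdet : ∀ y, (∀ v, r v y = 0) → y = 0) :
    (∀ x, ((∀ v, loc v x = 0) ∧ ∃ y, bd y = x) ↔ ∃ f, bd (δ f) = x) ∧
      (∀ f, bd (δ f) = 0 ↔ ∃ g h, f = π g + res h) := by
  refine ⟨fun x => ⟨?_, ?_⟩, fun f => ⟨fun hf => ?_, ?_⟩⟩
  · rintro ⟨hx, y, rfl⟩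
    have hy : j y = 0 := by
      apply hdet
      intro v
      apply hbdv v
      rw [← hloc, hx v, map_zero]
    obtain ⟨f, rfl⟩ := hj_ker y hy
    exact ⟨f, rfl⟩
  · rintro ⟨f, rfl⟩
    refine ⟨fun v => ?_, δ f, rfl⟩
    rw [hloc, hjδ, map_zero, map_zero]
  · obtain ⟨z, hz⟩ := hbd_ker _ hf
    obtain ⟨h, rfl⟩ := hd0 z
    have h0 : δ (f - res h) = 0 := by
      rw [map_sub, hnat, hz, sub_self]
    obtain ⟨g, hg⟩ := hδ_ker _ h0
    exact ⟨g, h, by rw [hg]; abel⟩
  · rintro ⟨g, h, rfl⟩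
    rw [map_add, hδπ, zero_add, hnat, hbdι]

/-! ### (2) (L-a): the explicit contracting homotopy on coinduced-type modules -/

section homotopy

variable {k G : Type} [CommRing k] [Group G] (N : Subgroup G) [N.Normal]
  {T : Type*} (σ : G →* Equiv.Perm T) (X B : Rep k G)
  (e : B ≃+ ((G ⧸ N) × T → X))

/-- The value at the coset of `x` (and `t : T`) of the homotopy applied to `F`, computed with the
representative `x`. -/
noncomputable def hoVal (F : G × G → B) (g : G) (t : T) (x : G) : X :=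
  X.ρ x (e (F (x⁻¹, g)) (((1 : G) : G ⧸ N), σ x⁻¹ t))

variable {N σ X B e}

/-- Values of an `N`-level 2-cocycle are `N`-invariant. -/
theorem ρ_level_cocycle {F : G × G → B} (hF : F ∈ cocycles₂ B)
    (hlev : ∀ g g' s s', s ∈ N → s' ∈ N → F (g * s, g' * s') = F (g, g'))
    (n : G) (hn : n ∈ N) (a c : G) : B.ρ n (F (a, c)) = F (a, c) := by
  have h1 := (mem_cocycles₂_iff F).1 hF n a c
  have h2 : F (n * a, c) = F (a, c) := by
    have : n * a = a * (a⁻¹ * n * a) := by group
    rw [this]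
    have hmem : a⁻¹ * n * a ∈ N := by
      have := ‹N.Normal›.conj_mem n hn a⁻¹
      simpa using this
    simpa using hlev a c (a⁻¹ * n * a) 1 hmem N.one_mem
  have h3 : ∀ z, F (n, z) = F (1, 1) := by
    intro z
    have h4 : F (n, z) = F (1, z) := by simpa using hlev 1 z n 1 hn N.one_mem
    rw [h4]
    exact cocycles₂_map_one_fst ⟨F, hF⟩ z
  rw [h2, h3 a, h3 (a * c)] at h1
  exact (add_right_cancel h1).symm

/-- `hoVal` does not depend on the representative of the coset. -/
theorem hoVal_mul_right (hT : ∀ n ∈ N, σ n = 1)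
    (he : ∀ (g : G) (b : B) (x : G) (t : T),
      e (B.ρ g b) (((g * x : G) : G ⧸ N), σ g t) = X.ρ g (e b ((x : G ⧸ N), t)))
    {F : G × G → B} (hF : F ∈ cocycles₂ B)
    (hlev : ∀ g g' s s', s ∈ N → s' ∈ N → F (g * s, g' * s') = F (g, g'))
    (g : G) (t : T) (x n : G) (hn : n ∈ N) :
    hoVal N σ X B e F g t (x * n) = hoVal N σ X B e F g t x := by
  unfold hoVal
  have hmem : x * n⁻¹ * x⁻¹ ∈ N := ‹N.Normal›.conj_mem n⁻¹ (N.inv_mem hn) x
  have h1 : F ((x * n)⁻¹, g) = F (x⁻¹, g) := by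
    have : (x * n)⁻¹ = x⁻¹ * (x * n⁻¹ * x⁻¹) := by group
    rw [this]
    simpa using hlev x⁻¹ g (x * n⁻¹ * x⁻¹) 1 hmem N.one_mem
  have h2 : σ (x * n)⁻¹ t = σ x⁻¹ t := by
    have : (x * n)⁻¹ = n⁻¹ * x⁻¹ := by group
    rw [this, map_mul, hT n⁻¹ (N.inv_mem hn)]
    rfl
  rw [h1, h2, map_mul, Module.End.mul_apply]
  congr 1
  -- `ρ n` fixes the value at the base coset
  have h3 := he n (F (x⁻¹, g)) 1 (σ x⁻¹ t)
  rw [ρ_level_cocycle hF hlev n hn, hT n hn] at h3
  have h4 : ((n * 1 : G) : G ⧸ N) = ((1 : G) : G ⧸ N) := by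
    rw [mul_one]
    exact (QuotientGroup.eq_one_iff n).2 hn
  rw [h4] at h3
  exact h3.symm

/-- **(L-a).**  Let `N` be a normal subgroup of `G`, `T` a `G`-set on which `N` acts trivially,
`X` a representation, and `B` any model of `Hom(ℤ[G/N × T], X)`: a representation with an
additive identification `e : B ≃ (G/N × T → X)` such that
`e (g • b) (g x N, g t) = g • e b (x N, t)`.  Then every 2-cocycle `F` with values in `B` that is
constant on the cosets of `N` (in both variables) is the coboundary of a 1-cochain constant on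
the cosets of `N`. -/
theorem coind_homotopy (hT : ∀ n ∈ N, σ n = 1)
    (he : ∀ (g : G) (b : B) (x : G) (t : T),
      e (B.ρ g b) (((g * x : G) : G ⧸ N), σ g t) = X.ρ g (e b ((x : G ⧸ N), t)))
    (F : G × G → B) (hF : F ∈ cocycles₂ B)
    (hlev : ∀ g g' s s', s ∈ N → s' ∈ N → F (g * s, g' * s') = F (g, g')) :
    ∃ b : G → B, (∀ g s, s ∈ N → b (g * s) = b g) ∧ (d₁₂ B).hom b = F := by
  classical
  -- the homotopy
  let b : G → B := fun g => e.symm (fun ct => hoVal N σ X B e F g ct.2 ct.1.out)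
  have hb : ∀ g (c : G ⧸ N) (t : T) (x : G), (x : G ⧸ N) = c →
      e (b g) (c, t) = hoVal N σ X B e F g t x := by
    intro g c t x hx
    have h1 : e (b g) (c, t) = hoVal N σ X B e F g t c.out := by
      simp only [b, AddEquiv.apply_symm_apply]
    rw [h1]
    have h2 : x⁻¹ * c.out ∈ N := by
      rw [← QuotientGroup.eq, hx, QuotientGroup.out_eq']
    have h3 : c.out = x * (x⁻¹ * c.out) := by group
    rw [h3]
    exact hoVal_mul_right hT he hF hlev g t x _ h2
  refine ⟨b, fun g s hs => ?_, ?_⟩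
  · apply e.injective
    funext ⟨c, t⟩
    rw [hb (g * s) c t c.out (QuotientGroup.out_eq' c), hb g c t c.out (QuotientGroup.out_eq' c)]
    unfold hoVal
    have : F ((c.out)⁻¹, g * s) = F ((c.out)⁻¹, g) := by
      simpa using hlev (c.out)⁻¹ g 1 s N.one_mem hs
    rw [this]
  · funext ⟨g, h⟩
    apply e.injective
    funext ⟨c, t⟩
    obtain ⟨x, rfl⟩ := QuotientGroup.mk_surjective c
    rw [d₁₂_hom_apply]
    simp only [map_add, map_sub, Pi.add_apply, Pi.sub_apply]
    -- the three terms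
    have t1 : e (B.ρ g (b h)) ((x : G ⧸ N), t) =
        X.ρ x (e (F (x⁻¹ * g, h)) (((1 : G) : G ⧸ N), σ x⁻¹ t)) := by
      have h1 := he g (b h) (g⁻¹ * x) (σ g⁻¹ t)
      have h2 : g * (g⁻¹ * x) = x := by group
      have h3 : σ g (σ g⁻¹ t) = t := by
        rw [← Equiv.Perm.mul_apply, ← map_mul, mul_inv_cancel, map_one]
        rfl
      rw [h2, h3] at h1
      rw [h1, hb h _ (σ g⁻¹ t) (g⁻¹ * x) rfl]
      unfold hoVal
      rw [← Module.End.mul_apply, ← map_mul, h2]
      have h4 : (g⁻¹ * x)⁻¹ = x⁻¹ * g := by group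
      have h5 : σ (g⁻¹ * x)⁻¹ (σ g⁻¹ t) = σ x⁻¹ t := by
        rw [← Equiv.Perm.mul_apply, ← map_mul]
        congr 2
        group
      rw [h5, h4]
    have t2 : e (b (g * h)) ((x : G ⧸ N), t) =
        X.ρ x (e (F (x⁻¹, g * h)) (((1 : G) : G ⧸ N), σ x⁻¹ t)) := hb (g * h) _ t x rfl
    have t3 : e (b g) ((x : G ⧸ N), t) =
        X.ρ x (e (F (x⁻¹, g)) (((1 : G) : G ⧸ N), σ x⁻¹ t)) := hb g _ t x rfl
    rw [t1, t2, t3, ← map_sub, ← map_add, ← Pi.sub_apply, ← Pi.add_apply, ← map_sub, ← map_add]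
    -- the cocycle identity at `(x⁻¹, g, h)`
    have hc := (mem_cocycles₂_iff F).1 hF x⁻¹ g h
    have hc' : F (x⁻¹ * g, h) - F (x⁻¹, g * h) + F (x⁻¹, g) = B.ρ x⁻¹ (F (g, h)) := by
      rw [sub_add_eq_add_sub, hc]
      abel
    rw [hc']
    have h6 := he x⁻¹ (F (g, h)) x t
    rw [inv_mul_cancel] at h6
    rw [h6, ← Module.End.mul_apply, ← map_mul, mul_inv_cancel, map_one]
    rfl

end homotopy

/-! ### (3) (L-b): the counting argument over a directed family of presentations -/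

/-- **(c) + (d) + (e) for a directed family of presentations ⇒ the shape of `PTMiddle`.**

For every index `i` (a level-adapted presentation) we are given the data of
`ChaseC.exists_middle`, except that `Δ0 i` is only known to have image *inside* `sha` and to hit
the part `Wl i` of `sha` (the classes visible at level `i`).  If the `Wl i` are directed and
cover `sha`, and `W` is finite, then some `Δ0 i` has image exactly `sha`, and the middle map
exists. -/
theorem exists_middle_of_family {p : ℕ} [Fact p.Prime] {V H : Type*} [AddCommGroup V]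
    [Module (ZMod p) V] [AddCommGroup H] [Module (ZMod p) H]
    {ι : Type*} [Nonempty ι] {C0 C1 J1 : ι → Type*} [∀ i, AddCommGroup (C0 i)]
    [∀ i, AddCommGroup (C1 i)] [∀ i, AddCommGroup (J1 i)]
    (res : ∀ i, C0 i →+ C1 i) (π : ∀ i, J1 i →+ C1 i)
    (Φ : ∀ i, C1 i →+ Module.Dual (ZMod p) V) (Δ0 : ∀ i, C1 i →+ H)
    (sha : Submodule (ZMod p) H) (W : Submodule (ZMod p) V) [Finite W]
    (Wl : ι → Set H)
    (hΦ : ∀ i, Function.Surjective (Φ i)) (hΦ_ker : ∀ i f, Φ i f = 0 ↔ ∃ h, res i h = f)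
    (hsub : ∀ i f, Δ0 i f ∈ sha)
    (hWl : ∀ i x, x ∈ sha → x ∈ Wl i → ∃ f, Δ0 i f = x)
    (hker : ∀ i f, Δ0 i f = 0 ↔ ∃ g h, f = π i g + res i h)
    (hW : ∀ i φ, φ ∈ W.dualAnnihilator ↔ ∃ g, Φ i (π i g) = φ)
    (hcover : ∀ x ∈ sha, ∃ i, x ∈ Wl i)
    (hdir : ∀ i j, ∃ l, Wl i ⊆ Wl l ∧ Wl j ⊆ Wl l) :
    ∃ Δ : Module.Dual (ZMod p) V →ₗ[ZMod p] H,
      LinearMap.range Δ = sha ∧ LinearMap.ker Δ = W.dualAnnihilator := by
  classical
  have : Finite (Module.Dual (ZMod p) W) := DFunLike.finite _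
  set c : ℕ := Nat.card (Module.Dual (ZMod p) W) with hc
  -- `Δ0 i f` only depends on the restriction of `Φ i f` to `W`
  have hdep : ∀ i f f', W.dualRestrict (Φ i f) = W.dualRestrict (Φ i f') →
      Δ0 i f = Δ0 i f' := by
    intro i f f' hff
    have h1 : Φ i (f - f') ∈ W.dualAnnihilator := by
      rw [← Submodule.dualRestrict_ker_eq_dualAnnihilator, LinearMap.mem_ker, map_sub, map_sub,
        hff, sub_self]
    obtain ⟨g, hg⟩ := (hW i _).1 h1
    have h2 : Φ i (f - f' - π i g) = 0 := by rw [map_sub, hg, sub_self]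
    obtain ⟨h, hh⟩ := (hΦ_ker i _).1 h2
    have h3 : Δ0 i (f - f') = 0 := (hker i _).2 ⟨g, h, by rw [hh]; abel⟩
    rw [map_sub, sub_eq_zero] at h3
    exact h3
  -- hence the image of `Δ0 i` is finite, of cardinality at most `c`
  have hfin : ∀ i, (Set.range (Δ0 i)).Finite ∧ (Set.range (Δ0 i)).ncard ≤ c := by
    intro i
    let φ : Set.range (Δ0 i) → Module.Dual (ZMod p) W :=
      fun x => W.dualRestrict (Φ i x.2.choose)
    have hφ : Function.Injective φ := by
      intro x y hxy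
      have := hdep i _ _ hxy
      rw [x.2.choose_spec, y.2.choose_spec] at this
      exact Subtype.ext this
    have : Finite (Set.range (Δ0 i)) := Finite.of_injective φ hφ
    refine ⟨Set.toFinite _, ?_⟩
    rw [← Nat.card_coe_set_eq]
    exact Nat.card_le_card_of_injective φ hφ
  -- the visible parts of `sha`
  let Wi : ι → Set H := fun i => Wl i ∩ (sha : Set H)
  have hWi_sub : ∀ i, Wi i ⊆ Set.range (Δ0 i) := fun i x hx => hWl i x hx.2 hx.1
  have hWi_fin : ∀ i, (Wi i).Finite := fun i => (hfin i).1.subset (hWi_sub i)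
  have hWi_card : ∀ i, (Wi i).ncard ≤ c := fun i =>
    (Set.ncard_le_ncard (hWi_sub i) (hfin i).1).trans (hfin i).2
  -- choose an index where the visible part is largest
  obtain ⟨i0, hi0⟩ : ∃ i0, ∀ j, (Wi j).ncard ≤ (Wi i0).ncard := by
    have hbdd : BddAbove (Set.range fun i => (Wi i).ncard) :=
      ⟨c, by rintro _ ⟨i, rfl⟩; exact hWi_card i⟩
    obtain ⟨i0, hi0⟩ := Nat.sSup_mem (Set.range_nonempty _) hbdd
    have hi0' : (Wi i0).ncard = sSup (Set.range fun i => (Wi i).ncard) := hi0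
    exact ⟨i0, fun j => by rw [hi0']; exact le_csSup hbdd ⟨j, rfl⟩⟩
  have hall : ∀ x ∈ sha, x ∈ Wl i0 := by
    intro x hx
    obtain ⟨j, hj⟩ := hcover x hx
    obtain ⟨l, hl0, hlj⟩ := hdir i0 j
    have hsub' : Wi i0 ⊆ Wi l := fun y hy => ⟨hl0 hy.1, hy.2⟩
    have heq : Wi i0 = Wi l := Set.eq_of_subset_of_ncard_le hsub' (hi0 l) (hWi_fin l)
    have : x ∈ Wi l := ⟨hlj hj, hx⟩
    rw [← heq] at this
    exact this.1
  exact ChaseC.exists_middle (res i0) (π i0) (Φ i0) (Δ0 i0) sha W (hΦ i0) (hΦ_ker i0)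
    (fun x => ⟨fun hx => hWl i0 x hx (hall x hx), by rintro ⟨f, rfl⟩; exact hsub i0 f⟩)
    (hker i0) (hW i0)

end Fermat.Agent.CFT.Top.SpineAlg
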