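import Fermat.Agent.CFT.Top.SpinePlan
import Fermat.Agent.CFT.Top.SpineAlg
import Fermat.Agent.CFT.Level.Provide
import Fermat.Agent.CFT.Local.Archimedean

/-!
# P3 / Top layer: SPINE (c) at a good level

`spineC : Inputs S M F → Plan.SpineC S M F` (for `p ≠ 2` and `F` a good level).
-/

set_option autoImplicit false

open CategoryTheory groupCohomology ExtCitation

noncomputable section

namespace Fermat.Agent.CFT.Top.Spine

open Fermat.Agent.CFT.Level Fermat.Agent.CFT.Top.SpinePlan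

/-! ## Composition of the maps on level `H¹` -/

section Comp

variable {G G' G'' : Type} [Group G] [Group G'] [Group G''] {k k' k'' : Type} [CommRing k]
  [CommRing k'] [CommRing k''] {A : Rep.{0} k G} {A' : Rep.{0} k' G'} {A'' : Rep.{0} k'' G''}
  (f : G' →* G) (f' : G'' →* G') (f'' : G'' →* G) (α : A →+ A') (α' : A' →+ A'') (β : A →+ A'')
  (hα : Equivar f A A' α) (hα' : Equivar f' A' A'' α') (hβ : Equivar f'' A A'' β)
  {L : LevelSys G} {L' : LevelSys G'} {L'' : LevelSys G''} (hf : L'.Compat L f)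
  (hf' : L''.Compat L' f') (hf'' : L''.Compat L f'')

lemma H1add_H1add (hff : ∀ g, f'' g = f (f' g)) (hβα : ∀ a, β a = α' (α a)) (x : H1 L A) :
    H1add f' α' hα' hf' (H1add f α hα hf x) = H1add f'' β hβ hf'' x := by
  obtain ⟨c, hc', rfl⟩ := exists_H1mk_eq L A x
  apply Subtype.ext
  rw [coe_H1add, coe_H1add, coe_H1add, coe_H1mk, H1addFull_π, H1addFull_π, H1addFull_π]
  refine congrArg (H1π A'').hom (Subtype.ext (funext fun g => ?_))
  change α' (α (c (f (f' g)))) = β (c (f'' g))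
  rw [hβα, hff]

end Comp

/-! ## The main theorem -/

section Main

variable {p : ℕ} [Fact p.Prime] (S : Finset Nat.Primes) (M : Rep.{0} (ZMod p) GQ)
  (F : IntermediateField ℚ Qb)

theorem spineC (hp2 : p ≠ 2) (hF : IsGoodLevel S (M.dualTwist (cycloChar p)) p F)
    (h : Inputs S M F) : Plan.SpineC S M F := by
  obtain ⟨iM, hrow, hrowQ⟩ := h.rowSES
  obtain ⟨hcol0, hcol1⟩ := h.colSES
  obtain ⟨hsE0, hsJ0, hsJ1⟩ := h.smoothG
  have hL : (sLevels S).IsCofinite := isCofinite_sLevels S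
  have hLq : ∀ q : ↥S, (pullLevels (primeLocalToGlobal q.1)).IsCofinite :=
    fun q => isCofinite_pullLevels _
  obtain ⟨δ00, hδ00⟩ := Provide.existsDelta₀ GQ (sLevels S) ℤ ℤ ℤ _ _ _ _ _ hcol0 hsJ0
  obtain ⟨δ01, hδ01⟩ := Provide.existsDelta₀ GQ (sLevels S) ℤ ℤ ℤ _ _ _ _ _ hcol1 hsJ1
  obtain ⟨δ1, hδ1⟩ := Provide.existsDelta₁ GQ (sLevels S) hL (ZMod p) ℤ ℤ _ _ _ _ _ hrow hsE0
  choose δq hδq using fun q : ↥S => Provide.existsDelta₁ (primeLocalGaloisGroup q.1)
    (pullLevels (primeLocalToGlobal q.1)) (hLq q) (ZMod p) ℤ ℤ _ _ _ _ _ (hrowQ q) (h.smoothQ q)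
  -- equivariance of the row maps
  have eRowC := preH_equivar (MonoidHom.id GQ) (CS S)
    (addOfHom (r1Incl F (M.dualTwist (cycloChar p))))
    (addOfHom_equivar (r1Incl F (M.dualTwist (cycloChar p))))
  have eRowJ := preH_equivar (MonoidHom.id GQ) (JS S)
    (addOfHom (r1Incl F (M.dualTwist (cycloChar p))))
    (addOfHom_equivar (r1Incl F (M.dualTwist (cycloChar p))))
  -- [LIM2]
  have hLIM2 : ∀ y : H1 (sLevels S) (A0 F (M.dualTwist (cycloChar p)) (JS S)), y = 0 :=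
    fun y => h.detect0 y (fun q => h.h1ZeroLocal q _)
  -- the exact sequences
  have x0C1 := Provide.exactH0C GQ (sLevels S) hL ℤ ℤ ℤ _ _ _ _ _ hcol1 hsJ1 δ01 hδ01
  have x1A1 := Provide.exactH1A GQ (sLevels S) hL ℤ ℤ ℤ _ _ _ _ _ hcol1 hsJ1 δ01 hδ01
  have x1A0 := Provide.exactH1A GQ (sLevels S) hL ℤ ℤ ℤ _ _ _ _ _ hcol0 hsJ0 δ00 hδ00
  have x1Crow := Provide.exactH1C GQ (sLevels S) hL (ZMod p) ℤ ℤ _ _ _ _ _ hrow hsE0 δ1 hδ1
  have x2Arow := Provide.exactH2A GQ (sLevels S) hL (ZMod p) ℤ ℤ _ _ _ _ _ hrow hsE0 δ1 hδ1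
  have x1Cq := fun q : ↥S => Provide.exactH1C (primeLocalGaloisGroup q.1)
    (pullLevels (primeLocalToGlobal q.1)) (hLq q) (ZMod p) ℤ ℤ _ _ _ _ _ (hrowQ q)
    (h.smoothQ q) (δq q) (hδq q)
  have key := SpineAlg.chaseLevel
    (Hv := fun q : ↥S => H2 (pullLevels (primeLocalToGlobal q.1))
      (Rep.res (primeLocalToGlobal q.1) M))
    (XQ := fun q : ↥S => ↥(H1 (pullLevels (primeLocalToGlobal q.1))
      (A1Q F (M.dualTwist (cycloChar p)) q.1)))
    (res := H0add (MonoidHom.id GQ) (rowG F (M.dualTwist (cycloChar p)) (CS S)) eRowC)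
    (π := H0add (MonoidHom.id GQ) (colP1 S F (M.dualTwist (cycloChar p))) hcol1.equivar_ψ)
    (d0 := δ00) (δ := δ01)
    (ι := H1add (MonoidHom.id GQ) (rowG F (M.dualTwist (cycloChar p)) (ES S)) hrow.equivar_ψ
      (LevelSys.Compat.id (sLevels S)))
    (j := H1add (MonoidHom.id GQ) (colE1 S F (M.dualTwist (cycloChar p))) hcol1.equivar_φ
      (LevelSys.Compat.id (sLevels S)))
    (bd := δ1)
    (loc := fun q : ↥S => H2add (L := sLevels S) (L' := pullLevels (primeLocalToGlobal q.1))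
      (A := M) (A' := Rep.res (primeLocalToGlobal q.1) M) (primeLocalToGlobal q.1)
      (AddMonoidHom.id M) (fun _ _ => rfl) (compat_sLevels S (primeLocalToGlobal q.1)))
    (r := fun q : ↥S => H1add (primeLocalToGlobal q.1)
      (locJ S (R1 F (M.dualTwist (cycloChar p))) q)
      (locJ_equivar S (R1 F (M.dualTwist (cycloChar p))) q)
      (compat_sLevels S (primeLocalToGlobal q.1)))
    (bdv := δq)
    (fun g => (x0C1 _).2 ⟨g, rfl⟩)
    (fun f hf => by
      obtain ⟨b, hb⟩ := (x0C1 f).1 hf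
      exact ⟨b, Subtype.ext hb⟩)
    (fun f => (x1A1 _).2 ⟨f, rfl⟩)
    (fun y hy => (x1A1 y).1 hy)
    (fun z => (x1Crow _).2 ⟨z, rfl⟩)
    (fun y hy => (x1Crow y).1 hy)
    (fun x => (x1A0 x).1 (hLIM2 _))
    (fun g => Provide.natDelta₀ GQ GQ (sLevels S) (sLevels S) (MonoidHom.id GQ)
      (LevelSys.Compat.id _) ℤ ℤ ℤ ℤ ℤ ℤ _ _ _ _ _ _ _ _ _ _ hcol0 hcol1
      (rowG F (M.dualTwist (cycloChar p)) (ES S)) (rowG F (M.dualTwist (cycloChar p)) (JS S))
      (rowG F (M.dualTwist (cycloChar p)) (CS S)) hrow.equivar_ψ eRowJ eRowC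
      (fun a => rfl) (fun b => rfl) δ00 δ01 hδ00 hδ01 g)
    (fun q y => by
      have e := Provide.natDelta₁ GQ (primeLocalGaloisGroup q.1) (sLevels S)
        (pullLevels (primeLocalToGlobal q.1)) (primeLocalToGlobal q.1) (compat_sLevels S _) hL
        (ZMod p) ℤ ℤ (ZMod p) ℤ ℤ _ _ _ _ _ _ _ _ _ _ hrow hsE0 (hrowQ q)
        (AddMonoidHom.id M) (locE S (R0 F (M.dualTwist (cycloChar p))) q)
        (locE S (R1 F (M.dualTwist (cycloChar p))) q) (fun _ _ => rfl)
        (locE_equivar S _ q) (locE_equivar S _ q) (fun a => rfl) (fun b => rfl)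
        δ1 (δq q) hδ1 (hδq q) y
      rw [← e]
      congr 1
      exact (H1add_H1add (MonoidHom.id GQ) (primeLocalToGlobal q.1) (primeLocalToGlobal q.1)
        _ _ _ _ _ _ _ _ _ (fun _ => rfl) (fun _ => rfl) y).symm)
    (fun q => (injective_iff_map_eq_zero (δq q)).2 fun z hz => by
      obtain ⟨y, rfl⟩ := (x1Cq q z).1 hz
      rw [h.h1ZeroLocal q y, map_zero])
    h.detect1
  obtain ⟨key1, key2⟩ := key
  -- the map
  let Δ0 : (R1 F (M.dualTwist (cycloChar p)) ⟶ CS S) →+ H2 (sLevels S) M :=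
    (δ1.comp δ01).comp (homInv (R1 F (M.dualTwist (cycloChar p))) (CS S)).toAddMonoidHom
  have hΔ0 : ∀ f, Δ0 f = δ1 (δ01 (homInv (R1 F (M.dualTwist (cycloChar p))) (CS S) f)) :=
    fun _ => rfl
  refine ⟨Δ0, ?_, ?_, ?_⟩
  · intro f
    rw [Local.Archimedean.mem_sha₂_iff' S hp2 M]
    intro q
    rw [locRes₂S_eq_H2add]
    exact ((key1 _).2 ⟨homInv _ _ f, rfl⟩).1 q
  · intro x hx hinf
    rw [Local.Archimedean.mem_sha₂_iff' S hp2 M] at hx
    have hloc : ∀ q : ↥S, H2add (L := sLevels S) (L' := pullLevels (primeLocalToGlobal q.1))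
        (A := M) (A' := Rep.res (primeLocalToGlobal q.1) M) (primeLocalToGlobal q.1)
        (AddMonoidHom.id M) (fun _ _ => rfl) (compat_sLevels S (primeLocalToGlobal q.1)) x = 0 :=
      fun q => by
        rw [← locRes₂S_eq_H2add]
        exact hx q
    have hy : ∃ y, δ1 y = x := by
      apply (x2Arow x).1
      obtain ⟨c, hc, rfl⟩ := hinf
      have : F.fixingSubgroup.Normal := hF.1.2
      have hT : ∀ n ∈ F.fixingSubgroup, permOf (M.dualTwist (cycloChar p)) n = 1 := by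
        intro n hn
        ext a
        rw [permOf_apply, hF.2.1 n hn]
        rfl
      have hZ := (Z2add (MonoidHom.id GQ) iM hrow.equivar_φ (LevelSys.Compat.id (sLevels S))
        c).2
      obtain ⟨b, hb1, hb2⟩ := SpineAlg.coind_homotopy (N := F.fixingSubgroup)
        (σ := permOf (M.dualTwist (cycloChar p))) (X := ES S)
        (B := A0 F (M.dualTwist (cycloChar p)) (ES S))
        (e := evR0 (MonoidHom.id GQ) F (M.dualTwist (cycloChar p)) (ES S)) hT
        (fun g b x t => evR0_ρ (MonoidHom.id GQ) F (M.dualTwist (cycloChar p)) (ES S) g b x t)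
        (fun g : GQ × GQ => iM ((c : GQ × GQ → M) (g.1, g.2))) hZ.1
        (fun g g' s s' hs hs' => by
          change iM ((c : GQ × GQ → M) (g * s, g' * s')) = iM ((c : GQ × GQ → M) (g, g'))
          rw [hc g g' s s' hs hs'])
      have hB : (fun g : GQ × GQ => iM ((c : GQ × GQ → M) (g.1, g.2))) ∈
          B2 (sLevels S) (A0 F (M.dualTwist (cycloChar p)) (ES S)) :=
        (mem_B2_iff _ _ _).2 ⟨b, ⟨F, hF.1.1, fun g s hs => hb1 g s hs⟩, hb2⟩
      exact (H2π_eq_zero_iff (sLevels S) _ (Z2add (MonoidHom.id GQ) iM hrow.equivar_φ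
        (LevelSys.Compat.id (sLevels S)) c)).2 hB
    obtain ⟨f', hf'⟩ := (key1 x).1 ⟨hloc, hy⟩
    refine ⟨(homInv _ _).symm f', ?_⟩
    have e : homInv (R1 F (M.dualTwist (cycloChar p))) (CS S) ((homInv _ _).symm f') = f' :=
      AddEquiv.apply_symm_apply _ _
    have e2 : δ1 (δ01 (homInv (R1 F (M.dualTwist (cycloChar p))) (CS S)
        ((homInv _ _).symm f'))) = x := by
      rw [e]
      exact hf'
    exact e2
  · intro f
    refine Iff.trans (key2 (homInv (R1 F (M.dualTwist (cycloChar p))) (CS S) f)) ?_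
    constructor
    · rintro ⟨g', h', e⟩
      refine ⟨(homInv _ _).symm g', (homInv _ _).symm h', ?_⟩
      apply (homInv _ _).injective
      rw [e, map_add]
      congr 1
    · rintro ⟨g, h', rfl⟩
      refine ⟨homInv _ _ g, homInv _ _ h', ?_⟩
      rw [map_add]
      congr 1

end Main

end Fermat.Agent.CFT.Top.Spine

end
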