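import Fermat.Agent.CFT.Top.DualBridge

/-!
# P3 / Top layer: SPINE (d)+(e) at a good level

`spineDE : Plan.SpineDE S M F` for a good level `F`, from

* `Formation.FinDuality`        (the finite-group theorem of layer L4),
* `Plan.ArithDual S p F`        ([TOPBRIDGE]: class-formation data at deep finite levels),
* `Plan.UniformLevel S M'`      ([Fin]: one normal `S`-level carries all of `H¹(G_S, M')`).

Proof: take `K ⊇ F ⊔ K₀` with the arithmetic data `(Q, π, C, J, …)`; descend `M'` and the basis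
`T = R0Basis F M'` to `Q` (`Top/DualBridge.lean`), apply `FinDuality` to get
`Φ₀ : Hom_Q(R₁, C) → H¹(Q, V)^∨`, and transport it along the bridges (B1)–(B4):
`Φ = (inflation)^∨⁻¹ ∘ Φ₀ ∘ toFin`.
-/

set_option autoImplicit false

open CategoryTheory groupCohomology ExtCitation

noncomputable section

namespace Fermat.Agent.CFT.Top

open DualBridge

/-- **SPINE (d)+(e) at a good level**, for a general finite coefficient module `A`
(`A = M' = M.dualTwist (cycloChar p)` in `spineDE`). -/
theorem spineDE_core {p : ℕ} [Fact p.Prime] (hp2 : p ≠ 2) (S : Finset Nat.Primes)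
    (A : Rep.{0} (ZMod p) GQ) [Finite A.V] (F : IntermediateField ℚ Qb)
    (hF : IsGoodLevel S A p F) (hFD : Formation.FinDuality)
    (hAr : Plan.ArithDual S p F) (hU : Plan.UniformLevel S A) :
    ∃ Φ : (R1 F A ⟶ CS S) →+ Module.Dual (ZMod p) (continuousH1S S A),
      Function.Surjective Φ ∧
      (∀ f, Φ f = 0 ↔ ∃ h, resC F A S h = f) ∧
      (∀ φ, φ ∈ (sha₁In S A).dualAnnihilator ↔ ∃ g, Φ (piJ F A S g) = φ) := by
  obtain ⟨K₀, hK₀, hunif⟩ := hU
  unfold Plan.ArithDual at hAr
  obtain ⟨K, hK, hle, hdata⟩ := hAr (F ⊔ K₀) (hF.1.sup hK₀) le_sup_left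
  obtain ⟨Q, instG, instF, π, C, J, ιC, ιJ, πJ, σ, hC, hJ, hπJ, hσ, hEX, Gw, Cw, σw, pr, j,
    hGw, hσw, hpr, hinj, hsurj, hj, hjπ, hLG⟩ := hdata
  -- the model
  have hπ : Function.Surjective π := hC.surjective
  have hker : π.ker = K.fixingSubgroup := hC.ker_eq
  have hFk : π.ker ≤ F.fixingSubgroup := by
    rw [hker]
    exact IntermediateField.fixingSubgroup_antitone (le_sup_left.trans hle)
  have hK₀k : π.ker ≤ K₀.fixingSubgroup := by
    rw [hker]
    exact IntermediateField.fixingSubgroup_antitone (le_sup_right.trans hle)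
  have hAk : ∀ s ∈ π.ker, A.ρ s = 1 := fun s hs => hF.2.1 s (hFk hs)
  have hCf : ∀ a : CS S, (∀ s ∈ π.ker, (CS S).ρ s a = a) → ∃ b, ιC b = a :=
    fun a ha => hC.exists_of_fixed a fun s hs => ha s (by rw [hker]; exact hs)
  have hJf : ∀ a : JS S, (∀ s ∈ π.ker, (JS S).ρ s a = a) → ∃ b, ιJ b = a :=
    fun a ha => hJ.exists_of_fixed a fun s hs => ha s (by rw [hker]; exact hs)
  have : (F.fixingSubgroup.map π).Normal := hF.1.2.map π hπ
  -- equivariance of `πJ`
  have hπJ' : ∀ g x, πJ (J.ρ g x) = C.ρ g (πJ x) := by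
    intro g x
    obtain ⟨γ, rfl⟩ := hπ g
    apply hC.injective
    rw [hπJ, hJ.equivar, hC.equivar, hπJ]
    exact Rep.hom_comm_apply (jsProj S) γ (ιJ x)
  -- apply the finite-group theorem
  obtain ⟨Φ₀, hΦs, hΦk, hΦa⟩ := hFD p Q C σ hσ (F.fixingSubgroup.map π) hEX
    (TT hπ F A hFk hAk) (map_smul_TT hπ F A hFk hAk hF.1.2 hF.2.1)
    (descRep hπ A hAk) (eps hπ F A hFk hAk) (eps_smul hπ F A hFk hAk)
    (eps_surjective hπ F A hFk hAk) ↥S Gw Cw σw hσw J πJ hπJ' pr hpr hinj hsurj j hj hjπ hLG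
  -- the bridges
  let β := h1Equiv hπ A hAk S K hK.1 hker
    (fun x hx => by
      obtain ⟨c, hc, hcx⟩ := hunif x hx
      exact ⟨c, fun g s hs => hc g s (hK₀k hs), hcx⟩)
  let tC := toFin hπ F A hFk hAk ιC hC.equivar hC.injective hCf
  let tJ := toFin hπ F A hFk hAk ιJ hJ.equivar hJ.injective hJf
  have htC : Function.Surjective tC := toFin_surjective hπ F A hFk hAk ιC hC.equivar hC.injective hCf
  have htJ : Function.Surjective tJ := toFin_surjective hπ F A hFk hAk ιJ hJ.equivar hJ.injective hJf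
  have hcomp : ∀ g : R1 F A ⟶ JS S,
      (tC (piJ F A S g) : ↥(Formation.R1 (descRep hπ A hAk) (eps hπ F A hFk hAk)) →+ C) =
        πJ.comp (tJ g : ↥(Formation.R1 (descRep hπ A hAk) (eps hπ F A hFk hAk)) →+ J) :=
    fun g => toFin_comp hπ F A hFk hAk ιJ hJ.equivar hJ.injective hJf ιC hC.equivar hC.injective
      hCf (jsProj S) πJ hπJ g
  have hβ : ∀ y, ((β y : ↥(continuousH1S S A)) : groupCohomology.H1 A) = inflV hπ A hAk y :=
    fun y => rfl
  have hloc : ∀ y, y ∈ Formation.locTriv (descRep hπ A hAk) Gw ↔ β y ∈ sha₁In S A := by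
    intro y
    rw [mem_locTriv_iff hπ A hAk S Gw hp2 hGw y (hβ y ▸ (β y).2)]
    rfl
  refine ⟨(β.symm.dualMap.toLinearMap.toAddMonoidHom).comp (Φ₀.comp tC), ?_, ?_, ?_⟩
  · exact β.symm.dualMap.surjective.comp (hΦs.comp htC)
  · intro f
    change β.symm.dualMap (Φ₀ (tC f)) = 0 ↔ _
    rw [LinearEquiv.map_eq_zero_iff, hΦk]
    exact exists_res_iff hπ F A hFk hAk ιC hC.equivar hC.injective hCf f
  · intro φ
    have h1 : φ ∈ (sha₁In S A).dualAnnihilator ↔
        β.dualMap φ ∈ (Formation.locTriv (descRep hπ A hAk) Gw).dualAnnihilator := by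
      rw [Submodule.mem_dualAnnihilator, Submodule.mem_dualAnnihilator]
      constructor
      · intro h y hy
        exact h (β y) ((hloc y).1 hy)
      · intro h x hx
        have h2 := h (β.symm x) ((hloc _).2 (by rw [LinearEquiv.apply_symm_apply]; exact hx))
        rw [LinearEquiv.dualMap_apply, LinearEquiv.apply_symm_apply] at h2
        exact h2
    have h3 : ∀ z, β.symm.dualMap (β.dualMap z) = z := by
      intro z
      ext x
      rw [LinearEquiv.dualMap_apply, LinearEquiv.dualMap_apply, LinearEquiv.apply_symm_apply]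
    have h4 : ∀ z, β.dualMap (β.symm.dualMap z) = z := by
      intro z
      ext x
      rw [LinearEquiv.dualMap_apply, LinearEquiv.dualMap_apply, LinearEquiv.symm_apply_apply]
    rw [h1, hΦa]
    constructor
    · rintro ⟨aJ, a, haJ, ha, hΦ⟩
      obtain ⟨g, hg⟩ := htJ ⟨aJ, haJ⟩
      refine ⟨g, ?_⟩
      have h5 : tC (piJ F A S g) = a := by
        apply Subtype.ext
        rw [hcomp, hg, ha]
      change β.symm.dualMap (Φ₀ (tC (piJ F A S g))) = φ
      rw [h5, hΦ, h3]
    · rintro ⟨g, hg⟩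
      refine ⟨tJ g, tC (piJ F A S g), (tJ g).2, hcomp g, ?_⟩
      have h6 : β.symm.dualMap (Φ₀ (tC (piJ F A S g))) = φ := hg
      rw [← h6, h4]

/-- **SPINE (d)+(e) at a good level `F`** (the (d)+(e) half of the Top plan), from the
finite-group theorem `Formation.FinDuality`, the arithmetic contract `Plan.ArithDual` and the
uniform level `Plan.UniformLevel`. -/
theorem spineDE {p : ℕ} [Fact p.Prime] (hp2 : p ≠ 2) (S : Finset Nat.Primes)
    (M : Rep.{0} (ZMod p) GQ) [FiniteDimensional (ZMod p) M] (F : IntermediateField ℚ Qb)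
    (hF : IsGoodLevel S (M.dualTwist (cycloChar p)) p F) (hFD : Formation.FinDuality)
    (hA : Plan.ArithDual S p F) (hU : Plan.UniformLevel S (M.dualTwist (cycloChar p))) :
    Plan.SpineDE S M F := by
  have : FiniteDimensional (ZMod p) (M.dualTwist (cycloChar p)) := inferInstance
  have : Finite (M.dualTwist (cycloChar p)).V := Module.finite_of_finite (ZMod p)
  exact spineDE_core hp2 S (M.dualTwist (cycloChar p)) F hF hFD hA hU

end Fermat.Agent.CFT.Top

end
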