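import Fermat.Agent.CFT.Top.SpinePlan
import Fermat.Agent.CFT.Top.LocalLim
import Fermat.Agent.CFT.Level.Finite

/-!
# P3 / Top layer, SpineC side: [LIM1-Level]

Smoothness and exactness of the internal-Hom modules `homR f R X` used by the spine, in the
vocabulary of `Top/SpineDefs.lean` (`homR`, `postH`, `preH`) and `Level/Defs.lean`
(`Level.IsSmooth`, `Level.IsSES`), and the contracts `SmoothG`, `SmoothQ`, `ColSES`, `RowSES`
of `Top/SpinePlan.lean`.

Generic part (abstract groups `G`, `H`, `f : H →* G`):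

* `isSmooth_homR` : `Hom_ℤ(R, X)` is smooth when `X` is, `R` is finitely generated and a level
  acts trivially on `R`;
* `isSES_postH` : `0 → Hom(R, X) → Hom(R, Y) → Hom(R, Z) → 0` is `Level.IsSES` when
  `0 → X → Y → Z → 0` is and maps from `R` lift along surjections (`R` free);
* `exists_lift_finsupp`, `exists_lift_of_le_finsupp` : the lifting property for `ι →₀ ℤ` and for
  its subgroups (`ι` finite);
* `exists_extend_of_divisible` : `Ext¹(R₀/K, E) = 0` by hand — for `p • R₀ ≤ K ≤ R₀ = ι →₀ ℤ`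
  and `E` `p`-divisible every additive map `K → E` extends to `R₀`.

Top part (`GQ`, `S`, `F`, `A`):

* `isSmooth_JS`, `isSmooth_ES`, `r0Rho_eq_self`, `fg_R0`, `fg_R1`, `smoothG_of`, `smoothQ_of`;
* `isSES_ES_JS_CS`, `colSES_of`;
* `torsHom z hz : ZMod p →+ E` (`k ↦ k.val • z`), `iMraw F M χ z hz : M →+ (R0 →+ E)`
  (`m ↦ (x ↦ (aug x)(m) • z)`) with its injectivity, equivariance, exactness in the middle,
  and `exists_extend_r1_of_divisible`; `rowSES_of`;
* namespace `SpineLevel`: `smoothG`, `smoothQ`, `colSES`, `rowSES`, `h1ZeroLocal`, and the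
  bundle `inputs : … → SpinePlan.Inputs S M F` at a good level.
-/

set_option autoImplicit false

open CategoryTheory ExtCitation

noncomputable section

namespace Fermat.Agent.CFT.Top

open Fermat.Agent.CFT.Level

/-! ## Smoothness of the internal Hom -/

section Smooth

variable {G H : Type} [Group G] [Group H] (f : H →* G)

/-- `Hom_ℤ(R, X)` is smooth if `X` is smooth, `R` is finitely generated and some level acts
trivially on `R` (through `f`). -/
theorem isSmooth_homR (L : Level.LevelSys H) (R : Rep.{0} ℤ G) (X : Rep.{0} ℤ H)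
    (hX : Level.IsSmooth L X)
    (hfg : ∃ s : Finset R.V, AddSubgroup.closure (s : Set R.V) = ⊤)
    (hR : ∃ i, L.P i ∧ ∀ s ∈ L.N i, ∀ r : R.V, R.ρ (f s) r = r) :
    Level.IsSmooth L (homR f R X) := by
  intro φ
  obtain ⟨s, hs⟩ := hfg
  obtain ⟨i₀, hi₀, hR⟩ := hR
  obtain ⟨l₁, hl₁, hfix⟩ := Level.exists_level_fixing_family hX
    (fun r : (s : Set R.V) => (φ : R →+ X) r.1)
  obtain ⟨l, hl, hle⟩ := L.directed i₀ l₁ hi₀ hl₁
  refine ⟨l, hl, fun t ht => ?_⟩
  have ht₀ : t⁻¹ ∈ L.N i₀ := (L.N i₀).inv_mem (hle ht).1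
  have ht₁ : t ∈ L.N l₁ := (hle ht).2
  change ((homR f R X).ρ t φ : R →+ X) = (φ : R →+ X)
  refine AddMonoidHom.eq_of_eqOn_dense hs fun r hr => ?_
  change X.ρ t ((φ : R →+ X) (R.ρ (f t⁻¹) r)) = (φ : R →+ X) r
  rw [hR t⁻¹ ht₀ r]
  exact hfix ⟨r, hr⟩ t ht₁

end Smooth

/-! ## Columns: `Hom(R, -)` of a short exact sequence -/

section Columns

variable {G : Type} [Group G]

/-- `Hom_ℤ(R, -)` of a short exact sequence of `G`-modules is short exact when maps from `R`
lift along the surjection. -/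
theorem isSES_postH (R : Rep.{0} ℤ G) {X Y Z : Rep.{0} ℤ G} (u : X →+ Y) (v : Y →+ Z)
    (h : Level.IsSES X Y Z u v)
    (hlift : ∀ ψ : R →+ Z, ∃ χ : R →+ Y, v.comp χ = ψ) :
    Level.IsSES (homR (MonoidHom.id G) R X) (homR (MonoidHom.id G) R Y)
      (homR (MonoidHom.id G) R Z) (postH (MonoidHom.id G) R u) (postH (MonoidHom.id G) R v) where
  equivar_φ := postH_equivar (MonoidHom.id G) R u h.equivar_φ
  equivar_ψ := postH_equivar (MonoidHom.id G) R v h.equivar_ψ
  injective := postH_injective (MonoidHom.id G) R u h.injective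
  surjective := fun ψ => by
    obtain ⟨χ, hχ⟩ := hlift ψ
    exact ⟨χ, hχ⟩
  exact := fun b => by
    constructor
    · intro hb
      have hb' : ∀ r : R, v ((b : R →+ Y) r) = 0 := fun r =>
        congrArg (fun χ : R →+ Z => χ r) hb
      choose a ha using fun r : R => (h.exact ((b : R →+ Y) r)).1 (hb' r)
      refine ⟨AddMonoidHom.mk' a fun r r' => h.injective ?_, ?_⟩
      · rw [map_add, ha, ha, ha, map_add]
      · ext r
        exact ha r
    · rintro ⟨a, rfl⟩
      ext r
      exact (h.exact _).2 ⟨(a : R →+ X) r, rfl⟩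

/-- Lifting property of the free abelian group `ι →₀ ℤ`. -/
theorem exists_lift_finsupp {ι : Type*} {B C : Type*} [AddCommGroup B] [AddCommGroup C]
    (v : B →+ C) (hv : Function.Surjective v) (ψ : (ι →₀ ℤ) →+ C) :
    ∃ χ : (ι →₀ ℤ) →+ B, v.comp χ = ψ := by
  choose b hb using fun i : ι => hv (ψ (Finsupp.single i 1))
  refine ⟨Finsupp.liftAddHom (fun i => zmultiplesHom B (b i)), ?_⟩
  refine Finsupp.addHom_ext fun i n => ?_
  simp only [AddMonoidHom.comp_apply, Finsupp.liftAddHom_apply_single, zmultiplesHom_apply,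
    map_zsmul, hb]
  rw [← map_zsmul, Finsupp.smul_single_one]

/-- Lifting property of a subgroup of the free abelian group `ι →₀ ℤ`, `ι` finite. -/
theorem exists_lift_of_le_finsupp {ι : Type*} [Finite ι] (K : Submodule ℤ (ι →₀ ℤ))
    {B C : Type*} [AddCommGroup B] [AddCommGroup C]
    (v : B →+ C) (hv : Function.Surjective v) (ψ : K →+ C) :
    ∃ χ : K →+ B, v.comp χ = ψ := by
  obtain ⟨n, ⟨bas⟩⟩ := Submodule.nonempty_basis_of_pid (Finsupp.basisSingleOne (R := ℤ)) K
  choose b hb using fun i : Fin n => hv (ψ (bas i))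
  refine ⟨(bas.constr ℤ b).toAddMonoidHom, ?_⟩
  have h : (v.toIntLinearMap ∘ₗ bas.constr ℤ b) = ψ.toIntLinearMap := by
    refine bas.ext fun i => ?_
    simp [hb]
  ext r
  exact congrArg (fun χ : K →ₗ[ℤ] C => χ r) h

end Columns

/-! ## Rows: extending maps from `K ⊇ p • R₀` to `R₀` with `p`-divisible target -/

section Rows

/-- An element of `ι →₀ ℤ` that vanishes mod `p` is a multiple of `p`. -/
lemma exists_eq_nsmul_of_mapRange_eq_zero {ι : Type*} (p : ℕ) (x : ι →₀ ℤ)
    (hx : Finsupp.mapRange.addMonoidHom (Int.castAddHom (ZMod p)) x = 0) :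
    ∃ y : ι →₀ ℤ, x = p • y := by
  have h : ∀ i, (p : ℤ) ∣ x i := fun i => by
    have h1 := DFunLike.congr_fun hx i
    simp only [Finsupp.mapRange.addMonoidHom_apply, Finsupp.mapRange_apply, Int.coe_castAddHom,
      Finsupp.coe_zero, Pi.zero_apply] at h1
    exact (ZMod.intCast_zmod_eq_zero_iff_dvd _ _).1 h1
  refine ⟨x.mapRange (· / (p : ℤ)) (by simp), ?_⟩
  ext i
  simp only [Finsupp.coe_smul, Pi.smul_apply, Finsupp.mapRange_apply, nsmul_eq_mul]
  exact (Int.mul_ediv_cancel' (h i)).symm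

/-- **`Ext¹(R₀/K, E) = 0` by hand.** If `p • R₀ ≤ K ≤ R₀ = ι →₀ ℤ` and `E` is
`p`-divisible, every additive map `K → E` extends to `R₀`. -/
theorem exists_extend_of_divisible {ι : Type*} (p : ℕ) [Fact p.Prime]
    (K : AddSubgroup (ι →₀ ℤ)) (hK : ∀ r : ι →₀ ℤ, p • r ∈ K)
    {E : Type*} [AddCommGroup E] (hdiv : ∀ e : E, ∃ e', p • e' = e)
    (ψ : K →+ E) : ∃ φ : (ι →₀ ℤ) →+ E, ∀ r : K, φ r = ψ r := by
  classical
  -- Step 1: a first approximation `χ` with `χ (p • r) = ψ (p • r)`.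
  choose e he using fun i : ι => hdiv (ψ ⟨p • Finsupp.single i 1, hK _⟩)
  let χ : (ι →₀ ℤ) →+ E := Finsupp.liftAddHom (fun i => zmultiplesHom E (e i))
  let mulp : (ι →₀ ℤ) →+ K :=
    AddMonoidHom.mk' (fun r => ⟨p • r, hK r⟩) fun r r' => Subtype.ext (smul_add p r r')
  have hχ' : χ.comp (K.subtype.comp mulp) = ψ.comp mulp := by
    refine Finsupp.addHom_ext fun i n => ?_
    have h1 : mulp (Finsupp.single i n) = n • mulp (Finsupp.single i 1) := by
      rw [← map_zsmul, Finsupp.smul_single_one]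
    have h2 : χ (p • Finsupp.single i n) = n • (p • e i) := by
      rw [← Finsupp.smul_single_one i n, smul_comm, map_zsmul, map_nsmul]
      simp [χ]
    change χ (p • Finsupp.single i n) = ψ (mulp (Finsupp.single i n))
    rw [h1, map_zsmul, h2, he]
    rfl
  have hχ : ∀ r : ι →₀ ℤ, χ (p • r) = ψ ⟨p • r, hK r⟩ := fun r => DFunLike.congr_fun hχ' r
  -- Step 2: the defect `δ = χ|K - ψ` kills `p • R₀`.
  let δ : K →+ E := χ.comp K.subtype - ψ
  have hδ : ∀ r : ι →₀ ℤ, δ ⟨p • r, hK r⟩ = 0 := fun r => by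
    change χ (p • r) - ψ ⟨p • r, hK r⟩ = 0
    rw [hχ, sub_self]
  -- Step 3: a retraction of `R₀` onto `K` modulo `p`.
  let red : (ι →₀ ℤ) →+ (ι →₀ ZMod p) :=
    Finsupp.mapRange.addMonoidHom (Int.castAddHom (ZMod p))
  let Kbar : Submodule (ZMod p) (ι →₀ ZMod p) := AddSubgroup.toZModSubmodule p (K.map red)
  obtain ⟨P, hP⟩ : ∃ P : (ι →₀ ZMod p) →ₗ[ZMod p] Kbar, P ∘ₗ Kbar.subtype = LinearMap.id :=
    LinearMap.exists_leftInverse_of_injective _ (Submodule.ker_subtype _)
  have hk : ∀ i : ι, ∃ k : K, red k = (P (red (Finsupp.single i 1)) : ι →₀ ZMod p) := fun i => by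
    obtain ⟨k, hk, h⟩ := (P (red (Finsupp.single i 1))).2
    exact ⟨⟨k, hk⟩, h⟩
  choose k hk using hk
  let κ : (ι →₀ ℤ) →+ K := Finsupp.liftAddHom (fun i => zmultiplesHom K (k i))
  have hκ' : red.comp (K.subtype.comp κ) =
      (Kbar.subtype.toAddMonoidHom.comp P.toAddMonoidHom).comp red := by
    refine Finsupp.addHom_ext fun i n => ?_
    have h1 : κ (Finsupp.single i n) = n • k i := by simp [κ]
    change red ((κ (Finsupp.single i n) : K) : ι →₀ ℤ) = (P (red (Finsupp.single i n)) : _)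
    rw [h1, ← Finsupp.smul_single_one i n, map_zsmul red, map_zsmul P]
    change red (n • (k i : ι →₀ ℤ)) = n • (P (red (Finsupp.single i 1)) : ι →₀ ZMod p)
    rw [map_zsmul, hk]
  have hκ : ∀ r : ι →₀ ℤ, red ((κ r : K) : ι →₀ ℤ) = (P (red r) : ι →₀ ZMod p) :=
    fun r => DFunLike.congr_fun hκ' r
  refine ⟨χ - δ.comp (κ), fun r => ?_⟩
  have h1 : red ((κ r : K) : ι →₀ ℤ) = red r := by
    rw [hκ]
    have hr : red r ∈ Kbar := ⟨r, r.2, rfl⟩
    exact congrArg Subtype.val (LinearMap.congr_fun hP ⟨red r, hr⟩)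
  obtain ⟨y, hy⟩ := exists_eq_nsmul_of_mapRange_eq_zero p (((κ r : K) : ι →₀ ℤ) - (r : ι →₀ ℤ))
    (by rw [map_sub]; exact sub_eq_zero.2 h1)
  have h2 : κ r - r = ⟨p • y, hK y⟩ := Subtype.ext hy
  have h3 : δ (κ r) = δ r := by
    have h := hδ y
    rw [← h2, map_sub, sub_eq_zero] at h
    exact h
  change χ r - δ (κ r) = ψ r
  rw [h3]
  change χ r - (χ r - ψ r) = ψ r
  abel

end Rows

/-! ## Smoothness of the global and local middle terms -/

section SmoothG

variable (S : Finset Nat.Primes)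

/-- The `S`-ideles of `ℚ_S` are smooth for the `S`-levels. -/
theorem isSmooth_JS : IsSmooth (sLevels S) (JS S) := by
  intro j
  obtain ⟨F, hF, h⟩ := j.2
  exact ⟨F, hF.1, fun s hs => Subtype.ext (h s hs)⟩

/-- The `S`-units of `ℚ_S` are smooth for the `S`-levels. -/
theorem isSmooth_ES : IsSmooth (sLevels S) (ES S) := by
  intro e
  obtain ⟨F, hF, h⟩ := isSmooth_JS S e.1
  exact ⟨F, hF, fun s hs => Subtype.ext (h s hs)⟩

variable {k : Type} [CommRing k] (F : IntermediateField ℚ Qb) (A : Rep.{0} k GQ)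

/-- `Gal(ℚ̄/F)` acts trivially on `R0 F A` when it is normal and acts trivially on `A`. -/
theorem r0Rho_eq_self (hFn : F.fixingSubgroup.Normal) (hFA : ∀ s ∈ F.fixingSubgroup, A.ρ s = 1)
    (s : GQ) (hs : s ∈ F.fixingSubgroup) (r : R0Basis F A →₀ ℤ) : r0Rho F A s r = r := by
  induction r using Finsupp.induction_linear with
  | zero => rw [map_zero]
  | add y z hy hz => rw [map_add, hy, hz]
  | single t n =>
    rw [r0Rho_single, hFA _ hs, LocalLim.smul_coset_eq F.fixingSubgroup _ hs]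
    rfl

/-- `R0 F A` is finitely generated (`F/ℚ` finite, `A` finite). -/
theorem fg_R0 [FiniteDimensional ℚ F] [Finite A.V] :
    ∃ s : Finset (R0 F A).V, AddSubgroup.closure (s : Set (R0 F A).V) = ⊤ := by
  classical
  have := LocalLim.finite_quotient_fixingSubgroup F
  have : Finite (R0Basis F A) := inferInstance
  have := Fintype.ofFinite (R0Basis F A)
  refine ⟨Finset.univ.image (fun t : R0Basis F A => (Finsupp.single t 1 : R0Basis F A →₀ ℤ)), ?_⟩
  rw [eq_top_iff]
  intro r _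
  induction r using Finsupp.induction_linear with
  | zero => exact zero_mem _
  | add y z hy hz => exact add_mem (hy trivial) (hz trivial)
  | single t n =>
    rw [← Finsupp.smul_single_one]
    refine AddSubgroup.zsmul_mem _ (AddSubgroup.subset_closure ?_) n
    rw [Finset.coe_image]
    exact ⟨t, Finset.mem_coe.2 (Finset.mem_univ t), rfl⟩

/-- `R1 F A` is finitely generated (`F/ℚ` finite, `A` finite). -/
theorem fg_R1 [FiniteDimensional ℚ F] [Finite A.V] :
    ∃ s : Finset (R1 F A).V, AddSubgroup.closure (s : Set (R1 F A).V) = ⊤ := by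
  classical
  have := LocalLim.finite_quotient_fixingSubgroup F
  have : Finite (R0Basis F A) := inferInstance
  obtain ⟨n, ⟨bas⟩⟩ :=
    Submodule.nonempty_basis_of_pid (Finsupp.basisSingleOne (R := ℤ)) (r1Sub F A)
  refine ⟨Finset.univ.image (fun i : Fin n => (bas i : ↥(r1Sub F A))), ?_⟩
  rw [eq_top_iff]
  intro r _
  have hr : r = ∑ i, bas.repr r i • bas i := (bas.sum_repr r).symm
  rw [hr]
  refine AddSubgroup.sum_mem _ fun i _ => ?_
  refine AddSubgroup.zsmul_mem _ (AddSubgroup.subset_closure ?_) _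
  rw [Finset.coe_image]
  exact ⟨i, Finset.mem_coe.2 (Finset.mem_univ i), rfl⟩


/-- **[SmoothG]**: the global middle terms are `S`-smooth (`F` a normal `S`-level acting trivially
on the finite module `A`). -/
theorem smoothG_of [Finite A.V] (hF : IsNLevel S F) (hFA : ∀ s ∈ F.fixingSubgroup, A.ρ s = 1) :
    SpinePlan.SmoothG S F A := by
  have : FiniteDimensional ℚ F := hF.1.1
  have hR0 : ∃ i, (sLevels S).P i ∧ ∀ s ∈ (sLevels S).N i, ∀ r : (R0 F A).V,
      (R0 F A).ρ (MonoidHom.id GQ s) r = r :=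
    ⟨F, hF.1, fun s hs r => r0Rho_eq_self F A hF.2 hFA s hs r⟩
  have hR1 : ∃ i, (sLevels S).P i ∧ ∀ s ∈ (sLevels S).N i, ∀ r : (R1 F A).V,
      (R1 F A).ρ (MonoidHom.id GQ s) r = r :=
    ⟨F, hF.1, fun s hs r => Subtype.ext (r0Rho_eq_self F A hF.2 hFA s hs r.1)⟩
  exact ⟨isSmooth_homR (MonoidHom.id GQ) (sLevels S) (R0 F A) (ES S) (isSmooth_ES S)
      (fg_R0 F A) hR0,
    isSmooth_homR (MonoidHom.id GQ) (sLevels S) (R0 F A) (JS S) (isSmooth_JS S) (fg_R0 F A) hR0,
    isSmooth_homR (MonoidHom.id GQ) (sLevels S) (R1 F A) (JS S) (isSmooth_JS S) (fg_R1 F A) hR1⟩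

/-- **[SmoothQ]**: the local middle terms are smooth for the pulled-back levels
(helper3's `LocalLim.isSmooth_homR_R0`). -/
theorem smoothQ_of [Finite A.V] (hF : IsNLevel S F) (hFA : ∀ s ∈ F.fixingSubgroup, A.ρ s = 1) :
    SpinePlan.SmoothQ S F A := by
  have : FiniteDimensional ℚ F := hF.1.1
  exact fun q => LocalLim.isSmooth_homR_R0 q.1 F A hF.2 hFA

end SmoothG

/-! ## The columns -/

section ColSES

variable (S : Finset Nat.Primes)

/-- `0 → ES S → JS S → CS S → 0` is short exact (by construction). -/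
theorem isSES_ES_JS_CS :
    IsSES (ES S) (JS S) (CS S) (addOfHom (esIncl S)) (addOfHom (jsProj S)) where
  equivar_φ := addOfHom_equivar (esIncl S)
  equivar_ψ := addOfHom_equivar (jsProj S)
  injective := fun _ _ h => Subtype.ext h
  surjective := fun c => by
    obtain ⟨j, rfl⟩ := Submodule.Quotient.mk_surjective (esSub S) c
    exact ⟨j, rfl⟩
  exact := fun j => by
    constructor
    · intro h
      have hj : j ∈ esSub S := (Submodule.Quotient.mk_eq_zero (esSub S)).1 h
      exact ⟨⟨j, hj⟩, rfl⟩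
    · rintro ⟨e, rfl⟩
      exact (Submodule.Quotient.mk_eq_zero (esSub S)).2 e.2

variable {k : Type} [CommRing k] (F : IntermediateField ℚ Qb) (A : Rep.{0} k GQ)

/-- **[ColSES]**: the two columns `0 → Hom(R_i, ES) → Hom(R_i, JS) → Hom(R_i, CS) → 0` are exact
(`F/ℚ` finite, `A` finite). -/
theorem colSES_of [FiniteDimensional ℚ F] [Finite A.V] : SpinePlan.ColSES S F A := by
  have := LocalLim.finite_quotient_fixingSubgroup F
  have : Finite (R0Basis F A) := inferInstance
  have hsurj : Function.Surjective (addOfHom (jsProj S)) := (isSES_ES_JS_CS S).surjective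
  exact ⟨isSES_postH (R0 F A) _ _ (isSES_ES_JS_CS S)
      (fun ψ => exists_lift_finsupp (addOfHom (jsProj S)) hsurj ψ),
    isSES_postH (R1 F A) _ _ (isSES_ES_JS_CS S)
      (fun ψ => exists_lift_of_le_finsupp (r1Sub F A) (addOfHom (jsProj S)) hsurj ψ)⟩

end ColSES

/-! ## The global row -/

section Tors

variable {p : ℕ} [Fact p.Prime] {E : Type*} [AddCommGroup E] (z : E) (hz : p • z = 0)

omit [Fact p.Prime] in
include hz in
lemma mod_nsmul_of_tors (n : ℕ) : (n % p) • z = n • z := by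
  conv_rhs => rw [← Nat.mod_add_div n p]
  rw [add_smul, mul_comm, mul_smul, hz, smul_zero, add_zero]

/-- For a `p`-torsion element `z`, the additive map `ZMod p → E`, `k ↦ k.val • z`. -/
def torsHom : ZMod p →+ E where
  toFun k := k.val • z
  map_zero' := by rw [ZMod.val_zero, zero_smul]
  map_add' k l := by
    rw [← add_smul, ZMod.val_add, mod_nsmul_of_tors z hz]

lemma torsHom_apply (k : ZMod p) : torsHom z hz k = k.val • z := rfl

lemma torsHom_natCast (n : ℕ) : torsHom z hz (n : ZMod p) = n • z := by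
  rw [torsHom_apply, ZMod.val_natCast, mod_nsmul_of_tors z hz]

lemma torsHom_injective (hz0 : z ≠ 0) : Function.Injective (torsHom z hz) := by
  rw [injective_iff_map_eq_zero]
  intro k hk
  by_contra hk0
  have h1 : addOrderOf z ∣ p := addOrderOf_dvd_iff_nsmul_eq_zero.2 hz
  have h2 : addOrderOf z ∣ k.val := addOrderOf_dvd_iff_nsmul_eq_zero.2 hk
  rcases (Nat.dvd_prime (Fact.out : p.Prime)).1 h1 with h3 | h3
  · exact hz0 (AddMonoid.addOrderOf_eq_one_iff.1 h3)
  · rw [h3] at h2
    have h4 : k.val = 0 := Nat.eq_zero_of_dvd_of_lt h2 (ZMod.val_lt k)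
    exact hk0 ((ZMod.val_eq_zero k).1 h4)

lemma exists_torsHom_eq (htors : ∀ e : E, p • e = 0 → ∃ n : ℕ, e = n • z) (e : E)
    (he : p • e = 0) : ∃ k : ZMod p, torsHom z hz k = e := by
  obtain ⟨n, rfl⟩ := htors e he
  exact ⟨(n : ZMod p), torsHom_natCast z hz n⟩

end Tors

section GlobalRow

variable {p : ℕ} [Fact p.Prime] (F : IntermediateField ℚ Qb) (M : Rep.{0} (ZMod p) GQ)
  (χ : GQ →* (ZMod p)ˣ) {E : Type*} [AddCommGroup E] (z : E) (hz : p • z = 0)

/-- The map `M → Hom_ℤ(R0 F M', E)`, `m ↦ (x ↦ (aug x)(m) • z)` (`M' = M.dualTwist χ`, `z` a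
`p`-torsion element of `E`). -/
def iMraw : M →+ ((R0Basis F (M.dualTwist χ) →₀ ℤ) →+ E) where
  toFun m := (torsHom z hz).comp
    { toFun := fun x => (aug F (M.dualTwist χ) x : Module.Dual (ZMod p) M) m
      map_zero' := by rw [map_zero]; rfl
      map_add' := fun x y => by rw [map_add]; rfl }
  map_zero' := by
    refine AddMonoidHom.ext fun x => ?_
    change torsHom z hz ((aug F (M.dualTwist χ) x : Module.Dual (ZMod p) M) 0) = 0
    rw [map_zero, map_zero]
  map_add' m m' := by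
    refine AddMonoidHom.ext fun x => ?_
    change torsHom z hz ((aug F (M.dualTwist χ) x : Module.Dual (ZMod p) M) (m + m')) =
      torsHom z hz ((aug F (M.dualTwist χ) x : Module.Dual (ZMod p) M) m) +
        torsHom z hz ((aug F (M.dualTwist χ) x : Module.Dual (ZMod p) M) m')
    rw [map_add, map_add]

lemma iMraw_apply (m : M) (x : R0Basis F (M.dualTwist χ) →₀ ℤ) :
    iMraw F M χ z hz m x =
      torsHom z hz ((aug F (M.dualTwist χ) x : Module.Dual (ZMod p) M) m) := rfl

lemma iMraw_single_one (m : M) (t : R0Basis F (M.dualTwist χ)) :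
    iMraw F M χ z hz m (Finsupp.single t 1) =
      ((t.2 : Module.Dual (ZMod p) M) m).val • z := by
  rw [iMraw_apply, aug_single, one_smul, torsHom_apply]

/-- `iMraw m` vanishes on `R1`. -/
lemma iMraw_eq_zero_of_mem (m : M) (x : R0Basis F (M.dualTwist χ) →₀ ℤ)
    (hx : x ∈ r1Sub F (M.dualTwist χ)) : iMraw F M χ z hz m x = 0 := by
  have h : aug F (M.dualTwist χ) x = 0 := hx
  rw [iMraw_apply, h]
  exact map_zero _

/-- Injectivity of `iMraw` (`z ≠ 0`). -/
theorem iMraw_injective (hz0 : z ≠ 0) : Function.Injective (iMraw F M χ z hz) := by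
  rw [injective_iff_map_eq_zero]
  intro m hm
  rw [← Module.forall_dual_apply_eq_zero_iff (ZMod p)]
  intro f
  have h1 := iMraw_single_one F M χ z hz m (((1 : GQ) : GQ ⧸ F.fixingSubgroup), f)
  rw [hm] at h1
  exact torsHom_injective z hz hz0 (by rw [map_zero]; exact h1.symm)

/-- Exactness in the middle: an additive map `R0 F M' → E` vanishing on `R1 F M'` is `iMraw m`
(`M` finite-dimensional, the `p`-torsion of `E` generated by `z ≠ 0`). -/
theorem exists_iMraw_eq [FiniteDimensional (ZMod p) M] (hz0 : z ≠ 0)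
    (htors : ∀ e : E, p • e = 0 → ∃ n : ℕ, e = n • z)
    (φ : (R0Basis F (M.dualTwist χ) →₀ ℤ) →+ E)
    (hφ : ∀ x ∈ r1Sub F (M.dualTwist χ), φ x = 0) : ∃ m : M, iMraw F M χ z hz m = φ := by
  obtain ⟨ψ, hψ⟩ := LocalLim.exists_factor_aug F (M.dualTwist χ) φ hφ
  have hp : ∀ a : Module.Dual (ZMod p) M, p • ψ a = 0 := by
    intro a
    rw [← map_nsmul, ZModModule.char_nsmul_eq_zero p a, map_zero]
  choose lam hlam using fun a => exists_torsHom_eq z hz htors (ψ a) (hp a)
  have hinj := torsHom_injective z hz hz0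
  let lamHom : Module.Dual (ZMod p) M →+ ZMod p :=
    { toFun := lam
      map_zero' := by
        apply hinj
        rw [hlam, map_zero, map_zero]
      map_add' := fun a b => by
        apply hinj
        rw [hlam, map_add, map_add, hlam, hlam] }
  refine ⟨(Module.evalEquiv (ZMod p) M).symm (lamHom.toZModLinearMap p), ?_⟩
  refine LocalLim.hom_ext_single F (M.dualTwist χ) fun t => ?_
  rw [iMraw_single_one, Module.apply_evalEquiv_symm_apply, hψ]
  exact hlam t.2

/-- Surjectivity of the restriction `Hom_ℤ(R0 F M', E) → Hom_ℤ(R1 F M', E)` for `p`-divisible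
`E`. -/
theorem exists_extend_r1_of_divisible (hdiv : ∀ e : E, ∃ e', p • e' = e)
    (ψ : ↥(r1Sub F (M.dualTwist χ)) →+ E) :
    ∃ φ : (R0Basis F (M.dualTwist χ) →₀ ℤ) →+ E,
      ∀ x : ↥(r1Sub F (M.dualTwist χ)), φ (x : R0Basis F (M.dualTwist χ) →₀ ℤ) = ψ x := by
  refine exists_extend_of_divisible p (r1Sub F (M.dualTwist χ)).toAddSubgroup (fun r => ?_) hdiv ψ
  change aug F (M.dualTwist χ) (p • r) = 0
  rw [map_nsmul]
  exact ZModModule.char_nsmul_eq_zero p _

/-- `GQ` acts on the multiples of `z` through `χ`. -/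
lemma rho_torsHom (X : Rep.{0} ℤ GQ) (z : X) (hz : p • z = 0)
    (hρ : ∀ g : GQ, X.ρ g z = ((χ g : (ZMod p)ˣ) : ZMod p).val • z) (g : GQ) (k : ZMod p) :
    X.ρ g (torsHom z hz k) = torsHom z hz (((χ g : (ZMod p)ˣ) : ZMod p) * k) := by
  rw [torsHom_apply, map_nsmul, hρ, smul_smul, ← torsHom_natCast z hz, Nat.cast_mul,
    ZMod.natCast_zmod_val, ZMod.natCast_zmod_val, mul_comm]

/-- Equivariance of `iMraw` (`GQ` acts on `z` through `χ`). -/
theorem iMraw_equivar (X : Rep.{0} ℤ GQ) (z : X) (hz : p • z = 0)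
    (hρ : ∀ g : GQ, X.ρ g z = ((χ g : (ZMod p)ˣ) : ZMod p).val • z) (g : GQ) (m : M)
    (x : R0Basis F (M.dualTwist χ) →₀ ℤ) :
    X.ρ g (iMraw F M χ z hz m (r0Rho F (M.dualTwist χ) g⁻¹ x)) =
      iMraw F M χ z hz (M.ρ g m) x := by
  rw [iMraw_apply, iMraw_apply, aug_r0Rho, rho_torsHom χ X z hz hρ]
  congr 1
  rw [Rep.dualTwist_ρ_apply]
  change ((χ g : (ZMod p)ˣ) : ZMod p) * (((χ g⁻¹ : (ZMod p)ˣ) : ZMod p) *
      (aug F (M.dualTwist χ) x : Module.Dual (ZMod p) M) (M.ρ g⁻¹⁻¹ m)) = _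
  rw [← mul_assoc, map_inv, Units.mul_inv, one_mul, inv_inv]

end GlobalRow

/-! ## [RowSES] -/

section RowSES

variable {p : ℕ} [Fact p.Prime] (S : Finset Nat.Primes) (M : Rep.{0} (ZMod p) GQ)
  (F : IntermediateField ℚ Qb)

/-- **[RowSES]** (= [LIM1]): from the Kummer theory of the `S`-units (`ESKummer S p`), for
`S ≠ ∅` and `M` finite-dimensional; no hypothesis on `F`.  The local rows are helper3's
`LocalLim.isSES_local`. -/
theorem rowSES_of [FiniteDimensional (ZMod p) M] (hS : S.Nonempty)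
    (hES : SpinePlan.ESKummer S p) : SpinePlan.RowSES S M F := by
  obtain ⟨hdiv, z, hz, htors, hρ, hq⟩ := hES
  have hz0 : z ≠ 0 := by
    obtain ⟨q, hq'⟩ := hS
    intro h
    exact hq ⟨q, hq'⟩ (by rw [h, map_zero])
  refine ⟨iMraw F M (cycloChar p) z hz, ⟨?_, ?_, ?_, ?_, ?_⟩, fun q => ?_⟩
  · intro g m
    refine AddMonoidHom.ext fun x => ?_
    exact (iMraw_equivar F M (cycloChar p) (ES S) z hz hρ g m x).symm
  · exact preH_equivar (MonoidHom.id GQ) (ES S) _ (addOfHom_equivar _)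
  · exact iMraw_injective F M (cycloChar p) z hz hz0
  · intro ψ
    obtain ⟨φ, hφ⟩ := exists_extend_r1_of_divisible F M (cycloChar p) hdiv ψ
    exact ⟨φ, AddMonoidHom.ext hφ⟩
  · intro b
    constructor
    · intro hb
      have hb' : ∀ x ∈ r1Sub F (M.dualTwist (cycloChar p)),
          (b : (R0Basis F (M.dualTwist (cycloChar p)) →₀ ℤ) →+ (ES S)) x = 0 := fun x hx =>
        congrArg (fun ψ : ↥(r1Sub F (M.dualTwist (cycloChar p))) →+ (ES S) => ψ ⟨x, hx⟩) hb
      exact exists_iMraw_eq F M (cycloChar p) z hz hz0 htors _ hb'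
    · rintro ⟨m, rfl⟩
      refine AddMonoidHom.ext fun x => ?_
      exact iMraw_eq_zero_of_mem F M (cycloChar p) z hz m _ x.2
  · have hζp : LocalLim.toUnit q.1 (jEQ S q z) ^ p = 1 := by
      have h : p • jEQ S q z = 0 := by rw [← map_nsmul, hz, map_zero]
      exact congrArg (LocalLim.toUnit q.1) h
    have hζ1 : LocalLim.toUnit q.1 (jEQ S q z) ≠ 1 := fun h =>
      hq q (LocalLim.toUnit_injective q.1 h)
    have hζ : IsPrimitiveRoot (LocalLim.toUnit q.1 (jEQ S q z)) p := by
      have h := orderOf_eq_prime hζp hζ1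
      rw [← h]
      exact IsPrimitiveRoot.orderOf _
    refine LocalLim.isSES_local q.1 F M _ hζ _ (fun m t => ?_)
    change jEQ S q (iMraw F M (cycloChar p) z hz m (Finsupp.single t 1)) = _
    rw [iMraw_single_one, map_nsmul]
    rfl

end RowSES

/-! ## The contracts of `Top/SpinePlan.lean`, at a good level -/

namespace SpineLevel

variable {p : ℕ} [Fact p.Prime] (S : Finset Nat.Primes) (M : Rep.{0} (ZMod p) GQ)
  (F : IntermediateField ℚ Qb)

/-- `M' = M.dualTwist χ` is finite when `M` is finite-dimensional over `ZMod p`. -/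
lemma finite_dualTwist [FiniteDimensional (ZMod p) M] (χ : GQ →* (ZMod p)ˣ) :
    Finite (M.dualTwist χ).V :=
  Module.finite_of_finite (ZMod p) (M := Module.Dual (ZMod p) M)

/-- **[SmoothG]** at a good level. -/
theorem smoothG [FiniteDimensional (ZMod p) M]
    (hF : IsGoodLevel S (M.dualTwist (cycloChar p)) p F) :
    SpinePlan.SmoothG S F (M.dualTwist (cycloChar p)) := by
  have := finite_dualTwist M (cycloChar p)
  exact smoothG_of S F _ hF.1 hF.2.1

/-- **[SmoothQ]** at a good level. -/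
theorem smoothQ [FiniteDimensional (ZMod p) M]
    (hF : IsGoodLevel S (M.dualTwist (cycloChar p)) p F) :
    SpinePlan.SmoothQ S F (M.dualTwist (cycloChar p)) := by
  have := finite_dualTwist M (cycloChar p)
  exact smoothQ_of S F _ hF.1 hF.2.1

/-- **[ColSES]** at a good level. -/
theorem colSES [FiniteDimensional (ZMod p) M]
    (hF : IsGoodLevel S (M.dualTwist (cycloChar p)) p F) :
    SpinePlan.ColSES S F (M.dualTwist (cycloChar p)) := by
  have := finite_dualTwist M (cycloChar p)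
  have : FiniteDimensional ℚ F := hF.1.1.1
  exact colSES_of S F _

/-- **[RowSES]** from `ESKummer` (`S ≠ ∅`; any `F`). -/
theorem rowSES [FiniteDimensional (ZMod p) M] (hS : S.Nonempty)
    (hES : SpinePlan.ESKummer S p) : SpinePlan.RowSES S M F :=
  rowSES_of S M F hS hES

/-- **[LIM4]** (helper3's `LocalLim.H1_homR_R0_eq_zero`), in the shape of the contract. -/
theorem h1ZeroLocal {k : Type} [CommRing k] (A : Rep.{0} k GQ) : SpinePlan.H1ZeroLocal S F A :=
  fun q x => LocalLim.H1_homR_R0_eq_zero q.1 F A x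

/-- The bundle `SpinePlan.Inputs S M F` at a good level, from `ESKummer S p` and the two
detection statements. -/
theorem inputs [FiniteDimensional (ZMod p) M]
    (hF : IsGoodLevel S (M.dualTwist (cycloChar p)) p F) (hS : S.Nonempty)
    (hES : SpinePlan.ESKummer S p)
    (hd0 : SpinePlan.DetectH1 S (R0 F (M.dualTwist (cycloChar p))))
    (hd1 : SpinePlan.DetectH1 S (R1 F (M.dualTwist (cycloChar p)))) :
    SpinePlan.Inputs S M F where
  smoothG := smoothG S M F hF
  smoothQ := smoothQ S M F hF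
  colSES := colSES S M F hF
  rowSES := rowSES S M F hS hES
  h1ZeroLocal := h1ZeroLocal S F _
  detect0 := hd0
  detect1 := hd1

end SpineLevel

end Fermat.Agent.CFT.Top

end
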