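import Fermat.Agent.CFT.Top.Assembly
import Fermat.Agent.CFT.Top.Spine
import Fermat.Agent.CFT.Top.SpineLevel
import Fermat.Agent.CFT.Top.SpineDE
import Fermat.Agent.CFT.Top.GoodCover
import Fermat.Agent.CFT.Top.Detect
import Fermat.Agent.CFT.Top.ESDiv
import Fermat.Agent.CFT.Fin.TopH1Fin
import Fermat.Agent.CFT.Fin.TopUniform
import Fermat.Agent.CFT.Formation.FinDuality

/-!
# CFT program, Top layer: the final reduction of S55

Everything of the Top layer that is proved on main, assembled:

  `Formation.FinDuality` (the finite-group duality theorem, layer Formation)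
  + `Plan.ArithDual S p F` at every good level `F` (the arithmetic contract, `[TOPBRIDGE]`)
  ⟹ the conclusion of S55 (`s55_of_finDuality_arithDual`).

SPINE (c) (`Spine.spineC` with `SpineLevel.inputs`, `Detect.detect0/1`, `ESDiv.esKummer`),
SPINE (d)+(e) (`spineDE` with `Fin.uniformLevel`), `goodCover` and `Fin.h1Fin` are unconditional.

Since `Formation.finDuality_holds : Formation.FinDuality` is proved, the only remaining input is
the arithmetic contract: `s55_of_arithDual`.
-/

set_option autoImplicit false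

open CategoryTheory Module groupCohomology ExtCitation

namespace Fermat.Agent.CFT.Top

/-- SPINE (c) at a good level, unconditionally. -/
theorem spineC_holds {p : ℕ} [Fact p.Prime] (hp2 : p ≠ 2) (S : Finset Nat.Primes)
    (hpS : pPrime p ∈ S) (M : Rep.{0} (ZMod p) GQ) [FiniteDimensional (ZMod p) M]
    (F : IntermediateField ℚ Qb) (hF : IsGoodLevel S (M.dualTwist (cycloChar p)) p F) :
    Plan.SpineC S M F :=
  Spine.spineC S M F hp2 hF
    (SpineLevel.inputs S M F hF ⟨_, hpS⟩ (ESDiv.esKummer S p hpS) (Detect.detect0 hF)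
      (Detect.detect1 hF))

/-- **The final reduction**: S55 from the finite-group duality theorem and the arithmetic
contract at every good level. -/
theorem s55_of_finDuality_arithDual {p : ℕ} [Fact p.Prime] (hp2 : p ≠ 2)
    (S : Finset Nat.Primes) (hpS : pPrime p ∈ S) (M : Rep.{0} (ZMod p) GQ)
    [FiniteDimensional (ZMod p) M]
    (hsm : ∀ m : M, ∃ F : IntermediateField ℚ Qb, FiniteDimensional ℚ F ∧
      ∀ s ∈ F.fixingSubgroup, M.ρ s m = m)
    (hMur : ∀ q : Nat.Primes, q ∉ S → ∀ A : ValuationSubring Qb,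
      A.LiesOverPrime (q : ℕ) → ∀ g ∈ A.inertiaSubgroupIn ℚ, M.ρ g = 1)
    (hFD : Formation.FinDuality)
    (hAD : ∀ F : IntermediateField ℚ Qb, IsGoodLevel S (M.dualTwist (cycloChar p)) p F →
      Plan.ArithDual S p F) :
    ∃ B : sha₁ S (M.dualTwist (cycloChar p)) →ₗ[ZMod p] sha₂ S M →ₗ[ZMod p] ZMod p,
      (∀ y, (∀ x, B y x = 0) → y = 0) ∧ (∀ x, (∀ y, B y x = 0) → x = 0) :=
  result_of_plan S M
    (fun F hF => spineC_holds hp2 S hpS M F hF)
    (fun F hF => spineDE hp2 S M F hF hFD (hAD F hF)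
      (Fermat.Agent.CFT.Fin.uniformLevel S (M.dualTwist (cycloChar p)) hpS))
    (goodCover S hpS M hsm hMur)
    (Fermat.Agent.CFT.Fin.h1Fin S M hpS)

/-- **The final reduction, with the finite-group duality theorem plugged in**: S55 from the
arithmetic contract `Plan.ArithDual S p F` at every good level `F`. -/
theorem s55_of_arithDual {p : ℕ} [Fact p.Prime] (hp2 : p ≠ 2)
    (S : Finset Nat.Primes) (hpS : pPrime p ∈ S) (M : Rep.{0} (ZMod p) GQ)
    [FiniteDimensional (ZMod p) M]
    (hsm : ∀ m : M, ∃ F : IntermediateField ℚ Qb, FiniteDimensional ℚ F ∧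
      ∀ s ∈ F.fixingSubgroup, M.ρ s m = m)
    (hMur : ∀ q : Nat.Primes, q ∉ S → ∀ A : ValuationSubring Qb,
      A.LiesOverPrime (q : ℕ) → ∀ g ∈ A.inertiaSubgroupIn ℚ, M.ρ g = 1)
    (hAD : ∀ F : IntermediateField ℚ Qb, IsGoodLevel S (M.dualTwist (cycloChar p)) p F →
      Plan.ArithDual S p F) :
    ∃ B : sha₁ S (M.dualTwist (cycloChar p)) →ₗ[ZMod p] sha₂ S M →ₗ[ZMod p] ZMod p,
      (∀ y, (∀ x, B y x = 0) → y = 0) ∧ (∀ x, (∀ y, B y x = 0) → x = 0) :=
  s55_of_finDuality_arithDual hp2 S hpS M hsm hMur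
    Fermat.Agent.CFT.Formation.finDuality_holds hAD

end Fermat.Agent.CFT.Top
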