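import Fermat.Agent.CFT.Top.LocSupp

/-!
# P3 / [TOPBRIDGE]: the one-place block, unit level

For a field model `(Q, L, π, e)` of a finite normal `K ⊆ ℚ̄` and a prime `q`: every unit `y` of
`ℚ̄_q` fixed by the kernel of `G_q → Q` is the local component of a unique unit `u` of `L ⊗ ℚ_q`
whose translates by the `g ∉ locImage π q` have local component `1`
(`exists_block_unit`, `block_unit_unique`): the one-place block of `L ⊗ ℚ_q` at the place fixed
by the Prelude is the group of units of the local field `(ℚ̄_q)^{ker(G_q → Q)}`.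
-/

set_option autoImplicit false

namespace Fermat.Agent.CFT.Top.Semilocal

open scoped TensorProduct
open ExtCitation

noncomputable section

variable (q : Nat.Primes) {L : Type} [Field L] [CharZero L] (e : L →+* Qb)
  {Q : Type} [Group Q] [MulSemiringAction Q L] (π : GQ →* Q)

/-- **Existence of the block unit.** -/
theorem exists_block_unit (K : IntermediateField ℚ Qb) [FiniteDimensional ℚ K] [Normal ℚ K]
    (hker : π.ker = K.fixingSubgroup) (hsurj : ∀ y ∈ K, ∃ x : L, e x = y)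
    (hequiv : ∀ (g : GQ) (x : L), e (π g • x) = g (e x)) (y : (PadicAlgCl (q : ℕ))ˣ)
    (hy : ∀ τ : PadicAlgCl (q : ℕ) ≃ₐ[ℚ_[(q : ℕ)]] PadicAlgCl (q : ℕ),
      π (localGaloisToGlobal (q : ℕ) τ) = 1 → τ (y : PadicAlgCl (q : ℕ)) = y) :
    ∃ u : (Global.SemiLocal L (q : ℕ))ˣ,
      thetaL q e (u : Global.SemiLocal L (q : ℕ)) = y ∧
      ∀ γ : GQ, π γ ∉ Plan.locImage π q →
        thetaL q e (π γ • (u : Global.SemiLocal L (q : ℕ))) = 1 := by
  classical
  -- the coinduced function `r_q(τ) n ↦ τ y`, `1` outside `r_q(G_q) G_K`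
  let f : GQ → (PadicAlgCl (q : ℕ))ˣ := fun h =>
    if hh : π h ∈ Plan.locImage π q then
      Units.map ((Classical.choose ((mem_locImage_iff q π (π h)).mp hh) :
        PadicAlgCl (q : ℕ) ≃ₐ[ℚ_[(q : ℕ)]] PadicAlgCl (q : ℕ)) :
          PadicAlgCl (q : ℕ) →* PadicAlgCl (q : ℕ)) y
    else 1
  have hwd : ∀ (h : GQ) (τ : PadicAlgCl (q : ℕ) ≃ₐ[ℚ_[(q : ℕ)]] PadicAlgCl (q : ℕ)),
      π (localGaloisToGlobal (q : ℕ) τ) = π h →
        ((f h : (PadicAlgCl (q : ℕ))ˣ) : PadicAlgCl (q : ℕ)) = τ (y : PadicAlgCl (q : ℕ)) := by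
    intro h τ hτ
    have hh : π h ∈ Plan.locImage π q := ⟨τ, hτ⟩
    have hf : f h = Units.map ((Classical.choose ((mem_locImage_iff q π (π h)).mp hh) :
        PadicAlgCl (q : ℕ) ≃ₐ[ℚ_[(q : ℕ)]] PadicAlgCl (q : ℕ)) :
          PadicAlgCl (q : ℕ) →* PadicAlgCl (q : ℕ)) y := dif_pos hh
    rw [hf]
    set τ' := Classical.choose ((mem_locImage_iff q π (π h)).mp hh) with hτ'def
    have hτ' : π (localGaloisToGlobal (q : ℕ) τ') = π h :=
      Classical.choose_spec ((mem_locImage_iff q π (π h)).mp hh)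
    have h1 : π (localGaloisToGlobal (q : ℕ) (τ⁻¹ * τ')) = 1 := by
      rw [map_mul, map_mul, map_inv, map_inv, hτ, hτ', inv_mul_cancel]
    have h2 := hy _ h1
    have h3 : τ ((τ⁻¹ * τ') (y : PadicAlgCl (q : ℕ))) = τ' (y : PadicAlgCl (q : ℕ)) := by
      rw [AlgEquiv.mul_apply]
      exact AlgEquiv.apply_symm_apply τ (τ' (y : PadicAlgCl (q : ℕ)))
    show τ' (y : PadicAlgCl (q : ℕ)) = τ (y : PadicAlgCl (q : ℕ))
    rw [← h3, h2]
  have hone : ∀ h : GQ, π h ∉ Plan.locImage π q → f h = 1 := fun h hh => dif_neg hh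
  have ha : ∀ h, ∀ n ∈ K.fixingSubgroup, f (h * n) = f h := by
    intro h n hn
    have h1 : π n = 1 := by
      rw [← MonoidHom.mem_ker, hker]
      exact hn
    have h2 : π (h * n) = π h := by rw [map_mul, h1, mul_one]
    by_cases hh : π h ∈ Plan.locImage π q
    · obtain ⟨τ, hτ⟩ := (mem_locImage_iff q π (π h)).mp hh
      exact Units.ext ((hwd (h * n) τ (hτ.trans h2.symm)).trans (hwd h τ hτ).symm)
    · rw [hone h hh, hone (h * n) (by rw [h2]; exact hh)]
  have hb : ∀ (σ : PadicAlgCl (q : ℕ) ≃ₐ[ℚ_[(q : ℕ)]] PadicAlgCl (q : ℕ)) (h : GQ),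
      ((f (localGaloisToGlobal (q : ℕ) σ * h) : (PadicAlgCl (q : ℕ))ˣ) : PadicAlgCl (q : ℕ)) =
        σ (f h) := by
    intro σ h
    have hσ : π (localGaloisToGlobal (q : ℕ) σ) ∈ Plan.locImage π q := ⟨σ, rfl⟩
    by_cases hh : π h ∈ Plan.locImage π q
    · obtain ⟨τ, hτ⟩ := (mem_locImage_iff q π (π h)).mp hh
      rw [hwd h τ hτ, hwd (localGaloisToGlobal (q : ℕ) σ * h) (σ * τ)
        (by rw [map_mul, map_mul, map_mul, hτ])]
      rfl
    · have hh' : π (localGaloisToGlobal (q : ℕ) σ * h) ∉ Plan.locImage π q := by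
        rw [map_mul]
        exact fun h2 => hh ((Subgroup.mul_mem_cancel_left _ hσ).mp h2)
      rw [hone h hh, hone _ hh', Units.val_one, map_one]
  obtain ⟨u, hu, hufix⟩ := exists_unit_thetaQ_eq q K f ha hb
  obtain ⟨v, hv⟩ := exists_units_semiLocalMap_eq q e K hsurj u hufix
  have hv' : (Global.semiLocalMap (q : ℕ) e (v : Global.SemiLocal L (q : ℕ)) : Tq q) = u :=
    congrArg Units.val hv
  refine ⟨v, ?_, fun γ hγ => ?_⟩
  · have h1 := hu 1
    rw [one_smul] at h1
    rw [thetaL_apply, hv', h1, hwd 1 1 (by rw [map_one])]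
    rfl
  · rw [thetaL_smul_global q e π hequiv, hv', hu, hone γ hγ, Units.val_one]

/-- **Uniqueness of the block unit**: two units of `L ⊗ ℚ_q` with the same local component whose
translates by the `g ∉ locImage π q` have local component `1` are equal. -/
theorem block_unit_unique
    (hequiv : ∀ (g : GQ) (x : L), e (π g • x) = g (e x)) (u u' : (Global.SemiLocal L (q : ℕ))ˣ)
    (h : thetaL q e (u : Global.SemiLocal L (q : ℕ)) = thetaL q e (u' : Global.SemiLocal L (q : ℕ)))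
    (hu : ∀ g : Q, g ∉ Plan.locImage π q → thetaL q e (g • (u : Global.SemiLocal L (q : ℕ))) = 1)
    (hu' : ∀ g : Q, g ∉ Plan.locImage π q →
      thetaL q e (g • (u' : Global.SemiLocal L (q : ℕ))) = 1) : u = u' := by
  have key : ∀ g : Q, thetaL q e (g • (u : Global.SemiLocal L (q : ℕ))) =
      thetaL q e (g • (u' : Global.SemiLocal L (q : ℕ))) := by
    intro g
    by_cases hg : g ∈ Plan.locImage π q
    · obtain ⟨τ, rfl⟩ := (mem_locImage_iff q π g).mp hg
      rw [thetaL_smul q e π hequiv, thetaL_smul q e π hequiv, h]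
    · rw [hu g hg, hu' g hg]
  apply Units.ext
  apply semiLocalMap_injective q e
  refine eq_of_forall_thetaQ_eq q _ _ fun γ => ?_
  rw [← thetaL_smul_global q e π hequiv, ← thetaL_smul_global q e π hequiv]
  exact key (π γ)

end

end Fermat.Agent.CFT.Top.Semilocal
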