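import Fermat.Agent.CFT.Top.LocalClass
import Fermat.Agent.CFT.Top.FinModel
import Fermat.Agent.CFT.Local.Provide

/-!
# (A3) of `FinModel.ArithCore`, unconditionally

`Top/LocalClass.lean` proves the local class-module statement for every finite-level model of
`XQ q = ℚ̄_qˣ`, assuming the two local contracts `Local.Plan.InvBasic`, `Local.Plan.InvRes`.
Both are now theorems (`Local/Provide.lean`), so here we state

* `classModule`, `pClassModule` : the unconditional versions of `LocalClass.exists_classModule`
  and `LocalClass.exists_pClassModule`;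
* `isFiniteLevel_CwK` : the canonical local module `FinModel.CwK S π q` is a finite-level model
  of `XQ q` (for the full levels pulled back along `primeLocalToGlobal q`);
* `exists_classAt_CwK`, `arithCore_A3` : clause (A3) of `FinModel.ArithCore` verbatim (and its
  stronger "every subgroup" form).
-/

set_option autoImplicit false

open CategoryTheory groupCohomology ExtCitation

noncomputable section

namespace Fermat.Agent.CFT.Top.LocalClass

open Fermat.Agent.CFT Fermat.Agent.CFT.Top.FinModel

/-- `LocalClass.exists_classModule` with the local contracts discharged. -/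
theorem classModule (q : Nat.Primes) (K : IntermediateField ℚ Qb) {Γ : Type} [Group Γ]
    (φ : primeLocalGaloisGroup q →* Γ) (C : Rep.{0} ℤ Γ) (ι : C →+ XQ q)
    (h : Level.IsFiniteLevel (Level.pullLevels (primeLocalToGlobal q)) (XQ q) K φ C ι) :
    ∃ σ : cocycles₂ C, ∀ (H : Type) [Group H] (f : H →* Γ), Function.Injective f →
      Triv.IsClassAt C σ f :=
  exists_classModule Local.Provide.invBasic Local.Provide.invRes q K φ C ι h

/-- `LocalClass.exists_pClassModule` with the local contracts discharged. -/
theorem pClassModule (q : Nat.Primes) (K : IntermediateField ℚ Qb) {Γ : Type} [Group Γ]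
    (φ : primeLocalGaloisGroup q →* Γ) (C : Rep.{0} ℤ Γ) (ι : C →+ XQ q)
    (h : Level.IsFiniteLevel (Level.pullLevels (primeLocalToGlobal q)) (XQ q) K φ C ι) :
    ∃ σ : cocycles₂ C, ∀ p : ℕ, Triv.IsPClassModule p C σ :=
  exists_pClassModule Local.Provide.invBasic Local.Provide.invRes q K φ C ι h

section CwK

variable (S : Finset Nat.Primes) {Q : Type} [Group Q] (π : GQ →* Q)

/-- The kernel of `G_q → GwK q` is the pulled-back level group. -/
lemma ker_locMap {K : IntermediateField ℚ Qb} (hker : π.ker = K.fixingSubgroup) (q : ↥S) :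
    (locMap (H := fun q : ↥S => primeLocalGaloisGroup q.1) π
        (fun q : ↥S => primeLocalToGlobal q.1) q).ker =
      (Level.pullLevels (primeLocalToGlobal q.1)).N K := by
  ext τ
  rw [MonoidHom.mem_ker]
  change _ ↔ primeLocalToGlobal q.1 τ ∈ K.fixingSubgroup
  rw [← hker, MonoidHom.mem_ker]
  constructor
  · intro h
    exact congrArg Subtype.val h
  · intro h
    exact Subtype.ext h

/-- The canonical local module `CwK S π q` is a finite-level model of `XQ q`. -/
theorem isFiniteLevel_CwK {K : IntermediateField ℚ Qb} [hK : FiniteDimensional ℚ K]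
    (hker : π.ker = K.fixingSubgroup) (q : ↥S) :
    Level.IsFiniteLevel (Level.pullLevels (primeLocalToGlobal q.1)) (XQ q.1) K
      (locMap (H := fun q : ↥S => primeLocalGaloisGroup q.1) π
        (fun q : ↥S => primeLocalToGlobal q.1) q)
      (CwK S π q)
      (invIncl (locMap (H := fun q : ↥S => primeLocalGaloisGroup q.1) π
        (fun q : ↥S => primeLocalToGlobal q.1) q) (XQ q.1)
        (locMap_surjective (H := fun q : ↥S => primeLocalGaloisGroup q.1) π
          (fun q : ↥S => primeLocalToGlobal q.1) q)) :=
  isFiniteLevel_invRep _ (XQ q.1) _ (Level.pullLevels (primeLocalToGlobal q.1)) K hK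
    (ker_locMap S π hker q)

/-- The local class module on `CwK S π q`, at EVERY subgroup. -/
theorem exists_classAt_CwK {K : IntermediateField ℚ Qb} [FiniteDimensional ℚ K]
    (hker : π.ker = K.fixingSubgroup) (q : ↥S) :
    ∃ σ : cocycles₂ (CwK S π q), ∀ (H : Type) [Group H] (f : H →* ↥(GwK S π q)),
      Function.Injective f → Triv.IsClassAt (CwK S π q) σ f :=
  classModule q.1 K _ (CwK S π q) _ (isFiniteLevel_CwK S π hker q)

/-- **Clause (A3) of `FinModel.ArithCore`**: local `p`-class cocycles on every `CwK S π q`. -/
theorem arithCore_A3 (p : ℕ) {K : IntermediateField ℚ Qb} [FiniteDimensional ℚ K]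
    (hker : π.ker = K.fixingSubgroup) :
    ∃ σw : ∀ q : ↥S, cocycles₂ (CwK S π q),
      ∀ q, Triv.IsPClassModule p (CwK S π q) (σw q) := by
  have h : ∀ q : ↥S, ∃ σ : cocycles₂ (CwK S π q), Triv.IsPClassModule p (CwK S π q) σ := by
    intro q
    obtain ⟨σ, hσ⟩ := exists_classAt_CwK S π hker q
    exact ⟨σ, fun H _ _ f hf _ => hσ H f hf⟩
  choose σw hσw using h
  exact ⟨σw, hσw⟩

/-- The same family, with the class-module property at every subgroup (for [NORM]/[LG]). -/
theorem exists_classAt_family {K : IntermediateField ℚ Qb} [FiniteDimensional ℚ K]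
    (hker : π.ker = K.fixingSubgroup) :
    ∃ σw : ∀ q : ↥S, cocycles₂ (CwK S π q),
      ∀ (q : ↥S) (H : Type) [Group H] (f : H →* ↥(GwK S π q)),
        Function.Injective f → Triv.IsClassAt (CwK S π q) (σw q) f := by
  have h := fun q : ↥S => exists_classAt_CwK S π hker q
  choose σw hσw using h
  exact ⟨σw, hσw⟩

end CwK

end Fermat.Agent.CFT.Top.LocalClass

end
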