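import Mathlib
import Fermat.Prelude.Def_GroupCohomology_ContinuousUnramified

/-!
# P3 / Top layer: the archimedean index of `sha₁`, `sha₂` is empty when `2` is invertible

The Prelude localisation data `extArithLoc S` is indexed by `Unit ⊕ ↥S`; the index `Sum.inl ()`
is the subgroup generated by complex conjugation (order `≤ 2`).  For coefficients in which `2`
is invertible its `H¹` and its level-constant `H²` vanish, so it imposes no condition.
-/

set_option autoImplicit false

open CategoryTheory groupCohomology ExtCitation

namespace Fermat.Agent.CFT.Top.Archimedean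

section Finite

universe u

variable {k G : Type u} [CommRing k] [Group G] [Finite G]

/-- Averaging in degree 1: for a finite group whose order is invertible in `k`, every
1-cocycle is a coboundary. -/
theorem exists_d₀₁_eq (hG : IsUnit (Nat.card G : k)) (N : Rep k G) (c : G → N)
    (hc : c ∈ cocycles₁ N) : ∃ a : N, (d₀₁ N).hom a = c := by
  classical
  have : Fintype G := Fintype.ofFinite G
  obtain ⟨u, hu⟩ := hG.exists_left_inv
  rw [mem_cocycles₁_iff] at hc
  refine ⟨-(u • ∑ h : G, c h), ?_⟩
  funext g
  rw [d₀₁_hom_apply]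
  have hsum : ∑ h : G, c (g * h) = ∑ h : G, c h :=
    Fintype.sum_equiv (Equiv.mulLeft g) _ _ (fun h => rfl)
  have h1 : N.ρ g (∑ h : G, c h) = ∑ h : G, c h - (Nat.card G : k) • c g := by
    rw [map_sum]
    have : ∀ h : G, N.ρ g (c h) = c (g * h) - c g := fun h => by rw [hc g h]; abel
    rw [Finset.sum_congr rfl (fun h _ => this h), Finset.sum_sub_distrib, hsum,
      Finset.sum_const, Finset.card_univ, Nat.card_eq_fintype_card, Nat.cast_smul_eq_nsmul]
  rw [map_neg, map_smul, h1, smul_sub, smul_smul, hu, one_smul]
  abel

/-- Averaging in degree 2: for a finite group whose order is invertible in `k`, every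
2-cocycle is a coboundary. -/
theorem exists_d₁₂_eq (hG : IsUnit (Nat.card G : k)) (N : Rep k G) (f : G × G → N)
    (hf : f ∈ cocycles₂ N) : ∃ x : G → N, (d₁₂ N).hom x = f := by
  classical
  have : Fintype G := Fintype.ofFinite G
  obtain ⟨u, hu⟩ := hG.exists_left_inv
  rw [mem_cocycles₂_iff] at hf
  refine ⟨fun g => u • ∑ j : G, f (g, j), ?_⟩
  funext ⟨g, h⟩
  rw [d₁₂_hom_apply]
  have hsum : ∑ j : G, f (g, h * j) = ∑ j : G, f (g, j) :=
    Fintype.sum_equiv (Equiv.mulLeft h) _ _ (fun j => rfl)
  have h1 : ∑ j : G, f (g * h, j) + (Nat.card G : k) • f (g, h)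
      = N.ρ g (∑ j : G, f (h, j)) + ∑ j : G, f (g, j) := by
    rw [map_sum, ← hsum, ← Finset.sum_add_distrib,
      ← Finset.sum_congr rfl (fun j _ => hf g h j), Finset.sum_add_distrib,
      Finset.sum_const, Finset.card_univ, Nat.card_eq_fintype_card, Nat.cast_smul_eq_nsmul]
  have h2 : f (g, h) = u • (N.ρ g (∑ j : G, f (h, j)) + ∑ j : G, f (g, j)
      - ∑ j : G, f (g * h, j)) := by
    rw [← h1, add_sub_cancel_left, smul_smul, hu, one_smul]
  dsimp only
  rw [map_smul, h2, smul_sub, smul_add]
  abel

/-- `H¹` of a finite group whose order is invertible in `k` vanishes. -/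
theorem H1_eq_zero_of_isUnit_card (hG : IsUnit (Nat.card G : k)) (N : Rep k G) (x : H1 N) :
    x = 0 := by
  induction x using H1_induction_on with
  | h c =>
    rw [H1π_eq_zero_iff]
    obtain ⟨a, ha⟩ := exists_d₀₁_eq hG N c c.2
    exact ⟨a, ha⟩

end Finite

/-! ### The archimedean decomposition group -/

instance finite_archimedeanDecomposition : Finite ↥archimedeanDecomposition := by
  have : IsOfFinOrder complexConjugation :=
    isOfFinOrder_iff_pow_eq_one.2 ⟨2, by norm_num, complexConjugation_sq⟩
  exact finite_zpowers.2 this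

/-- The order of the archimedean decomposition group is invertible as soon as `2` is. -/
theorem isUnit_card {k : Type*} [CommRing k] (h2 : IsUnit (2 : k)) :
    IsUnit (Nat.card ↥archimedeanDecomposition : k) := by
  have h1 : Nat.card ↥archimedeanDecomposition = orderOf complexConjugation :=
    Nat.card_zpowers complexConjugation
  have h3 : orderOf complexConjugation ∣ 2 := orderOf_dvd_of_pow_eq_one complexConjugation_sq
  rw [h1]
  obtain ⟨m, hm⟩ := h3
  have h4 : ((orderOf complexConjugation : ℕ) : k) * (m : k) = 2 := by
    rw [← Nat.cast_mul, ← hm]; norm_num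
  exact isUnit_of_mul_isUnit_left (h4 ▸ h2)

/-- An element of the archimedean decomposition group lying in the fixing subgroup of a field
moved by complex conjugation is trivial. -/
theorem eq_one_of_fixes {x : AlgebraicClosure ℚ} (hx : complexConjugation x ≠ x)
    (s : ↥archimedeanDecomposition) (hs : (s : AlgebraicClosure ℚ ≃ₐ[ℚ] AlgebraicClosure ℚ) x = x) :
    s = 1 := by
  obtain ⟨s, hs'⟩ := s
  obtain ⟨n, rfl⟩ := Subgroup.mem_zpowers_iff.1 hs'
  apply Subtype.ext
  change complexConjugation ^ n = 1
  rcases Int.even_or_odd' n with ⟨m, rfl | rfl⟩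
  · rw [zpow_mul, zpow_ofNat, complexConjugation_sq, one_zpow]
  · exfalso
    apply hx
    have : complexConjugation ^ (2 * m + 1) = complexConjugation := by
      rw [zpow_add, zpow_mul, zpow_ofNat, complexConjugation_sq, one_zpow, one_mul, zpow_one]
    simpa [this] using hs

/-- There is a number field `F` such that the archimedean decomposition group meets its fixing
subgroup trivially. -/
theorem exists_level :
    ∃ F : IntermediateField ℚ (AlgebraicClosure ℚ), FiniteDimensional ℚ F ∧
      ∀ s : ↥archimedeanDecomposition, archimedeanLoc s ∈ F.fixingSubgroup → s = 1 := by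
  by_cases h : ∃ x : AlgebraicClosure ℚ, complexConjugation x ≠ x
  · obtain ⟨x, hx⟩ := h
    have hxi : IsIntegral ℚ x :=
      ((AlgebraicClosure.isAlgebraic ℚ).isAlgebraic x).isIntegral
    refine ⟨IntermediateField.adjoin ℚ {x},
      IntermediateField.adjoin.finiteDimensional hxi, ?_⟩
    intro s hs
    refine eq_one_of_fixes hx s ?_
    exact (IntermediateField.mem_fixingSubgroup_iff _ _).1 hs x
      (IntermediateField.mem_adjoin_simple_self ℚ x)
  · simp only [not_exists, not_not] at h
    refine ⟨⊥, inferInstance, fun s _ => ?_⟩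
    have hc : complexConjugation = 1 := AlgEquiv.ext h
    obtain ⟨s, hs'⟩ := s
    obtain ⟨n, rfl⟩ := Subgroup.mem_zpowers_iff.1 hs'
    apply Subtype.ext
    change complexConjugation ^ n = 1
    rw [hc, one_zpow]

/-- Every function on the archimedean decomposition group is level-constant. -/
theorem isLevelConstant₁ {X : Type*} (f : ↥archimedeanDecomposition → X) :
    IsLevelConstant₁ archimedeanLoc f := by
  obtain ⟨F, hF, h⟩ := exists_level
  exact ⟨F, hF, fun g s hs => by rw [h s hs, mul_one]⟩

/-- Every function on pairs of the archimedean decomposition group is level-constant. -/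
theorem isLevelConstant₂ {X : Type*}
    (f : ↥archimedeanDecomposition × ↥archimedeanDecomposition → X) :
    IsLevelConstant₂ archimedeanLoc f := by
  obtain ⟨F, hF, h⟩ := exists_level
  exact ⟨F, hF, fun g g' s s' hs hs' => by rw [h s hs, h s' hs', mul_one, mul_one]⟩

section Vanishing

variable {k : Type} [CommRing k]

/-- `H¹` of the archimedean decomposition group vanishes when `2` is invertible. -/
theorem H1_eq_zero (h2 : IsUnit (2 : k)) (N : Rep k ↥archimedeanDecomposition) (x : H1 N) :
    x = 0 :=
  H1_eq_zero_of_isUnit_card (isUnit_card h2) N x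

/-- The level-constant `H²` of the archimedean decomposition group vanishes when `2` is
invertible. -/
theorem continuousH2_eq_zero (h2 : IsUnit (2 : k)) (N : Rep k ↥archimedeanDecomposition)
    (x : continuousH2 archimedeanLoc N) : x = 0 := by
  obtain ⟨f, rfl⟩ := Submodule.Quotient.mk_surjective _ x
  change continuousH2π archimedeanLoc N f = 0
  rw [continuousH2π_eq_zero_iff, mem_levelCoboundaries₂_iff]
  obtain ⟨y, hy⟩ := exists_d₁₂_eq (isUnit_card h2) N (f : _ → N) f.2.1
  exact ⟨y, isLevelConstant₁ y, hy⟩

end Vanishing

/-! ### `sha₂` and `sha₁` without the archimedean index -/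

section Sha

variable (S : Finset Nat.Primes)

/-- For coefficients in which `2` is invertible, `sha₂` is cut out by the finite places alone. -/
theorem mem_sha₂_iff {k : Type} [CommRing k] (h2 : IsUnit (2 : k))
    (M : Rep k (AlgebraicClosure ℚ ≃ₐ[ℚ] AlgebraicClosure ℚ)) (x : continuousH2S S M) :
    x ∈ sha₂ S M ↔ ∀ q : ↥S, locRes₂S S M (primeLocalToGlobal q.1) x = 0 := by
  rw [sha₂, LinearMap.mem_ker]
  constructor
  · intro h q
    have := congrFun h (Sum.inr q)
    exact this
  · intro h
    funext v
    rcases v with v | q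
    · exact continuousH2_eq_zero h2 (Rep.res archimedeanLoc M) _
    · exact h q

/-- For coefficients in which `2` is invertible, `sha₁` is cut out by the finite places alone. -/
theorem mem_sha₁_iff {K : Type} [Field K] (h2 : (2 : K) ≠ 0)
    (A : Rep K (AlgebraicClosure ℚ ≃ₐ[ℚ] AlgebraicClosure ℚ)) (x : H1 A) :
    x ∈ sha₁ S A ↔ x ∈ continuousH1S S A ∧
      ∀ q : ↥S, (locRes (extArithLoc S) A (Sum.inr q)).hom x = 0 := by
  rw [sha₁, Submodule.mem_inf, LinearMap.mem_ker]
  refine and_congr_right fun _ => ?_
  constructor
  · intro h q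
    have := congrFun h (Sum.inr q)
    exact this
  · intro h
    funext v
    rcases v with v | q
    · exact H1_eq_zero h2.isUnit (Rep.res archimedeanLoc A) _
    · exact h q

end Sha

end Fermat.Agent.CFT.Top.Archimedean
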