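import Fermat.Agent.CFT.Top.Plan
import Fermat.Agent.CFT.Top.SpineAlg

/-!
# P3 / Top layer: the chain `Plan(L10) ⇒ PTMiddle ⇒ S55`

`ptMiddle_of_plan` : the four top-level contracts of `Top/Plan.lean` give `PTMiddle S M`
(by the directed-family counting argument `SpineAlg.exists_middle_of_family`), and
`result_of_plan` gives the conclusion of the frozen statement S55.
-/

set_option autoImplicit false

open CategoryTheory Module groupCohomology ExtCitation

namespace Fermat.Agent.CFT.Top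

variable {p : ℕ} [Fact p.Prime] (S : Finset Nat.Primes) (M : Rep.{0} (ZMod p) GQ)

lemma IsGoodLevel.sup {S : Finset Nat.Primes} {k : Type} [CommRing k] {A : Rep.{0} k GQ}
    {p : ℕ} [Fact p.Prime] {F F' : IntermediateField ℚ Qb}
    (hF : IsGoodLevel S A p F) (hF' : IsGoodLevel S A p F') : IsGoodLevel S A p (F ⊔ F') := by
  refine ⟨hF.1.sup hF'.1, fun s hs => ?_, fun s hs => ?_⟩
  · rw [IntermediateField.fixingSubgroup_sup] at hs
    exact hF.2.1 s hs.1
  · rw [IntermediateField.fixingSubgroup_sup] at hs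
    exact hF.2.2 hs.1

lemma IsInflFrom.mono {S : Finset Nat.Primes} {k : Type} [CommRing k] {M : Rep.{0} k GQ}
    {F F' : IntermediateField ℚ Qb} (hle : F ≤ F') {x : continuousH2S S M}
    (hx : IsInflFrom S M F x) : IsInflFrom S M F' x := by
  obtain ⟨c, hc, rfl⟩ := hx
  exact ⟨c, fun g g' s s' hs hs' =>
    hc g g' s s' (IntermediateField.fixingSubgroup_antitone hle hs)
      (IntermediateField.fixingSubgroup_antitone hle hs'), rfl⟩

/-- **The chain, part 1**: the top-level contracts give the middle of Poitou–Tate. -/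
theorem ptMiddle_of_plan
    (hC : ∀ F, IsGoodLevel S (M.dualTwist (cycloChar p)) p F → Plan.SpineC S M F)
    (hDE : ∀ F, IsGoodLevel S (M.dualTwist (cycloChar p)) p F → Plan.SpineDE S M F)
    (hcov : Plan.GoodCover S M) (hfin : Plan.H1Fin S M) : PTMiddle S M := by
  classical
  haveI : Finite (sha₁In S (M.dualTwist (cycloChar p))) := hfin
  let ι : Type := {F : IntermediateField ℚ Qb // IsGoodLevel S (M.dualTwist (cycloChar p)) p F}
  haveI : Nonempty ι := by
    obtain ⟨F, hF, -⟩ := hcov 0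
    exact ⟨⟨F, hF⟩⟩
  choose Δ0 hΔ1 hΔ2 hΔ3 using fun i : ι => hC i.1 i.2
  choose Φ hΦ1 hΦ2 hΦ3 using fun i : ι => hDE i.1 i.2
  exact SpineAlg.exists_middle_of_family
    (C0 := fun i : ι => (R0 i.1 (M.dualTwist (cycloChar p)) ⟶ CS S))
    (C1 := fun i : ι => (R1 i.1 (M.dualTwist (cycloChar p)) ⟶ CS S))
    (J1 := fun i : ι => (R1 i.1 (M.dualTwist (cycloChar p)) ⟶ JS S))
    (fun i => resC i.1 (M.dualTwist (cycloChar p)) S)
    (fun i => piJ i.1 (M.dualTwist (cycloChar p)) S) Φ Δ0 (sha₂ S M)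
    (sha₁In S (M.dualTwist (cycloChar p))) (fun i => {x | IsInflFrom S M i.1 x})
    hΦ1 hΦ2 hΔ1 (fun i x hx hxi => hΔ2 i x hx hxi) hΔ3 hΦ3
    (fun x _ => by
      obtain ⟨F, hF, hx⟩ := hcov x
      exact ⟨⟨F, hF⟩, hx⟩)
    (fun i j => ⟨⟨i.1 ⊔ j.1, i.2.sup j.2⟩, fun x hx => IsInflFrom.mono le_sup_left hx,
      fun x hx => IsInflFrom.mono le_sup_right hx⟩)

/-- **The chain, part 2**: the top-level contracts give the conclusion of S55. -/
theorem result_of_plan
    (hC : ∀ F, IsGoodLevel S (M.dualTwist (cycloChar p)) p F → Plan.SpineC S M F)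
    (hDE : ∀ F, IsGoodLevel S (M.dualTwist (cycloChar p)) p F → Plan.SpineDE S M F)
    (hcov : Plan.GoodCover S M) (hfin : Plan.H1Fin S M) :
    ∃ B : sha₁ S (M.dualTwist (cycloChar p)) →ₗ[ZMod p] sha₂ S M →ₗ[ZMod p] ZMod p,
      (∀ y, (∀ x, B y x = 0) → y = 0) ∧ (∀ x, (∀ y, B y x = 0) → x = 0) :=
  result_of_PTMiddle S M (ptMiddle_of_plan S M hC hDE hcov hfin)

end Fermat.Agent.CFT.Top
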