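import Mathlib

/-!
# Abstract algebra of SPINE (d) + (e)  (global duality at one finite level, local image)

Design-neutral companion of `ChaseC` (`Mathlib` only): abstract abelian groups and
`CharacterModule`s (`ℚ/ℤ`-valued characters), in `p`-primary form throughout.

Dictionary (one finite level `K`, `Γ = Gal(K/ℚ)`, class module `C = C_S(K)`,
`0 → R1 → R0 → M' → 0` with `R0` a permutation lattice):

* `H = H¹(Γ, M')` (killed by `p`), `B1 = H²(Γ, R1)`, `B0 = H²(Γ, R0)`,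
  `bd : H → B1` the connecting map (injective since `H¹(Γ, R0) = 0`), `i : B1 → B0`;
* `A1 = Hom_Γ(R1, C)`, `A0 = Hom_Γ(R0, C)`, `res : A0 → A1`;
* `τ1 a = inv ∘ a_*` on `B1`, `τ0` likewise on `B0` (push-forward pairing, no cup product);
* local data at `q ∈ I`: `Hq = H¹(Γ_q, M')`, `B1q = H²(Γ_q, R1)`, `A1q = Hom_{Γ_q}(R1, K_w^×)`,
  `J1 = Hom_Γ(R1, J_S(K))`, `π : J1 → A1`.

`algD` : `Φ a := (τ1 a) ∘ bd` is onto the character group of `H` with kernel `range res`.
`algE` : the image of `Φ ∘ π` is the set of characters killing `⋂_q ker r_q`.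
`exists_Φ` : the packaged form over `Module.Dual (ZMod p) V` consumed by
`ChaseC.exists_middle`.
-/

set_option autoImplicit false

namespace Fermat.Agent.CFT.Top.DualAlg

open scoped BigOperators

section Char

variable {A B : Type*} [AddCommGroup A] [AddCommGroup B]

/-- Characters extend along injective homomorphisms (`ℚ/ℤ` is injective). -/
theorem exists_char_extend (f : A →+ B) (hf : Function.Injective f) (c : CharacterModule A) :
    ∃ c' : CharacterModule B, ∀ a, c' (f a) = c a := by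
  obtain ⟨c', hc'⟩ := CharacterModule.dual_surjective_of_injective (R := ℤ)
    f.toIntLinearMap hf c
  exact ⟨c', fun a => congrArg (fun d : CharacterModule A => d a) hc'⟩

/-- A character killing `ker f` factors through `f`. -/
theorem exists_char_factor (f : A →+ B) (c : CharacterModule A)
    (hc : ∀ a, f a = 0 → c a = 0) :
    ∃ c' : CharacterModule B, ∀ a, c' (f a) = c a := by
  have hle : f.ker ≤ (show A →+ AddCircle (1 : ℚ) from c).ker := fun a ha => hc a ha
  let cbar : CharacterModule (A ⧸ f.ker) := QuotientAddGroup.lift f.ker c hle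
  obtain ⟨c', hc'⟩ := exists_char_extend (QuotientAddGroup.kerLift f)
    (QuotientAddGroup.kerLift_injective f) cbar
  refine ⟨c', fun a => ?_⟩
  have h1 : c' (f a) = cbar (QuotientAddGroup.mk a) := hc' (QuotientAddGroup.mk a)
  rw [h1]
  rfl

end Char

section Coprime

/-- An inverse of `m` modulo the prime `p`, in the form `m * m' = 1 + p * k`. -/
theorem exists_mul_eq_one_add {p : ℕ} (hp : p.Prime) {m : ℕ} (hm : Nat.Coprime m p) :
    ∃ m' k : ℕ, m * m' = 1 + p * k := by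
  obtain ⟨m', -, hm'⟩ := Nat.exists_mul_mod_eq_one_of_coprime hm hp.one_lt
  refine ⟨m', m * m' / p, ?_⟩
  have := Nat.div_add_mod (m * m') p
  omega

/-- If `p • x` and `m • x` lie in a subgroup and `m` is prime to `p`, then `x` lies in it. -/
theorem mem_of_nsmul_mem {X : Type*} [AddCommGroup X] (T : AddSubgroup X) {p : ℕ} (hp : p.Prime)
    {m : ℕ} (hm : Nat.Coprime m p) {x : X} (hpx : p • x ∈ T) (hmx : m • x ∈ T) : x ∈ T := by
  obtain ⟨m', k, h⟩ := exists_mul_eq_one_add hp hm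
  have h1 : (m * m') • x = x + k • (p • x) := by
    rw [h, add_nsmul, one_nsmul, mul_nsmul]
  have h2 : (m * m') • x ∈ T := by
    rw [mul_nsmul]
    exact T.nsmul_mem hmx m'
  have h3 : x = (m * m') • x - k • (p • x) := by rw [h1]; abel
  rw [h3]
  exact T.sub_mem h2 (T.nsmul_mem hpx k)

/-- On a value killed by `p`, multiplication by `m * m' = 1 + p * k` is the identity. -/
theorem mul_nsmul_eq_self {X : Type*} [AddCommGroup X] {p m m' k : ℕ} (h : m * m' = 1 + p * k)
    {x : X} (hx : p • x = 0) : m' • (m • x) = x := by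
  rw [← mul_nsmul, h, add_nsmul, one_nsmul, mul_nsmul, hx, nsmul_zero, add_zero]

end Coprime

section AlgD

variable {p : ℕ} {H B1 B0 A1 A0 : Type*} [AddCommGroup H] [AddCommGroup B1] [AddCommGroup B0]
  [AddCommGroup A1] [AddCommGroup A0]

/-- **SPINE (d), abstract form.**  `Φ a := (τ1 a) ∘ bd` is onto the character group of `H`,
and `Φ a = 0 ↔ a ∈ range res`. -/
theorem algD (hp : p.Prime)
    (bd : H →+ B1) (i : B1 →+ B0) (res : A0 →+ A1)
    (τ1 : A1 →+ CharacterModule B1) (τ0 : A0 →+ CharacterModule B0)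
    (hH : ∀ y : H, p • y = 0)
    (hbd_inj : Function.Injective bd)
    (hi_bd : ∀ y, i (bd y) = 0)
    (hexact : ∀ b, i b = 0 → ∃ y, bd y = b)
    (hnat : ∀ a0 b, τ1 (res a0) b = τ0 a0 (i b))
    (hsurj1 : ∀ χ : CharacterModule B1, ∃ a m, Nat.Coprime m p ∧ ∀ b, τ1 a b = m • χ b)
    (hsurj0 : ∀ χ : CharacterModule B0, ∃ a m, Nat.Coprime m p ∧ ∀ b, τ0 a b = m • χ b)
    (hker : ∀ a, (∀ b, τ1 a b = 0) → ∃ m, Nat.Coprime m p ∧ ∃ a0, res a0 = m • a)
    (hpA : ∀ a : A1, ∃ a0, res a0 = p • a) :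
    (∀ φ : CharacterModule H, ∃ a, ∀ y, τ1 a (bd y) = φ y) ∧
      (∀ a, (∀ y, τ1 a (bd y) = 0) ↔ ∃ a0, res a0 = a) := by
  refine ⟨fun φ => ?_, fun a => ⟨fun ha => ?_, ?_⟩⟩
  · -- surjectivity
    obtain ⟨χ, hχ⟩ := exists_char_extend bd hbd_inj φ
    obtain ⟨a, m, hm, ha⟩ := hsurj1 χ
    obtain ⟨m', k, hmk⟩ := exists_mul_eq_one_add hp hm
    refine ⟨m' • a, fun y => ?_⟩
    have hφy : p • φ y = 0 := by rw [← map_nsmul, hH, map_zero]
    rw [map_nsmul]
    change m' • (τ1 a (bd y)) = φ y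
    rw [ha, hχ]
    exact mul_nsmul_eq_self hmk hφy
  · -- kernel ⊆ range res
    have hc : ∀ b, i b = 0 → τ1 a b = 0 := by
      intro b hb
      obtain ⟨y, rfl⟩ := hexact b hb
      exact ha y
    obtain ⟨χ0, hχ0⟩ := exists_char_factor i (τ1 a) hc
    obtain ⟨a0, m, hm, ha0⟩ := hsurj0 χ0
    have hz : ∀ b, τ1 (m • a - res a0) b = 0 := by
      intro b
      rw [map_sub, map_nsmul]
      change m • (τ1 a b) - τ1 (res a0) b = 0
      rw [hnat, ha0, hχ0, sub_self]
    obtain ⟨m2, hm2, a0', ha0'⟩ := hker _ hz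
    obtain ⟨a0p, ha0p⟩ := hpA a
    have hmem : a ∈ res.range := by
      refine mem_of_nsmul_mem res.range hp (Nat.Coprime.mul_left hm2 hm) ⟨a0p, ha0p⟩ ?_
      refine ⟨a0' + m2 • a0, ?_⟩
      rw [map_add, map_nsmul, ha0', nsmul_sub, mul_nsmul', sub_add_cancel]
    exact hmem
  · rintro ⟨a0, rfl⟩ y
    rw [hnat, hi_bd, map_zero]

end AlgD

section AlgE

variable {p : ℕ} {I : Type*} [Fintype I]
  {H B1 A1 J1 : Type*} [AddCommGroup H] [AddCommGroup B1] [AddCommGroup A1] [AddCommGroup J1]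
  {Hq B1q A1q : I → Type*} [∀ q, AddCommGroup (Hq q)] [∀ q, AddCommGroup (B1q q)]
  [∀ q, AddCommGroup (A1q q)]

/-- **SPINE (e), abstract form.**  The characters of `H` of the form `(τ1 (π j)) ∘ bd` are
exactly those killing `⋂_q ker (r q)`. Only SURJECTIVITY of the local maps `τq` is used. -/
theorem algE (hp : p.Prime)
    (bd : H →+ B1) (τ1 : A1 →+ CharacterModule B1) (π : J1 →+ A1)
    (r : ∀ q, H →+ Hq q) (bdq : ∀ q, Hq q →+ B1q q) (rB : ∀ q, B1 →+ B1q q)
    (pr : ∀ q, J1 →+ A1q q) (τq : ∀ q, A1q q →+ CharacterModule (B1q q))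
    (hH : ∀ y : H, p • y = 0)
    (hbdq_inj : ∀ q, Function.Injective (bdq q))
    (hsq : ∀ q y, rB q (bd y) = bdq q (r q y))
    (hpr : ∀ a : ∀ q, A1q q, ∃ j, ∀ q, pr q j = a q)
    (hLG : ∀ j b, τ1 (π j) b = ∑ q, τq q (pr q j) (rB q b))
    (hsurjq : ∀ q (χ : CharacterModule (B1q q)),
      ∃ a m, Nat.Coprime m p ∧ ∀ b, τq q a b = m • χ b)
    (φ : CharacterModule H) :
    (∃ j, ∀ y, τ1 (π j) (bd y) = φ y) ↔ (∀ y, (∀ q, r q y = 0) → φ y = 0) := by
  classical
  constructor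
  · rintro ⟨j, hj⟩ y hy
    rw [← hj, hLG]
    refine Finset.sum_eq_zero fun q _ => ?_
    rw [hsq, hy, map_zero, map_zero]
  · intro hφ
    let ρ : H →+ ∀ q, Hq q := AddMonoidHom.pi r
    obtain ⟨ψ, hψ⟩ := exists_char_factor ρ φ (fun y hy => hφ y (fun q => congrFun hy q))
    have hψsum : ∀ x : ∀ q, Hq q, ψ x = ∑ q, ψ (Pi.single q (x q)) := by
      intro x
      conv_lhs => rw [← Finset.univ_sum_single x]
      rw [map_sum]
    have hext : ∀ q, ∃ χ : CharacterModule (B1q q), ∀ z, χ (bdq q z) = ψ (Pi.single q z) :=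
      fun q => exists_char_extend (bdq q) (hbdq_inj q)
        (show CharacterModule (Hq q) from
          AddMonoidHom.comp (show (∀ q, Hq q) →+ AddCircle (1 : ℚ) from ψ)
            (AddMonoidHom.single Hq q))
    choose χ hχ using hext
    choose a m hm ha using fun q => hsurjq q (χ q)
    have hM : Nat.Coprime (∏ q, m q) p := Nat.Coprime.prod_left fun q _ => hm q
    obtain ⟨j, hj⟩ := hpr fun q => (∏ q' ∈ Finset.univ.erase q, m q') • a q
    have key : ∀ y, τ1 (π j) (bd y) = (∏ q, m q) • φ y := by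
      intro y
      rw [hLG, ← hψ, hψsum, Finset.smul_sum]
      refine Finset.sum_congr rfl fun q _ => ?_
      rw [hj, map_nsmul]
      change (∏ q' ∈ Finset.univ.erase q, m q') • (τq q (a q) (rB q (bd y))) = _
      rw [ha, hsq, hχ, ← mul_nsmul, Finset.mul_prod_erase _ _ (Finset.mem_univ q)]
      rfl
    obtain ⟨m', k, hmk⟩ := exists_mul_eq_one_add hp hM
    refine ⟨m' • j, fun y => ?_⟩
    rw [map_nsmul, map_nsmul]
    change m' • (τ1 (π j) (bd y)) = φ y
    rw [key]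
    exact mul_nsmul_eq_self hmk (by rw [← map_nsmul, hH, map_zero])

end AlgE

section ZModDual

/-- The embedding `ZMod p → ℚ/ℤ`, `1 ↦ 1/p`. -/
noncomputable def zmodChar (p : ℕ) : ZMod p →+ AddCircle (1 : ℚ) :=
  ZMod.lift p ⟨(show ℤ →+ AddCircle (1 : ℚ) from CharacterModule.int.divByNat p),
    CharacterModule.int.divByNat_self p⟩

theorem zmodChar_intCast (p : ℕ) (k : ℤ) :
    zmodChar p (k : ZMod p) = ((k * (p : ℚ)⁻¹ : ℚ) : AddCircle (1 : ℚ)) := by
  rw [zmodChar, ZMod.lift_coe]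
  change (LinearMap.toSpanSingleton ℤ (AddCircle (1 : ℚ))
    (QuotientAddGroup.mk ((p : ℚ)⁻¹))) k = _
  rw [LinearMap.toSpanSingleton_apply]
  rw [show ((k * (p : ℚ)⁻¹ : ℚ) : AddCircle (1 : ℚ)) = ((k • (p : ℚ)⁻¹ : ℚ) : AddCircle (1 : ℚ)) by
    rw [zsmul_eq_mul]]
  rfl

variable {p : ℕ} [Fact p.Prime]

theorem zmodChar_injective : Function.Injective (zmodChar p) := by
  have hp : p.Prime := Fact.out
  rw [injective_iff_map_eq_zero]
  intro x hx
  obtain ⟨k, rfl⟩ := ZMod.intCast_surjective x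
  rw [zmodChar_intCast, AddCircle.coe_eq_zero_iff] at hx
  obtain ⟨n, hn⟩ := hx
  have hp0 : (p : ℚ) ≠ 0 := Nat.cast_ne_zero.2 hp.ne_zero
  have hk : (k : ℚ) = n * p := by
    rw [zsmul_eq_mul, mul_one] at hn
    rw [hn, mul_assoc, inv_mul_cancel₀ hp0, mul_one]
  have hk' : k = n * p := by exact_mod_cast hk
  rw [hk']
  simp

theorem exists_zmodChar_eq {t : AddCircle (1 : ℚ)} (ht : p • t = 0) : ∃ x : ZMod p, zmodChar p x = t := by
  have hp : p.Prime := Fact.out
  have hp0 : (p : ℚ) ≠ 0 := Nat.cast_ne_zero.2 hp.ne_zero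
  obtain ⟨q, rfl⟩ := QuotientAddGroup.mk_surjective t
  have h1 : ((p • q : ℚ) : AddCircle (1 : ℚ)) = 0 := ht
  rw [AddCircle.coe_eq_zero_iff] at h1
  obtain ⟨n, hn⟩ := h1
  refine ⟨(n : ZMod p), ?_⟩
  rw [zmodChar_intCast]
  congr 1
  rw [zsmul_eq_mul, mul_one, nsmul_eq_mul] at hn
  rw [hn, mul_comm (p : ℚ) q, mul_assoc, mul_inv_cancel₀ hp0, mul_one]

variable {V : Type*} [AddCommGroup V] [Module (ZMod p) V]

/-- The character of a `ZMod p`-module attached to a `ZMod p`-linear functional. -/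
noncomputable def charOfDual (f : Module.Dual (ZMod p) V) : CharacterModule V :=
  (zmodChar p).comp f.toAddMonoidHom

@[simp] theorem charOfDual_apply (f : Module.Dual (ZMod p) V) (v : V) :
    charOfDual f v = zmodChar p (f v) := rfl

theorem dual_ext_of_char {f g : Module.Dual (ZMod p) V}
    (h : ∀ v, zmodChar p (f v) = zmodChar p (g v)) : f = g :=
  LinearMap.ext fun v => zmodChar_injective (h v)

/-- Every character of a `ZMod p`-module comes from a unique `ZMod p`-linear functional. -/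
theorem exists_dual_of_char (c : CharacterModule V) :
    ∃ f : Module.Dual (ZMod p) V, ∀ v, zmodChar p (f v) = c v := by
  have hc : ∀ v, ∃ x : ZMod p, zmodChar p x = c v := fun v => by
    apply exists_zmodChar_eq
    rw [← map_nsmul, ← Nat.cast_smul_eq_nsmul (ZMod p), ZMod.natCast_self, zero_smul, map_zero]
  choose g hg using hc
  have hadd : ∀ v w, g (v + w) = g v + g w := fun v w =>
    zmodChar_injective (by rw [hg, map_add, map_add, hg, hg])
  let g' : V →+ ZMod p := AddMonoidHom.mk' g hadd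
  exact ⟨AddMonoidHom.toZModLinearMap p g', hg⟩

end ZModDual

section Packaged

variable {p : ℕ} [Fact p.Prime] {I : Type*} [Fintype I]
  {V : Type*} [AddCommGroup V] [Module (ZMod p) V]
  {B1 B0 A1 A0 J1 : Type*} [AddCommGroup B1] [AddCommGroup B0] [AddCommGroup A1]
  [AddCommGroup A0] [AddCommGroup J1]
  {Hq B1q A1q : I → Type*} [∀ q, AddCommGroup (Hq q)] [∀ q, AddCommGroup (B1q q)]
  [∀ q, AddCommGroup (A1q q)]

/-- **SPINE (d) + (e), packaged.**  From the finite-level data there is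
`Φ : A1 →+ Dual V` which is onto, has kernel `range res`, and maps `range π` onto the
annihilator of `W = ⋂_q ker (r q)`: these are the hypotheses `hΦ`, `hΦ_ker`, `hW` of
`ChaseC.exists_middle` (with `V = continuousH1S S M'`, `W = sha₁In S M'`). -/
theorem exists_Φ
    (bd : V →+ B1) (i : B1 →+ B0) (res : A0 →+ A1) (π : J1 →+ A1)
    (τ1 : A1 →+ CharacterModule B1) (τ0 : A0 →+ CharacterModule B0)
    (r : ∀ q, V →+ Hq q) (bdq : ∀ q, Hq q →+ B1q q) (rB : ∀ q, B1 →+ B1q q)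
    (pr : ∀ q, J1 →+ A1q q) (τq : ∀ q, A1q q →+ CharacterModule (B1q q))
    (W : Submodule (ZMod p) V) (hW : ∀ v, v ∈ W ↔ ∀ q, r q v = 0)
    -- (d): global duality at one finite level
    (hbd_inj : Function.Injective bd)
    (hi_bd : ∀ y, i (bd y) = 0)
    (hexact : ∀ b, i b = 0 → ∃ y, bd y = b)
    (hnat : ∀ a0 b, τ1 (res a0) b = τ0 a0 (i b))
    (hsurj1 : ∀ χ : CharacterModule B1, ∃ a m, Nat.Coprime m p ∧ ∀ b, τ1 a b = m • χ b)
    (hsurj0 : ∀ χ : CharacterModule B0, ∃ a m, Nat.Coprime m p ∧ ∀ b, τ0 a b = m • χ b)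
    (hker : ∀ a, (∀ b, τ1 a b = 0) → ∃ m, Nat.Coprime m p ∧ ∃ a0, res a0 = m • a)
    (hpA : ∀ a : A1, ∃ a0, res a0 = p • a)
    -- (e): local surjectivity + local-global compatibility
    (hbdq_inj : ∀ q, Function.Injective (bdq q))
    (hsq : ∀ q y, rB q (bd y) = bdq q (r q y))
    (hpr : ∀ a : ∀ q, A1q q, ∃ j, ∀ q, pr q j = a q)
    (hLG : ∀ j b, τ1 (π j) b = ∑ q, τq q (pr q j) (rB q b))
    (hsurjq : ∀ q (χ : CharacterModule (B1q q)),
      ∃ a m, Nat.Coprime m p ∧ ∀ b, τq q a b = m • χ b) :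
    ∃ Φ : A1 →+ Module.Dual (ZMod p) V,
      Function.Surjective Φ ∧ (∀ a, Φ a = 0 ↔ ∃ a0, res a0 = a) ∧
      (∀ φ : Module.Dual (ZMod p) V, φ ∈ W.dualAnnihilator ↔ ∃ j, Φ (π j) = φ) := by
  have hp : p.Prime := Fact.out
  have hV : ∀ y : V, p • y = 0 := fun y => by
    rw [← Nat.cast_smul_eq_nsmul (ZMod p), ZMod.natCast_self, zero_smul]
  obtain ⟨hD1, hD2⟩ := algD hp bd i res τ1 τ0 hV hbd_inj hi_bd hexact hnat hsurj1 hsurj0 hker hpA
  have hE := algE hp bd τ1 π r bdq rB pr τq hV hbdq_inj hsq hpr hLG hsurjq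
  -- the map Φ
  have hΦex : ∀ a : A1, ∃ f : Module.Dual (ZMod p) V, ∀ v, zmodChar p (f v) = τ1 a (bd v) :=
    fun a => exists_dual_of_char
      (show CharacterModule V from
        AddMonoidHom.comp (show B1 →+ AddCircle (1 : ℚ) from τ1 a) bd)
  choose Φ₀ hΦ₀ using hΦex
  have hadd : ∀ a b, Φ₀ (a + b) = Φ₀ a + Φ₀ b := fun a b => by
    apply dual_ext_of_char
    intro v
    rw [hΦ₀, LinearMap.add_apply, map_add (zmodChar p), hΦ₀, hΦ₀, map_add τ1]
    rfl
  refine ⟨AddMonoidHom.mk' Φ₀ hadd, ?_, ?_, ?_⟩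
  · intro φ
    obtain ⟨a, ha⟩ := hD1 (charOfDual φ)
    refine ⟨a, dual_ext_of_char fun v => ?_⟩
    change zmodChar p (Φ₀ a v) = _
    rw [hΦ₀, ha, charOfDual_apply]
  · intro a
    change Φ₀ a = 0 ↔ _
    rw [← hD2 a]
    constructor
    · intro h y
      rw [← hΦ₀, h, LinearMap.zero_apply, map_zero]
    · intro h
      apply dual_ext_of_char
      intro v
      rw [hΦ₀, h, LinearMap.zero_apply, map_zero]
  · intro φ
    rw [Submodule.mem_dualAnnihilator]
    have h1 : (∀ w ∈ W, φ w = 0) ↔ (∀ y, (∀ q, r q y = 0) → charOfDual φ y = 0) := by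
      constructor
      · intro h y hy
        rw [charOfDual_apply, h y ((hW y).2 hy), map_zero]
      · intro h w hw
        apply zmodChar_injective
        rw [map_zero]
        exact h w ((hW w).1 hw)
    rw [h1, ← hE (charOfDual φ)]
    constructor
    · rintro ⟨j, hj⟩
      refine ⟨j, dual_ext_of_char fun v => ?_⟩
      change zmodChar p (Φ₀ (π j) v) = _
      rw [hΦ₀, hj, charOfDual_apply]
    · rintro ⟨j, hj⟩
      refine ⟨j, fun y => ?_⟩
      rw [← hΦ₀, charOfDual_apply, ← hj]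
      rfl

end Packaged

end Fermat.Agent.CFT.Top.DualAlg
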