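import Fermat.Agent.CFT.Top.DualPlan
import Fermat.Agent.CFT.Top.SpineDefs
import Fermat.Agent.CFT.Formation.Plan
import Fermat.Agent.CFT.Level.Finite
import Fermat.Agent.CFT.Local.Archimedean

/-!
# P3 / Top layer, (d)+(e) side: the formal finite-level bridge

Everything here is formal (no arithmetic).  Fix a surjection `πG : GQ →* G` (in the application:
`G` a model of `Gal(K/ℚ)`, `ker πG = Gal(ℚ̄/K)`, `K ⊇ F` a normal `S`-level), a level `F` with
`ker πG ≤ G_F` and a coefficient module `A : Rep (ZMod p) GQ` on which `ker πG` acts trivially.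

* `descRep hπ A hA : Rep (ZMod p) G`   : `A` as a representation of `G` (same carrier);
* `TT hπ F A hF hA`                    : the basis `R0Basis F A = GQ/G_F × A` as a `G`-set,
  `eps : T → V` the second projection; `Formation.R1 V ε` IS `r1Sub F A` (`mem_R1_iff`);
* (B1)/(B4) `toFin : (R1 F A ⟶ D) →+ Formation.HomG (R1 V ε) Dm` for any model `ιD : Dm →+ D`
  of the `ker πG`-invariants of `D : Rep ℤ GQ`; it is additive, surjective (`toFin_surjective`),
  satisfies `ιD (toFin f r) = f r` (`ι_toFin`), is compatible with post-composition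
  (`toFin_comp`), and `exists_res_iff`: `toFin f` is the restriction of a `G`-map `ℤ[T] → Dm`
  iff `f` is the restriction of a `GQ`-map `R0 F A → D`;
* (B2) `h1Equiv : H¹(G, V) ≃ₗ continuousH1S S A` (inflation; surjective by the uniform level);
* (B3) `mem_locTriv_iff` : `y ∈ Formation.locTriv V Gw ↔ infl y ∈ sha₁ S A` when
  `Gw q = Plan.locImage πG q` (and `p ≠ 2`, for the archimedean place);
* `finite_TT`, `map_smul_TT` : `T` is finite and `πG(G_F)` acts trivially on it.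

`Top/SpineDE.lean` assembles these with `Formation.FinDuality` into `Plan.SpineDE`.
-/

set_option autoImplicit false

open CategoryTheory groupCohomology ExtCitation

noncomputable section

namespace Fermat.Agent.CFT.Top.DualBridge

/-! ## Descent of actions along a surjection -/

section Descent

variable {Γ G : Type} [Group Γ] [Group G] (πG : Γ →* G) (hπ : Function.Surjective πG)

/-- A set-theoretic section of `πG`. -/
def sec : G → Γ := Function.surjInv hπ

lemma map_sec (g : G) : πG (sec πG hπ g) = g := Function.surjInv_eq hπ g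

variable {πG}

lemma inv_mul_mem_ker {γ γ' : Γ} (h : πG γ = πG γ') : γ'⁻¹ * γ ∈ πG.ker := by
  rw [MonoidHom.mem_ker, map_mul, map_inv, h, inv_mul_cancel]

lemma rho_eq_of_map_eq {k : Type} [CommRing k] (A : Rep.{0} k Γ)
    (hA : ∀ s ∈ πG.ker, A.ρ s = 1) {γ γ' : Γ} (h : πG γ = πG γ') : A.ρ γ = A.ρ γ' := by
  have h1 : γ = γ' * (γ'⁻¹ * γ) := by group
  rw [h1, map_mul, hA _ (inv_mul_mem_ker h), mul_one]

/-- The representation of `G` on the carrier of `A`, when `ker πG` acts trivially. -/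
def descRho {k : Type} [CommRing k] (A : Rep.{0} k Γ) (hA : ∀ s ∈ πG.ker, A.ρ s = 1) :
    Representation k G A.V where
  toFun g := A.ρ (sec πG hπ g)
  map_one' := hA _ (by rw [MonoidHom.mem_ker, map_sec])
  map_mul' g h := by
    rw [← map_mul]
    exact rho_eq_of_map_eq A hA (by rw [map_sec, map_mul, map_sec, map_sec])

/-- `A` as a representation of the quotient `G` (same carrier). -/
abbrev descRep {k : Type} [CommRing k] (A : Rep.{0} k Γ) (hA : ∀ s ∈ πG.ker, A.ρ s = 1) :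
    Rep.{0} k G := Rep.of (descRho hπ A hA)

lemma descRep_ρ {k : Type} [CommRing k] (A : Rep.{0} k Γ) (hA : ∀ s ∈ πG.ker, A.ρ s = 1)
    (γ : Γ) (a : A.V) : (descRep hπ A hA).ρ (πG γ) a = A.ρ γ a := by
  change A.ρ (sec πG hπ (πG γ)) a = A.ρ γ a
  rw [rho_eq_of_map_eq A hA (map_sec πG hπ (πG γ))]

end Descent

/-! ## The presentation set `R0Basis F A` as a `G`-set -/

section TT

variable {G : Type} [Group G] {πG : GQ →* G} {k : Type} [CommRing k]

/-- The action of `GQ` on the basis `R0Basis F A`. -/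
def actΓ (F : IntermediateField ℚ Qb) (A : Rep.{0} k GQ) (γ : GQ) (t : R0Basis F A) :
    R0Basis F A := (γ • t.1, A.ρ γ t.2)

lemma actΓ_one (F : IntermediateField ℚ Qb) (A : Rep.{0} k GQ) (t : R0Basis F A) :
    actΓ F A 1 t = t := by
  simp [actΓ]

lemma actΓ_mul (F : IntermediateField ℚ Qb) (A : Rep.{0} k GQ) (γ γ' : GQ) (t : R0Basis F A) :
    actΓ F A (γ * γ') t = actΓ F A γ (actΓ F A γ' t) := by
  simp [actΓ, mul_smul]

lemma actΓ_eq_of_map_eq {F : IntermediateField ℚ Qb} {A : Rep.{0} k GQ}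
    (hF : πG.ker ≤ F.fixingSubgroup) (hA : ∀ s ∈ πG.ker, A.ρ s = 1) {γ γ' : GQ}
    (h : πG γ = πG γ') (t : R0Basis F A) : actΓ F A γ t = actΓ F A γ' t := by
  obtain ⟨x, a⟩ := t
  refine Prod.ext ?_ ?_
  · induction x using QuotientGroup.induction_on with
    | H δ =>
      change ((γ * δ : GQ) : GQ ⧸ F.fixingSubgroup) = ((γ' * δ : GQ) : GQ ⧸ F.fixingSubgroup)
      rw [QuotientGroup.eq]
      apply hF
      rw [MonoidHom.mem_ker, map_mul, map_inv, map_mul, map_mul, h]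
      group
  · change A.ρ γ a = A.ρ γ' a
    rw [rho_eq_of_map_eq A hA h]

/-- `R0Basis F A`, as a `G`-set (the group `G` acts through lifts along `πG`). -/
def TT (_hπ : Function.Surjective πG) (F : IntermediateField ℚ Qb) (A : Rep.{0} k GQ)
    (_hF : πG.ker ≤ F.fixingSubgroup) (_hA : ∀ s ∈ πG.ker, A.ρ s = 1) : Type := R0Basis F A

variable (hπ : Function.Surjective πG) (F : IntermediateField ℚ Qb) (A : Rep.{0} k GQ)
  (hF : πG.ker ≤ F.fixingSubgroup) (hA : ∀ s ∈ πG.ker, A.ρ s = 1)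

instance instMulActionTT : MulAction G (TT hπ F A hF hA) where
  smul g t := actΓ F A (sec πG hπ g) t
  one_smul t := by
    change actΓ F A (sec πG hπ 1) t = t
    rw [actΓ_eq_of_map_eq hF hA (γ' := 1) (by rw [map_sec, map_one]), actΓ_one]
  mul_smul g h t := by
    change actΓ F A (sec πG hπ (g * h)) t = actΓ F A (sec πG hπ g) (actΓ F A (sec πG hπ h) t)
    rw [← actΓ_mul]
    exact actΓ_eq_of_map_eq hF hA (by rw [map_sec, map_mul, map_sec, map_sec]) t

lemma smul_TT (γ : GQ) (t : TT hπ F A hF hA) :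
    (πG γ) • t = actΓ F A γ t :=
  actΓ_eq_of_map_eq hF hA (map_sec πG hπ (πG γ)) t

/-- The presentation map `ε : T → V`, `(x, a) ↦ a`. -/
def eps (t : TT hπ F A hF hA) : descRep hπ A hA := t.2

lemma eps_smul (g : G) (t : TT hπ F A hF hA) :
    eps hπ F A hF hA (g • t) = (descRep hπ A hA).ρ g (eps hπ F A hF hA t) := by
  obtain ⟨γ, rfl⟩ := hπ g
  rw [smul_TT, descRep_ρ]
  rfl

lemma eps_surjective : Function.Surjective (eps hπ F A hF hA) := fun a =>
  ⟨(((1 : GQ) : GQ ⧸ F.fixingSubgroup), a), rfl⟩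

/-- The lattice action of `πG γ` on `ℤ[T]` is `r0Rho F A γ`. -/
lemma latAct_eq (γ : GQ) (r : TT hπ F A hF hA →₀ ℤ) :
    Formation.latAct (TT hπ F A hF hA) (πG γ) r = r0Rho F A γ r := by
  change Finsupp.mapDomain (fun t : TT hπ F A hF hA => (πG γ) • t) r =
    Finsupp.mapDomain (fun x : R0Basis F A => (γ • x.1, A.ρ γ x.2)) r
  congr 1
  funext t
  exact smul_TT hπ F A hF hA γ t

/-- `ker πG` acts trivially on `R0 F A`. -/
lemma r0Rho_ker {F : IntermediateField ℚ Qb} {A : Rep.{0} k GQ}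
    (hF : πG.ker ≤ F.fixingSubgroup) (hA : ∀ s ∈ πG.ker, A.ρ s = 1)
    (s : GQ) (hs : s ∈ πG.ker) (r : R0Basis F A →₀ ℤ) : r0Rho F A s r = r := by
  change Finsupp.mapDomain (fun x : R0Basis F A => actΓ F A s x) r = r
  have h1 : (fun x : R0Basis F A => actΓ F A s x) = id := by
    funext x
    rw [actΓ_eq_of_map_eq hF hA (γ' := 1) (by rw [MonoidHom.mem_ker.1 hs, map_one]), actΓ_one]
    rfl
  rw [h1, Finsupp.mapDomain_id]

end TT

section Aug

variable {G : Type} [Group G] {πG : GQ →* G} {p : ℕ}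
  (hπ : Function.Surjective πG) (F : IntermediateField ℚ Qb) (A : Rep.{0} (ZMod p) GQ)
  (hF : πG.ker ≤ F.fixingSubgroup) (hA : ∀ s ∈ πG.ker, A.ρ s = 1)

/-- The two augmentations agree. -/
lemma aug_eq (r : TT hπ F A hF hA →₀ ℤ) :
    Formation.aug (descRep hπ A hA) (eps hπ F A hF hA) r = aug F A r := by
  have h : Formation.aug (descRep hπ A hA) (eps hπ F A hF hA) =
      ((aug F A).toAddMonoidHom : (R0Basis F A →₀ ℤ) →+ A.V) := by
    apply Finsupp.addHom_ext
    intro x n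
    rw [Formation.aug_single]
    exact (aug_single F A x n).symm
  exact DFunLike.congr_fun h r

lemma mem_R1_iff (r : TT hπ F A hF hA →₀ ℤ) :
    r ∈ Formation.R1 (descRep hπ A hA) (eps hπ F A hF hA) ↔ r ∈ r1Sub F A := by
  rw [Formation.mem_R1_iff, aug_eq]
  rfl

end Aug

/-! ## Pulling additive maps back along an injective model map -/

section Pull

variable {B D Y : Type} [AddCommGroup B] [AddCommGroup D] [AddCommGroup Y]

/-- An additive map with values in the range of an injective additive map `ι` factors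
through `ι`. -/
def pull (ι : B →+ D) (hι : Function.Injective ι) (u : Y →+ D) (hu : ∀ y, u y ∈ ι.range) :
    Y →+ B :=
  (AddMonoidHom.ofInjective hι).symm.toAddMonoidHom.comp (u.codRestrict ι.range hu)

lemma ι_pull (ι : B →+ D) (hι : Function.Injective ι) (u : Y →+ D) (hu : ∀ y, u y ∈ ι.range)
    (y : Y) : ι (pull ι hι u hu y) = u y :=
  AddMonoidHom.apply_ofInjective_symm hι ⟨u y, hu y⟩

end Pull

/-! ## (B1)/(B4): `Hom_GQ(R1 F A, D) = Hom_G(R1 V ε, D^{ker})` -/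

section HomBridge

variable {G : Type} [Group G] {πG : GQ →* G} {p : ℕ}
  (hπ : Function.Surjective πG) (F : IntermediateField ℚ Qb) (A : Rep.{0} (ZMod p) GQ)
  (hF : πG.ker ≤ F.fixingSubgroup) (hA : ∀ s ∈ πG.ker, A.ρ s = 1)
  {D : Rep.{0} ℤ GQ} {Dm : Rep.{0} ℤ G} (ιD : Dm →+ D)
  (hιe : ∀ γ b, ιD (Dm.ρ (πG γ) b) = D.ρ γ (ιD b)) (hιi : Function.Injective ιD)
  (hιf : ∀ a : D, (∀ s ∈ πG.ker, D.ρ s a = a) → ∃ b, ιD b = a)

/-- The carrier of `R1 V ε` inside the carrier of `R1 F A`. -/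
def r1Cast : ↥(Formation.R1 (descRep hπ A hA) (eps hπ F A hF hA)) →+ (R1 F A).V where
  toFun r := ⟨r.1, (mem_R1_iff hπ F A hF hA r.1).1 r.2⟩
  map_zero' := rfl
  map_add' _ _ := rfl

/-- The carrier of `R1 F A` inside the carrier of `R1 V ε`. -/
def r1CastInv : (R1 F A).V →+ ↥(Formation.R1 (descRep hπ A hA) (eps hπ F A hF hA)) where
  toFun r := ⟨r.1, (mem_R1_iff hπ F A hF hA r.1).2 r.2⟩
  map_zero' := rfl
  map_add' _ _ := rfl

lemma r1Cast_r1CastInv (r : (R1 F A).V) :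
    r1Cast hπ F A hF hA (r1CastInv hπ F A hF hA r) = r := rfl

lemma r1CastInv_r1Cast (r : ↥(Formation.R1 (descRep hπ A hA) (eps hπ F A hF hA))) :
    r1CastInv hπ F A hF hA (r1Cast hπ F A hF hA r) = r := rfl

lemma r1Cast_latAct (γ : GQ) (r : ↥(Formation.R1 (descRep hπ A hA) (eps hπ F A hF hA)))
    (hr : Formation.latAct (TT hπ F A hF hA) (πG γ) r.1 ∈
      Formation.R1 (descRep hπ A hA) (eps hπ F A hF hA)) :
    r1Cast hπ F A hF hA ⟨_, hr⟩ = (R1 F A).ρ γ (r1Cast hπ F A hF hA r) :=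
  Subtype.ext (latAct_eq hπ F A hF hA γ r.1)

lemma latAct_mem_R1 (g : G) (r : ↥(Formation.R1 (descRep hπ A hA) (eps hπ F A hF hA))) :
    Formation.latAct (TT hπ F A hF hA) g r.1 ∈
      Formation.R1 (descRep hπ A hA) (eps hπ F A hF hA) := by
  obtain ⟨γ, rfl⟩ := hπ g
  rw [mem_R1_iff, latAct_eq]
  exact r1Sub_le_comap F A γ ((mem_R1_iff hπ F A hF hA r.1).1 r.2)

include hF hA in
/-- `ker πG` acts trivially on `R1 F A`. -/
lemma r1_ker (s : GQ) (hs : s ∈ πG.ker) (r : (R1 F A).V) : (R1 F A).ρ s r = r :=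
  Subtype.ext (r0Rho_ker hF hA s hs r.1)

include hF hA hιf in
lemma hom_r1_mem_range (f : R1 F A ⟶ D) (r : (R1 F A).V) : f.hom r ∈ ιD.range := by
  refine hιf _ fun s hs => ?_
  rw [← Rep.hom_comm_apply, r1_ker F A hF hA s hs]

include hF hA hιf in
lemma hom_r0_mem_range (h : R0 F A ⟶ D) (r : (R0 F A).V) : h.hom r ∈ ιD.range := by
  refine hιf _ fun s hs => ?_
  rw [← Rep.hom_comm_apply]
  exact congrArg h.hom (r0Rho_ker hF hA s hs r)

/-- The finite-level map attached to `f : R1 F A ⟶ D`. -/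
def toFinFun (f : R1 F A ⟶ D) :
    ↥(Formation.R1 (descRep hπ A hA) (eps hπ F A hF hA)) →+ Dm :=
  pull ιD hιi ((addOfHom f).comp (r1Cast hπ F A hF hA))
    (fun _ => hom_r1_mem_range F A hF hA ιD hιf f _)

lemma ι_toFinFun (f : R1 F A ⟶ D)
    (r : ↥(Formation.R1 (descRep hπ A hA) (eps hπ F A hF hA))) :
    ιD (toFinFun hπ F A hF hA ιD hιi hιf f r) = f.hom (r1Cast hπ F A hF hA r) :=
  ι_pull ιD hιi _ _ r

include hιe in
lemma toFinFun_mem (f : R1 F A ⟶ D) :
    toFinFun hπ F A hF hA ιD hιi hιf f ∈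
      Formation.HomG (Formation.R1 (descRep hπ A hA) (eps hπ F A hF hA)) Dm := by
  intro g r hr
  obtain ⟨γ, rfl⟩ := hπ g
  apply hιi
  rw [ι_toFinFun, hιe, ι_toFinFun, r1Cast_latAct hπ F A hF hA γ r hr, Rep.hom_comm_apply]

/-- (B1) `Hom_GQ(R1 F A, D) → Hom_G(R1 V ε, Dm)`. -/
def toFin : (R1 F A ⟶ D) →+
    Formation.HomG (Formation.R1 (descRep hπ A hA) (eps hπ F A hF hA)) Dm where
  toFun f := ⟨toFinFun hπ F A hF hA ιD hιi hιf f, toFinFun_mem hπ F A hF hA ιD hιe hιi hιf f⟩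
  map_zero' := by
    apply Subtype.ext
    ext r
    apply hιi
    change ιD (toFinFun hπ F A hF hA ιD hιi hιf 0 r) = ιD 0
    rw [ι_toFinFun, map_zero]
    rfl
  map_add' f f' := by
    apply Subtype.ext
    ext r
    apply hιi
    change ιD (toFinFun hπ F A hF hA ιD hιi hιf (f + f') r) =
      ιD (toFinFun hπ F A hF hA ιD hιi hιf f r + toFinFun hπ F A hF hA ιD hιi hιf f' r)
    rw [map_add, ι_toFinFun, ι_toFinFun, ι_toFinFun]
    rfl

lemma ι_toFin (f : R1 F A ⟶ D)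
    (r : ↥(Formation.R1 (descRep hπ A hA) (eps hπ F A hF hA))) :
    ιD ((toFin hπ F A hF hA ιD hιe hιi hιf f :
      ↥(Formation.R1 (descRep hπ A hA) (eps hπ F A hF hA)) →+ Dm) r) =
      f.hom (r1Cast hπ F A hF hA r) :=
  ι_toFinFun hπ F A hF hA ιD hιi hιf f r

/-- (B1) is surjective. -/
lemma toFin_surjective : Function.Surjective (toFin hπ F A hF hA ιD hιe hιi hιf) := by
  intro a
  let ψ : (R1 F A).V →+ D := ιD.comp ((a : _ →+ Dm).comp (r1CastInv hπ F A hF hA))
  have he : ∀ (γ : GQ) (r : (R1 F A).V), ψ ((R1 F A).ρ γ r) = D.ρ γ (ψ r) := by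
    intro γ r
    have hr := latAct_mem_R1 hπ F A hF hA (πG γ) (r1CastInv hπ F A hF hA r)
    have h1 := a.2 (πG γ) (r1CastInv hπ F A hF hA r) hr
    have h2 : r1CastInv hπ F A hF hA ((R1 F A).ρ γ r) =
        ⟨_, hr⟩ := Subtype.ext (latAct_eq hπ F A hF hA γ r.1).symm
    change ιD ((a : _ →+ Dm) (r1CastInv hπ F A hF hA ((R1 F A).ρ γ r))) =
      D.ρ γ (ιD ((a : _ →+ Dm) (r1CastInv hπ F A hF hA r)))
    rw [h2, h1, hιe]
  refine ⟨homOfAdd (R1 F A) D ψ (add_smul_rep (R1 F A) D ψ) he, ?_⟩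
  apply Subtype.ext
  ext r
  apply hιi
  rw [ι_toFin]
  rfl

include hπ hιe in
/-- (B1') Restrictions of `GQ`-maps `R0 F A → D` correspond to restrictions of `G`-maps
`ℤ[T] → Dm`. -/
lemma exists_res_iff (f : R1 F A ⟶ D) :
    (∃ b : (TT hπ F A hF hA →₀ ℤ) →+ Dm,
        (∀ g r, b (Formation.latAct (TT hπ F A hF hA) g r) = Dm.ρ g (b r)) ∧
        b.comp (Formation.R1 (descRep hπ A hA) (eps hπ F A hF hA)).subtype =
          (toFin hπ F A hF hA ιD hιe hιi hιf f :
            ↥(Formation.R1 (descRep hπ A hA) (eps hπ F A hF hA)) →+ Dm)) ↔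
      ∃ h : R0 F A ⟶ D, r1Incl F A ≫ h = f := by
  constructor
  · rintro ⟨b, hb, hbf⟩
    let ψ : (R0 F A).V →+ D := ιD.comp b
    have he : ∀ (γ : GQ) (r : (R0 F A).V), ψ ((R0 F A).ρ γ r) = D.ρ γ (ψ r) := by
      intro γ r
      change ιD (b (r0Rho F A γ r)) = D.ρ γ (ιD (b r))
      rw [← latAct_eq hπ F A hF hA γ r, hb, hιe]
    refine ⟨homOfAdd (R0 F A) D ψ (add_smul_rep (R0 F A) D ψ) he, ?_⟩
    refine Rep.hom_ext (DFunLike.ext _ _ fun r => ?_)
    have h1 := DFunLike.congr_fun hbf (r1CastInv hπ F A hF hA r)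
    have h2 := ι_toFin hπ F A hF hA ιD hιe hιi hιf f (r1CastInv hπ F A hF hA r)
    rw [← h1] at h2
    exact h2
  · rintro ⟨h, rfl⟩
    let b : (TT hπ F A hF hA →₀ ℤ) →+ Dm :=
      pull ιD hιi (addOfHom h) (fun r => hom_r0_mem_range F A hF hA ιD hιf h r)
    have hb : ∀ r, ιD (b r) = h.hom r := fun r => ι_pull ιD hιi _ _ r
    refine ⟨b, fun g r => ?_, ?_⟩
    · obtain ⟨γ, rfl⟩ := hπ g
      apply hιi
      rw [hb, hιe, hb, latAct_eq, ← Rep.hom_comm_apply]
    · ext r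
      apply hιi
      rw [ι_toFin]
      exact hb _

end HomBridge

/-! ## (B2): `H¹(G, V) ≃ H¹(G_S, A)` by inflation -/

section H1Bridge

variable {G : Type} [Group G] {πG : GQ →* G} {p : ℕ}
  (hπ : Function.Surjective πG) (A : Rep.{0} (ZMod p) GQ) (hA : ∀ s ∈ πG.ker, A.ρ s = 1)

/-- The identity of the carrier, as a map from the descended representation. -/
def idV : (descRep hπ A hA) →+ A := AddMonoidHom.id A.V

lemma idV_equivar : Level.Equivar πG (descRep hπ A hA) A (idV hπ A hA) :=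
  fun g a => descRep_ρ hπ A hA g a

/-- Inflation `H¹(G, V) → H¹(GQ, A)`. -/
def inflV : groupCohomology.H1 (descRep hπ A hA) →+ groupCohomology.H1 A :=
  Level.H1addFull πG (idV hπ A hA) (idV_equivar hπ A hA)

lemma inflV_π (c : cocycles₁ (descRep hπ A hA)) :
    inflV hπ A hA ((H1π (descRep hπ A hA)).hom c) =
      (H1π A).hom (Level.Z1add πG (idV hπ A hA) (idV_equivar hπ A hA) c) :=
  Level.H1addFull_π _ _ _ c

lemma inflV_injective : Function.Injective (inflV hπ A hA) :=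
  Level.H1addFull_injective_of_invariants (idV_equivar hπ A hA) hπ (fun _ _ h => h)
    (fun a _ => ⟨a, rfl⟩)

variable (S : Finset Nat.Primes)

lemma inflV_mem (K : IntermediateField ℚ Qb) (hK : K.IsUnramifiedOutside S)
    (hker : πG.ker = K.fixingSubgroup) (y : groupCohomology.H1 (descRep hπ A hA)) :
    inflV hπ A hA y ∈ continuousH1S S A := by
  obtain ⟨c, rfl⟩ := Level.H1π_surjective _ y
  rw [inflV_π]
  refine (mem_continuousH1S_iff S A _).2 ⟨_, ⟨K, hK, fun g s hs => ?_⟩, rfl⟩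
  have hs' : s ∈ πG.ker := by rw [hker]; exact hs
  change c (πG (g * s)) = c (πG g)
  rw [map_mul, MonoidHom.mem_ker.1 hs', mul_one]

lemma exists_inflV_eq
    (hU : ∀ x ∈ continuousH1S S A, ∃ c : cocycles₁ A,
      (∀ g s, s ∈ πG.ker → c (g * s) = c g) ∧ (H1π A).hom c = x)
    (x : groupCohomology.H1 A) (hx : x ∈ continuousH1S S A) :
    ∃ y, inflV hπ A hA y = x := by
  obtain ⟨c, hc, rfl⟩ := hU x hx
  have hc' : ∀ γ γ' : GQ, πG γ = πG γ' → c γ = c γ' := by
    intro γ γ' h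
    have h1 : γ = γ' * (γ'⁻¹ * γ) := by group
    rw [h1, hc _ _ (inv_mul_mem_ker h)]
  let cb : G → descRep hπ A hA := fun g => c (sec πG hπ g)
  have hcb : ∀ γ, cb (πG γ) = c γ := fun γ => hc' _ _ (map_sec πG hπ (πG γ))
  have hcoc : cb ∈ cocycles₁ (descRep hπ A hA) := by
    rw [mem_cocycles₁_iff]
    intro g h
    obtain ⟨γ, rfl⟩ := hπ g
    obtain ⟨δ, rfl⟩ := hπ h
    rw [← map_mul, hcb, hcb, hcb, descRep_ρ]
    exact (mem_cocycles₁_iff c).1 c.2 γ δ
  refine ⟨(H1π (descRep hπ A hA)).hom ⟨cb, hcoc⟩, ?_⟩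
  rw [inflV_π]
  congr 1
  exact Subtype.ext (funext fun γ => hcb γ)

/-- (B2) The inflation isomorphism `H¹(G, V) ≃ H¹(G_S, A)`. -/
def h1Equiv (K : IntermediateField ℚ Qb) (hK : K.IsUnramifiedOutside S)
    (hker : πG.ker = K.fixingSubgroup)
    (hU : ∀ x ∈ continuousH1S S A, ∃ c : cocycles₁ A,
      (∀ g s, s ∈ πG.ker → c (g * s) = c g) ∧ (H1π A).hom c = x) :
    groupCohomology.H1 (descRep hπ A hA) ≃ₗ[ZMod p] ↥(continuousH1S S A) :=
  LinearEquiv.ofBijective
    (AddMonoidHom.toZModLinearMap p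
      ((inflV hπ A hA).codRestrict (continuousH1S S A).toAddSubgroup
        (fun y => inflV_mem hπ A hA S K hK hker y)))
    ⟨fun y y' h => inflV_injective hπ A hA (congrArg Subtype.val h),
      fun x => by
        obtain ⟨y, hy⟩ := exists_inflV_eq hπ A hA S hU x.1 x.2
        exact ⟨y, Subtype.ext hy⟩⟩

lemma coe_h1Equiv (K : IntermediateField ℚ Qb) (hK : K.IsUnramifiedOutside S)
    (hker : πG.ker = K.fixingSubgroup)
    (hU : ∀ x ∈ continuousH1S S A, ∃ c : cocycles₁ A,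
      (∀ g s, s ∈ πG.ker → c (g * s) = c g) ∧ (H1π A).hom c = x)
    (y : groupCohomology.H1 (descRep hπ A hA)) :
    ((h1Equiv hπ A hA S K hK hker hU y : ↥(continuousH1S S A)) : groupCohomology.H1 A) =
      inflV hπ A hA y := rfl

end H1Bridge

/-! ## (B3): `locTriv V Gw` corresponds to `Ш¹` -/

section LocTriv

variable {G : Type} [Group G] {p : ℕ} (V : Rep.{0} (ZMod p) G) {ι : Type} (Gw : ι → Subgroup G)

lemma d₀₁_mem_locTrivCocycles (c : cocycles₁ V) (m : V) (hm : ∀ g, c g = V.ρ g m - m) :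
    c ∈ Formation.locTrivCocycles V Gw :=
  fun _ => ⟨m, fun g _ => hm g⟩

lemma H1π_mem_locTriv_iff (c : cocycles₁ V) :
    (H1π V).hom c ∈ Formation.locTriv V Gw ↔ c ∈ Formation.locTrivCocycles V Gw := by
  constructor
  · rintro ⟨c', hc', h⟩
    have h0 : (H1π V).hom (c - c') = 0 := by
      rw [map_sub, h, sub_self]
    obtain ⟨m, hm⟩ := (H1π_eq_zero_iff (c - c')).1 h0
    have h1 : c - c' ∈ Formation.locTrivCocycles V Gw := by
      refine d₀₁_mem_locTrivCocycles V Gw _ m fun g => ?_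
      have := congrFun hm g
      rw [d₀₁_hom_apply] at this
      exact this.symm
    have h2 := (Formation.locTrivCocycles V Gw).add_mem hc' h1
    rwa [add_sub_cancel] at h2
  · intro hc
    exact Submodule.mem_map_of_mem hc

end LocTriv

section LocBridge

variable {G : Type} [Group G] {πG : GQ →* G} {p : ℕ}
  (hπ : Function.Surjective πG) (A : Rep.{0} (ZMod p) GQ) (hA : ∀ s ∈ πG.ker, A.ρ s = 1)

/-- The restriction of an inflated class to a group `H → GQ` vanishes iff the cocycle is a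
coboundary on the image of `H` in `G`. -/
lemma map_inflV_eq_zero_iff {H : Type} [Group H] (r : H →* GQ)
    (c : cocycles₁ (descRep hπ A hA)) :
    (groupCohomology.map r (𝟙 (Rep.res r A)) 1).hom
        (inflV hπ A hA ((H1π (descRep hπ A hA)).hom c)) = 0 ↔
      ∃ m : A.V, ∀ τ : H, c (πG (r τ)) = A.ρ (r τ) m - m := by
  rw [inflV_π, Level.map_eq_H1addFull, Level.H1addFull_π, H1π_eq_zero_iff]
  constructor
  · rintro ⟨m, hm⟩
    refine ⟨m, fun τ => ?_⟩
    have := congrFun hm τ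
    rw [d₀₁_hom_apply] at this
    exact this.symm
  · rintro ⟨m, hm⟩
    refine ⟨m, funext fun τ => ?_⟩
    rw [d₀₁_hom_apply]
    exact (hm τ).symm

variable (S : Finset Nat.Primes) (Gw : ↥S → Subgroup G)

include hπ in
/-- (B3) A class of `H¹(G, V)` is locally trivial on the groups `Gw q = π(G_q)` iff its
inflation lies in `Ш¹`. -/
theorem mem_locTriv_iff [Fact p.Prime] (hp2 : p ≠ 2) (hGw : ∀ q, Gw q = Plan.locImage πG q.1)
    (y : groupCohomology.H1 (descRep hπ A hA))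
    (hy : inflV hπ A hA y ∈ continuousH1S S A) :
    y ∈ Formation.locTriv (descRep hπ A hA) Gw ↔ inflV hπ A hA y ∈ sha₁ S A := by
  obtain ⟨c, rfl⟩ := Level.H1π_surjective _ y
  rw [H1π_mem_locTriv_iff, Local.Archimedean.mem_sha₁_iff S hp2]
  constructor
  · intro hc
    refine ⟨hy, fun q => (Local.Archimedean.locTotal_inr S A _ q).trans ?_⟩
    obtain ⟨m, hm⟩ := hc q
    refine (map_inflV_eq_zero_iff hπ A hA (primeLocalToGlobal q.1) c).2 ⟨m, fun τ => ?_⟩
    rw [hm _ (by rw [hGw]; exact ⟨τ, rfl⟩), descRep_ρ]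
  · rintro ⟨-, h⟩ q
    have h1 := (Local.Archimedean.locTotal_inr S A _ q).symm.trans (h q)
    obtain ⟨m, hm⟩ := (map_inflV_eq_zero_iff hπ A hA (primeLocalToGlobal q.1) c).1 h1
    refine ⟨m, fun g hg => ?_⟩
    rw [hGw] at hg
    obtain ⟨τ, rfl⟩ := hg
    change c (πG (primeLocalToGlobal q.1 τ)) =
      (descRep hπ A hA).ρ (πG (primeLocalToGlobal q.1 τ)) m - m
    rw [hm τ, descRep_ρ]

end LocBridge

/-! ## Compatibility of (B1) with post-composition -/

section PostComp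

variable {G : Type} [Group G] {πG : GQ →* G} {p : ℕ}
  (hπ : Function.Surjective πG) (F : IntermediateField ℚ Qb) (A : Rep.{0} (ZMod p) GQ)
  (hF : πG.ker ≤ F.fixingSubgroup) (hA : ∀ s ∈ πG.ker, A.ρ s = 1)
  {D E : Rep.{0} ℤ GQ} {Dm Em : Rep.{0} ℤ G} (ιD : Dm →+ D)
  (hDe : ∀ γ b, ιD (Dm.ρ (πG γ) b) = D.ρ γ (ιD b)) (hDi : Function.Injective ιD)
  (hDf : ∀ a : D, (∀ s ∈ πG.ker, D.ρ s a = a) → ∃ b, ιD b = a)
  (ιE : Em →+ E)
  (hEe : ∀ γ b, ιE (Em.ρ (πG γ) b) = E.ρ γ (ιE b)) (hEi : Function.Injective ιE)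
  (hEf : ∀ a : E, (∀ s ∈ πG.ker, E.ρ s a = a) → ∃ b, ιE b = a)

lemma toFin_comp (u : D ⟶ E) (um : Dm →+ Em) (hu : ∀ x, ιE (um x) = u.hom (ιD x))
    (f : R1 F A ⟶ D) :
    (toFin hπ F A hF hA ιE hEe hEi hEf (f ≫ u) :
        ↥(Formation.R1 (descRep hπ A hA) (eps hπ F A hF hA)) →+ Em) =
      um.comp (toFin hπ F A hF hA ιD hDe hDi hDf f :
        ↥(Formation.R1 (descRep hπ A hA) (eps hπ F A hF hA)) →+ Dm) := by
  ext r
  apply hEi
  rw [ι_toFin, AddMonoidHom.comp_apply, hu, ι_toFin]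
  rfl

end PostComp

/-! ## Finiteness and the action of `U = π(G_F)` on `T` -/

section Misc

variable {G : Type} [Group G] {πG : GQ →* G} {k : Type} [CommRing k]
  (hπ : Function.Surjective πG) (F : IntermediateField ℚ Qb) (A : Rep.{0} k GQ)
  (hF : πG.ker ≤ F.fixingSubgroup) (hA : ∀ s ∈ πG.ker, A.ρ s = 1)

include hπ hF in
lemma finite_quotient [Finite G] : Finite (GQ ⧸ F.fixingSubgroup) := by
  refine Finite.of_surjective
    (fun g : G => ((sec πG hπ g : GQ) : GQ ⧸ F.fixingSubgroup)) fun x => ?_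
  induction x using QuotientGroup.induction_on with
  | H γ =>
    refine ⟨πG γ, ?_⟩
    rw [QuotientGroup.eq]
    apply hF
    rw [MonoidHom.mem_ker, map_mul, map_inv, map_sec, inv_mul_cancel]

instance finite_TT [Finite G] [Finite A.V] : Finite (TT hπ F A hF hA) := by
  have := finite_quotient hπ F hF
  change Finite ((GQ ⧸ F.fixingSubgroup) × A.V)
  infer_instance

lemma map_smul_TT (hN : F.fixingSubgroup.Normal) (hAF : ∀ s ∈ F.fixingSubgroup, A.ρ s = 1)
    (u : G) (hu : u ∈ F.fixingSubgroup.map πG) (t : TT hπ F A hF hA) : u • t = t := by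
  obtain ⟨s, hs, rfl⟩ := hu
  rw [smul_TT]
  obtain ⟨x, a⟩ := t
  refine Prod.ext ?_ ?_
  · induction x using QuotientGroup.induction_on with
    | H δ =>
      change ((s * δ : GQ) : GQ ⧸ F.fixingSubgroup) = ((δ : GQ) : GQ ⧸ F.fixingSubgroup)
      rw [QuotientGroup.eq]
      have h1 := hN.conj_mem s⁻¹ (inv_mem hs) δ⁻¹
      have h2 : (s * δ)⁻¹ * δ = δ⁻¹ * s⁻¹ * δ⁻¹⁻¹ := by group
      rw [h2]
      exact h1
  · change A.ρ s a = a
    rw [hAF s hs]
    rfl

end Misc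

end Fermat.Agent.CFT.Top.DualBridge

end
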