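import Fermat.Agent.CFT.Top.Plan
import Fermat.Agent.CFT.Level.Defs
import Fermat.Agent.CFT.Triv.ClassAt

/-!
# P3 (class field theory program), layer L10 (Top): the contracts of the (d)+(e) side

`Top/SpineDE.lean` proves `Plan.SpineDE S M F` (for a good level `F`) from

* `Formation.FinDuality` (the finite-group theorem of layer L4),
* `Plan.ArithDual S p F`    — [TOPBRIDGE]: the class-formation data on Top's modules at
                               arbitrarily deep finite levels `K ⊇ F` (Global + Local),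
* `Plan.UniformLevel S M'`  — [Fin]: all of `H¹(G_S, M')` is inflated from ONE normal `S`-level.

`FinLevelData S p F K` is, word for word, the arithmetic part of the hypotheses of
`Formation.FinDuality` for the finite group `Q = Gal(K/ℚ)` (any model `π : GQ →* Q` with kernel
`Gal(ℚ̄/K)`), the modules `C = (CS S)^{G_K}`, `J = (JS S)^{G_K}` (any models, `IsFiniteLevel`),
`U = π(G_F) = Gal(K/F)` and the local groups `Gw q = locImage π q = π(G_q)` (`q ∈ S`), the
decomposition groups of `K` at the places fixed by the Prelude.  The local modules `Cw q`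
(`= K_wˣ`), the classes `σ`, `σw q` and the maps `pr q`, `j q` are existentially quantified:
Top never looks inside them.
-/

set_option autoImplicit false

open CategoryTheory groupCohomology ExtCitation

noncomputable section

namespace Fermat.Agent.CFT.Top.Plan

/-- The image in `Q` of the local Galois group at `q` (the decomposition group of `K` at the
place fixed by the Prelude, when `π : GQ →* Q` models `GQ → Gal(K/ℚ)`). -/
def locImage {Q : Type} [Group Q] (π : GQ →* Q) (q : Nat.Primes) : Subgroup Q :=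
  (π.comp (primeLocalToGlobal q)).range

/-- **[TOPBRIDGE] at the finite level `K ⊇ F`.**  The arithmetic hypotheses of
`Formation.FinDuality` hold for `Q = Gal(K/ℚ)`, `C = (CS S)^{G_K}`, `J = (JS S)^{G_K}`,
`U = Gal(K/F)` and the decomposition groups `Gw q = locImage π q`, `q ∈ S`. -/
def FinLevelData (S : Finset Nat.Primes) (p : ℕ) [Fact p.Prime] (F K : IntermediateField ℚ Qb) :
    Prop :=
  ∃ (Q : Type) (_ : Group Q) (_ : Finite Q) (π : GQ →* Q)
    (C J : Rep.{0} ℤ Q) (ιC : C →+ CS S) (ιJ : J →+ JS S) (πJ : J →+ C) (σ : cocycles₂ C),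
    -- `(Q, C)`, `(Q, J)` are models of `(GQ ⧸ G_K, (CS S)^{G_K})`, `(GQ ⧸ G_K, (JS S)^{G_K})`
    Level.IsFiniteLevel (nLevels S) (CS S) K π C ιC ∧
    Level.IsFiniteLevel (nLevels S) (JS S) K π J ιJ ∧
    (∀ x : J, ιC (πJ x) = (jsProj S).hom (ιJ x)) ∧
    -- the `p`-class module
    Triv.IsPClassModule p C σ ∧
    -- [EX] for `U = π(G_F) = Gal(K/F)`
    (∀ c : C, ∃ c' : C, (∀ u ∈ F.fixingSubgroup.map π, C.ρ u c' = c') ∧
      ∑ᶠ u : ↥(F.fixingSubgroup.map π), C.ρ (u : Q) c = p • c') ∧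
    -- the local data
    ∃ (Gw : ↥S → Subgroup Q) (Cw : ∀ q : ↥S, Rep.{0} ℤ ↥(Gw q)) (σw : ∀ q, cocycles₂ (Cw q))
      (pr : ∀ q, J →+ Cw q) (j : ∀ q, Cw q →+ C),
      (∀ q, Gw q = locImage π q.1) ∧
      (∀ q, Triv.IsPClassModule p (Cw q) (σw q)) ∧
      -- `J = ∏_q coind (Cw q)`
      (∀ q (g : ↥(Gw q)) (x : J), pr q (J.ρ (g : Q) x) = (Cw q).ρ g (pr q x)) ∧
      (∀ x : J, (∀ q g, pr q (J.ρ g x) = 0) → x = 0) ∧
      (∀ f : ∀ q : ↥S, Q → Cw q,
        (∀ q (h : ↥(Gw q)) (g : Q), f q ((h : Q) * g) = (Cw q).ρ h (f q g)) →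
        ∃ x : J, ∀ q g, pr q (J.ρ g x) = f q g) ∧
      -- the local-to-global maps
      (∀ q (g : ↥(Gw q)) (c : Cw q), j q ((Cw q).ρ g c) = C.ρ (g : Q) (j q c)) ∧
      (∀ q (x : J), (∀ q' g, (q' ≠ q ∨ g ∉ Gw q) → pr q' (J.ρ g x) = 0) →
        πJ x = j q (pr q x)) ∧
      -- [LG]
      (∀ q (H : Subgroup ↥(Gw q)), IsPGroup p H → ∃ b : H → C, ∀ g h : H,
        j q (σw q ((g : ↥(Gw q)), (h : ↥(Gw q)))) =
          σ (((g : ↥(Gw q)) : Q), ((h : ↥(Gw q)) : Q)) +
            (C.ρ ((g : ↥(Gw q)) : Q) (b h) - b (g * h) + b g))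

/-- **[TOPBRIDGE]** (Global + Local → Top): the finite-level class-formation data exist at
arbitrarily deep normal `S`-levels above `F` (cofinal form: for every normal `S`-level `K₁ ⊇ F`
there is a normal `S`-level `K ⊇ K₁` carrying the data). -/
def ArithDual (S : Finset Nat.Primes) (p : ℕ) [Fact p.Prime] (F : IntermediateField ℚ Qb) :
    Prop :=
  ∀ K₁ : IntermediateField ℚ Qb, IsNLevel S K₁ → F ≤ K₁ →
    ∃ K : IntermediateField ℚ Qb, IsNLevel S K ∧ K₁ ≤ K ∧ FinLevelData S p F K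

/-- **[Fin]**: every class of `H¹(G_S, A)` has a cocycle representative that is constant on the
cosets of `Gal(ℚ̄/K₀)`, for ONE normal `S`-level `K₀`. -/
def UniformLevel (S : Finset Nat.Primes) {k : Type} [CommRing k] (A : Rep.{0} k GQ) : Prop :=
  ∃ K₀ : IntermediateField ℚ Qb, IsNLevel S K₀ ∧
    ∀ x ∈ continuousH1S S A, ∃ c : cocycles₁ A,
      (∀ g s, s ∈ K₀.fixingSubgroup → c (g * s) = c g) ∧ (H1π A).hom c = x

end Fermat.Agent.CFT.Top.Plan

end
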