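import Fermat.Agent.CFT.Top.Final
import Fermat.Agent.CFT.Top.LocBlockLGI
import Fermat.Agent.CFT.Glob.TopBridge.Provide
import Fermat.Agent.CFT.Glob.TopBridge.DescProvide
import Fermat.Agent.CFT.Global.Provide

/-!
# CFT program, Top layer: S55, fully assembled

Everything that is proved on main, assembled.  The arithmetic contract `Plan.ArithDual S p F`
of `Top/Final.lean` is `Glob.TopBridge.arithDual_of_plan` with every bridge leaf plugged in
([TAU] `Tau.tauInj`, [HDESC] `Desc.hDesc`, [HCAP] `Cap.hCap'`, [LGI-Top]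
`LocBlock.lgInjTop_of_plan`):

* `arithDual_of_props` : from the Global props `ExistPlan.ExistenceModP`, `Plan.ClassDescentS`,
  `Plan.ClassFormationP`, `Plan.SClassCompare`, `Plan.LocalGlobalInj` and
  `ClassDescentS.LocUnitsH1` (pure hypothesis form);
* `arithDual_of_crossing_localGlobalInj`, `s55_of_crossing_localGlobalInj` : from the two
  reciprocity leaves [F0] `Plan.CycloCrossing` and [F2] `Plan.LocalGlobalInj`;
* `arithDual_holds`, `s55_holds` : unconditionally (`Global/Provide.lean`).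
-/

set_option autoImplicit false

open CategoryTheory Module groupCohomology ExtCitation

namespace Fermat.Agent.CFT.Top

/-- **[TOPBRIDGE], fully wired, hypothesis form**: the arithmetic contract at a normal
`S`-level `F ⊇ μ_p` from six props of the Global layer. -/
theorem arithDual_of_props {p : ℕ} [Fact p.Prime] (hp2 : p ≠ 2)
    (S : Finset Nat.Primes) (hpS : pPrime p ∈ S) (F : IntermediateField ℚ Qb)
    (hF : IsNLevel S F) (hμ : F.fixingSubgroup ≤ (cycloChar p).ker)
    (hEX : Global.ExistPlan.ExistenceModP) (hG2 : Global.Plan.ClassDescentS)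
    (hF1 : Global.Plan.ClassFormationP) (hG3 : Global.Plan.SClassCompare)
    (hF2 : Global.Plan.LocalGlobalInj) (hU1 : Global.ClassDescentS.LocUnitsH1) :
    Plan.ArithDual S p F :=
  have hS : S.Nonempty := ⟨_, hpS⟩
  Glob.TopBridge.arithDual_of_plan hp2 S hpS F hF hμ hEX hG2 hF1 hG3
    (fun K _ => Glob.TopBridge.Tau.tauInj S hS K)
    (fun K hK => Glob.TopBridge.Desc.hDesc hU1 S hS K hK)
    (fun K hK => Glob.TopBridge.Cap.hCap' S p hpS K hK)
    (fun K hK => LocBlock.lgInjTop_of_plan hF2 hG3 hp2 S hS K hK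
      (Semilocal.jsInj S) (Semilocal.jsSurj S))

/-- **[TOPBRIDGE], fully wired**: the arithmetic contract at a normal `S`-level `F ⊇ μ_p` from
the two reciprocity leaves [F0] and [F2] of the Global layer. -/
theorem arithDual_of_crossing_localGlobalInj {p : ℕ} [Fact p.Prime] (hp2 : p ≠ 2)
    (S : Finset Nat.Primes) (hpS : pPrime p ∈ S) (F : IntermediateField ℚ Qb)
    (hF : IsNLevel S F) (hμ : F.fixingSubgroup ≤ (cycloChar p).ker)
    (hF0 : Global.Plan.CycloCrossing) (hF2 : Global.Plan.LocalGlobalInj) :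
    Plan.ArithDual S p F :=
  have hF1 : Global.Plan.ClassFormationP :=
    Glob.ClassPField.classFormationP_of_crossing Global.Provide.pGroupAxiom hF0
      Global.Provide.classDescent
  arithDual_of_props hp2 S hpS F hF hμ
    (Global.ExistHolds.existenceModP_of_plan hF1 Global.Provide.locUnitsAcyclic)
    Global.Provide.classDescentS hF1 Global.Provide.sClassCompare hF2 Global.Provide.locUnitsH1

/-- **S55 from the two reciprocity leaves of the Global layer**, [F0] `Plan.CycloCrossing` and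
[F2] `Plan.LocalGlobalInj`. -/
theorem s55_of_crossing_localGlobalInj {p : ℕ} [Fact p.Prime] (hp2 : p ≠ 2)
    (S : Finset Nat.Primes) (hpS : pPrime p ∈ S) (M : Rep.{0} (ZMod p) GQ)
    [FiniteDimensional (ZMod p) M]
    (hsm : ∀ m : M, ∃ F : IntermediateField ℚ Qb, FiniteDimensional ℚ F ∧
      ∀ s ∈ F.fixingSubgroup, M.ρ s m = m)
    (hMur : ∀ q : Nat.Primes, q ∉ S → ∀ A : ValuationSubring Qb,
      A.LiesOverPrime (q : ℕ) → ∀ g ∈ A.inertiaSubgroupIn ℚ, M.ρ g = 1)
    (hF0 : Global.Plan.CycloCrossing) (hF2 : Global.Plan.LocalGlobalInj) :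
    ∃ B : sha₁ S (M.dualTwist (cycloChar p)) →ₗ[ZMod p] sha₂ S M →ₗ[ZMod p] ZMod p,
      (∀ y, (∀ x, B y x = 0) → y = 0) ∧ (∀ x, (∀ y, B y x = 0) → x = 0) :=
  s55_of_arithDual hp2 S hpS M hsm hMur (fun F hF =>
    arithDual_of_crossing_localGlobalInj hp2 S hpS F hF.1 hF.2.2 hF0 hF2)

/-- **The arithmetic contract, unconditionally.** -/
theorem arithDual_holds {p : ℕ} [Fact p.Prime] (hp2 : p ≠ 2)
    (S : Finset Nat.Primes) (hpS : pPrime p ∈ S) (F : IntermediateField ℚ Qb)
    (hF : IsNLevel S F) (hμ : F.fixingSubgroup ≤ (cycloChar p).ker) :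
    Plan.ArithDual S p F :=
  arithDual_of_crossing_localGlobalInj hp2 S hpS F hF hμ
    Global.Provide.cycloCrossing Global.Provide.localGlobalInj

/-- **S55, unconditionally** (the statement of `Fermat/Statements/S55.lean`, in the vocabulary
of the Top layer). -/
theorem s55_holds {p : ℕ} [Fact p.Prime] (hp2 : p ≠ 2)
    (S : Finset Nat.Primes) (hpS : pPrime p ∈ S) (M : Rep.{0} (ZMod p) GQ)
    [FiniteDimensional (ZMod p) M]
    (hsm : ∀ m : M, ∃ F : IntermediateField ℚ Qb, FiniteDimensional ℚ F ∧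
      ∀ s ∈ F.fixingSubgroup, M.ρ s m = m)
    (hMur : ∀ q : Nat.Primes, q ∉ S → ∀ A : ValuationSubring Qb,
      A.LiesOverPrime (q : ℕ) → ∀ g ∈ A.inertiaSubgroupIn ℚ, M.ρ g = 1) :
    ∃ B : sha₁ S (M.dualTwist (cycloChar p)) →ₗ[ZMod p] sha₂ S M →ₗ[ZMod p] ZMod p,
      (∀ y, (∀ x, B y x = 0) → y = 0) ∧ (∀ x, (∀ y, B y x = 0) → x = 0) :=
  s55_of_crossing_localGlobalInj hp2 S hpS M hsm hMur
    Global.Provide.cycloCrossing Global.Provide.localGlobalInj

end Fermat.Agent.CFT.Top
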