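import Fermat.Agent.CFT.Top.SpineDefs
import Fermat.Agent.CFT.Top.LocalDefs
import Fermat.Agent.CFT.Level.LES
import Fermat.Agent.CFT.Level.SLevels

/-!
# P3 / Top layer, SpineC side: `[LIM2]` and `[LIM3]` in level-cohomology form

The semilocal structure of `JS` enters through ONE raw statement (`RawPrim`, the explicit
degree-1 Shapiro chase: a level cocycle `c : G → Hom(R, B)` whose localisations
`pr i ∘ c ∘ r i` are coboundaries is a coboundary).  This file translates it into the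
vocabulary of `Level` (`H1 L A`, `H1add`) and `Top/SpineDefs` (`homR`, `postH`):

* `cocycle_lim3`, `lim3` : a class of `H¹(L, Hom(R, B))` whose localisations vanish is zero
  (`hdet` of `SpineAlg.chaseLevel`);
* `cocycle_lim2`, `lim2` : if moreover the local groups `H¹(L' i, Hom(R, X i))` vanish, then
  `H¹(L, Hom(R, B)) = 0`;
* `RawChase`, `lim3_top`, `lim2_top` : the instances for `G = GQ`, `B = JS S`, `X q = XQ q`;
* `fixed_R0`, `fixed_R1` : a normal level acting trivially on `A` fixes `R0 F A`, `R1 F A`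
  pointwise.
-/

set_option autoImplicit false

open CategoryTheory groupCohomology

noncomputable section

namespace Fermat.Agent.CFT.Top.Lim23

/-! ## Generic groups -/

section Generic

variable {G : Type} [Group G] {ι : Type} {H : ι → Type} [∀ i, Group (H i)]
  (r : ∀ i, H i →* G) (L : Level.LevelSys G) (R B : Rep.{0} ℤ G) (X : ∀ i, Rep.{0} ℤ (H i))
  (pr : ∀ i, B →+ X i)

/-- The raw degree-1 semilocal Shapiro chase for `(R, B, X i, pr i)`: a cocycle
`c : G → Hom(R, B)`, right-invariant under a normal level, whose localisations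
`pr i ∘ c ∘ r i` are the coboundaries of `y i ∈ Hom(R, X i)`, is a coboundary. -/
def RawPrim : Prop :=
  ∀ (c : G → (R →+ B)) (y : ∀ i, R →+ X i),
    (∀ (g h : G) (ρ : R), c (g * h) ρ = c g ρ + B.ρ g (c h (R.ρ g⁻¹ ρ))) →
    (∃ j, L.P j ∧ (L.N j).Normal ∧ ∀ g, ∀ s ∈ L.N j, c (g * s) = c g) →
    (∀ (i : ι) (τ : H i) (ρ : R),
      pr i (c (r i τ) ρ) = (X i).ρ τ (y i (R.ρ (r i τ)⁻¹ ρ)) - y i ρ) →
    ∃ b : R →+ B, ∀ (g : G) (ρ : R), c g ρ = B.ρ g (b (R.ρ g⁻¹ ρ)) - b ρ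

variable {r L R B X pr}

/-- `[LIM3]`, cocycle form. -/
theorem cocycle_lim3 (hprim : RawPrim r L R B X pr) (hcof : L.IsCofinite)
    (c : G → homR (MonoidHom.id G) R B) (hc : c ∈ cocycles₁ (homR (MonoidHom.id G) R B))
    (hlev : Level.IsLC₁ L c)
    (hloc : ∀ i, ∃ y : homR (r i) R (X i),
      (d₀₁ (homR (r i) R (X i))).hom y = fun τ => postH (r i) R (pr i) (c (r i τ))) :
    ∃ b : homR (MonoidHom.id G) R B, (d₀₁ (homR (MonoidHom.id G) R B)).hom b = c := by
  choose y hy using hloc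
  have hcoc := (mem_cocycles₁_iff c).1 hc
  obtain ⟨j, hj, hn, -, hlevj⟩ := Level.LES.exists_normal₁ hcof hlev
  obtain ⟨b, hb⟩ := hprim (fun g => (c g : R →+ B)) (fun i => (y i : R →+ X i))
    (fun g h ρ => by
      have h1 := congrArg (fun φ : R →+ B => φ ρ) (hcoc g h)
      change (c (g * h) : R →+ B) ρ = B.ρ g ((c h : R →+ B) (R.ρ g⁻¹ ρ)) + (c g : R →+ B) ρ at h1
      rw [h1, add_comm])
    ⟨j, hj, hn, fun g s hs => hlevj g s hs⟩
    (fun i τ ρ => by
      have h1 := congrFun (hy i) τ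
      have h2 := congrArg (fun φ : R →+ X i => φ ρ) h1
      change (X i).ρ τ ((y i : R →+ X i) (R.ρ (r i τ⁻¹) ρ)) - (y i : R →+ X i) ρ =
        pr i ((c (r i τ) : R →+ B) ρ) at h2
      rw [← h2, map_inv])
  refine ⟨b, ?_⟩
  funext g
  apply AddMonoidHom.ext
  intro ρ
  exact (hb g ρ).symm

/-- `[LIM3]`, class form: a class of `H¹(L, Hom(R, B))` all of whose localisations in
`H¹(L' i, Hom(R, X i))` vanish is zero. -/
theorem lim3 (hprim : RawPrim r L R B X pr) (hcof : L.IsCofinite)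
    (hpr : ∀ i, Level.Equivar (r i) B (X i) (pr i)) {L' : ∀ i, Level.LevelSys (H i)}
    (hcompat : ∀ i, (L' i).Compat L (r i))
    (y : Level.H1 L (homR (MonoidHom.id G) R B))
    (hy : ∀ i, Level.H1add (r i) (postH (r i) R (pr i)) (postH_equivar (r i) R (pr i) (hpr i))
      (hcompat i) y = 0) : y = 0 := by
  obtain ⟨c, h₁, h₂, rfl⟩ := Level.LES.exists_mk₁ y
  rw [Level.LES.mk₁_eq_zero_iff]
  refine cocycle_lim3 hprim hcof c h₁ h₂ fun i => ?_
  have h := hy i
  rw [Level.LES.H1add_mk₁, Level.LES.mk₁_eq_zero_iff] at h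
  exact h

/-- `[LIM2]`, cocycle form: if every level cocycle of every local group with values in
`Hom(R, X i)` is a coboundary, then every level cocycle of `G` with values in `Hom(R, B)` is a
coboundary. -/
theorem cocycle_lim2 (hprim : RawPrim r L R B X pr) (hcof : L.IsCofinite)
    (hpr : ∀ i, Level.Equivar (r i) B (X i) (pr i)) {L' : ∀ i, Level.LevelSys (H i)}
    (hcompat : ∀ i, (L' i).Compat L (r i))
    (h4 : ∀ i, ∀ c' : H i → homR (r i) R (X i), c' ∈ cocycles₁ (homR (r i) R (X i)) →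
      Level.IsLC₁ (L' i) c' → ∃ y : homR (r i) R (X i), (d₀₁ (homR (r i) R (X i))).hom y = c')
    (c : G → homR (MonoidHom.id G) R B) (hc : c ∈ cocycles₁ (homR (MonoidHom.id G) R B))
    (hlev : Level.IsLC₁ L c) :
    ∃ b : homR (MonoidHom.id G) R B, (d₀₁ (homR (MonoidHom.id G) R B)).hom b = c :=
  cocycle_lim3 hprim hcof c hc hlev fun i =>
    h4 i _ (Level.addPP_mem_cocycles₁ (r i) (postH (r i) R (pr i))
      (postH_equivar (r i) R (pr i) (hpr i)) hc)
      ((Level.IsLC₁.precomp (hcompat i) hlev).comp (postH (r i) R (pr i)) :)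

/-- `[LIM2]`, class form: if the local groups `H¹(L' i, Hom(R, X i))` vanish, then so does
`H¹(L, Hom(R, B))`. -/
theorem lim2 (hprim : RawPrim r L R B X pr) (hcof : L.IsCofinite)
    (hpr : ∀ i, Level.Equivar (r i) B (X i) (pr i)) {L' : ∀ i, Level.LevelSys (H i)}
    (hcompat : ∀ i, (L' i).Compat L (r i))
    (h4 : ∀ i, ∀ z : Level.H1 (L' i) (homR (r i) R (X i)), z = 0)
    (y : Level.H1 L (homR (MonoidHom.id G) R B)) : y = 0 :=
  lim3 hprim hcof hpr hcompat y fun i => h4 i _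

/-- The class form and the cocycle form of the local vanishing hypothesis are equivalent. -/
theorem h1_eq_zero_iff {G' : Type} [Group G'] (L' : Level.LevelSys G') (A : Rep.{0} ℤ G') :
    (∀ z : Level.H1 L' A, z = 0) ↔
      ∀ c' : G' → A, c' ∈ cocycles₁ A → Level.IsLC₁ L' c' → ∃ y : A, (d₀₁ A).hom y = c' := by
  constructor
  · intro h c' h₁ h₂
    exact (Level.LES.mk₁_eq_zero_iff h₁ h₂).1 (h _)
  · intro h z
    obtain ⟨c, h₁, h₂, rfl⟩ := Level.LES.exists_mk₁ z
    exact (Level.LES.mk₁_eq_zero_iff h₁ h₂).2 (h c h₁ h₂)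

end Generic

/-! ## The instances for `GQ`, `JS S`, `XQ q` -/

section TopInst

open ExtCitation

variable (S : Finset Nat.Primes) (R : Rep.{0} ℤ GQ)

/-- `prQ S q` is equivariant along `primeLocalToGlobal q`. -/
lemma prQ_equivar (q : ↥S) :
    Level.Equivar (primeLocalToGlobal q.1) (JS S) (XQ q.1) (prQ S q) :=
  fun τ j => prQ_rho S q τ j

/-- The raw chase on `JS S` (the shape of `Top/Semilocal`'s `exists_primitive`). -/
def RawChase : Prop :=
  ∀ (c : GQ → (R →+ JS S)) (y : ∀ q : ↥S, R →+ XQ q.1),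
    (∀ (g h : GQ) (ρ : R), c (g * h) ρ = c g ρ + (JS S).ρ g (c h (R.ρ g⁻¹ ρ))) →
    (∃ F₁ : IntermediateField ℚ Qb, IsNLevel S F₁ ∧
      ∀ g, ∀ s ∈ F₁.fixingSubgroup, c (g * s) = c g) →
    (∀ (q : ↥S) (τ : primeLocalGaloisGroup q.1) (ρ : R),
      prQ S q (c (primeLocalToGlobal q.1 τ) ρ) =
        (XQ q.1).ρ τ (y q (R.ρ (primeLocalToGlobal q.1 τ)⁻¹ ρ)) - y q ρ) →
    ∃ b : R →+ JS S, ∀ (g : GQ) (ρ : R), c g ρ = (JS S).ρ g (b (R.ρ g⁻¹ ρ)) - b ρ

variable {S R}

lemma rawPrim_of_rawChase (h : RawChase S R) :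
    RawPrim (fun q : ↥S => primeLocalToGlobal q.1) (Level.sLevels S) R (JS S)
      (fun q : ↥S => XQ q.1) (prQ S) := by
  intro c y hcoc hlev hy
  obtain ⟨F, hF, hn, hl⟩ := hlev
  exact h c y hcoc ⟨F, ⟨hF, hn⟩, hl⟩ hy

/-- `[LIM3]` for `JS S`, class form. -/
theorem lim3_top (hprim : RawChase S R)
    (y : Level.H1 (Level.sLevels S) (homR (MonoidHom.id GQ) R (JS S)))
    (hy : ∀ q : ↥S, Level.H1add (primeLocalToGlobal q.1)
      (postH (primeLocalToGlobal q.1) R (prQ S q))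
      (postH_equivar (primeLocalToGlobal q.1) R (prQ S q) (prQ_equivar S q))
      (Level.compat_sLevels S (primeLocalToGlobal q.1)) y = 0) : y = 0 :=
  lim3 (rawPrim_of_rawChase hprim) (Level.isCofinite_sLevels S) (prQ_equivar S)
    (fun q : ↥S => Level.compat_sLevels S (primeLocalToGlobal q.1)) y hy

/-- `[LIM2]` for `JS S`, class form: `H¹(G_S, Hom(R, JS)) = 0` once the local groups
`H¹(G_q, Hom(R, ℚ̄_qˣ))`, `q ∈ S`, vanish. -/
theorem lim2_top (hprim : RawChase S R)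
    (h4 : ∀ q : ↥S, ∀ z : Level.H1 (Level.pullLevels (primeLocalToGlobal q.1))
      (homR (primeLocalToGlobal q.1) R (XQ q.1)), z = 0)
    (y : Level.H1 (Level.sLevels S) (homR (MonoidHom.id GQ) R (JS S))) : y = 0 :=
  lim2 (rawPrim_of_rawChase hprim) (Level.isCofinite_sLevels S) (prQ_equivar S)
    (fun q : ↥S => Level.compat_sLevels S (primeLocalToGlobal q.1)) h4 y

/-- `[LIM3]` for `JS S`, cocycle form. -/
theorem cocycle_lim3_top (hprim : RawChase S R)
    (c : GQ → homR (MonoidHom.id GQ) R (JS S))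
    (hc : c ∈ cocycles₁ (homR (MonoidHom.id GQ) R (JS S)))
    (hlev : Level.IsLC₁ (Level.sLevels S) c)
    (hloc : ∀ q : ↥S, ∃ y : homR (primeLocalToGlobal q.1) R (XQ q.1),
      (d₀₁ (homR (primeLocalToGlobal q.1) R (XQ q.1))).hom y =
        fun τ => postH (primeLocalToGlobal q.1) R (prQ S q) (c (primeLocalToGlobal q.1 τ))) :
    ∃ b : homR (MonoidHom.id GQ) R (JS S), (d₀₁ (homR (MonoidHom.id GQ) R (JS S))).hom b = c :=
  cocycle_lim3 (rawPrim_of_rawChase hprim) (Level.isCofinite_sLevels S) c hc hlev hloc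

/-- `[LIM2]` for `JS S`, cocycle form. -/
theorem cocycle_lim2_top (hprim : RawChase S R)
    (h4 : ∀ q : ↥S, ∀ c' : primeLocalGaloisGroup q.1 → homR (primeLocalToGlobal q.1) R (XQ q.1),
      c' ∈ cocycles₁ (homR (primeLocalToGlobal q.1) R (XQ q.1)) →
      Level.IsLC₁ (Level.pullLevels (primeLocalToGlobal q.1)) c' →
      ∃ y : homR (primeLocalToGlobal q.1) R (XQ q.1),
        (d₀₁ (homR (primeLocalToGlobal q.1) R (XQ q.1))).hom y = c')
    (c : GQ → homR (MonoidHom.id GQ) R (JS S))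
    (hc : c ∈ cocycles₁ (homR (MonoidHom.id GQ) R (JS S)))
    (hlev : Level.IsLC₁ (Level.sLevels S) c) :
    ∃ b : homR (MonoidHom.id GQ) R (JS S), (d₀₁ (homR (MonoidHom.id GQ) R (JS S))).hom b = c :=
  cocycle_lim2 (rawPrim_of_rawChase hprim) (Level.isCofinite_sLevels S) (prQ_equivar S)
    (fun q : ↥S => Level.compat_sLevels S (primeLocalToGlobal q.1)) h4 c hc hlev

end TopInst

/-! ## The resolutions `R0 F A`, `R1 F A` are fixed pointwise by a normal level acting trivially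
on `A` -/

section Fixed

variable {k : Type} [CommRing k] (F : IntermediateField ℚ Qb) (A : Rep.{0} k GQ)

lemma smul_coset_of_normal (hn : F.fixingSubgroup.Normal) (s : GQ) (hs : s ∈ F.fixingSubgroup)
    (x : GQ ⧸ F.fixingSubgroup) : s • x = x := by
  induction x using QuotientGroup.induction_on with
  | _ g =>
    rw [MulAction.Quotient.smul_mk, smul_eq_mul]
    refine QuotientGroup.eq.2 ?_
    have h := hn.conj_mem s⁻¹ (inv_mem hs) g⁻¹
    simpa [mul_assoc] using h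

theorem fixed_R0 (hn : F.fixingSubgroup.Normal) (hA : ∀ s ∈ F.fixingSubgroup, A.ρ s = 1)
    (s : GQ) (hs : s ∈ F.fixingSubgroup) (ρ : R0 F A) : (R0 F A).ρ s ρ = ρ := by
  change r0Rho F A s ρ = ρ
  induction ρ using Finsupp.induction_linear with
  | zero => exact map_zero _
  | add x y hx hy => rw [map_add, hx, hy]
  | single x n =>
    rw [r0Rho_single, smul_coset_of_normal F hn s hs, hA s hs]
    rfl

theorem fixed_R1 (hn : F.fixingSubgroup.Normal) (hA : ∀ s ∈ F.fixingSubgroup, A.ρ s = 1)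
    (s : GQ) (hs : s ∈ F.fixingSubgroup) (ρ : R1 F A) : (R1 F A).ρ s ρ = ρ :=
  Subtype.ext (fixed_R0 F A hn hA s hs (ρ : R0Basis F A →₀ ℤ))

variable {F A} in
/-- The hypothesis `hR` of the raw chase, for `R0 F A` at a good level. -/
theorem exists_fixing_R0 {S : Finset Nat.Primes} {p : ℕ} [Fact p.Prime]
    (hF : IsGoodLevel S A p F) :
    ∃ F₀ : IntermediateField ℚ Qb, IsNLevel S F₀ ∧
      ∀ s ∈ F₀.fixingSubgroup, ∀ ρ : R0 F A, (R0 F A).ρ s ρ = ρ :=
  ⟨F, hF.1, fun s hs ρ => fixed_R0 F A hF.1.2 hF.2.1 s hs ρ⟩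

variable {F A} in
/-- The hypothesis `hR` of the raw chase, for `R1 F A` at a good level. -/
theorem exists_fixing_R1 {S : Finset Nat.Primes} {p : ℕ} [Fact p.Prime]
    (hF : IsGoodLevel S A p F) :
    ∃ F₀ : IntermediateField ℚ Qb, IsNLevel S F₀ ∧
      ∀ s ∈ F₀.fixingSubgroup, ∀ ρ : R1 F A, (R1 F A).ρ s ρ = ρ :=
  ⟨F, hF.1, fun s hs ρ => fixed_R1 F A hF.1.2 hF.2.1 s hs ρ⟩

end Fixed

end Fermat.Agent.CFT.Top.Lim23

end
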