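import Fermat.Agent.CFT.Top.FinModel
import Fermat.Agent.CFT.Local.Provide
import Fermat.Agent.CFT.Local.KrasnerBridge
import Fermat.Agent.CFT.Glob.TopBridge.Transfer

/-!
# P3 / Top layer, [LOCCLASS]: the local class cocycles on the finite-level local modules

`FinModel.CwK S π q` is the module `(ℚ̄_qˣ)^{ker (G_q → Q)}` over the decomposition group
`GwK S π q` (the image of `G_q = Gal(ℚ̄_q/ℚ_q)` in `Q`).  When `ker π = Gal(ℚ̄/K)` for a finite
`K/ℚ`, this pair is `(Gal(E/ℚ_q), Eˣ)` for the finite Galois extension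
`E = ℚ_q · padicEmbedding K` of `ℚ_q`, and the local layer (`Local/Provide`) gives a fundamental
cocycle.

* `isClassAt_of_transport` : transport of `Triv.IsClassAt` along `(α : G₁ →* G₂, β : C₂ ≃ C₁)`;
* `galMap`, `unitsToInv` (section `Galois`): for `Ω/k` Galois, `ψ : Gal(Ω/k) →* Γ` onto with
  kernel `Gal(Ω/E)`, `E/k` finite normal: `Γ ≃ Gal(E/k)` and `Eˣ ≃ (Ωˣ)^{ker ψ}`, equivariantly;
* `exists_locField` : `r_q⁻¹(Gal(ℚ̄/K)) = Gal(ℚ̄_q/E)` with `E/ℚ_q` finite;
* `IsLocFund S π q σw` : `σw` is the transport of a cocycle of `E/ℚ_q` whose class is a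
  fundamental class (`Local.IsFundClass`, invariant `1/[E:ℚ_q]`);
* `IsLocFund.isClassAt`, `IsLocFund.isPClassModule` : the class-module axioms at every subgroup;
* `exists_isLocFund`, `exists_locClass` : existence (for every `q ∈ S`, every prime `p`).
-/

set_option autoImplicit false

open CategoryTheory groupCohomology ExtCitation

noncomputable section

namespace Fermat.Agent.CFT.Top.LocClass

open Fermat.Agent.CFT.Top.FinModel Fermat.Agent.CFT.Triv

/-! ## Transport of the class-module axioms along an isomorphism of modules -/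

section Transport

variable {G₁ G₂ : Type} [Group G₁] [Group G₂] (C₁ : Rep.{0} ℤ G₁) (C₂ : Rep.{0} ℤ G₂)
  (α : G₁ →* G₂) (β : C₂ →+ C₁) (hβ : Function.Bijective β)
  (hβρ : ∀ (g : G₁) (y : C₂), β (C₂.ρ (α g) y) = C₁.ρ g (β y))

include hβρ in
/-- The transported cocycle `(g, h) ↦ β (σ₂ (α g, α h))`. -/
lemma transport_mem_cocycles₂ (σ₂ : cocycles₂ C₂) :
    (fun x : G₁ × G₁ => β (σ₂ (α x.1, α x.2))) ∈ cocycles₂ C₁ := by
  rw [mem_cocycles₂_iff]
  intro g h k
  have e := (mem_cocycles₂_iff (σ₂ : G₂ × G₂ → C₂)).1 σ₂.2 (α g) (α h) (α k)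
  have e2 := congrArg β e
  rw [map_add, map_add, hβρ, ← map_mul, ← map_mul] at e2
  exact e2

include hβ hβρ in
/-- If `(G₂, C₂, σ₂)` satisfies the class-module axioms at `α ∘ f`, then the transported triple
`(G₁, C₁, σ₁)` satisfies them at `f`. -/
theorem isClassAt_of_transport (σ₁ : cocycles₂ C₁) (σ₂ : cocycles₂ C₂)
    (hσ : ∀ g h, σ₁ (g, h) = β (σ₂ (α g, α h))) {H : Type} [Group H] (f : H →* G₁)
    (h : IsClassAt C₂ σ₂ (α.comp f)) : IsClassAt C₁ σ₁ f := by
  obtain ⟨βi, hβi1, hβi2⟩ := Function.bijective_iff_has_inverse.1 hβ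
  have hβinj := hβ.1
  rw [Fermat.Agent.CFT.Glob.TopBridge.isClassAt_iff] at h ⊢
  obtain ⟨h1, h2, h3⟩ := h
  refine ⟨fun c hc => ?_, fun τ hτ => ?_, fun k hk => ?_⟩
  · obtain ⟨a, ha⟩ := h1 (fun g => βi (c g)) (fun g g' => by
      apply hβinj
      rw [map_add, MonoidHom.comp_apply, hβρ, hβi2, hβi2, hβi2]
      exact hc g g')
    refine ⟨β a, fun g => ?_⟩
    have e := congrArg β (ha g)
    rw [hβi2, map_sub, MonoidHom.comp_apply, hβρ] at e
    exact e
  · obtain ⟨k, b, hkb⟩ := h2 (fun x => βi (τ x)) (fun g g' g'' => by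
      apply hβinj
      rw [map_add, map_add, MonoidHom.comp_apply, hβρ, hβi2, hβi2, hβi2, hβi2]
      exact hτ g g' g'')
    refine ⟨k, fun g => β (b g), fun g g' => ?_⟩
    have e := congrArg β (hkb g g')
    rw [hβi2, map_add, map_zsmul, map_add, map_sub, MonoidHom.comp_apply, MonoidHom.comp_apply,
      hβρ] at e
    rw [hσ]
    exact e
  · obtain ⟨b, hb⟩ := hk
    apply h3 k
    refine ⟨fun g => βi (b g), fun g g' => ?_⟩
    apply hβinj
    rw [map_zsmul, map_add, map_sub, MonoidHom.comp_apply, MonoidHom.comp_apply, hβρ, hβi2,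
      hβi2, hβi2, ← hσ]
    exact hb g g'

end Transport

/-! ## The Galois dictionary: invariants of `Ωˣ` under an open normal subgroup -/

section Galois

variable {k Ω : Type} [Field k] [Field Ω] [Algebra k Ω] [IsGalois k Ω]
  {Γ : Type} [Group Γ] (ψ : (Ω ≃ₐ[k] Ω) →* Γ) (hψ : Function.Surjective ψ)
  (E : IntermediateField k Ω) [Normal k E] (hker : ψ.ker = E.fixingSubgroup)

include hker in
lemma ker_le_ker_restrict : ψ.ker ≤ (AlgEquiv.restrictNormalHom (F := k) (K₁ := Ω) E).ker := by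
  rw [IntermediateField.restrictNormalHom_ker, hker]

/-- `Γ ≅ Gal(Ω/k)/Gal(Ω/E) → Gal(E/k)`. -/
def galMap : Γ →* (E ≃ₐ[k] E) :=
  ψ.liftOfSurjective hψ ⟨AlgEquiv.restrictNormalHom (F := k) (K₁ := Ω) E,
    ker_le_ker_restrict ψ E hker⟩

lemma galMap_apply (τ : Ω ≃ₐ[k] Ω) :
    galMap ψ hψ E hker (ψ τ) = AlgEquiv.restrictNormalHom (F := k) (K₁ := Ω) E τ :=
  ψ.liftOfRightInverse_comp_apply _ (Function.rightInverse_surjInv hψ) _ τ

lemma galMap_injective : Function.Injective (galMap ψ hψ E hker) := by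
  rw [injective_iff_map_eq_one]
  intro g hg
  obtain ⟨τ, rfl⟩ := hψ g
  rw [galMap_apply] at hg
  have h1 : τ ∈ (AlgEquiv.restrictNormalHom (F := k) (K₁ := Ω) E).ker := hg
  rw [IntermediateField.restrictNormalHom_ker, ← hker] at h1
  exact h1

lemma galMap_surjective : Function.Surjective (galMap ψ hψ E hker) := by
  intro σ
  obtain ⟨τ, rfl⟩ := AlgEquiv.restrictNormalHom_surjective (F := k) (K₁ := E) Ω σ
  exact ⟨ψ τ, galMap_apply ψ hψ E hker τ⟩

/-- `Eˣ → (Ωˣ)^{Gal(Ω/E)}`. -/
def unitsToInv : Additive Eˣ →+ invRep ψ (Rep.ofAlgebraAutOnUnits k Ω) hψ where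
  toFun u := ⟨Additive.ofMul (Units.map (algebraMap E Ω).toMonoidHom (Additive.toMul u)), by
    intro s hs
    rw [hker] at hs
    refine Additive.toMul.injective (Units.ext ?_)
    exact hs ⟨_, (Additive.toMul u : Eˣ).1.2⟩⟩
  map_zero' := by
    apply Subtype.ext
    change (Additive.ofMul (Units.map (algebraMap E Ω).toMonoidHom 1) : Additive Ωˣ) =
      Additive.ofMul 1
    rw [map_one]
  map_add' u v := by
    apply Subtype.ext
    change (Additive.ofMul (Units.map (algebraMap E Ω).toMonoidHom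
        (Additive.toMul u * Additive.toMul v)) : Additive Ωˣ) =
      Additive.ofMul (Units.map (algebraMap E Ω).toMonoidHom (Additive.toMul u) *
        Units.map (algebraMap E Ω).toMonoidHom (Additive.toMul v))
    rw [map_mul]

lemma unitsToInv_coe (u : Additive Eˣ) :
    (((unitsToInv ψ hψ E hker u : invSub ψ (Rep.ofAlgebraAutOnUnits k Ω)) :
      (Rep.ofAlgebraAutOnUnits k Ω).V) : Additive Ωˣ) =
      Additive.ofMul (Units.map (algebraMap E Ω).toMonoidHom (Additive.toMul u)) := rfl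

lemma unitsToInv_injective : Function.Injective (unitsToInv ψ hψ E hker) := by
  intro u v h
  have h1 := congrArg Subtype.val h
  have h2 : Units.map (algebraMap E Ω).toMonoidHom (Additive.toMul u) =
      Units.map (algebraMap E Ω).toMonoidHom (Additive.toMul v) := congrArg Additive.toMul h1
  have h3 : ((Additive.toMul u : Eˣ) : E) = ((Additive.toMul v : Eˣ) : E) :=
    (algebraMap E Ω).injective (congrArg Units.val h2)
  exact Additive.toMul.injective (Units.ext h3)

lemma unitsToInv_surjective : Function.Surjective (unitsToInv ψ hψ E hker) := by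
  intro x
  have hfix : ∀ (y : Ωˣ), (∀ s ∈ ψ.ker, (Rep.ofAlgebraAutOnUnits k Ω).ρ s (Additive.ofMul y) =
      Additive.ofMul y) → (y : Ω) ∈ E := by
    intro y hy
    rw [← InfiniteGalois.fixedField_fixingSubgroup E, IntermediateField.mem_fixedField_iff]
    intro s hs
    rw [← hker] at hs
    exact congrArg (fun z : Additive Ωˣ => ((Additive.toMul z : Ωˣ) : Ω)) (hy s hs)
  have hx1 : ((Additive.toMul (x.1 : Additive Ωˣ) : Ωˣ) : Ω) ∈ E := hfix _ x.2
  have hx2 : (((Additive.toMul (x.1 : Additive Ωˣ))⁻¹ : Ωˣ) : Ω) ∈ E := by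
    rw [Units.val_inv_eq_inv_val]
    exact E.inv_mem hx1
  let u : Eˣ := ⟨⟨_, hx1⟩, ⟨_, hx2⟩, Subtype.ext (Units.mul_inv _), Subtype.ext (Units.inv_mul _)⟩
  refine ⟨Additive.ofMul u, Subtype.ext ?_⟩
  refine Additive.toMul.injective (Units.ext ?_)
  rfl

/-- `unitsToInv` is equivariant along `galMap`. -/
lemma unitsToInv_ρ (g : Γ) (u : Additive Eˣ) :
    unitsToInv ψ hψ E hker ((Rep.ofAlgebraAutOnUnits k E).ρ (galMap ψ hψ E hker g) u) =
      (invRep ψ (Rep.ofAlgebraAutOnUnits k Ω) hψ).ρ g (unitsToInv ψ hψ E hker u) := by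
  obtain ⟨τ, rfl⟩ := hψ g
  apply Subtype.ext
  rw [invRep_ρ_coe, galMap_apply]
  refine Additive.toMul.injective (Units.ext ?_)
  exact AlgEquiv.restrictNormal_commutes τ E _

end Galois

/-! ## The local field attached to a finite level -/

section LocalField

open Fermat.Agent.CFT.Local IntermediateField Polynomial

variable (q : ℕ) [Fact q.Prime]

/-- For a finite `K/ℚ`, the preimage of `Gal(ℚ̄/K)` in the local Galois group is `Gal(ℚ̄_q/E)` for
a finite extension `E/ℚ_q` (`E = ℚ_q · padicEmbedding K`). -/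
theorem exists_locField (K : IntermediateField ℚ (AlgebraicClosure ℚ)) [FiniteDimensional ℚ K] :
    ∃ E : IntermediateField ℚ_[q] (PadicAlgCl q), FiniteDimensional ℚ_[q] E ∧
      ∀ τ : PadicAlgCl q ≃ₐ[ℚ_[q]] PadicAlgCl q,
        τ ∈ E.fixingSubgroup ↔ localGaloisToGlobal q τ ∈ K.fixingSubgroup := by
  obtain ⟨β, hβ⟩ := Field.exists_primitive_element ℚ K
  refine ⟨ℚ_[q]⟮padicEmbedding q (β : AlgebraicClosure ℚ)⟯,
    adjoin.finiteDimensional (Algebra.IsIntegral.isIntegral _), fun τ => ⟨fun hτ => ?_, fun hτ => ?_⟩⟩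
  · rw [IntermediateField.mem_fixingSubgroup_iff] at hτ ⊢
    have h1 : τ (padicEmbedding q (β : AlgebraicClosure ℚ)) = padicEmbedding q β :=
      hτ _ (mem_adjoin_simple_self ℚ_[q] _)
    have h2 : localGaloisToGlobal q τ (β : AlgebraicClosure ℚ) = β := by
      apply (padicEmbedding q).toRingHom.injective
      change padicEmbedding q _ = padicEmbedding q _
      rw [padicEmbedding_localGaloisToGlobal, h1]
    intro x hx
    have hx' : (⟨x, hx⟩ : K) ∈ ℚ⟮β⟯ := by rw [hβ]; trivial
    obtain ⟨r, s, hrs⟩ := (IntermediateField.mem_adjoin_simple_iff ℚ _).1 hx'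
    have hx2 : x = aeval (β : AlgebraicClosure ℚ) r / aeval (β : AlgebraicClosure ℚ) s := by
      have := congrArg K.val hrs
      rw [map_div₀] at this
      rw [show (β : AlgebraicClosure ℚ) = K.val β from rfl, Polynomial.aeval_algHom_apply,
        Polynomial.aeval_algHom_apply]
      exact this
    rw [hx2, map_div₀, ← AlgEquiv.coe_toAlgHom, ← Polynomial.aeval_algHom_apply,
      ← Polynomial.aeval_algHom_apply, AlgEquiv.coe_toAlgHom, h2]
  · rw [IntermediateField.mem_fixingSubgroup_iff] at hτ ⊢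
    have h1 : localGaloisToGlobal q τ (β : AlgebraicClosure ℚ) = β := hτ _ β.2
    have h2 : τ (padicEmbedding q (β : AlgebraicClosure ℚ)) = padicEmbedding q β := by
      rw [← padicEmbedding_localGaloisToGlobal, h1]
    intro x hx
    exact KrasnerBridge.fixes_adjoin_simple τ _ h2 hx

end LocalField

/-! ## The local class cocycle on the invariants (abstract target group) -/

section Main

open Fermat.Agent.CFT.Local

variable (q : ℕ) [Fact q.Prime] {G Q : Type} [Group G] [Group Q] (π : G →* Q)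
  (r : (PadicAlgCl q ≃ₐ[ℚ_[q]] PadicAlgCl q) →* G)

/-- `Gal(ℚ̄_q/ℚ_q) → image in Q`. -/
abbrev psi : (PadicAlgCl q ≃ₐ[ℚ_[q]] PadicAlgCl q) →* ↥(π.comp r).range :=
  (π.comp r).rangeRestrict

lemma psi_surjective : Function.Surjective (psi q π r) := MonoidHom.rangeRestrict_surjective _

/-- `(ℚ̄_qˣ)^{ker (G_q → Q)}` as a module over the image of `G_q` in `Q`. -/
abbrev CwA : Rep.{0} ℤ ↥(π.comp r).range :=
  invRep (psi q π r) (Rep.ofAlgebraAutOnUnits ℚ_[q] (PadicAlgCl q)) (psi_surjective q π r)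

lemma ker_psi (E : IntermediateField ℚ_[q] (PadicAlgCl q))
    (hE : ∀ τ : PadicAlgCl q ≃ₐ[ℚ_[q]] PadicAlgCl q, τ ∈ E.fixingSubgroup ↔ r τ ∈ π.ker) :
    (psi q π r).ker = E.fixingSubgroup := by
  ext τ
  rw [MonoidHom.mem_ker, hE, MonoidHom.mem_ker]
  constructor
  · intro h
    exact congrArg Subtype.val h
  · intro h
    exact Subtype.ext h

/-- `σw` is a local fundamental cocycle of the level: the transport, through the Galois
dictionary `(image of G_q, (ℚ̄_qˣ)^{ker}) ≅ (Gal(E/ℚ_q), Eˣ)`, of a cocycle `σ₂` of `E/ℚ_q` whose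
class has local invariant `1/[E:ℚ_q]`. -/
def IsFundAt (σw : cocycles₂ (CwA q π r)) : Prop :=
  ∃ (E : IntermediateField ℚ_[q] (PadicAlgCl q)) (_ : FiniteDimensional ℚ_[q] E)
    (_ : Normal ℚ_[q] E) (hker : (psi q π r).ker = E.fixingSubgroup)
    (σ₂ : cocycles₂ (unitsRep ℚ_[q] E)),
    IsFundClass q ℚ_[q] E ((H2π (unitsRep ℚ_[q] E)).hom σ₂) ∧
    ∀ g h, σw (g, h) = unitsToInv (psi q π r) (psi_surjective q π r) E hker
      (σ₂ (galMap (psi q π r) (psi_surjective q π r) E hker g,
        galMap (psi q π r) (psi_surjective q π r) E hker h))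

variable {q π r}

/-- A local fundamental cocycle satisfies the class-module axioms at every subgroup. -/
theorem IsFundAt.isClassAt {σw : cocycles₂ (CwA q π r)} (h : IsFundAt q π r σw)
    (H : Type) [Group H] (f : H →* ↥(π.comp r).range) (hf : Function.Injective f) :
    IsClassAt (CwA q π r) σw f := by
  obtain ⟨E, hfd, hn, hker, σ₂, hfund, hσ⟩ := h
  haveI : IsGalois ℚ_[q] E := ⟨⟩
  have h2 := ClassAt.isClassAt Provide.invBasic Provide.invRes q ℚ_[q] E σ₂ hfund H
    ((galMap (psi q π r) (psi_surjective q π r) E hker).comp f)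
    ((galMap_injective (psi q π r) (psi_surjective q π r) E hker).comp hf)
  exact isClassAt_of_transport (CwA q π r) (unitsRep ℚ_[q] E)
    (galMap (psi q π r) (psi_surjective q π r) E hker)
    (unitsToInv (psi q π r) (psi_surjective q π r) E hker)
    ⟨unitsToInv_injective (psi q π r) (psi_surjective q π r) E hker,
      unitsToInv_surjective (psi q π r) (psi_surjective q π r) E hker⟩
    (unitsToInv_ρ (psi q π r) (psi_surjective q π r) E hker) σw σ₂ hσ f h2

/-- A local fundamental cocycle is a `p`-class cocycle, for every prime `p`. -/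
theorem IsFundAt.isPClassModule {σw : cocycles₂ (CwA q π r)} (h : IsFundAt q π r σw) (p : ℕ) :
    IsPClassModule p (CwA q π r) σw :=
  fun H _ _ f hf _ => h.isClassAt H f hf

variable (q π r)

/-- Local fundamental cocycles exist, as soon as the kernel of `G_q → Q` is `Gal(ℚ̄_q/E)` for a
finite `E/ℚ_q`. -/
theorem exists_isFundAt (E : IntermediateField ℚ_[q] (PadicAlgCl q)) [FiniteDimensional ℚ_[q] E]
    (hE : ∀ τ : PadicAlgCl q ≃ₐ[ℚ_[q]] PadicAlgCl q, τ ∈ E.fixingSubgroup ↔ r τ ∈ π.ker) :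
    ∃ σw : cocycles₂ (CwA q π r), IsFundAt q π r σw := by
  have hker := ker_psi q π r E hE
  have hnormal : E.fixingSubgroup.Normal := hker ▸ MonoidHom.normal_ker _
  haveI hgal : IsGalois ℚ_[q] E := (InfiniteGalois.normal_iff_isGalois E).1 hnormal
  obtain ⟨u, hu⟩ := (Provide.invBasic q ℚ_[q] E).2.2.2.2.2.1
  induction u using H2_induction_on with
  | h σ₂ =>
    refine ⟨⟨_, transport_mem_cocycles₂ (CwA q π r) (unitsRep ℚ_[q] E)
      (galMap (psi q π r) (psi_surjective q π r) E hker)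
      (unitsToInv (psi q π r) (psi_surjective q π r) E hker)
      (unitsToInv_ρ (psi q π r) (psi_surjective q π r) E hker) σ₂⟩,
      E, inferInstance, inferInstance, hker, σ₂, hu, fun g h => rfl⟩

end Main

/-! ## The local class cocycles on the modules `CwK S π q` of `Top/FinModel.lean` -/

section Top

variable (S : Finset Nat.Primes) {Q : Type} [Group Q] (π : GQ →* Q)

/-- `σw` is a local fundamental cocycle on `CwK S π q` (see `IsFundAt`). -/
def IsLocFund (q : ↥S) (σw : cocycles₂ (CwK S π q)) : Prop :=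
  IsFundAt ((q.1 : Nat.Primes) : ℕ) π (primeLocalToGlobal q.1) σw

variable {S π}

/-- A local fundamental cocycle satisfies the class-module axioms at every subgroup of the
decomposition group. -/
theorem IsLocFund.isClassAt {q : ↥S} {σw : cocycles₂ (CwK S π q)} (h : IsLocFund S π q σw)
    (H : Type) [Group H] (f : H →* ↥(GwK S π q)) (hf : Function.Injective f) :
    IsClassAt (CwK S π q) σw f :=
  IsFundAt.isClassAt h H f hf

/-- A local fundamental cocycle is a `p`-class cocycle for every prime `p`. -/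
theorem IsLocFund.isPClassModule {q : ↥S} {σw : cocycles₂ (CwK S π q)}
    (h : IsLocFund S π q σw) (p : ℕ) : IsPClassModule p (CwK S π q) σw :=
  fun H _ _ f hf _ => h.isClassAt H f hf

variable (S π)

/-- **[LOCCLASS]** Local fundamental cocycles exist on `CwK S π q` when `ker π = Gal(ℚ̄/K)` for
a finite `K/ℚ`. -/
theorem exists_isLocFund {K : IntermediateField ℚ Qb} (hfd : FiniteDimensional ℚ K)
    (hker : π.ker = K.fixingSubgroup) (q : ↥S) :
    ∃ σw : cocycles₂ (CwK S π q), IsLocFund S π q σw := by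
  obtain ⟨E, hE1, hE2⟩ := exists_locField ((q.1 : Nat.Primes) : ℕ) K
  exact exists_isFundAt ((q.1 : Nat.Primes) : ℕ) π (primeLocalToGlobal q.1) E
    (fun τ => by rw [hker]; exact hE2 τ)

/-- **[LOCCLASS]**, the form consumed by `FinModel.ArithCore` / `FinModel.locData_of_model`:
a family of local `p`-class cocycles. -/
theorem exists_locClass {K : IntermediateField ℚ Qb} (hfd : FiniteDimensional ℚ K)
    (hker : π.ker = K.fixingSubgroup) :
    ∃ σw : ∀ q : ↥S, cocycles₂ (CwK S π q),
      (∀ q, IsLocFund S π q (σw q)) ∧ ∀ (p : ℕ) (q : ↥S), IsPClassModule p (CwK S π q) (σw q) := by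
  choose σw hσw using exists_isLocFund S π hfd hker
  exact ⟨σw, hσw, fun p q => (hσw q).isPClassModule p⟩

end Top

end Fermat.Agent.CFT.Top.LocClass

end
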