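import Fermat.Agent.CFT.Top.SemilocalInv
import Fermat.Agent.CFT.Top.DualPlan
import Fermat.Agent.CFT.Global.OrbitTransitive
import Fermat.Agent.CFT.Glob.GaloisTensor

/-!
# P3 / [TOPBRIDGE]: [LOCDICT], the dictionary at the place of `ℚ̄` fixed by the Prelude

For a field model `(Q, L, π, e)` of a finite normal `K ⊆ ℚ̄` (`π : GQ →* Q` onto with kernel
`Gal(ℚ̄/K)`, `e : L →+* ℚ̄` with image `K`, compatible actions) and a prime `q`:

* `thetaL q e : L ⊗ ℚ_q →+* ℚ̄_q` is the local component at the place fixed by the Prelude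
  (`x ⊗ c ↦ padicEmbedding q (e x) * c`), `m_q = RingHom.ker (thetaL q e)`;
* `decompGroup_ker_thetaL` [DG] : the decomposition group `Global.decompGroup Q L q m_q` is
  `Top.Plan.locImage π q`, the image of the local Galois group;
* `isMaximal_ker_thetaL`, `exists_smul_mem_ker_thetaL_iff` : `m_q` is maximal and every maximal
  ideal of `L ⊗ ℚ_q` is a translate of `m_q`;
* `range_thetaL` : the image of `thetaL` (the local field `K_w`) is the fixed field of the kernel
  of `G_q → Q`.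

Also the canonical model in helper48's spelling: `lev`, `jsLev`, `isFiniteLevel_jsLev`.
-/

set_option autoImplicit false

namespace Fermat.Agent.CFT.Top.Semilocal

open scoped TensorProduct
open ExtCitation

noncomputable section

/-! ## The local component at the place fixed by the Prelude -/

section ThetaL

variable (q : Nat.Primes) {L : Type} [Field L] [CharZero L] (e : L →+* Qb)

/-- the local component `L ⊗ ℚ_q → ℚ̄_q` at the place of `ℚ̄` fixed by the Prelude -/
def thetaL : Global.SemiLocal L (q : ℕ) →+* PadicAlgCl (q : ℕ) :=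
  (thetaQ q).toRingHom.comp (Global.semiLocalMap (q : ℕ) e)

theorem thetaL_apply (s : Global.SemiLocal L (q : ℕ)) :
    thetaL q e s = thetaQ q (Global.semiLocalMap (q : ℕ) e s : Tq q) := rfl

theorem thetaL_tmul (x : L) (c : ℚ_[(q : ℕ)]) :
    thetaL q e (x ⊗ₜ[ℚ] c) =
      padicEmbedding (q : ℕ) (e x) * algebraMap ℚ_[(q : ℕ)] (PadicAlgCl (q : ℕ)) c :=
  thetaQ_tmul q (e x) c

variable {Q : Type} [Group Q] [MulSemiringAction Q L] (π : GQ →* Q)

/-- `thetaL` after translation by `π γ`, in terms of the action of `γ` on `ℚ̄ ⊗ ℚ_q` -/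
theorem thetaL_smul_global (hequiv : ∀ (g : GQ) (x : L), e (π g • x) = g (e x)) (γ : GQ)
    (s : Global.SemiLocal L (q : ℕ)) :
    thetaL q e (π γ • s) = thetaQ q (γ • (Global.semiLocalMap (q : ℕ) e s : Tq q)) := by
  rw [thetaL_apply, semiLocalMap_smul q e π hequiv]

/-- `thetaL` is equivariant for the local Galois group -/
theorem thetaL_smul (hequiv : ∀ (g : GQ) (x : L), e (π g • x) = g (e x))
    (τ : PadicAlgCl (q : ℕ) ≃ₐ[ℚ_[(q : ℕ)]] PadicAlgCl (q : ℕ))
    (s : Global.SemiLocal L (q : ℕ)) :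
    thetaL q e (π (localGaloisToGlobal (q : ℕ) τ) • s) = τ (thetaL q e s) := by
  rw [thetaL_smul_global q e π hequiv]
  exact thetaQ_smul q τ _

/-- membership in `Plan.locImage` -/
theorem mem_locImage_iff (g : Q) :
    g ∈ Plan.locImage π q ↔
      ∃ τ : PadicAlgCl (q : ℕ) ≃ₐ[ℚ_[(q : ℕ)]] PadicAlgCl (q : ℕ),
        π (localGaloisToGlobal (q : ℕ) τ) = g := Iff.rfl

/-- the characteristic function of the double coset `r_q(G_q) G_K` is coinduced: there is an
element of `L ⊗ ℚ_q` whose local component is `1` and whose translates by `π γ ∉ locImage` have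
local component `0` -/
theorem exists_separating (K : IntermediateField ℚ Qb) [FiniteDimensional ℚ K] [Normal ℚ K]
    (hker : π.ker = K.fixingSubgroup) (hsurj : ∀ y ∈ K, ∃ x : L, e x = y)
    (hequiv : ∀ (g : GQ) (x : L), e (π g • x) = g (e x)) :
    ∃ s : Global.SemiLocal L (q : ℕ), thetaL q e s = 1 ∧
      ∀ γ : GQ, π γ ∉ Plan.locImage π q → thetaL q e (π γ • s) = 0 := by
  classical
  let f : GQ → PadicAlgCl (q : ℕ) := fun h => if π h ∈ Plan.locImage π q then 1 else 0
  have hf : ∀ h, f h = if π h ∈ Plan.locImage π q then 1 else 0 := fun _ => rfl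
  have ha : ∀ h, ∀ n ∈ K.fixingSubgroup, f (h * n) = f h := by
    intro h n hn
    have h1 : π n = 1 := by
      rw [← MonoidHom.mem_ker, hker]
      exact hn
    rw [hf, hf, map_mul, h1, mul_one]
  have hb : ∀ (τ : PadicAlgCl (q : ℕ) ≃ₐ[ℚ_[(q : ℕ)]] PadicAlgCl (q : ℕ)) (h : GQ),
      f (localGaloisToGlobal (q : ℕ) τ * h) = τ (f h) := by
    intro τ h
    have hτ : π (localGaloisToGlobal (q : ℕ) τ) ∈ Plan.locImage π q := ⟨τ, rfl⟩
    have hiff : π (localGaloisToGlobal (q : ℕ) τ * h) ∈ Plan.locImage π q ↔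
        π h ∈ Plan.locImage π q := by
      rw [map_mul]
      exact Subgroup.mul_mem_cancel_left _ hτ
    rw [hf, hf]
    by_cases h1 : π h ∈ Plan.locImage π q
    · rw [if_pos (hiff.mpr h1), if_pos h1, map_one]
    · rw [if_neg (fun h2 => h1 (hiff.mp h2)), if_neg h1, map_zero]
  obtain ⟨t, ht⟩ := exists_thetaQ_eq q K f ha hb
  have htfix : ∀ n ∈ K.fixingSubgroup, n • t = t := by
    intro n hn
    refine eq_of_forall_thetaQ_eq q _ _ fun h => ?_
    rw [smul_smul, ht, ht, ha h n hn]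
  obtain ⟨s, hs⟩ := exists_semiLocalMap_eq q e K hsurj t htfix
  refine ⟨s, ?_, fun γ hγ => ?_⟩
  · have h1 := ht 1
    rw [one_smul] at h1
    rw [thetaL_apply, hs, h1, hf, map_one, if_pos (one_mem _)]
  · rw [thetaL_smul_global q e π hequiv, hs, ht, hf, if_neg hγ]

/-- **[DG]** The decomposition group (`Global/Defs.lean`) of the maximal ideal
`m_q = ker (thetaL q e)` is the image of the local Galois group at `q`. -/
theorem decompGroup_ker_thetaL (K : IntermediateField ℚ Qb) [FiniteDimensional ℚ K] [Normal ℚ K]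
    (hπ : Function.Surjective π) (hker : π.ker = K.fixingSubgroup)
    (hsurj : ∀ y ∈ K, ∃ x : L, e x = y)
    (hequiv : ∀ (g : GQ) (x : L), e (π g • x) = g (e x)) :
    Global.decompGroup Q L (q : ℕ) (RingHom.ker (thetaL q e)) = Plan.locImage π q := by
  ext g
  constructor
  · intro hg
    by_contra hcon
    obtain ⟨γ, rfl⟩ := hπ g
    obtain ⟨s, hs1, hs0⟩ := exists_separating q e π K hker hsurj hequiv
    have h1 := (hg s).mp (by rw [RingHom.mem_ker]; exact hs0 γ hcon)
    rw [RingHom.mem_ker, hs1] at h1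
    exact one_ne_zero h1
  · intro hg
    obtain ⟨τ, rfl⟩ := (mem_locImage_iff q π g).mp hg
    intro x
    rw [RingHom.mem_ker, RingHom.mem_ker, thetaL_smul q e π hequiv]
    exact map_eq_zero_iff _ τ.injective

/-- `m_q = ker (thetaL q e)` is a maximal ideal (`L` a number field). -/
theorem isMaximal_ker_thetaL [NumberField L] : (RingHom.ker (thetaL q e)).IsMaximal := by
  have : IsArtinianRing (Global.SemiLocal L (q : ℕ)) :=
    Glob.GaloisTensor.isArtinianRing ℚ L ℚ_[(q : ℕ)]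
  have : (RingHom.ker (thetaL q e)).IsPrime := RingHom.ker_isPrime _
  exact IsArtinianRing.isMaximal_of_isPrime _

/-- for a field model, the fixed field of `Q` in `L` is `ℚ` -/
theorem mem_range_algebraMap_of_forall_smul
    (hequiv : ∀ (g : GQ) (x : L), e (π g • x) = g (e x)) (y : L) (hy : ∀ g : Q, g • y = y) :
    y ∈ (algebraMap ℚ L).range := by
  have h1 : ∀ γ : GQ, γ (e y) = e y := fun γ => by rw [← hequiv, hy]
  obtain ⟨r, hr⟩ := (InfiniteGalois.mem_range_algebraMap_iff_fixed (e y)).mpr h1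
  refine ⟨r, e.injective ?_⟩
  rw [← hr, eq_ratCast, eq_ratCast, map_ratCast]

/-- **Transitivity**: every maximal ideal of `L ⊗ ℚ_q` is a translate of `m_q`. -/
theorem exists_forall_mem_iff_smul_mem_ker_thetaL [NumberField L] [Fintype Q]
    (hequiv : ∀ (g : GQ) (x : L), e (π g • x) = g (e x))
    (m' : Ideal (Global.SemiLocal L (q : ℕ))) (hm' : m'.IsMaximal) :
    ∃ g : Q, ∀ x : Global.SemiLocal L (q : ℕ), x ∈ m' ↔ g • x ∈ RingHom.ker (thetaL q e) :=
  Global.OrbitTransitive.orbitTransitive Q L (q : ℕ)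
    (mem_range_algebraMap_of_forall_smul e π hequiv) _ m' (isMaximal_ker_thetaL q e) hm'

/-- **The local field.**  The image of `thetaL` (`≅ (L ⊗ ℚ_q)/m_q`) is the fixed field of the
kernel of `G_q → Q`. -/
theorem exists_thetaL_eq_iff (K : IntermediateField ℚ Qb) [FiniteDimensional ℚ K] [Normal ℚ K]
    (hker : π.ker = K.fixingSubgroup) (hsurj : ∀ y ∈ K, ∃ x : L, e x = y)
    (hequiv : ∀ (g : GQ) (x : L), e (π g • x) = g (e x)) (y : PadicAlgCl (q : ℕ)) :
    (∃ s : Global.SemiLocal L (q : ℕ), thetaL q e s = y) ↔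
      ∀ τ : PadicAlgCl (q : ℕ) ≃ₐ[ℚ_[(q : ℕ)]] PadicAlgCl (q : ℕ),
        π (localGaloisToGlobal (q : ℕ) τ) = 1 → τ y = y := by
  classical
  constructor
  · rintro ⟨s, rfl⟩ τ hτ
    rw [← thetaL_smul q e π hequiv, hτ, one_smul]
  · intro hy
    -- the coinduced function `r_q(τ) n ↦ τ y`, zero outside `r_q(G_q) G_K`
    let f : GQ → PadicAlgCl (q : ℕ) := fun h =>
      if hh : π h ∈ Plan.locImage π q then
        (Classical.choose ((mem_locImage_iff q π (π h)).mp hh)) y else 0
    have hwd : ∀ (h : GQ) (τ : PadicAlgCl (q : ℕ) ≃ₐ[ℚ_[(q : ℕ)]] PadicAlgCl (q : ℕ)),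
        π (localGaloisToGlobal (q : ℕ) τ) = π h → f h = τ y := by
      intro h τ hτ
      have hh : π h ∈ Plan.locImage π q := ⟨τ, hτ⟩
      show (if hh : π h ∈ Plan.locImage π q then
        (Classical.choose ((mem_locImage_iff q π (π h)).mp hh)) y else 0) = τ y
      rw [dif_pos hh]
      set τ' := Classical.choose ((mem_locImage_iff q π (π h)).mp hh) with hτ'def
      have hτ' : π (localGaloisToGlobal (q : ℕ) τ') = π h :=
        Classical.choose_spec ((mem_locImage_iff q π (π h)).mp hh)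
      have h1 : π (localGaloisToGlobal (q : ℕ) (τ⁻¹ * τ')) = 1 := by
        rw [map_mul, map_mul, map_inv, map_inv, hτ, hτ', inv_mul_cancel]
      have h2 := hy _ h1
      have h3 : τ ((τ⁻¹ * τ') y) = τ' y := by
        rw [AlgEquiv.mul_apply]
        exact AlgEquiv.apply_symm_apply τ (τ' y)
      rw [← h3, h2]
    have hzero : ∀ h : GQ, π h ∉ Plan.locImage π q → f h = 0 := fun h hh => dif_neg hh
    have ha : ∀ h, ∀ n ∈ K.fixingSubgroup, f (h * n) = f h := by
      intro h n hn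
      have h1 : π n = 1 := by
        rw [← MonoidHom.mem_ker, hker]
        exact hn
      have h2 : π (h * n) = π h := by rw [map_mul, h1, mul_one]
      by_cases hh : π h ∈ Plan.locImage π q
      · obtain ⟨τ, hτ⟩ := (mem_locImage_iff q π (π h)).mp hh
        rw [hwd h τ hτ, hwd (h * n) τ (hτ.trans h2.symm)]
      · rw [hzero h hh, hzero (h * n) (by rw [h2]; exact hh)]
    have hb : ∀ (σ : PadicAlgCl (q : ℕ) ≃ₐ[ℚ_[(q : ℕ)]] PadicAlgCl (q : ℕ)) (h : GQ),
        f (localGaloisToGlobal (q : ℕ) σ * h) = σ (f h) := by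
      intro σ h
      have hσ : π (localGaloisToGlobal (q : ℕ) σ) ∈ Plan.locImage π q := ⟨σ, rfl⟩
      by_cases hh : π h ∈ Plan.locImage π q
      · obtain ⟨τ, hτ⟩ := (mem_locImage_iff q π (π h)).mp hh
        rw [hwd h τ hτ, hwd (localGaloisToGlobal (q : ℕ) σ * h) (σ * τ)
          (by rw [map_mul, map_mul, map_mul, hτ])]
        rfl
      · have hh' : π (localGaloisToGlobal (q : ℕ) σ * h) ∉ Plan.locImage π q := by
          rw [map_mul]
          exact fun h2 => hh ((Subgroup.mul_mem_cancel_left _ hσ).mp h2)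
        rw [hzero h hh, hzero _ hh', map_zero]
    obtain ⟨t, ht⟩ := exists_thetaQ_eq q K f ha hb
    have htfix : ∀ n ∈ K.fixingSubgroup, n • t = t := by
      intro n hn
      refine eq_of_forall_thetaQ_eq q _ _ fun h => ?_
      rw [smul_smul, ht, ht, ha h n hn]
    obtain ⟨s, hs⟩ := exists_semiLocalMap_eq q e K hsurj t htfix
    refine ⟨s, ?_⟩
    have h1 := ht 1
    rw [one_smul] at h1
    rw [thetaL_apply, hs, h1, hwd 1 1 (by rw [map_one])]
    rfl

end ThetaL

/-! ## The canonical model `(Gal(K/ℚ), ↥K, restriction, inclusion)` -/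

section Canonical

open Fermat.Agent.CFT.PlaceDict

variable (q : Nat.Primes) (S : Finset Nat.Primes) (K : IntermediateField ℚ Qb)

/-- `K ⊗ ℚ_q → ℚ̄ ⊗ ℚ_q`, induced by the inclusion `K ⊆ ℚ̄`. -/
def lev : Global.SemiLocal ↥K (q : ℕ) →+* Tq q := Global.semiLocalMap (q : ℕ) K.val.toRingHom

theorem lev_tmul (x : K) (c : ℚ_[(q : ℕ)]) :
    lev q K (x ⊗ₜ[ℚ] c) = ((x : Qb) ⊗ₜ[ℚ] c : Tq q) := rfl

theorem lev_injective : Function.Injective (lev q K) := semiLocalMap_injective q K.val.toRingHom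

/-- transitivity of `lev` along `K ≤ K'` -/
theorem lev_inclusion {K K' : IntermediateField ℚ Qb} (h : K ≤ K')
    (s : Global.SemiLocal ↥K (q : ℕ)) :
    lev q K' (Global.semiLocalMap (q : ℕ) (IntermediateField.inclusion h).toRingHom s) =
      lev q K s :=
  semiLocalMap_semiLocalMap q K.val.toRingHom K'.val.toRingHom
    (IntermediateField.inclusion h).toRingHom (fun _ => rfl) s

/-- `(ℚ̄ ⊗ ℚ_q)^{G_K} = K ⊗ ℚ_q` -/
theorem exists_lev_eq (t : Tq q) (h : ∀ g ∈ K.fixingSubgroup, g • t = t) :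
    ∃ s : Global.SemiLocal ↥K (q : ℕ), lev q K s = t :=
  exists_semiLocalMap_eq q K.val.toRingHom K (fun y hy => ⟨⟨y, hy⟩, rfl⟩) t h

/-- `J_S(K) → JS S` for a normal `S`-level `K` (canonical model). -/
def jsLev (hK : IsNLevel S K) : (Global.sIdeleRep (K ≃ₐ[ℚ] K) ↥K S).V →+ (JS S).V :=
  jsModel S K.val.toRingHom (K ≃ₐ[ℚ] K) K hK (fun x => x.2)

/-- the value formula for `jsLev` -/
theorem jsLev_apply (hK : IsNLevel S K) (x : (Global.sIdeleRep (K ≃ₐ[ℚ] K) ↥K S).V) (q : ↥S) :
    ((Additive.toMul ((jsLev S K hK x : (JS S).V) : JFull S) : ∀ q : ↥S, (Tq q.1)ˣ) q : Tq q.1) =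
      lev q.1 K ((sIdeleVal S (K ≃ₐ[ℚ] K) x q.1 : (Global.SemiLocal ↥K (q.1 : ℕ))ˣ) :
        Global.SemiLocal ↥K (q.1 : ℕ)) := rfl

set_option synthInstance.maxHeartbeats 400000 in
/-- **[JM]**, canonical model. -/
theorem isFiniteLevel_jsLev (hK : IsNLevel S K) [Normal ℚ K] :
    Level.IsFiniteLevel (nLevels S) (JS S) K (res K) (Global.sIdeleRep (K ≃ₐ[ℚ] K) ↥K S)
      (jsLev S K hK) :=
  isFiniteLevel_jsModel_res S K hK

/-- the local component `K ⊗ ℚ_q → ℚ̄_q` is `thetaQ ∘ lev` -/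
theorem thetaL_val (s : Global.SemiLocal ↥K (q : ℕ)) :
    thetaL q K.val.toRingHom s = (thetaQ q).toRingHom.comp (lev q K) s := rfl

set_option synthInstance.maxHeartbeats 400000 in
/-- **[DG]**, canonical model: the decomposition group of
`m_q = ker (thetaQ ∘ lev) ⊆ K ⊗ ℚ_q` in `Gal(K/ℚ)` is the image of the local Galois group. -/
theorem decompGroup_eq_locImage [FiniteDimensional ℚ K] [Normal ℚ K] :
    Global.decompGroup (K ≃ₐ[ℚ] K) ↥K (q : ℕ)
      (RingHom.ker ((thetaQ q).toRingHom.comp (lev q K))) = Plan.locImage (res K) q :=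
  decompGroup_ker_thetaL q K.val.toRingHom (res K) K (res_surjective K)
    (by ext g; exact res_eq_one_iff K g) (fun y hy => ⟨⟨y, hy⟩, rfl⟩) (fun g x => coe_res K g x)

/-- `m_q` is maximal (canonical model) -/
theorem isMaximal_ker_thetaQ_lev [NumberField ↥K] :
    (RingHom.ker ((thetaQ q).toRingHom.comp (lev q K))).IsMaximal :=
  isMaximal_ker_thetaL q K.val.toRingHom

set_option synthInstance.maxHeartbeats 400000 in
/-- **Transitivity**, canonical model: every maximal ideal of `K ⊗ ℚ_q` is a translate of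
`m_q` under `Gal(K/ℚ)`. -/
theorem exists_forall_mem_iff_smul_mem [NumberField ↥K] [Normal ℚ K] [Fintype (K ≃ₐ[ℚ] K)]
    (m' : Ideal (Global.SemiLocal ↥K (q : ℕ))) (hm' : m'.IsMaximal) :
    ∃ g : K ≃ₐ[ℚ] K, ∀ x : Global.SemiLocal ↥K (q : ℕ),
      x ∈ m' ↔ g • x ∈ RingHom.ker ((thetaQ q).toRingHom.comp (lev q K)) :=
  exists_forall_mem_iff_smul_mem_ker_thetaL q K.val.toRingHom (res K)
    (fun g x => coe_res K g x) m' hm'

end Canonical

end

end Fermat.Agent.CFT.Top.Semilocal
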