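import Fermat.Agent.CFT.Top.LocDict

/-!
# P3 / [TOPBRIDGE]: [LOCDICT] (iii), ideles supported at the place fixed by the Prelude

For a field model `(Q, L, π, e)` of a normal `S`-level `K` and `q ∈ S`:

* `eq_one_of_forall_thetaL_smul_eq_one` : a unit of `L ⊗ ℚ_q` all of whose translates have local
  component `1` is `1`;
* `mem_orbitUnits_iff` : for `H ≤ decompGroup Q L q m_q`, the one-place block
  `Global.orbitUnits ↥H L q m_q` consists of the units whose translates by `g ∉ locImage π q`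
  have local component `1`;
* `prQ_rho_jsModel_eq_zero_iff` : the components of the translates of `jsModel x`;
* `supp_iff` : `jsModel x` has trivial components outside the identity coset of `q`
  iff `x_q ∈ Global.orbitUnits ↥H L q m_q` and `x_{q''} = 1` for `q'' ≠ q`.
-/

set_option autoImplicit false

namespace Fermat.Agent.CFT.Top.Semilocal

open scoped TensorProduct
open ExtCitation

noncomputable section

section Pointwise

variable (q : Nat.Primes) {L : Type} [Field L] [CharZero L] (e : L →+* Qb)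
  {Q : Type} [Group Q] [MulSemiringAction Q L] (π : GQ →* Q)

/-- a unit of `L ⊗ ℚ_q` all of whose translates have local component `1` is `1` -/
theorem eq_one_of_forall_thetaL_smul_eq_one
    (hequiv : ∀ (g : GQ) (x : L), e (π g • x) = g (e x)) (x : (Global.SemiLocal L (q : ℕ))ˣ)
    (h : ∀ γ : GQ, thetaL q e (π γ • (x : Global.SemiLocal L (q : ℕ))) = 1) : x = 1 := by
  apply Units.ext
  apply semiLocalMap_injective q e
  refine eq_of_forall_thetaQ_eq q _ _ fun γ => ?_
  rw [← thetaL_smul_global q e π hequiv, h γ, Units.val_one, map_one]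
  have e2 : γ • (1 : Tq q) = 1 := map_one (tqHom q γ)
  rw [e2, map_one]

/-- **The one-place block.**  For `H ≤ decompGroup Q L q m_q`, a unit `x` of `L ⊗ ℚ_q` lies in
`Global.orbitUnits ↥H L q m_q` iff its translates by the `g ∉ locImage π q` have local
component `1`. -/
theorem mem_orbitUnits_iff [NumberField L] [Fintype Q] (K : IntermediateField ℚ Qb)
    [FiniteDimensional ℚ K] [Normal ℚ K] (hπ : Function.Surjective π)
    (hker : π.ker = K.fixingSubgroup) (hsurj : ∀ y ∈ K, ∃ x : L, e x = y)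
    (hequiv : ∀ (g : GQ) (x : L), e (π g • x) = g (e x)) (H : Subgroup Q)
    (hH : H ≤ Global.decompGroup Q L (q : ℕ) (RingHom.ker (thetaL q e)))
    (x : (Global.SemiLocal L (q : ℕ))ˣ) :
    x ∈ Global.orbitUnits ↥H L (q : ℕ) (RingHom.ker (thetaL q e)) ↔
      ∀ g : Q, g ∉ Plan.locImage π q → thetaL q e (g • (x : Global.SemiLocal L (q : ℕ))) = 1 := by
  have hDG := decompGroup_ker_thetaL q e π K hπ hker hsurj hequiv
  have key : ∀ g : Q, thetaL q e (g • (x : Global.SemiLocal L (q : ℕ))) = 1 ↔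
      g • ((x : Global.SemiLocal L (q : ℕ)) - 1) ∈ RingHom.ker (thetaL q e) := by
    intro g
    rw [RingHom.mem_ker, smul_sub, smul_one, map_sub, map_one, sub_eq_zero]
  constructor
  · intro hx g hg
    rw [key]
    -- the maximal ideal `g⁻¹ m_q`
    have hmax : (Ideal.comap (MulSemiringAction.toRingEquiv Q (Global.SemiLocal L (q : ℕ)) g)
        (RingHom.ker (thetaL q e))).IsMaximal :=
      haveI := isMaximal_ker_thetaL q e
      Ideal.comap_isMaximal_of_equiv _
    have hne : ∀ h : ↥H, ∃ a : Global.SemiLocal L (q : ℕ),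
        ¬ (a ∈ Ideal.comap (MulSemiringAction.toRingEquiv Q (Global.SemiLocal L (q : ℕ)) g)
          (RingHom.ker (thetaL q e)) ↔ h • a ∈ RingHom.ker (thetaL q e)) := by
      intro h
      have hg' : g ∉ Global.decompGroup Q L (q : ℕ) (RingHom.ker (thetaL q e)) := by
        rw [hDG]
        exact hg
      rw [Global.mem_decompGroup_iff] at hg'
      push Not at hg'
      obtain ⟨a, ha⟩ := hg'
      refine ⟨a, fun hiff => ?_⟩
      have h1 : (h : Q) • a ∈ RingHom.ker (thetaL q e) ↔ a ∈ RingHom.ker (thetaL q e) :=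
        (Global.mem_decompGroup_iff Q L (q : ℕ) _ (h : Q)).mp (hH h.2) a
      have h2 : g • a ∈ RingHom.ker (thetaL q e) ↔ a ∈ RingHom.ker (thetaL q e) := by
        rw [← h1]
        exact hiff
      rcases ha with ⟨h3, h4⟩ | ⟨h3, h4⟩
      · exact h4 (h2.mp h3)
      · exact h3 (h2.mpr h4)
    exact hx _ hmax hne
  · intro hx m' hm' hne
    obtain ⟨g, hg⟩ := exists_forall_mem_iff_smul_mem_ker_thetaL q e π hequiv m' hm'
    rw [hg, ← key]
    refine hx g fun hgD => ?_
    rw [← hDG] at hgD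
    obtain ⟨a, ha⟩ := hne 1
    apply ha
    have e1 : (1 : ↥H) • a = a := one_smul _ a
    rw [hg, e1]
    exact (Global.mem_decompGroup_iff Q L (q : ℕ) _ g).mp hgD a

end Pointwise

section Supp

variable (S : Finset Nat.Primes) {L : Type} [Field L] [CharZero L] (e : L →+* Qb)
  (Q : Type) [Group Q] [MulSemiringAction Q L] (π : GQ →* Q)
  (K : IntermediateField ℚ Qb) (hK : IsNLevel S K) (he : ∀ x : L, e x ∈ K)

/-- the local component at `q'` of the translate by `γ` of `jsModel x` is trivial iff the local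
component of `π γ • x_{q'}` is `1` -/
theorem prQ_rho_jsModel_eq_zero_iff (hequiv : ∀ (g : GQ) (x : L), e (π g • x) = g (e x))
    (q' : ↥S) (γ : GQ) (x : (Global.sIdeleRep Q L S).V) :
    prQ S q' ((JS S).ρ γ (jsModel S e Q K hK he x)) = 0 ↔
      thetaL q'.1 e (π γ • ((sIdeleVal S Q x q'.1 : (Global.SemiLocal L (q'.1 : ℕ))ˣ) :
        Global.SemiLocal L (q'.1 : ℕ))) = 1 := by
  rw [thetaL_smul_global q'.1 e π hequiv]
  constructor
  · intro h
    have h2 := congrArg (fun y : Additive (PadicAlgCl (q'.1 : ℕ))ˣ =>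
      ((Additive.toMul y : (PadicAlgCl (q'.1 : ℕ))ˣ) : PadicAlgCl (q'.1 : ℕ))) h
    exact h2
  · intro h
    refine Additive.toMul.injective (Units.ext ?_)
    exact h

/-- **[LOCDICT] (iii).**  The element `jsModel x` of `JS S` has trivial components outside the
identity coset of `q` (i.e. at all `q' ≠ q`, and at `q` for the translates by `γ` with
`π γ ∉ locImage π q`) iff `x_q` lies in the one-place block `Global.orbitUnits ↥H L q m_q`
(`H ≤ decompGroup`) and `x_{q''} = 1` for all `q'' ≠ q`. -/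
theorem supp_iff [NumberField L] [Fintype Q] (hπ : Function.Surjective π)
    (hker : π.ker = K.fixingSubgroup) (hsurj : ∀ y ∈ K, ∃ x : L, e x = y)
    (hequiv : ∀ (g : GQ) (x : L), e (π g • x) = g (e x)) (q : ↥S) (H : Subgroup Q)
    (hH : H ≤ Global.decompGroup Q L (q.1 : ℕ) (RingHom.ker (thetaL q.1 e)))
    (x : (Global.sIdeleRep Q L S).V) :
    (∀ (q' : ↥S) (γ : GQ), (q' ≠ q ∨ π γ ∉ Plan.locImage π q.1) →
        prQ S q' ((JS S).ρ γ (jsModel S e Q K hK he x)) = 0) ↔
      (sIdeleVal S Q x q.1 ∈ Global.orbitUnits ↥H L (q.1 : ℕ) (RingHom.ker (thetaL q.1 e)) ∧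
        ∀ q'' : Nat.Primes, q'' ≠ q.1 → sIdeleVal S Q x q'' = 1) := by
  have := finiteDimensional_of_isNLevel S hK
  have := normal_of_isNLevel S hK
  have hmem := mem_orbitUnits_iff q.1 e π K hπ hker hsurj hequiv H hH (sIdeleVal S Q x q.1)
  constructor
  · intro h
    refine ⟨hmem.mpr fun g hg => ?_, fun q'' hq'' => ?_⟩
    · obtain ⟨γ, rfl⟩ := hπ g
      exact (prQ_rho_jsModel_eq_zero_iff S e Q π K hK he hequiv q γ x).mp (h q γ (Or.inr hg))
    · by_cases hS : q'' ∈ S
      · refine eq_one_of_forall_thetaL_smul_eq_one q'' e π hequiv _ fun γ => ?_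
        have hne : (⟨q'', hS⟩ : ↥S) ≠ q := fun h1 => hq'' (congrArg Subtype.val h1)
        exact (prQ_rho_jsModel_eq_zero_iff S e Q π K hK he hequiv ⟨q'', hS⟩ γ x).mp
          (h ⟨q'', hS⟩ γ (Or.inl hne))
      · exact sIdeleVal_mem S Q x q'' hS
  · rintro ⟨h1, h2⟩ q' γ hor
    rw [prQ_rho_jsModel_eq_zero_iff S e Q π K hK he hequiv]
    by_cases hq : q' = q
    · subst hq
      rcases hor with hor | hor
      · exact absurd rfl hor
      · exact hmem.mp h1 (π γ) hor
    · have hne : q'.1 ≠ q.1 := fun h3 => hq (Subtype.ext h3)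
      rw [h2 q'.1 hne, Units.val_one, smul_one, map_one]

end Supp

/-! ## The canonical model -/

section Canonical

open Fermat.Agent.CFT.PlaceDict

set_option synthInstance.maxHeartbeats 400000 in
/-- **[LOCDICT] (iii)** for the canonical model `(Gal(K/ℚ), ↥K, restriction, inclusion)`. -/
theorem supp_iff_lev (S : Finset Nat.Primes) (K : IntermediateField ℚ Qb) (hK : IsNLevel S K)
    [NumberField ↥K] [Normal ℚ K] [Fintype (K ≃ₐ[ℚ] K)] (q : ↥S) (H : Subgroup (K ≃ₐ[ℚ] K))
    (hH : H ≤ Global.decompGroup (K ≃ₐ[ℚ] K) ↥K (q.1 : ℕ)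
      (RingHom.ker ((thetaQ q.1).toRingHom.comp (lev q.1 K))))
    (x : (Global.sIdeleRep (K ≃ₐ[ℚ] K) ↥K S).V) :
    (∀ (q' : ↥S) (γ : GQ), (q' ≠ q ∨ res K γ ∉ Plan.locImage (res K) q.1) →
        prQ S q' ((JS S).ρ γ (jsLev S K hK x)) = 0) ↔
      (sIdeleVal S (K ≃ₐ[ℚ] K) x q.1 ∈ Global.orbitUnits ↥H ↥K (q.1 : ℕ)
          (RingHom.ker ((thetaQ q.1).toRingHom.comp (lev q.1 K))) ∧
        ∀ q'' : Nat.Primes, q'' ≠ q.1 → sIdeleVal S (K ≃ₐ[ℚ] K) x q'' = 1) :=
  supp_iff S K.val.toRingHom (K ≃ₐ[ℚ] K) (res K) K hK (fun x => x.2) (res_surjective K)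
    (by ext g; exact res_eq_one_iff K g) (fun y hy => ⟨⟨y, hy⟩, rfl⟩) (fun g x => coe_res K g x)
    q H hH x

end Canonical

end

end Fermat.Agent.CFT.Top.Semilocal
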