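import Fermat.Agent.CFT.Top.LocalDefs
import Fermat.Agent.CFT.Level.Defs
import Fermat.Agent.CFT.Local.KrasnerBridge
import Fermat.Agent.CFT.Local.ClassAt

/-!
# P3 / Top layer: the local class module on finite-level local models  ([LOCBRIDGE])

For a prime `q`, `G_q = Gal(ℚ̄_q/ℚ_q)` and any finite-level model `(Γ, φ, C, ι)` of `ℚ̄_qˣ`
(`φ : G_q →* Γ` onto with open kernel `N`, `ι : C ↪ ℚ̄_qˣ` `φ`-equivariant with image the
`N`-invariants), `(Γ, C)` is isomorphic to `(Gal(E/ℚ_q), Eˣ)` for the finite Galois extension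
`E = (ℚ̄_q)^N`, hence is a class module (from the Local layer).

* `isClassAt_of_iso` : transport of `Triv.IsClassAt` along an isomorphism of (group, module).
* `exists_iso_unitsRep` : the identification with `(Gal(E/ℚ_q), Eˣ)`.
* `exists_classModule` : the class-module statement for every `Level.IsFiniteLevel` model of
  `XQ q` for the levels pulled back along `primeLocalToGlobal q`.
-/

set_option autoImplicit false

open CategoryTheory ExtCitation groupCohomology

noncomputable section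

namespace Fermat.Agent.CFT.Top.LocalClass

/-! ## Transport of the class-module axioms along an isomorphism -/

section Transport

variable {G G' : Type} [Group G] [Group G'] (C : Rep.{0} ℤ G) (C' : Rep.{0} ℤ G')
  (e : G ≃* G') (α : C ≃+ C') (hα : ∀ (g : G) (c : C), α (C.ρ g c) = C'.ρ (e g) (α c))

include hα in
lemma symm_rho (g : G) (c' : C') : α.symm (C'.ρ (e g) c') = C.ρ g (α.symm c') := by
  apply α.injective
  rw [hα, AddEquiv.apply_symm_apply, AddEquiv.apply_symm_apply]

include hα in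
lemma pull_mem_cocycles₂ (σ' : cocycles₂ C') :
    (fun gh : G × G => α.symm (σ' (e gh.1, e gh.2))) ∈ cocycles₂ C := by
  rw [mem_cocycles₂_iff]
  intro g h j
  have h1 := (mem_cocycles₂_iff (σ' : G' × G' → C')).1 σ'.2 (e g) (e h) (e j)
  change α.symm (σ' (e (g * h), e j)) + α.symm (σ' (e g, e h)) =
    C.ρ g (α.symm (σ' (e h, e j))) + α.symm (σ' (e g, e (h * j)))
  rw [← symm_rho C C' e α hα, ← AddEquiv.map_add α.symm, ← AddEquiv.map_add α.symm, map_mul,
    map_mul, h1]

/-- The pull-back of a 2-cocycle along an isomorphism of (group, module). -/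
def pullCocycle (σ' : cocycles₂ C') : cocycles₂ C :=
  ⟨fun gh : G × G => α.symm (σ' (e gh.1, e gh.2)), pull_mem_cocycles₂ C C' e α hα σ'⟩

lemma pullCocycle_apply (σ' : cocycles₂ C') (g h : G) :
    α (pullCocycle C C' e α hα σ' (g, h)) = σ' (e g, e h) :=
  α.apply_symm_apply _

/-- **Transport of the class-module axioms** along an isomorphism `(G, C) ≅ (G', C')`. -/
theorem isClassAt_of_iso (σ' : cocycles₂ C') {H : Type} [Group H] (f : H →* G)
    (h : Triv.IsClassAt C' σ' (e.toMonoidHom.comp f)) :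
    Triv.IsClassAt C (pullCocycle C C' e α hα σ') f := by
  have hρ : ∀ (x : H) (c : C), α ((Rep.res f C).ρ x c) =
      (Rep.res (e.toMonoidHom.comp f) C').ρ x (α c) := fun x c => hα (f x) c
  refine ⟨?_, ?_, ?_⟩
  · intro c
    have hc' : (fun x : H => α (c x)) ∈ cocycles₁ (Rep.res (e.toMonoidHom.comp f) C') := by
      rw [mem_cocycles₁_iff]
      intro x y
      have h1 := (mem_cocycles₁_iff (c : H → Rep.res f C)).1 c.2 x y
      rw [← hρ, ← AddEquiv.map_add α]
      exact congrArg α h1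
    obtain ⟨a', ha'⟩ := h.h1 ⟨_, hc'⟩
    refine ⟨α.symm a', ?_⟩
    funext x
    apply α.injective
    have h2 := congrFun ha' x
    rw [d₀₁_hom_apply] at h2 ⊢
    rw [AddEquiv.map_sub α, hρ, AddEquiv.apply_symm_apply]
    exact h2
  · intro τ
    have hτ' : (fun x : H × H => α (τ x)) ∈ cocycles₂ (Rep.res (e.toMonoidHom.comp f) C') := by
      rw [mem_cocycles₂_iff]
      intro x y z
      have h1 := (mem_cocycles₂_iff (τ : H × H → Rep.res f C)).1 τ.2 x y z
      rw [← hρ, ← AddEquiv.map_add α, ← AddEquiv.map_add α]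
      exact congrArg α h1
    obtain ⟨k, b', hb'⟩ := h.gen ⟨_, hτ'⟩
    refine ⟨k, fun x => α.symm (b' x), ?_⟩
    funext ⟨x, y⟩
    apply α.injective
    have h2 := congrFun hb' (x, y)
    simp only [Pi.add_apply, Pi.smul_apply, Function.comp_apply, Prod.map_apply,
      d₁₂_hom_apply] at h2 ⊢
    rw [AddEquiv.map_add α, map_zsmul, pullCocycle_apply, AddEquiv.map_add α,
      AddEquiv.map_sub α, hρ, AddEquiv.apply_symm_apply, AddEquiv.apply_symm_apply,
      AddEquiv.apply_symm_apply]
    exact h2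
  · rintro k ⟨b, hb⟩
    refine h.ord k ⟨fun x => α (b x), ?_⟩
    funext ⟨x, y⟩
    have h2 := congrArg α (congrFun hb (x, y))
    simp only [Pi.smul_apply, Function.comp_apply, Prod.map_apply, d₁₂_hom_apply] at h2 ⊢
    rw [map_zsmul, pullCocycle_apply, AddEquiv.map_add α, AddEquiv.map_sub α, hρ] at h2
    exact h2

end Transport

/-! ## Galois theory of `ℚ̄_q / ℚ_q`: open normal subgroups -/

section Galois

variable {k Ω : Type} [Field k] [Field Ω] [Algebra k Ω]

/-- A subgroup containing the fixing subgroup of a finite subextension is the fixing subgroup of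
its fixed field. -/
lemma fixingSubgroup_fixedField_of_le [IsGalois k Ω] (N : Subgroup (Ω ≃ₐ[k] Ω))
    (E₀ : IntermediateField k Ω) [FiniteDimensional k E₀] (hE₀ : E₀.fixingSubgroup ≤ N) :
    (IntermediateField.fixedField N).fixingSubgroup = N := by
  have hopen : IsOpen (N : Set (Ω ≃ₐ[k] Ω)) :=
    Subgroup.isOpen_mono hE₀ E₀.fixingSubgroup_isOpen
  exact InfiniteGalois.fixingSubgroup_fixedField ⟨N, Subgroup.isClosed_of_isOpen N hopen⟩

/-- The fixed field of a subgroup containing the fixing subgroup of a finite subextension is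
finite. -/
lemma finiteDimensional_fixedField_of_le [IsGalois k Ω] (N : Subgroup (Ω ≃ₐ[k] Ω))
    (E₀ : IntermediateField k Ω) [FiniteDimensional k E₀] (hE₀ : E₀.fixingSubgroup ≤ N) :
    FiniteDimensional k (IntermediateField.fixedField N) := by
  have hle : IntermediateField.fixedField N ≤ E₀ := by
    rw [← InfiniteGalois.fixedField_fixingSubgroup E₀]
    exact IntermediateField.fixedField_antitone hE₀
  let _ : Algebra (IntermediateField.fixedField N) E₀ :=
    RingHom.toAlgebra (IntermediateField.inclusion hle)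
  have : IsScalarTower k (IntermediateField.fixedField N) E₀ :=
    IsScalarTower.of_algebraMap_eq (fun _ => rfl)
  exact FiniteDimensional.left k (IntermediateField.fixedField N) E₀

/-- Units of an intermediate field, inside the units of the big field. -/
def unitsIncl (E : IntermediateField k Ω) : Additive Eˣ →+ Additive Ωˣ :=
  MonoidHom.toAdditive (Units.map (E.val : E →* Ω))

lemma unitsIncl_injective (E : IntermediateField k Ω) : Function.Injective (unitsIncl E) := by
  intro a b h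
  have h1 : Units.map (E.val : E →* Ω) (Additive.toMul a) =
      Units.map (E.val : E →* Ω) (Additive.toMul b) := h
  have h2 : ((Additive.toMul a : Eˣ) : E) = ((Additive.toMul b : Eˣ) : E) :=
    Subtype.ext (congrArg Units.val h1)
  exact congrArg Additive.ofMul (Units.ext h2)

lemma val_unitsIncl (E : IntermediateField k Ω) (v : Additive Eˣ) :
    ((Additive.toMul (unitsIncl E v) : Ωˣ) : Ω) = ((Additive.toMul v : Eˣ) : E) := rfl

lemma exists_unitsIncl_eq (E : IntermediateField k Ω) (x : Additive Ωˣ)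
    (hx : ((Additive.toMul x : Ωˣ) : Ω) ∈ E) : ∃ v : Additive Eˣ, unitsIncl E v = x := by
  have h0 : (⟨((Additive.toMul x : Ωˣ) : Ω), hx⟩ : E) ≠ 0 := by
    intro h
    exact (Additive.toMul x : Ωˣ).ne_zero (congrArg Subtype.val h)
  refine ⟨Additive.ofMul (Units.mk0 _ h0), ?_⟩
  apply Additive.toMul.injective
  exact Units.ext rfl

/-- **Identification of a finite-level model with `(Gal(E/k), Eˣ)`.**  Let `Ω/k` be Galois,
`φ : Gal(Ω/k) →* Γ` onto with kernel containing the fixing subgroup of a finite subextension,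
and `ι : C ↪ Ωˣ` a `φ`-equivariant embedding of a `Γ`-module with image the `ker φ`-invariants.
Then `E = Ω^{ker φ}` is finite Galois over `k` and `(Γ, C) ≅ (Gal(E/k), Eˣ)`. -/
theorem exists_iso_unitsRep [IsGalois k Ω] {Γ : Type} [Group Γ] (φ : (Ω ≃ₐ[k] Ω) →* Γ)
    (hφ : Function.Surjective φ) (C : Rep.{0} ℤ Γ) (ι : C →+ Additive Ωˣ)
    (E₀ : IntermediateField k Ω) [FiniteDimensional k E₀] (hE₀ : E₀.fixingSubgroup ≤ φ.ker)
    (hequiv : ∀ (g : Ω ≃ₐ[k] Ω) (c : C),
      ι (C.ρ (φ g) c) = (Rep.ofAlgebraAutOnUnits k Ω).ρ g (ι c))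
    (hinj : Function.Injective ι)
    (hfix : ∀ x : Additive Ωˣ,
      (∀ s ∈ φ.ker, (Rep.ofAlgebraAutOnUnits k Ω).ρ s x = x) → ∃ c, ι c = x) :
    ∃ (E : IntermediateField k Ω) (_ : FiniteDimensional k E) (_ : IsGalois k E)
      (e : Γ ≃* (E ≃ₐ[k] E)) (α : C ≃+ Additive Eˣ),
      ∀ (γ : Γ) (c : C), α (C.ρ γ c) = (Rep.ofAlgebraAutOnUnits k E).ρ (e γ) (α c) := by
  classical
  have hfd : FiniteDimensional k (IntermediateField.fixedField φ.ker) :=
    finiteDimensional_fixedField_of_le φ.ker E₀ hE₀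
  have hgal : IsGalois k (IntermediateField.fixedField φ.ker) := inferInstance
  have hfix' : (IntermediateField.fixedField φ.ker).fixingSubgroup = φ.ker :=
    fixingSubgroup_fixedField_of_le φ.ker E₀ hE₀
  obtain ⟨E, hE⟩ : ∃ E : IntermediateField k Ω, E = IntermediateField.fixedField φ.ker :=
    ⟨_, rfl⟩
  rw [← hE] at hfd hgal hfix'
  let ρE : (Ω ≃ₐ[k] Ω) →* (E ≃ₐ[k] E) := AlgEquiv.restrictNormalHom E
  have hρsurj : Function.Surjective ρE := AlgEquiv.restrictNormalHom_surjective Ω
  have hρker : ρE.ker = φ.ker := (IntermediateField.restrictNormalHom_ker E).trans hfix'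
  -- the group isomorphism
  let e₁ : Γ →* (E ≃ₐ[k] E) := φ.liftOfSurjective hφ ⟨ρE, hρker.ge⟩
  let e₂ : (E ≃ₐ[k] E) →* Γ := ρE.liftOfSurjective hρsurj ⟨φ, hρker.le⟩
  have he₁ : ∀ g, e₁ (φ g) = ρE g := fun g =>
    MonoidHom.liftOfRightInverse_comp_apply _ _ _ _ g
  have he₂ : ∀ g, e₂ (ρE g) = φ g := fun g =>
    MonoidHom.liftOfRightInverse_comp_apply _ _ _ _ g
  let e : Γ ≃* (E ≃ₐ[k] E) := MonoidHom.toMulEquiv e₁ e₂
    (MonoidHom.ext fun γ => by
      obtain ⟨g, rfl⟩ := hφ γ
      rw [MonoidHom.comp_apply, he₁, he₂, MonoidHom.id_apply])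
    (MonoidHom.ext fun γ => by
      obtain ⟨g, rfl⟩ := hρsurj γ
      rw [MonoidHom.comp_apply, he₂, he₁, MonoidHom.id_apply])
  have he : ∀ g, e (φ g) = ρE g := he₁
  -- the module isomorphism
  have hmem : ∀ c : C, ((Additive.toMul (ι c) : Ωˣ) : Ω) ∈ E := by
    intro c
    rw [hE, IntermediateField.mem_fixedField_iff]
    intro n hn
    have h0 : C.ρ 1 c = c := by
      rw [map_one]
      rfl
    have h1 := hequiv n c
    rw [MonoidHom.mem_ker.1 hn, h0] at h1
    exact (congrArg (fun x : Additive Ωˣ => ((Additive.toMul x : Ωˣ) : Ω)) h1).symm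
  have h1 : ∀ c : C, ∃ v : Additive Eˣ, unitsIncl E v = ι c := fun c =>
    exists_unitsIncl_eq E _ (hmem c)
  choose a ha using h1
  have hjinj := unitsIncl_injective E
  have hsurj : ∀ v : Additive Eˣ, ∃ c : C, ι c = unitsIncl E v := by
    intro v
    apply hfix
    intro s hs
    have hs' : s ∈ E.fixingSubgroup := by rw [hfix']; exact hs
    apply Additive.toMul.injective
    apply Units.ext
    exact (IntermediateField.mem_fixingSubgroup_iff E s).1 hs' _
      (SetLike.coe_mem ((Additive.toMul v : Eˣ) : E))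
  let α₀ : C →+ Additive Eˣ :=
    { toFun := a
      map_zero' := hjinj (by rw [ha, map_zero, map_zero])
      map_add' := fun x y => hjinj (by rw [ha, map_add, map_add, ha, ha]) }
  have hbij : Function.Bijective α₀ := by
    refine ⟨fun x y h => hinj ?_, fun v => ?_⟩
    · rw [← ha x, ← ha y]
      exact congrArg (unitsIncl E) h
    · obtain ⟨c, hc⟩ := hsurj v
      exact ⟨c, hjinj (by rw [← hc]; exact ha c)⟩
  refine ⟨E, hfd, hgal, e, AddEquiv.ofBijective α₀ hbij, ?_⟩
  intro γ c
  obtain ⟨g, rfl⟩ := hφ γ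
  apply hjinj
  change unitsIncl E (a (C.ρ (φ g) c)) =
    unitsIncl E ((Rep.ofAlgebraAutOnUnits k E).ρ (e (φ g)) (a c))
  rw [ha, hequiv, ← ha c, he]
  apply Additive.toMul.injective
  apply Units.ext
  exact (AlgEquiv.restrictNormal_commutes g E _).symm

end Galois

/-! ## The local class module on finite-level models -/

section Main

open Fermat.Agent.CFT.Local

variable (hIB : Local.Plan.InvBasic) (hIR : Local.Plan.InvRes)

lemma H2π_surj {G : Type} [Group G] (A : Rep.{0} ℤ G) (u : H2 A) :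
    ∃ σ : cocycles₂ A, (H2π A).hom σ = u :=
  H2_induction_on (C := fun u => ∃ σ : cocycles₂ A, (H2π A).hom σ = u) u fun σ => ⟨σ, rfl⟩

include hIB hIR in
/-- The class-module statement for a finite-level model of `ℚ̄_qˣ` (raw form). -/
theorem exists_classModule_core (q : ℕ) [Fact q.Prime] {Γ : Type} [Group Γ]
    (φ : (PadicAlgCl q ≃ₐ[ℚ_[q]] PadicAlgCl q) →* Γ) (hφ : Function.Surjective φ)
    (C : Rep.{0} ℤ Γ) (ι : C →+ Additive (PadicAlgCl q)ˣ)
    (E₀ : IntermediateField ℚ_[q] (PadicAlgCl q)) [FiniteDimensional ℚ_[q] E₀]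
    (hE₀ : E₀.fixingSubgroup ≤ φ.ker)
    (hequiv : ∀ (g : PadicAlgCl q ≃ₐ[ℚ_[q]] PadicAlgCl q) (c : C),
      ι (C.ρ (φ g) c) = (Rep.ofAlgebraAutOnUnits ℚ_[q] (PadicAlgCl q)).ρ g (ι c))
    (hinj : Function.Injective ι)
    (hfix : ∀ x : Additive (PadicAlgCl q)ˣ,
      (∀ s ∈ φ.ker, (Rep.ofAlgebraAutOnUnits ℚ_[q] (PadicAlgCl q)).ρ s x = x) → ∃ c, ι c = x) :
    ∃ σ : cocycles₂ C, ∀ (H : Type) [Group H] (f : H →* Γ), Function.Injective f →
      Triv.IsClassAt C σ f := by
  obtain ⟨E, hfd, hgal, e, α, hα⟩ := exists_iso_unitsRep φ hφ C ι E₀ hE₀ hequiv hinj hfix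
  obtain ⟨u, hu⟩ := (hIB q ℚ_[q] E).2.2.2.2.2.1
  obtain ⟨σE, rfl⟩ := H2π_surj (unitsRep ℚ_[q] E) u
  refine ⟨pullCocycle C (unitsRep ℚ_[q] E) e α hα σE, fun H _ f hf => ?_⟩
  apply isClassAt_of_iso
  exact ClassAt.isClassAt hIB hIR q ℚ_[q] E σE hu H (e.toMonoidHom.comp f)
    (e.injective.comp hf)

include hIB hIR in
/-- **[LOCBRIDGE] = (A3).**  Every finite-level model `(Γ, φ, C, ι)` of `XQ q = ℚ̄_qˣ` for the
levels pulled back along `primeLocalToGlobal q` carries a 2-cocycle satisfying the class-module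
axioms at every subgroup. -/
theorem exists_classModule (q : Nat.Primes) (K : IntermediateField ℚ Qb) {Γ : Type} [Group Γ]
    (φ : primeLocalGaloisGroup q →* Γ) (C : Rep.{0} ℤ Γ) (ι : C →+ XQ q)
    (h : Level.IsFiniteLevel (Level.pullLevels (primeLocalToGlobal q)) (XQ q) K φ C ι) :
    ∃ σ : cocycles₂ C, ∀ (H : Type) [Group H] (f : H →* Γ), Function.Injective f →
      Triv.IsClassAt C σ f := by
  have hK : FiniteDimensional ℚ K := h.isLevel
  obtain ⟨E₀, hE₀fd, hE₀⟩ := KrasnerBridge.exists_local_level (q : ℕ) K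
  refine exists_classModule_core hIB hIR (q : ℕ) φ h.surjective C ι E₀ ?_ h.equivar h.injective ?_
  · intro τ hτ
    have h1 : (τ : primeLocalGaloisGroup q) ∈
        (Level.pullLevels (primeLocalToGlobal q)).N K := hE₀ τ hτ
    exact (SetLike.ext_iff.1 h.ker_eq τ).2 h1
  · intro x hx
    exact h.exists_of_fixed x (fun s hs => hx s ((SetLike.ext_iff.1 h.ker_eq s).2 hs))

include hIB hIR in
/-- The same, as a `p`-class module for every `p`. -/
theorem exists_pClassModule (q : Nat.Primes) (K : IntermediateField ℚ Qb) {Γ : Type} [Group Γ]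
    (φ : primeLocalGaloisGroup q →* Γ) (C : Rep.{0} ℤ Γ) (ι : C →+ XQ q)
    (h : Level.IsFiniteLevel (Level.pullLevels (primeLocalToGlobal q)) (XQ q) K φ C ι) :
    ∃ σ : cocycles₂ C, ∀ p : ℕ, Triv.IsPClassModule p C σ := by
  obtain ⟨σ, hσ⟩ := exists_classModule hIB hIR q K φ C ι h
  exact ⟨σ, fun p H _ _ f hf _ => hσ H f hf⟩

end Main

end Fermat.Agent.CFT.Top.LocalClass

end
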