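import Fermat.Agent.CFT.Top.LocalLim
import Fermat.Agent.CFT.Top.SpinePlan

/-!
# P3 / Top layer: the local contracts of `Top/SpinePlan.lean`, proved

* `xqKummer p q : SpinePlan.XQKummer p q`;
* `h1ZeroLocal S F A : SpinePlan.H1ZeroLocal S F A`  ([LIM4]);
* `smoothQ S F A … : SpinePlan.SmoothQ S F A`;
* `isSES_local_of_torsion`, `rowSES_local` : the local half of `SpinePlan.RowSES`, for any
  global `iM` of the form `iM m (c, m') = (m' m).val • z` with `z` a `p`-torsion element of
  `ES S` whose images `jEQ S q z` are nonzero.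
-/

set_option autoImplicit false

open CategoryTheory ExtCitation groupCohomology

noncomputable section

namespace Fermat.Agent.CFT.Top.LocalLim

open Fermat.Agent.CFT.Level Fermat.Agent.CFT.Top.SpinePlan

/-- A nonzero `p`-torsion element of `XQ q` is a primitive `p`-th root of unity. -/
lemma isPrimitiveRoot_toUnit (p : ℕ) [Fact p.Prime] (q : Nat.Primes) (x : XQ q)
    (hx : p • x = 0) (hx0 : x ≠ 0) : IsPrimitiveRoot (toUnit q x) p := by
  have h1 : toUnit q x ^ p = 1 := congrArg (toUnit q) hx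
  have h2 : toUnit q x ≠ 1 := fun h => hx0 (toUnit_injective q h)
  have h3 : orderOf (toUnit q x) = p := by
    rcases (Nat.dvd_prime (Fact.out : p.Prime)).1 (orderOf_dvd_of_pow_eq_one h1) with h | h
    · exact absurd (orderOf_eq_one_iff.1 h) h2
    · exact h
  rw [← h3]
  exact IsPrimitiveRoot.orderOf _

/-- **[XQKummer]** `ℚ̄_qˣ` is `p`-divisible and its `p`-torsion is cyclic of order `p`. -/
theorem xqKummer (p : ℕ) [Fact p.Prime] (q : Nat.Primes) : XQKummer p q := by
  refine ⟨fun x => ?_, fun x y hx hy hx0 => ?_⟩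
  · obtain ⟨v, hv⟩ := Local.Hilbert90Fun.exists_pow_eq_unit (q : ℕ) p
      (Fact.out : p.Prime).ne_zero (toUnit q x)
    exact ⟨ofUnit q v, by rw [← ofUnit_pow, hv, ofUnit_toUnit]⟩
  · have hprim := isPrimitiveRoot_toUnit p q x hx hx0
    obtain ⟨k, hk⟩ := exists_zetaPow_eq q (toUnit q x) hprim y hy
    refine ⟨k.val, ?_⟩
    rw [← hk, zetaPow_apply, ofUnit_pow, ofUnit_toUnit]

/-- **[LIM4]** in the form of `Top/SpinePlan.lean`. -/
theorem h1ZeroLocal (S : Finset Nat.Primes) (F : IntermediateField ℚ Qb) {k : Type} [CommRing k]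
    (A : Rep.{0} k GQ) : H1ZeroLocal S F A :=
  fun q x => H1_homR_R0_eq_zero q.1 F A x

/-- **[SmoothQ]** in the form of `Top/SpinePlan.lean`. -/
theorem smoothQ (S : Finset Nat.Primes) (F : IntermediateField ℚ Qb) {k : Type} [CommRing k]
    (A : Rep.{0} k GQ) [FiniteDimensional ℚ F] (hFn : F.fixingSubgroup.Normal)
    (hFA : ∀ s ∈ F.fixingSubgroup, A.ρ s = 1) [Finite A.V] : SmoothQ S F A :=
  fun q => isSmooth_homR_R0 q.1 F A hFn hFA

/-- **[SmoothQ]** for a good level and a finite-dimensional `M`. -/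
theorem smoothQ_of_isGoodLevel {p : ℕ} [Fact p.Prime] (S : Finset Nat.Primes)
    (M : Rep.{0} (ZMod p) GQ) [FiniteDimensional (ZMod p) M] (F : IntermediateField ℚ Qb)
    (hF : IsGoodLevel S (M.dualTwist (cycloChar p)) p F) :
    SmoothQ S F (M.dualTwist (cycloChar p)) := by
  have h1 : FiniteDimensional ℚ F := hF.1.1.1
  have h2 : Finite (Module.Dual (ZMod p) M) := Module.finite_of_finite (ZMod p)
  exact smoothQ S F (M.dualTwist (cycloChar p)) hF.1.2 hF.2.1

/-- **[LIM1], local row**, torsion-element form: for a nonzero `p`-torsion element `z` of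
`ℚ̄_qˣ` and any additive `i : M → Hom_ℤ(R0 F M', ℚ̄_qˣ)` with `i m (c, m') = (m' m).val • z`,
the local row is a short exact sequence. -/
theorem isSES_local_of_torsion {p : ℕ} [Fact p.Prime] (q : Nat.Primes)
    (F : IntermediateField ℚ Qb) (M : Rep.{0} (ZMod p) GQ) [FiniteDimensional (ZMod p) M]
    (z : XQ q) (hz : p • z = 0) (hz0 : z ≠ 0)
    (i : Rep.res (primeLocalToGlobal q) M →+ A0Q F (M.dualTwist (cycloChar p)) q)
    (hi : ∀ (m : M) (t : R0Basis F (M.dualTwist (cycloChar p))),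
      (i m : (R0Basis F (M.dualTwist (cycloChar p)) →₀ ℤ) →+ (XQ q).V) (Finsupp.single t 1) =
        ((t.2 : Module.Dual (ZMod p) M) m).val • z) :
    IsSES (Rep.res (primeLocalToGlobal q) M) (A0Q F (M.dualTwist (cycloChar p)) q)
      (A1Q F (M.dualTwist (cycloChar p)) q) i (rowQ F (M.dualTwist (cycloChar p)) q) :=
  isSES_local q F M (toUnit q z) (isPrimitiveRoot_toUnit p q z hz hz0) i
    (fun m t => by rw [hi, ofUnit_pow, ofUnit_toUnit])

/-- **The local half of [RowSES]**: if `iM : M → Hom_ℤ(R0 F M', ES)` is given on the basis by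
`iM m (c, m') = (m' m).val • z` for a `p`-torsion `z : ES S` with `jEQ S q z ≠ 0` for all
`q ∈ S`, then all the local rows are short exact sequences. -/
theorem rowSES_local {p : ℕ} [Fact p.Prime] (S : Finset Nat.Primes)
    (M : Rep.{0} (ZMod p) GQ) [FiniteDimensional (ZMod p) M] (F : IntermediateField ℚ Qb)
    (z : ES S) (hz : p • z = 0) (hzq : ∀ q : ↥S, jEQ S q z ≠ 0)
    (iM : M →+ A0 F (M.dualTwist (cycloChar p)) (ES S))
    (hiM : ∀ (m : M) (t : R0Basis F (M.dualTwist (cycloChar p))),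
      (iM m : (R0Basis F (M.dualTwist (cycloChar p)) →₀ ℤ) →+ (ES S).V) (Finsupp.single t 1) =
        ((t.2 : Module.Dual (ZMod p) M) m).val • z) :
    ∀ q : ↥S, IsSES (Rep.res (primeLocalToGlobal q.1) M)
      (A0Q F (M.dualTwist (cycloChar p)) q.1) (A1Q F (M.dualTwist (cycloChar p)) q.1)
      ((locE S (R0 F (M.dualTwist (cycloChar p))) q).comp iM)
      (rowQ F (M.dualTwist (cycloChar p)) q.1) := by
  intro q
  refine isSES_local_of_torsion q.1 F M (jEQ S q z) ?_ (hzq q) _ ?_
  · rw [← map_nsmul, hz, map_zero]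
  · intro m t
    change jEQ S q ((iM m : (R0Basis F (M.dualTwist (cycloChar p)) →₀ ℤ) →+ (ES S).V)
      (Finsupp.single t 1)) = _
    rw [hiM, map_nsmul]

end Fermat.Agent.CFT.Top.LocalLim

end
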