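import Mathlib

/-!
# Extending homomorphisms into a `p`-divisible group along a `p`-torsion quotient

`exists_extend_of_pdiv` : let `R = T →₀ ℤ` be a free abelian group, `K ≤ R` a subgroup with
`p • R ≤ K` (i.e. `R ⧸ K` is killed by `p`) and `X` a `p`-divisible abelian group.  Then every
additive map `K → X` extends to `R`.  (`Ext¹(R ⧸ K, X) = 0`; no finiteness, no divisibility
of `X` by other primes.)
-/

set_option autoImplicit false

namespace Fermat.Agent.CFT.Top.PDivExtend

variable {T X : Type*} [AddCommGroup X] (p : ℕ) [Fact p.Prime]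

/-- Reduction mod `p` of the coefficients. -/
noncomputable def red (T : Type*) (p : ℕ) : (T →₀ ℤ) →+ (T →₀ ZMod p) :=
  Finsupp.mapRange.addMonoidHom (Int.castAddHom (ZMod p))

lemma red_apply (r : T →₀ ℤ) (t : T) : red T p r t = ((r t : ℤ) : ZMod p) := rfl

/-- The kernel of reduction mod `p` is `p • R`. -/
lemma exists_eq_nsmul_of_red_eq_zero (r : T →₀ ℤ) (h : red T p r = 0) :
    ∃ r' : T →₀ ℤ, r = p • r' := by
  have hp0 : (p : ℤ) ≠ 0 := by exact_mod_cast (Fact.out : p.Prime).ne_zero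
  refine ⟨r.mapRange (fun n => n / (p : ℤ)) (by simp), ?_⟩
  ext t
  have h1 : ((r t : ℤ) : ZMod p) = 0 := by
    have := DFunLike.congr_fun h t
    simpa [red_apply] using this
  have h2 : (p : ℤ) ∣ r t := (ZMod.intCast_zmod_eq_zero_iff_dvd _ _).1 h1
  rw [Finsupp.smul_apply, Finsupp.mapRange_apply, nsmul_eq_mul]
  exact (Int.mul_ediv_cancel' h2).symm

/-- Additive maps between `ZMod p`-vector spaces extend from subgroups. -/
lemma exists_extend_zmod {V Y : Type*} [AddCommGroup V] [Module (ZMod p) V] [AddCommGroup Y]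
    [Module (ZMod p) Y] (W : AddSubgroup V) (f : W →+ Y) :
    ∃ g : V →+ Y, ∀ w : W, g (w : V) = f w := by
  let W' : Submodule (ZMod p) V := AddSubgroup.toZModSubmodule p W
  let f' : W' →+ Y :=
    { toFun := fun w => f ⟨w.1, w.2⟩
      map_zero' := map_zero f
      map_add' := fun a b => map_add f ⟨a.1, a.2⟩ ⟨b.1, b.2⟩ }
  obtain ⟨g, hg⟩ := LinearMap.exists_extend (AddMonoidHom.toZModLinearMap p f')
  refine ⟨g.toAddMonoidHom, fun w => ?_⟩
  have h3 := LinearMap.congr_fun hg (⟨w.1, w.2⟩ : W')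
  exact h3

/-- **Extension along a `p`-torsion quotient into a `p`-divisible group.** -/
theorem exists_extend_of_pdiv (K : AddSubgroup (T →₀ ℤ)) (hK : ∀ r : T →₀ ℤ, p • r ∈ K)
    (hX : ∀ x : X, ∃ y : X, p • y = x) (ψ : K →+ X) :
    ∃ φ : (T →₀ ℤ) →+ X, ∀ k : K, φ (k : T →₀ ℤ) = ψ k := by
  classical
  -- first approximation
  choose x hx using fun t : T => hX (ψ ⟨p • Finsupp.single t 1, hK _⟩)
  let φ₀ : (T →₀ ℤ) →+ X := Finsupp.liftAddHom (fun t => zmultiplesHom X (x t))
  have hφ₀ : ∀ (t : T) (n : ℤ), φ₀ (Finsupp.single t n) = n • x t := by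
    intro t n
    simp [φ₀]
  let θ : K →+ X := ψ - φ₀.comp K.subtype
  have hθ : ∀ k : K, θ k = ψ k - φ₀ (k : T →₀ ℤ) := fun k => rfl
  -- `θ` kills `p • R`
  have hθp : ∀ r : T →₀ ℤ, θ ⟨p • r, hK r⟩ = 0 := by
    let η : (T →₀ ℤ) →+ X :=
      { toFun := fun r => θ ⟨p • r, hK r⟩
        map_zero' := by
          have : (⟨p • (0 : T →₀ ℤ), hK 0⟩ : K) = 0 := Subtype.ext (smul_zero _)
          rw [this, map_zero]
        map_add' := fun a b => by
          have : (⟨p • (a + b), hK (a + b)⟩ : K) = ⟨p • a, hK a⟩ + ⟨p • b, hK b⟩ :=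
            Subtype.ext (smul_add _ _ _)
          rw [this, map_add] }
    have hη : η = 0 := by
      apply Finsupp.addHom_ext
      intro t n
      change θ ⟨p • Finsupp.single t n, hK _⟩ = 0
      have e : (⟨p • Finsupp.single t n, hK _⟩ : K) = n • ⟨p • Finsupp.single t 1, hK _⟩ := by
        apply Subtype.ext
        rw [AddSubgroup.coe_zsmul]
        ext s
        simp [Finsupp.single_apply]
        split_ifs <;> ring
      have e2 : φ₀ (p • Finsupp.single t 1) = p • x t := by
        rw [map_nsmul, hφ₀, one_smul]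
      rw [e, map_zsmul, hθ, ← hx t]
      change n • (p • x t - φ₀ (p • Finsupp.single t 1)) = 0
      rw [e2, sub_self, smul_zero]
    intro r
    exact DFunLike.congr_fun hη r
  -- `θ` takes values in the `p`-torsion
  let Y : AddSubgroup X := (nsmulAddMonoidHom (α := X) p).ker
  have hY : ∀ y : Y, p • y = 0 := fun y => Subtype.ext y.2
  have hθY : ∀ k : K, θ k ∈ Y := by
    intro k
    change p • θ k = 0
    rw [← map_nsmul]
    exact hθp (k : T →₀ ℤ)
  let θY : K →+ Y := θ.codRestrict Y hθY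
  let _ : Module (ZMod p) Y := AddCommGroup.zmodModule hY
  -- descend to the image of `K` in `T →₀ ZMod p`
  let W : AddSubgroup (T →₀ ZMod p) := K.map (red T p)
  let redK : K →+ W := (red T p).addSubgroupMap K
  have hredK : Function.Surjective redK := (red T p).addSubgroupMap_surjective K
  have hker : redK.ker ≤ θY.ker := by
    intro k hk
    rw [AddMonoidHom.mem_ker] at hk ⊢
    have h1 : red T p (k : T →₀ ℤ) = 0 := congrArg Subtype.val hk
    obtain ⟨r', hr'⟩ := exists_eq_nsmul_of_red_eq_zero p _ h1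
    apply Subtype.ext
    change θ k = 0
    have : k = ⟨p • r', hK r'⟩ := Subtype.ext hr'
    rw [this]
    exact hθp r'
  let θW : W →+ Y := redK.liftOfSurjective hredK ⟨θY, hker⟩
  have hθW : ∀ k : K, θW (redK k) = θY k := fun k =>
    AddMonoidHom.liftOfRightInverse_comp_apply _ _ _ _ k
  -- extend over the field `ZMod p`
  obtain ⟨g, hg⟩ := exists_extend_zmod p W θW
  refine ⟨φ₀ + (Y.subtype.comp g).comp (red T p), fun k => ?_⟩
  have h2 : g (red T p (k : T →₀ ℤ)) = θY k := (hg (redK k)).trans (hθW k)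
  change φ₀ (k : T →₀ ℤ) + ((g (red T p (k : T →₀ ℤ)) : Y) : X) = ψ k
  rw [h2]
  change φ₀ (k : T →₀ ℤ) + θ k = ψ k
  rw [hθ]
  abel

end Fermat.Agent.CFT.Top.PDivExtend
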