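import Mathlib
import Fermat.Agent.CFT.Top.LocalDefs
import Fermat.Agent.CFT.Bridge.PlaceDict

/-!
# P3 / Top layer, [TOPBRIDGE](i) = [JSCOIND]: the semilocal structure of `JS S`

`JS S` (the `S`-ideles of `ℚ_S`, `Top/Defs.lean`) is the smooth part of
`∏_{q ∈ S} CoInd_{G_q}^{GQ} ℚ̄_qˣ`, the coinduction being along `primeLocalToGlobal q`:

* `jFull_ext`  (injectivity): an element of `JFull S` is determined by the components
  `prFull S q (g • j)` of its translates at the distinguished places;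
* `exists_jS`  (surjectivity): every family `φ q : GQ → ℚ̄_qˣ` (`q ∈ S`) which is right-invariant
  under `Gal(ℚ̄/F)` for a normal `S`-level `F` and equivariant on the left for the local Galois
  groups is `g ↦ prQ S q (g • j)` for a `j : JS S` fixed by `Gal(ℚ̄/F)`.

The same statements one prime at a time, on `Tq q = ℚ̄ ⊗ ℚ_q` (`F/ℚ` finite normal):
`eq_of_forall_thetaQ_eq`, `exists_thetaQ_eq`, `exists_unit_thetaQ_eq`, and the finite-level
representation `exists_tsum_eq` (every element of `ℚ̄ ⊗ ℚ_q` is `∑ i, b i ⊗ c i` for a `ℚ`-basis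
`b` of a finite Galois `F`).

Proof: Dedekind independence of characters (the matrix `(ι (h (b i)))_{h,i}` of the conjugates
of a basis is invertible over `ℚ̄_q`, `isUnit_conjMatrix`) and Galois descent of the solution
vector to `ℚ_q` (`exists_coeff_of_equivariant`; the fixed field of `Gal(ℚ̄_q/ℚ_q)` is `ℚ_q`).
No valuations, no Krasner.
-/

set_option autoImplicit false

namespace Fermat.Agent.CFT.Top.Semilocal

section Abstract

open Matrix

variable {K L Ω : Type*} [Field K] [Field L] [Field Ω] [Algebra K L] [Algebra K Ω]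

/-- The matrix `(ι (h (b i)))_{h,i}` of the conjugates of a basis. -/
def conjMatrix (ι : L →ₐ[K] Ω) {κ : Type*} (b : κ → L) : Matrix (L ≃ₐ[K] L) κ Ω :=
  Matrix.of fun h i => ι (h (b i))

theorem conjMatrix_apply (ι : L →ₐ[K] Ω) {κ : Type*} (b : κ → L) (h : L ≃ₐ[K] L) (i : κ) :
    conjMatrix ι b h i = ι (h (b i)) := rfl

/-- **Dedekind.** The matrix of conjugates of a basis (indexed by the Galois group) is
invertible. -/
theorem isUnit_conjMatrix [Fintype (L ≃ₐ[K] L)] [DecidableEq (L ≃ₐ[K] L)] (ι : L →ₐ[K] Ω)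
    (b : Module.Basis (L ≃ₐ[K] L) K L) : IsUnit (conjMatrix ι b) := by
  rw [← Matrix.linearIndependent_rows_iff_isUnit]
  -- the family `h ↦ ι ∘ h` of `K`-linear maps `L → Ω` is `Ω`-linearly independent
  have hinj : Function.Injective (fun h : L ≃ₐ[K] L => ι.comp (h : L →ₐ[K] L)) := by
    intro h h' hh
    ext x
    have := congrArg (fun f : L →ₐ[K] Ω => f x) hh
    exact ι.injective this
  have hli : LinearIndependent Ω
      (fun h : L ≃ₐ[K] L => (ι.comp (h : L →ₐ[K] L)).toLinearMap) :=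
    (linearIndependent_toLinearMap K L Ω).comp _ hinj
  rw [Fintype.linearIndependent_iff] at hli ⊢
  intro c hc h
  refine hli c ?_ h
  apply b.ext
  intro i
  have := congrFun hc i
  simpa [Matrix.row, conjMatrix, Finset.sum_apply] using this

/-- **Galois descent of the coinduced system.**  Let `f` be a function on the Galois group of
`L/K` with values in `Ω`, equivariant for a group `Δ` acting on `Ω` (with fixed field `K'`) and
on the Galois group through `ρ`.  Then `f h = ∑ i, ι (h (b i)) * c i` with coefficients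
`c i ∈ K'`. -/
theorem exists_coeff_of_equivariant {K' : Type*} [Field K'] [Algebra K' Ω]
    [Fintype (L ≃ₐ[K] L)] [DecidableEq (L ≃ₐ[K] L)]
    (ι : L →ₐ[K] Ω) (b : Module.Basis (L ≃ₐ[K] L) K L)
    {Δ : Type*} (act : Δ → (Ω →+* Ω)) (ρ : Δ → (L ≃ₐ[K] L))
    (hι : ∀ (τ : Δ) (x : L), act τ (ι x) = ι (ρ τ x))
    (hfix : ∀ x : Ω, (∀ τ, act τ x = x) → x ∈ Set.range (algebraMap K' Ω))
    (f : (L ≃ₐ[K] L) → Ω) (hf : ∀ (τ : Δ) (h : L ≃ₐ[K] L), act τ (f h) = f (ρ τ * h)) :
    ∃ c : (L ≃ₐ[K] L) → K', ∀ h, ∑ i, ι (h (b i)) * algebraMap K' Ω (c i) = f h := by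
  have hM := isUnit_conjMatrix ι b
  have hdet : IsUnit (conjMatrix ι b).det := (Matrix.isUnit_iff_isUnit_det _).mp hM
  set M := conjMatrix ι b with hMdef
  let y : (L ≃ₐ[K] L) → Ω := M⁻¹.mulVec f
  have hy : M.mulVec y = f := by
    show M.mulVec (M⁻¹.mulVec f) = f
    rw [Matrix.mulVec_mulVec, Matrix.mul_nonsing_inv _ hdet, Matrix.one_mulVec]
  have hinj : Function.Injective M.mulVec := Matrix.mulVec_injective_iff_isUnit.mpr hM
  have hyfix : ∀ (τ : Δ) (i : L ≃ₐ[K] L), act τ (y i) = y i := by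
    intro τ
    have h1 : M.mulVec (fun i => act τ (y i)) = f := by
      funext h
      have h2 : h = ρ τ * ((ρ τ)⁻¹ * h) := by group
      rw [h2, ← hf, ← hy]
      simp only [Matrix.mulVec, dotProduct, hMdef, conjMatrix_apply, map_sum, map_mul, hι]
      rfl
    have h3 : (fun i => act τ (y i)) = y := hinj (h1.trans hy.symm)
    exact fun i => congrFun h3 i
  choose c hc using fun i => hfix (y i) (fun τ => hyfix τ i)
  refine ⟨c, fun h => ?_⟩
  have := congrFun hy h
  simp only [Matrix.mulVec, dotProduct, hMdef, conjMatrix_apply] at this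
  rw [← this]
  exact Finset.sum_congr rfl fun i _ => by rw [hc i]

/-- Uniqueness: a vector of coefficients in `Ω` killed by all conjugate rows is zero. -/
theorem eq_zero_of_forall_sum_eq_zero [Fintype (L ≃ₐ[K] L)] [DecidableEq (L ≃ₐ[K] L)]
    (ι : L →ₐ[K] Ω) (b : Module.Basis (L ≃ₐ[K] L) K L) (y : (L ≃ₐ[K] L) → Ω)
    (h : ∀ h : L ≃ₐ[K] L, ∑ i, ι (h (b i)) * y i = 0) : y = 0 := by
  have hM := isUnit_conjMatrix ι b
  have hinj : Function.Injective (conjMatrix ι b).mulVec :=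
    Matrix.mulVec_injective_iff_isUnit.mpr hM
  apply hinj
  rw [Matrix.mulVec_zero]
  funext g
  simpa [Matrix.mulVec, dotProduct, conjMatrix_apply] using h g

end Abstract

open scoped TensorProduct
open Fermat.Agent.CFT.PlaceDict

noncomputable section

/-- a basis of a finite Galois extension indexed by its Galois group -/
def galBasis (F : IntermediateField ℚ Qb) [FiniteDimensional ℚ F] [Normal ℚ F] :
    Module.Basis (F ≃ₐ[ℚ] F) ℚ F :=
  haveI : IsGalois ℚ F := ⟨⟩
  (Module.finBasis ℚ F).reindex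
    (Finite.equivFinOfCardEq (IsGalois.card_aut_eq_finrank ℚ F)).symm

section Local

variable (q : Nat.Primes)

/-- the fixed field of the local Galois group is `ℚ_q` -/
theorem mem_range_algebraMap_of_fixed (x : PadicAlgCl (q : ℕ))
    (h : ∀ τ : PadicAlgCl (q : ℕ) ≃ₐ[ℚ_[(q : ℕ)]] PadicAlgCl (q : ℕ), τ x = x) :
    x ∈ Set.range (algebraMap ℚ_[(q : ℕ)] (PadicAlgCl (q : ℕ))) :=
  (InfiniteGalois.mem_range_algebraMap_iff_fixed x).mpr h

variable (F : IntermediateField ℚ Qb) [FiniteDimensional ℚ F] [Normal ℚ F]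

/-- the embedding of `F` into `ℚ̄_q` -/
def iotaF : F →ₐ[ℚ] PadicAlgCl (q : ℕ) := (padicEmbedding (q : ℕ)).comp F.val

omit [FiniteDimensional ℚ F] [Normal ℚ F] in
theorem iotaF_apply (x : F) : iotaF q F x = padicEmbedding (q : ℕ) (x : Qb) := rfl

omit [FiniteDimensional ℚ F] in
/-- `θ (g • (x ⊗ c))` for `x ∈ F` -/
theorem thetaQ_smul_tmul (g : GQ) (x : F) (c : ℚ_[(q : ℕ)]) :
    thetaQ q (g • ((x : Qb) ⊗ₜ[ℚ] c : Tq q)) =
      iotaF q F (res F g x) * algebraMap ℚ_[(q : ℕ)] (PadicAlgCl (q : ℕ)) c := by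
  rw [tq_smul_tmul, thetaQ_tmul, iotaF_apply, coe_res]

omit [FiniteDimensional ℚ F] in
/-- a normal subfield of `ℚ̄` is Galois over `ℚ` -/
theorem isGalois_of_normal : IsGalois ℚ F := ⟨⟩

attribute [local instance] isGalois_of_normal

/-- the sum `∑ i, b i ⊗ c i` attached to a coefficient vector -/
def tsum (c : (F ≃ₐ[ℚ] F) → ℚ_[(q : ℕ)]) : Tq q :=
  ∑ i, ((galBasis F i : F) : Qb) ⊗ₜ[ℚ] c i

theorem thetaQ_smul_tsum (c : (F ≃ₐ[ℚ] F) → ℚ_[(q : ℕ)]) (g : GQ) :
    thetaQ q (g • tsum q F c) =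
      ∑ i, iotaF q F (res F g (galBasis F i)) *
        algebraMap ℚ_[(q : ℕ)] (PadicAlgCl (q : ℕ)) (c i) := by
  unfold tsum
  rw [Finset.smul_sum, map_sum]
  exact Finset.sum_congr rfl fun i _ => thetaQ_smul_tmul q F g _ _

/-- **Coinduction, existence.**  A function `f : GQ → ℚ̄_q` which is right-invariant under
`Gal(ℚ̄/F)` (`F/ℚ` finite Galois) and equivariant for the local Galois group is of the form
`g ↦ θ (g • t)`. -/
theorem exists_thetaQ_eq (f : GQ → PadicAlgCl (q : ℕ))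
    (ha : ∀ g, ∀ n ∈ F.fixingSubgroup, f (g * n) = f g)
    (hb : ∀ (τ : PadicAlgCl (q : ℕ) ≃ₐ[ℚ_[(q : ℕ)]] PadicAlgCl (q : ℕ)) (g : GQ),
      f (localGaloisToGlobal (q : ℕ) τ * g) = τ (f g)) :
    ∃ t : Tq q, ∀ g : GQ, thetaQ q (g • t) = f g := by
  classical
  choose lift hlift using res_surjective F
  have hfres : ∀ g, f g = f (lift (res F g)) := by
    intro g
    have h1 : (lift (res F g))⁻¹ * g ∈ F.fixingSubgroup := by
      rw [← res_eq_one_iff, map_mul, map_inv, hlift, inv_mul_cancel]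
    have := ha (lift (res F g)) _ h1
    rw [mul_inv_cancel_left] at this
    exact this
  obtain ⟨c, hc⟩ := exists_coeff_of_equivariant (K' := ℚ_[(q : ℕ)]) (iotaF q F) (galBasis F)
    (Δ := PadicAlgCl (q : ℕ) ≃ₐ[ℚ_[(q : ℕ)]] PadicAlgCl (q : ℕ))
    (act := fun τ => (τ : PadicAlgCl (q : ℕ) →+* PadicAlgCl (q : ℕ)))
    (ρ := fun τ => res F (localGaloisToGlobal (q : ℕ) τ))
    (hι := fun τ x => by
      show τ (iotaF q F x) = _
      rw [iotaF_apply, iotaF_apply, coe_res, padicEmbedding_localGaloisToGlobal])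
    (hfix := fun x hx => mem_range_algebraMap_of_fixed q x hx)
    (f := fun h => f (lift h))
    (hf := fun τ h => by
      show τ (f (lift h)) = _
      rw [← hb, hfres (localGaloisToGlobal (q : ℕ) τ * lift h), map_mul, hlift])
  refine ⟨tsum q F c, fun g => ?_⟩
  rw [thetaQ_smul_tsum q F c g, hfres g]
  exact hc (res F g)

/-- on a finite Galois level: if all `θ (g • tsum c)` vanish then `c = 0` -/
theorem eq_zero_of_forall_thetaQ_tsum (c : (F ≃ₐ[ℚ] F) → ℚ_[(q : ℕ)])
    (h : ∀ g : GQ, thetaQ q (g • tsum q F c) = 0) : c = 0 := by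
  classical
  have h0 := eq_zero_of_forall_sum_eq_zero (iotaF q F) (galBasis F)
    (fun i => algebraMap ℚ_[(q : ℕ)] (PadicAlgCl (q : ℕ)) (c i)) (fun γ => by
      obtain ⟨g, rfl⟩ := res_surjective F γ
      rw [← thetaQ_smul_tsum q F c g]
      exact h g)
  funext i
  have := congrFun h0 i
  exact (algebraMap ℚ_[(q : ℕ)] (PadicAlgCl (q : ℕ))).injective (by simpa using this)

theorem tsum_zero : tsum q F 0 = 0 := by
  simp [tsum]

theorem tsum_add (c c' : (F ≃ₐ[ℚ] F) → ℚ_[(q : ℕ)]) :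
    tsum q F (c + c') = tsum q F c + tsum q F c' := by
  simp [tsum, TensorProduct.tmul_add, Finset.sum_add_distrib]

/-- a pure tensor with left factor in `F` is a `tsum` -/
theorem tmul_eq_tsum (x : F) (y : ℚ_[(q : ℕ)]) :
    ((x : Qb) ⊗ₜ[ℚ] y : Tq q) = tsum q F (fun i => (galBasis F).repr x i • y) := by
  unfold tsum
  have h1 : ∀ i : F ≃ₐ[ℚ] F, (((galBasis F i : F) : Qb) ⊗ₜ[ℚ] ((galBasis F).repr x i • y) : Tq q) =
      ((((galBasis F).repr x i • galBasis F i : F) : F) : Qb) ⊗ₜ[ℚ] y := by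
    intro i
    rw [TensorProduct.tmul_smul, IntermediateField.coe_smul, TensorProduct.smul_tmul']
  rw [Finset.sum_congr rfl fun i _ => h1 i, ← TensorProduct.sum_tmul]
  congr 1
  have h2 := (galBasis F).sum_repr x
  have h3 : ((∑ i, (galBasis F).repr x i • galBasis F i : F) : Qb) = (x : Qb) :=
    congrArg (fun z : F => (z : Qb)) h2
  rw [← h3, IntermediateField.coe_sum]

end Local

section Global

variable (q : Nat.Primes)

attribute [local instance] isGalois_of_normal

/-- every element of `ℚ̄ ⊗ ℚ_q` lives on a finite Galois level -/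
theorem exists_tsum_eq (t : Tq q) :
    ∃ (F : IntermediateField ℚ Qb) (_ : FiniteDimensional ℚ F) (_ : Normal ℚ F)
      (c : (F ≃ₐ[ℚ] F) → ℚ_[(q : ℕ)]), t = tsum q F c := by
  classical
  obtain ⟨S, rfl⟩ := TensorProduct.exists_finsupp_left t
  have hfd0 : FiniteDimensional ℚ (IntermediateField.adjoin ℚ (S.support : Set Qb)) :=
    IntermediateField.finiteDimensional_adjoin
      (fun x _ => (Algebra.IsIntegral.isIntegral (R := ℚ) x))
  let F : IntermediateField ℚ Qb :=
    IntermediateField.normalClosure ℚ (IntermediateField.adjoin ℚ (S.support : Set Qb)) Qb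
  have hfd : FiniteDimensional ℚ F := inferInstance
  have hn : Normal ℚ F := normal_normalClosure _
  have hmem : ∀ m ∈ S.support, m ∈ F := fun m hm =>
    IntermediateField.le_normalClosure _ (IntermediateField.subset_adjoin ℚ _ hm)
  refine ⟨F, hfd, hn, ?_⟩
  have key : ∀ s : Finset Qb, (∀ m ∈ s, m ∈ F) →
      ∃ c : (F ≃ₐ[ℚ] F) → ℚ_[(q : ℕ)], (∑ m ∈ s, (m ⊗ₜ[ℚ] S m : Tq q)) = tsum q F c := by
    intro s
    induction s using Finset.induction_on with
    | empty => exact fun _ => ⟨0, by rw [tsum_zero]; simp⟩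
    | insert a s ha ih =>
      intro hs
      obtain ⟨c, hc⟩ := ih (fun m hm => hs m (Finset.mem_insert_of_mem hm))
      refine ⟨(fun i => (galBasis F).repr ⟨a, hs a (Finset.mem_insert_self a s)⟩ i • S a) + c, ?_⟩
      rw [Finset.sum_insert ha, tsum_add, ← hc,
        ← tmul_eq_tsum q F ⟨a, hs a (Finset.mem_insert_self a s)⟩ (S a)]
  exact key S.support hmem

/-- **Coinduction, injectivity.**  An element of `ℚ̄ ⊗ ℚ_q` all of whose translates are killed
by `θ` is zero. -/
theorem eq_zero_of_forall_thetaQ (t : Tq q) (h : ∀ g : GQ, thetaQ q (g • t) = 0) : t = 0 := by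
  obtain ⟨F, hfd, hn, c, rfl⟩ := exists_tsum_eq q t
  rw [eq_zero_of_forall_thetaQ_tsum q F c h, tsum_zero]

theorem eq_of_forall_thetaQ_eq (t t' : Tq q)
    (h : ∀ g : GQ, thetaQ q (g • t) = thetaQ q (g • t')) : t = t' := by
  rw [← sub_eq_zero]
  refine eq_zero_of_forall_thetaQ q _ fun g => ?_
  rw [smul_sub, map_sub, h g, sub_self]

variable (F : IntermediateField ℚ Qb) [FiniteDimensional ℚ F] [Normal ℚ F]

/-- **Coinduction, units.**  A function `f : GQ → ℚ̄_qˣ`, right-invariant under `Gal(ℚ̄/F)`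
(`F/ℚ` finite Galois) and equivariant for the local Galois group, is `g ↦ θ (g • u)` for a
unique unit `u` of `ℚ̄ ⊗ ℚ_q`, and `u` is fixed by `Gal(ℚ̄/F)`. -/
theorem exists_unit_thetaQ_eq (f : GQ → (PadicAlgCl (q : ℕ))ˣ)
    (ha : ∀ g, ∀ n ∈ F.fixingSubgroup, f (g * n) = f g)
    (hb : ∀ (τ : PadicAlgCl (q : ℕ) ≃ₐ[ℚ_[(q : ℕ)]] PadicAlgCl (q : ℕ)) (g : GQ),
      ((f (localGaloisToGlobal (q : ℕ) τ * g) : (PadicAlgCl (q : ℕ))ˣ) : PadicAlgCl (q : ℕ)) =
        τ (f g)) :
    ∃ u : (Tq q)ˣ, (∀ g : GQ, thetaQ q (g • (u : Tq q)) = f g) ∧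
      ∀ n ∈ F.fixingSubgroup, n • u = u := by
  obtain ⟨t, ht⟩ := exists_thetaQ_eq q F (fun g => ((f g : (PadicAlgCl (q : ℕ))ˣ) : PadicAlgCl (q : ℕ)))
    (fun g n hn => by rw [ha g n hn]) hb
  obtain ⟨t', ht'⟩ := exists_thetaQ_eq q F
    (fun g => (((f g)⁻¹ : (PadicAlgCl (q : ℕ))ˣ) : PadicAlgCl (q : ℕ)))
    (fun g n hn => by rw [ha g n hn])
    (fun τ g => by
      rw [Units.val_inv_eq_inv_val, Units.val_inv_eq_inv_val, hb τ g, map_inv₀])
  have h1 : t * t' = 1 := by
    refine eq_of_forall_thetaQ_eq q _ _ fun g => ?_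
    have e1 : g • (t * t') = g • t * g • t' := map_mul (tqHom q g) t t'
    have e2 : g • (1 : Tq q) = 1 := map_one (tqHom q g)
    rw [e1, e2, map_mul, ht, ht', map_one, Units.mul_inv]
  refine ⟨Units.mkOfMulEqOne t t' h1, fun g => ht g, fun n hn => ?_⟩
  apply Units.ext
  refine eq_of_forall_thetaQ_eq q _ _ fun g => ?_
  show thetaQ q (g • n • t) = thetaQ q (g • t)
  rw [smul_smul, ht, ht, ha g n hn]

end Global

end

open scoped TensorProduct
open Fermat.Agent.CFT.PlaceDict ExtCitation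

noncomputable section

variable (S : Finset Nat.Primes)

/-- a normal `S`-level is a finite Galois extension of `ℚ` -/
theorem finiteDimensional_of_isNLevel {F : IntermediateField ℚ Qb} (hF : IsNLevel S F) :
    FiniteDimensional ℚ F := hF.1.1

theorem normal_of_isNLevel {F : IntermediateField ℚ Qb} (hF : IsNLevel S F) : Normal ℚ F := by
  have := hF.2
  have h : IsGalois ℚ F := (InfiniteGalois.normal_iff_isGalois F).mp this
  exact h.to_normal

/-- `prFull` after translation, in terms of `θ`. -/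
theorem prFull_rho_ofMul (q : ↥S) (g : GQ) (u : ∀ q : ↥S, (Tq q.1)ˣ) :
    prFull S q ((JFull S).ρ g (Additive.ofMul u : Additive (∀ q : ↥S, (Tq q.1)ˣ))) =
      (Additive.ofMul (Units.map ((thetaQ q.1 : Tq q.1 →ₐ[ℚ] PadicAlgCl (q.1 : ℕ)) : Tq q.1 →* _)
        (g • u q)) : Additive (PadicAlgCl (q.1 : ℕ))ˣ) := rfl

/-- **Semilocal injectivity.**  An `S`-idele of `ℚ̄` is determined by the local components of
its translates. -/
theorem jFull_ext (j j' : JFull S)
    (h : ∀ (q : ↥S) (g : GQ), prFull S q ((JFull S).ρ g j) = prFull S q ((JFull S).ρ g j')) :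
    j = j' := by
  refine Additive.toMul.injective (funext fun q => Units.ext ?_)
  refine eq_of_forall_thetaQ_eq q.1 _ _ fun g => ?_
  have h1 := h q g
  have h2 := congrArg (fun x : Additive (PadicAlgCl (q.1 : ℕ))ˣ =>
    ((Additive.toMul x : (PadicAlgCl (q.1 : ℕ))ˣ) : PadicAlgCl (q.1 : ℕ))) h1
  exact h2

/-- **Semilocal surjectivity (coinduction from the decomposition groups).**  Given, for each
`q ∈ S`, a function `φ q : GQ → ℚ̄_qˣ` which is right-invariant under `Gal(ℚ̄/F)` for a normal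
`S`-level `F` and equivariant for the local Galois group, there is an `S`-idele `j ∈ JS S`,
fixed by `Gal(ℚ̄/F)`, whose translates have local components `φ`. -/
theorem exists_jS (F : IntermediateField ℚ Qb) (hF : IsNLevel S F)
    (φ : ∀ q : ↥S, GQ → (XQ q.1).V)
    (ha : ∀ (q : ↥S) (g : GQ), ∀ n ∈ F.fixingSubgroup, φ q (g * n) = φ q g)
    (hb : ∀ (q : ↥S) (τ : primeLocalGaloisGroup q.1) (g : GQ),
      φ q (primeLocalToGlobal q.1 τ * g) = (XQ q.1).ρ τ (φ q g)) :
    ∃ j : JS S, (∀ (q : ↥S) (g : GQ), prQ S q ((JS S).ρ g j) = φ q g) ∧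
      ∀ n ∈ F.fixingSubgroup, (JS S).ρ n j = j := by
  have hfd := finiteDimensional_of_isNLevel S hF
  have hn := normal_of_isNLevel S hF
  have key : ∀ q : ↥S, ∃ u : (Tq q.1)ˣ,
      (∀ g : GQ, thetaQ q.1 (g • (u : Tq q.1)) =
        ((Additive.toMul (φ q g) : (PadicAlgCl (q.1 : ℕ))ˣ) : PadicAlgCl (q.1 : ℕ))) ∧
      ∀ n ∈ F.fixingSubgroup, n • u = u := by
    intro q
    refine exists_unit_thetaQ_eq q.1 F (fun g => (Additive.toMul (φ q g) : (PadicAlgCl (q.1 : ℕ))ˣ))
      (fun g n hn => by rw [ha q g n hn]) (fun τ g => ?_)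
    have h1 := hb q τ g
    have h2 := congrArg (fun x : Additive (PadicAlgCl (q.1 : ℕ))ˣ =>
      ((Additive.toMul x : (PadicAlgCl (q.1 : ℕ))ˣ) : PadicAlgCl (q.1 : ℕ))) h1
    exact h2
  choose u hu hfix using key
  let jf : JFull S := (Additive.ofMul u : Additive (∀ q : ↥S, (Tq q.1)ˣ))
  have hinv : ∀ n ∈ F.fixingSubgroup, (JFull S).ρ n jf = jf := by
    intro n hn
    show (Additive.ofMul (n • u) : Additive (∀ q : ↥S, (Tq q.1)ˣ)) = Additive.ofMul u
    congr 1
    funext q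
    exact hfix q n hn
  have hsm : jf ∈ smoothSub S (JFull S) := ⟨F, hF, hinv⟩
  refine ⟨⟨jf, hsm⟩, fun q g => ?_, fun n hn => Subtype.ext (hinv n hn)⟩
  show prFull S q ((JFull S).ρ g jf) = φ q g
  refine Additive.toMul.injective (Units.ext ?_)
  exact hu q g

end

end Fermat.Agent.CFT.Top.Semilocal
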