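import Fermat.Agent.CFT.Top.Spine
import Fermat.Agent.CFT.Top.SpineLevel
import Fermat.Agent.CFT.Top.ESDiv
import Fermat.Agent.CFT.Top.Detect

/-!
# P3 / Top layer: SPINE (c), unconditional

`spineC` : for `p ≠ 2`, `p ∈ S`, `M` finite-dimensional and `F` a good level,
`Plan.SpineC S M F` holds.  (Assembly of `Spine.spineC` with the providers of
`SpinePlan.Inputs`: `SpineLevel.inputs`, `ESDiv.esKummer`, `Detect.detect0/1`.)
-/

set_option autoImplicit false

open CategoryTheory groupCohomology ExtCitation

namespace Fermat.Agent.CFT.Top.SpineProvide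

variable {p : ℕ} [Fact p.Prime] (S : Finset Nat.Primes) (hpS : pPrime p ∈ S)
  (M : Rep.{0} (ZMod p) GQ) [FiniteDimensional (ZMod p) M] (F : IntermediateField ℚ Qb)

include hpS in
/-- All the inputs of SPINE (c) at a good level. -/
theorem inputs (hF : IsGoodLevel S (M.dualTwist (cycloChar p)) p F) : SpinePlan.Inputs S M F :=
  SpineLevel.inputs S M F hF ⟨_, hpS⟩ (ESDiv.esKummer S p hpS) (Detect.detect0 hF)
    (Detect.detect1 hF)

include hpS in
/-- **SPINE (c)** at every good level, unconditionally. -/
theorem spineC (hp2 : p ≠ 2) (hF : IsGoodLevel S (M.dualTwist (cycloChar p)) p F) :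
    Plan.SpineC S M F :=
  Spine.spineC S M F hp2 hF (inputs S hpS M F hF)

end Fermat.Agent.CFT.Top.SpineProvide
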